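import Fermat.Agent.Torsion.Order14Descent

/-!
# No rational point of order `14`

On the order `7` family `b = d³ - d²`, `c = d² - d` a root of the cubic of the `2`-torsion gives
a rational solution of `z² = (1 + 2s)(1 + s)(2s² - s + 1)`; the only ones are degenerate.
-/

set_option autoImplicit false

noncomputable section

open WeierstrassCurve
open FA.Thirteen (tateCurve)

namespace FA.Torsion

namespace Fourteen

/-- The quartic has only degenerate rational points. -/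
theorem eq_zero_of_isSquare {s z : ℚ} (hs1 : s ≠ -1) (hs2 : 1 + 2 * s ≠ 0)
    (h : (1 + 2 * s) * (1 + s) * (2 * s ^ 2 - s + 1) = z ^ 2) : s = 0 := by
  set m := s.num
  set n : ℤ := (s.den : ℤ)
  have hn : 0 < n := Int.natCast_pos.2 s.den_pos
  have hco : IsCoprime m n := Int.isCoprime_iff_gcd_eq_one.2 s.reduced
  have hn' : (n : ℚ) ≠ 0 := by exact_mod_cast hn.ne'
  have hs : s = m / n := by simp [m, n, Rat.num_div_den]
  obtain ⟨p, hp⟩ : ∃ p, p = n + m := ⟨_, rfl⟩
  obtain ⟨q, hq⟩ : ∃ q, q = n + 2 * m := ⟨_, rfl⟩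
  obtain ⟨r, hr⟩ : ∃ r : ℤ, p * q * (8 * p ^ 2 - 11 * p * q + 4 * q ^ 2) = r ^ 2 := by
    have h1 : IsSquare ((p * q * (8 * p ^ 2 - 11 * p * q + 4 * q ^ 2) : ℤ) : ℚ) := by
      refine ⟨z * (n : ℚ) ^ 2, ?_⟩
      have h2 : z * (n : ℚ) ^ 2 * (z * (n : ℚ) ^ 2) = z ^ 2 * (n : ℚ) ^ 4 := by ring
      rw [h2, ← h, hp, hq, hs]
      push_cast
      field_simp
      ring
    obtain ⟨r, hr⟩ := Rat.isSquare_intCast_iff.1 h1
    exact ⟨r, by rw [hr, sq]⟩
  have hpq : IsCoprime p q := by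
    refine isCoprime_of_prime_dvd (fun e => ?_) fun k hk h1 h2 => ?_
    · omega
    · have hm : k ∣ m := by
        have := dvd_sub h2 h1
        rwa [hp, hq, show n + 2 * m - (n + m) = m by ring] at this
      refine hk.not_isUnit (hco.isUnit_of_dvd' hm ?_)
      rw [hp] at h1
      exact (dvd_add_left hm).1 h1
  have hp0 : p ≠ 0 := fun e => hs1 (by
    rw [hs, show (m : ℚ) = -n by exact_mod_cast (show m = -n by omega)]
    field_simp)
  have hq0 : q ≠ 0 := fun e => hs2 (by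
    rw [hs]
    have : (n : ℚ) + 2 * m = 0 := by exact_mod_cast (show n + 2 * m = 0 by omega)
    field_simp
    linear_combination this)
  rcases descent hpq hp0 hq0 hr with e | e
  · rw [hs, show m = 0 by omega]; simp
  · omega

/-- No root of the cubic on the order `7` family. -/
theorem false_of_root {d x : ℚ} (hd0 : d ≠ 0) (hd1 : d ≠ 1)
    (h : 4 * x ^ 3 + ((1 - (d ^ 2 - d)) ^ 2 - 4 * (d ^ 3 - d ^ 2)) * x ^ 2 -
      2 * (d ^ 3 - d ^ 2) * (1 - (d ^ 2 - d)) * x + (d ^ 3 - d ^ 2) ^ 2 = 0) : False := by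
  obtain ⟨e, rfl⟩ : ∃ e, d = 1 + e := ⟨d - 1, by ring⟩
  have he : e ≠ 0 := fun h' => hd1 (by rw [h', add_zero])
  set b := (1 + e) ^ 3 - (1 + e) ^ 2 with hb
  set c := (1 + e) ^ 2 - (1 + e) with hc
  have hb0 : b ≠ 0 := by
    rw [hb, show (1 + e) ^ 3 - (1 + e) ^ 2 = (1 + e) ^ 2 * e by ring]
    exact mul_ne_zero (pow_ne_zero 2 hd0) he
  have hx : x ≠ 0 := fun h' => hb0 (by
    subst h'
    exact pow_eq_zero_iff two_ne_zero |>.1 (by linear_combination h))
  obtain ⟨w, hw⟩ : ∃ w, (1 - c) * x - b = 2 * x * w := ⟨((1 - c) * x - b) / (2 * x), by field_simp⟩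
  have hxw : x = b - w ^ 2 := by
    refine mul_left_cancel₀ (mul_ne_zero (pow_ne_zero 2 (two_ne_zero (α := ℚ))) (pow_ne_zero 2 hx)) ?_
    linear_combination h - ((1 - c) * x - b + 2 * x * w) * hw
  obtain ⟨s, hs⟩ : ∃ s, w = (1 + e) * e * s := ⟨w / ((1 + e) * e), by field_simp⟩
  have hquad : -s ^ 2 * (1 + 2 * s) * e ^ 2 + (1 + 2 * s) * (1 - s ^ 2) * e + (1 + s) ^ 2 = 0 := by
    refine mul_left_cancel₀ (mul_ne_zero (pow_ne_zero 2 hd0) (pow_ne_zero 2 he)) ?_
    rw [hxw, hs, hb, hc] at hw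
    linear_combination -hw
  by_cases hs1 : s = -1
  · subst hs1
    exact he (pow_eq_zero_iff two_ne_zero |>.1 (by linear_combination hquad))
  by_cases hs2 : 1 + 2 * s = 0
  · rw [hs2, mul_zero, zero_mul, zero_mul, zero_mul, zero_add, zero_add] at hquad
    exact hs1 (by linarith [pow_eq_zero_iff two_ne_zero |>.1 hquad])
  have hs1' : 1 + s ≠ 0 := fun h' => hs1 (by linarith)
  obtain rfl : s = 0 := eq_zero_of_isSquare hs1 hs2
    (z := (-2 * s ^ 2 * (1 + 2 * s) * e + (1 + 2 * s) * (1 - s ^ 2)) / (1 + s)) (by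
      rw [div_pow, eq_div_iff (pow_ne_zero 2 hs1')]
      linear_combination 4 * s ^ 2 * (1 + 2 * s) * hquad)
  exact hd0 (by linear_combination hquad)

end Fourteen

/-- **No rational point of order `14`.** -/
theorem no_order_14 (E : WeierstrassCurve ℚ) [E.IsElliptic] (P : E.toAffine.Point) :
    addOrderOf P ≠ 14 := by
  intro hP
  have hord : ∀ n, n • P = 0 ↔ 14 ∣ n := fun n => by
    rw [← addOrderOf_dvd_iff_nsmul_eq_zero, hP]
  obtain ⟨b, c, h0, hE, e, he⟩ := exists_tate (2 • P)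
    (by rw [smul_smul, Ne, hord]; norm_num) (by rw [smul_smul, Ne, hord]; norm_num)
  have := hE
  have hQ : ∀ n : ℕ, n • Affine.Point.some 0 0 h0 = 0 ↔ 7 ∣ n := fun n => by
    rw [← AddEquiv.map_eq_zero_iff (h := e), map_nsmul, he, smul_smul, hord]
    omega
  -- the family
  have hb : b ≠ 0 := tate_b_ne_zero b c
  obtain ⟨h3, e3⟩ := tate_three (b := b) (c := c) (h0 := h0)
  have hc : c ≠ 0 := by
    rintro rfl
    obtain ⟨hn, en⟩ := tate_neg (b := b) (c := 0) (h0 := h0)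
    have h4 : (4 : ℕ) • Affine.Point.some 0 0 h0 = 0 := by
      rw [succ_nsmul, add_eq_zero_iff_eq_neg, e3, en, Affine.Point.some.injEq]
      exact ⟨rfl, sub_zero b⟩
    rw [hQ] at h4
    omega
  obtain ⟨h4, e4⟩ := tate_four (b := b) (c := c) (h0 := h0) hc
  have hr : b / c * (b / c - 1) = c := by
    have h34 : (4 : ℕ) • Affine.Point.some 0 0 h0 = -((3 : ℕ) • Affine.Point.some 0 0 h0) := by
      rw [eq_neg_iff_add_eq_zero, ← add_nsmul, hQ]
    rw [e4, e3, Affine.Point.neg_some, Affine.Point.some.injEq] at h34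
    exact h34.1
  obtain ⟨d, hd⟩ : ∃ d, d = b / c := ⟨_, rfl⟩
  rw [← hd] at hr
  have hcd : c = d ^ 2 - d := by linear_combination -hr
  have hbd : b = d ^ 3 - d ^ 2 := by
    rw [show b = d * c by rw [hd, div_mul_cancel₀ b hc], hcd]; ring
  -- the point of order two
  have h7 : 2 • e.symm (7 • P) = 0 ∧ e.symm (7 • P) ≠ 0 := by
    refine ⟨e.injective (by rw [map_nsmul, e.apply_symm_apply, map_zero, smul_smul, hord]; norm_num),
      fun h => ?_⟩
    rw [AddEquiv.map_eq_zero_iff, hord] at h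
    omega
  rcases hx : e.symm (7 • P) with _ | ⟨x, y, hxy⟩
  · exact h7.2 hx
  rw [hx] at h7
  obtain ⟨-, hroot⟩ := TwoTen.root_of_two_nsmul h7.1
  refine Fourteen.false_of_root (d := d) (x := x) (fun h => hc (by rw [hcd, h]; ring))
    (fun h => hc (by rw [hcd, h]; ring)) ?_
  rw [← hcd, ← hbd]
  simp only [tateCurve, WeierstrassCurve.b₂, WeierstrassCurve.b₄, WeierstrassCurve.b₆] at hroot
  linear_combination hroot

end FA.Torsion

end
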