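import Fermat.Agent.Torsion.Flex
import Fermat.Agent.EC.X15Fibre

/-!
# No rational point of order 15

On `y² + (1-u)xy - uy = x³ - ux²` a point of order 3 gives a point of the fibre product of the
`j`-maps of `X₀(3)` and `X₀(5)`; of the four values of `t = (u² - 11u - 1)/u` left, two have
rational `u`, and for these the only rational root of the third division polynomial carries no
rational point.
-/

set_option autoImplicit false

noncomputable section

open WeierstrassCurve
open FA.Thirteen (tateCurve tateA1 tateA2 tateA3)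

namespace FA.Torsion

/-- An integral cubic without zeros on the projective line over `𝔽₇` has no rational root. -/
theorem cubic_no_root {c₃ c₂ c₁ c₀ : ℤ}
    (h : ∀ n d : ZMod 7, (c₃ : ZMod 7) * n ^ 3 + c₂ * n ^ 2 * d + c₁ * n * d ^ 2 + c₀ * d ^ 3 = 0 →
      n = 0 ∧ d = 0) (x : ℚ) : (c₃ : ℚ) * x ^ 3 + c₂ * x ^ 2 + c₁ * x + c₀ ≠ 0 := by
  intro hx
  have hnum : (x.num : ℚ) = x * x.den := (Rat.mul_den_eq_num x).symm
  have hZ : c₃ * x.num ^ 3 + c₂ * x.num ^ 2 * x.den + c₁ * x.num * (x.den : ℤ) ^ 2 +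
      c₀ * (x.den : ℤ) ^ 3 = 0 := by
    refine (Int.cast_inj (α := ℚ)).1 ?_
    push_cast
    rw [hnum]
    linear_combination (x.den : ℚ) ^ 3 * hx
  obtain ⟨hn, hd⟩ := h (x.num : ZMod 7) ((x.den : ℤ) : ZMod 7) (by
    have := congrArg (fun z : ℤ => (z : ZMod 7)) hZ
    push_cast at this ⊢
    exact this)
  rw [ZMod.intCast_zmod_eq_zero_iff_dvd] at hn hd
  have h1 := Nat.dvd_gcd (Int.natCast_dvd.1 hn) (Int.natCast_dvd.1 hd)
  rw [Int.natAbs_natCast, x.reduced.gcd_eq_one] at h1
  norm_num at h1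

set_option maxRecDepth 10000 in
/-- The four special parameters: no rational point of order 3. -/
theorem no_flex_special {u x η : ℚ} (hu : u = -2 ∨ u = 1 / 2 ∨ u = 8 ∨ u = -1 / 8)
    (hψ : 3 * x ^ 4 + ((1 - u) ^ 2 - 4 * u) * x ^ 3 - 3 * u * (1 - u) * x ^ 2 + 3 * u ^ 2 * x -
      u ^ 3 = 0)
    (hη : η ^ 2 = 4 * x ^ 3 + ((1 - u) ^ 2 - 4 * u) * x ^ 2 - 2 * u * (1 - u) * x + u ^ 2) :
    False := by
  rcases hu with rfl | rfl | rfl | rfl
  · have h : (x + 1) * (3 * x ^ 3 + 14 * x ^ 2 + 4 * x + 8) = 0 := by linear_combination hψ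
    rcases mul_eq_zero.1 h with e | e
    · obtain rfl : x = -1 := by linarith
      exact EC.X15.rat_sq_ne_five η (by rw [hη]; norm_num)
    · exact cubic_no_root (c₃ := 3) (c₂ := 14) (c₁ := 4) (c₀ := 8) (by decide) x
        (by push_cast; linear_combination e)
  · have h : (4 * x - 1) * (6 * x ^ 3 + -2 * x ^ 2 + -2 * x + 1) = 0 := by
      linear_combination 8 * hψ
    rcases mul_eq_zero.1 h with e | e
    · obtain rfl : x = 1 / 4 := by linarith
      exact EC.X15.rat_sq_ne_five (8 * η) (by rw [mul_pow, hη]; norm_num)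
    · exact cubic_no_root (c₃ := 6) (c₂ := -2) (c₁ := -2) (c₀ := 1) (by decide) x
        (by push_cast; linear_combination e)
  · have h : (3 * x + 8) * (3 * x ^ 3 + 9 * x ^ 2 + 144 * x + -192) = 0 := by
      linear_combination 3 * hψ
    rcases mul_eq_zero.1 h with e | e
    · obtain rfl : x = -8 / 3 := by linarith
      norm_num at hη
      linarith [sq_nonneg η]
    · exact cubic_no_root (c₃ := 3) (c₂ := 9) (c₁ := 144) (c₀ := -192) (by decide) x
        (by push_cast; linear_combination e)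
  · have h : (6 * x + 1) * (768 * x ^ 3 + 324 * x ^ 2 + 54 * x + 3) = 0 := by
      linear_combination 1536 * hψ
    rcases mul_eq_zero.1 h with e | e
    · obtain rfl : x = -1 / 6 := by linarith
      norm_num at hη
      linarith [sq_nonneg η]
    · exact cubic_no_root (c₃ := 768) (c₂ := 324) (c₁ := 54) (c₀ := 3) (by decide) x
        (by push_cast; linear_combination e)

/-- No point of order 3 on the family of `X₁(5)`. -/
theorem tate_five_no_three {u : ℚ} [(tateCurve u u).IsElliptic]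
    (T : (tateCurve u u).toAffine.Point) (h : 3 • T = 0) : T = 0 := by
  by_contra hT
  obtain ⟨x, y, hns, -, hA3, hA2⟩ := flex_of_three h hT
  obtain ⟨hψ, hη⟩ := flex_psi hns.1 hA3 hA2
  obtain ⟨h4, hΔ⟩ := flex_invariants hns.1 hA3 hA2
  have hu := tate_b_ne_zero u u
  have hΔ0 : (tateCurve u u).Δ ≠ 0 := (tateCurve u u).isUnit_Δ.ne_zero
  have hΔu : (tateCurve u u).Δ = u ^ 5 * (u ^ 2 - 11 * u - 1) := by
    rw [FA.Thirteen.Δ_tateCurve]; ring
  have h4u : (tateCurve u u).c₄ = u ^ 4 - 12 * u ^ 3 + 14 * u ^ 2 + 12 * u + 1 := by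
    simp [tateCurve, WeierstrassCurve.c₄, WeierstrassCurve.b₂, WeierstrassCurve.b₄]; ring
  generalize tateA3 (tateCurve u u) x y = A3 at hA3 hη h4 hΔ
  generalize tateA1 (tateCurve u u) x y = A1 at h4 hΔ
  simp only [tateCurve, WeierstrassCurve.b₂, WeierstrassCurve.b₄, WeierstrassCurve.b₆,
    WeierstrassCurve.b₈] at hψ hη
  rw [hΔu] at hΔ hΔ0
  rw [h4u] at h4
  have hv : u ^ 2 - 11 * u - 1 ≠ 0 := right_ne_zero_of_mul hΔ0
  have hs : A1 ^ 3 / A3 - 27 ≠ 0 := by
    intro e
    rw [sub_eq_zero, div_eq_iff hA3] at e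
    exact hΔ0 (by rw [hΔ, e]; ring)
  have ht : (u ^ 2 - 11 * u - 1) / u ≠ 0 := div_ne_zero hv hu
  have hfib := EC.X15.fibre_points hs ht (by
    refine mul_left_cancel₀ (mul_ne_zero (mul_ne_zero (pow_ne_zero 4 hA3) hu) (pow_ne_zero 5 hu)) ?_
    field_simp
    have h43 := congrArg (fun z => z ^ 3) h4
    linear_combination (A1 * (A1 ^ 3 - 24 * A3)) ^ 3 * hΔ -
      A3 ^ 3 * (A1 ^ 3 - 27 * A3) * h43)
  have hsp : u = -2 ∨ u = 1 / 2 ∨ u = 8 ∨ u = -1 / 8 := by
    rcases hfib with e | e | e | e <;> rw [div_eq_iff hu] at e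
    · exact absurd (show ((2 * u + 29) / 13) ^ 2 = 5 by linear_combination (4 / 169 : ℚ) * e)
        (EC.X15.rat_sq_ne_five _)
    · have : (u + 2) * (2 * u - 1) = 0 := by linear_combination 2 * e
      rcases mul_eq_zero.1 this with h | h
      · exact Or.inl (by linarith)
      · exact Or.inr (Or.inl (by linarith))
    · have : (u - 8) * (8 * u + 1) = 0 := by linear_combination 8 * e
      rcases mul_eq_zero.1 this with h | h
      · exact Or.inr (Or.inr (Or.inl (by linarith)))
      · exact Or.inr (Or.inr (Or.inr (by linarith)))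
    · exact absurd (show (2 * u - 1) ^ 2 = 5 by linear_combination 4 * e)
        (EC.X15.rat_sq_ne_five _)
  exact no_flex_special (x := x) (η := A3) hsp (by linear_combination hψ) (by linear_combination hη)

/-- **No rational point of order 15.** -/
theorem no_order_15 (E : WeierstrassCurve ℚ) [E.IsElliptic] (P : E.toAffine.Point) :
    addOrderOf P ≠ 15 := by
  intro hP
  have hne : ∀ k : ℕ, k ≠ 0 → k < 15 → k • P ≠ 0 := fun k hk hlt =>
    nsmul_ne_zero_of_lt_addOrderOf hk (hP.symm ▸ hlt)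
  have h15 : 15 • P = 0 := hP ▸ addOrderOf_nsmul_eq_zero P
  obtain ⟨b, c, h0, hE, e, he⟩ := exists_tate (3 • P)
    (by rw [← mul_nsmul]; exact hne _ (by norm_num) (by norm_num))
    (by rw [← mul_nsmul]; exact hne _ (by norm_num) (by norm_num))
  obtain rfl : c = b := by
    obtain ⟨h2, e2⟩ := tate_two (b := b) (c := c) (h0 := h0)
    obtain ⟨h3, e3⟩ := tate_three (b := b) (c := c) (h0 := h0)
    have h5' : (3 + 2) • Affine.Point.some 0 0 h0 = 0 := e.injective (by
      rw [map_nsmul, he, ← mul_nsmul, map_zero]; exact h15)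
    rw [add_nsmul] at h5'
    have h5 := eq_neg_of_add_eq_zero_left h5'
    rw [e2, e3, Affine.Point.neg_some, Affine.Point.some.injEq] at h5
    exact h5.1
  have hT := tate_five_no_three (e.symm (5 • P)) (by
    rw [← map_nsmul, ← mul_nsmul, h15, map_zero])
  exact hne 5 (by norm_num) (by norm_num) ((AddEquiv.map_eq_zero_iff e.symm).1 hT)

end FA.Torsion

end
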