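import Mathlib

/-!
# `x⁴ = y⁴ + z²`

The classical descent (Fermat's right triangle theorem) and the twin equation `x⁴ + y⁴ = 2z²`.
-/

set_option autoImplicit false

namespace FA.Torsion

/-- Coprime solutions of `x⁴ = y⁴ + z²` are trivial. -/
theorem quartic_sub_eq_sq {x y z : ℤ} (hxy : IsCoprime x y) (h : x ^ 4 = y ^ 4 + z ^ 2) :
    y = 0 ∨ z = 0 := by
  induction hn : x.natAbs using Nat.strong_induction_on generalizing x y z with
  | _ N ih =>
  subst hn
  by_contra hcon
  push Not at hcon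
  obtain ⟨hy, hz⟩ := hcon
  have hx : x ≠ 0 := by
    rintro rfl
    have := sq_nonneg (y ^ 2)
    have h1 : z ^ 2 = 0 := by nlinarith [sq_nonneg z]
    exact hz (sq_eq_zero_iff.1 h1)
  have hx2 : (0 : ℤ) < x ^ 2 := by positivity
  have hcyz : IsCoprime (y ^ 2) z := by
    have h2 : IsCoprime (x ^ 4) (y ^ 4) := hxy.pow
    rw [h] at h2
    have h3 : IsCoprime (z ^ 2) (y ^ 4) := by
      have := h2.add_mul_right_left (-1)
      rwa [show y ^ 4 + z ^ 2 + -1 * y ^ 4 = z ^ 2 by ring] at this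
    rw [show y ^ 4 = (y ^ 2) ^ 2 by ring] at h3
    exact (IsCoprime.pow_iff two_pos two_pos).1 h3.symm
  -- a smaller solution
  have small : ∀ m n k : ℤ, IsCoprime m n → m.natAbs < x.natAbs → m ^ 4 = n ^ 4 + k ^ 2 →
      n = 0 ∨ k = 0 := fun m n k hc hlt he => ih _ hlt hc he rfl
  rcases Int.even_or_odd y with hev | hodd
  · -- `y` even
    have hzo : z % 2 = 1 := Int.emod_two_ne_zero.1 fun h0 => by
      have h2 := hcyz.isUnit_of_dvd' (x := 2) (dvd_pow hev.two_dvd two_ne_zero)
        (Int.dvd_of_emod_eq_zero h0)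
      exact absurd (Int.isUnit_iff.1 h2) (by norm_num)
    have ht : PythagoreanTriple z (y ^ 2) (x ^ 2) := by
      unfold PythagoreanTriple; linear_combination -h
    obtain ⟨m, n, hm1, hm2, hm3, hmn, hpar, -⟩ := ht.coprime_classification'
      (Int.isCoprime_iff_gcd_eq_one.1 hcyz.symm) hzo hx2
    have hmn' : IsCoprime m n := Int.isCoprime_iff_gcd_eq_one.2 hmn
    obtain ⟨o, e, hoe, ho, hxoe, hyoe⟩ : ∃ o e : ℤ, IsCoprime o e ∧ o % 2 = 1 ∧
        x ^ 2 = o ^ 2 + e ^ 2 ∧ y ^ 2 = 2 * o * e := by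
      rcases hpar with ⟨-, hn⟩ | ⟨hm, -⟩
      · exact ⟨n, m, hmn'.symm, hn, by linear_combination hm3, by linear_combination hm2⟩
      · exact ⟨m, n, hmn', hm, hm3, hm2⟩
    have ht2 : PythagoreanTriple o e |x| := by
      unfold PythagoreanTriple; rw [← sq |x|, sq_abs]; linear_combination -hxoe
    obtain ⟨r, s, hr1, hr2, hr3, hrs, -, -⟩ := ht2.coprime_classification'
      (Int.isCoprime_iff_gcd_eq_one.1 hoe) ho (abs_pos.2 hx)
    have hrs' : IsCoprime r s := Int.isCoprime_iff_gcd_eq_one.2 hrs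
    obtain ⟨y', rfl⟩ := hev.two_dvd
    have hp : r * (s * o) = y' ^ 2 := by
      subst hr2
      refine mul_left_cancel₀ (show (4 : ℤ) ≠ 0 by norm_num) ?_
      linear_combination -hyoe
    have hro : IsCoprime r o := by
      rw [hr1]
      have := (hrs'.pow_right (n := 2)).neg_right.add_mul_left_right r
      rwa [show -s ^ 2 + r * r = r ^ 2 - s ^ 2 by ring] at this
    have hso : IsCoprime s o := by
      rw [hr1]
      have := (hrs'.symm.pow_right (n := 2)).add_mul_left_right (-s)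
      rwa [show r ^ 2 + s * -s = r ^ 2 - s ^ 2 by ring] at this
    obtain ⟨g, hg⟩ := Int.sq_of_isCoprime (hrs'.mul_right hro) hp
    obtain ⟨q, hq⟩ := Int.sq_of_isCoprime (a := s) (b := r * o) (c := y')
      (hrs'.symm.mul_right hso) (by linear_combination hp)
    obtain ⟨k, hk⟩ := Int.sq_of_isCoprime (a := o) (b := r * s) (c := y')
      (hro.symm.mul_right hso.symm) (by linear_combination hp)
    have hgq : IsCoprime g q := by
      have h1 : IsCoprime (g ^ 2) (q ^ 2) := by
        rcases hg with hg | hg <;> rcases hq with hq | hq <;> rw [hg, hq] at hrs'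
        · exact hrs'
        · exact (IsCoprime.neg_right_iff _ _).1 hrs'
        · exact (IsCoprime.neg_left_iff _ _).1 hrs'
        · exact (IsCoprime.neg_neg_iff _ _).1 hrs'
      exact (IsCoprime.pow_iff two_pos two_pos).1 h1
    have hg4 : r ^ 2 = g ^ 4 := by rcases hg with rfl | rfl <;> ring
    have hq4 : s ^ 2 = q ^ 4 := by rcases hq with rfl | rfl <;> ring
    have he0 : e ≠ 0 := by
      rintro rfl; exact mul_ne_zero two_ne_zero (right_ne_zero_of_mul hy) (sq_eq_zero_iff.1 (by simpa using hyoe))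
    have ho0 : o ≠ 0 := by omega
    have hr0 : r ≠ 0 := by rintro rfl; exact he0 (by rw [hr2]; ring)
    have hs0 : s ≠ 0 := by rintro rfl; exact he0 (by rw [hr2]; ring)
    have hlt : ∀ i : ℤ, (i ^ 4 = r ^ 2 ∨ i ^ 4 = s ^ 2) → i.natAbs < x.natAbs := fun i hi => by
      refine Int.natAbs_lt_iff_sq_lt.2 ?_
      have h1 : 0 < r ^ 2 := by positivity
      have h2 : 0 < s ^ 2 := by positivity
      have h3 : i ^ 4 < |x| := by rcases hi with hi | hi <;> rw [hi, hr3] <;> linarith
      have h4 : |x| ≤ x ^ 2 := by rw [← sq_abs x]; exact Int.le_self_sq _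
      nlinarith [Int.le_self_sq (i ^ 2)]
    have hk2 : k ≠ 0 := by rintro rfl; simp at hk; exact ho0 hk
    rcases hk with hk | hk
    · rcases small g q k hgq (hlt g (Or.inl hg4.symm))
        (by rw [← hg4, ← hq4, ← hk, hr1]; ring) with h0 | h0
      · subst h0; exact hs0 (sq_eq_zero_iff.1 (by rw [hq4]; ring))
      · exact hk2 h0
    · rcases small q g k hgq.symm (hlt q (Or.inr hq4.symm))
        (by linear_combination hr1 - hk + hg4 - hq4) with h0 | h0
      · subst h0; exact hr0 (sq_eq_zero_iff.1 (by rw [hg4]; ring))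
      · exact hk2 h0
  · -- `y` odd
    have ht : PythagoreanTriple (y ^ 2) z (x ^ 2) := by
      unfold PythagoreanTriple; linear_combination -h
    obtain ⟨m, n, hm1, hm2, hm3, hmn, -, -⟩ := ht.coprime_classification'
      (Int.isCoprime_iff_gcd_eq_one.1 hcyz) (Int.odd_iff.1 hodd.pow) hx2
    have hn0 : n ≠ 0 := by rintro rfl; exact hz (by rw [hm2]; ring)
    have hlt : m.natAbs < x.natAbs := by
      refine Int.natAbs_lt_iff_sq_lt.2 ?_
      have : 0 < n ^ 2 := by positivity
      linarith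
    rcases small m n (x * y) (Int.isCoprime_iff_gcd_eq_one.2 hmn) hlt
      (by rw [mul_pow, hm1, hm3]; ring) with h0 | h0
    · exact hn0 h0
    · exact mul_ne_zero hx hy h0

/-- Coprime solutions of `x⁴ + y⁴ = 2z²` have `xy = 0` or `x² = y²`. -/
theorem quartic_add_eq_two_sq {x y z : ℤ} (hxy : IsCoprime x y) (h : x ^ 4 + y ^ 4 = 2 * z ^ 2) :
    x * y = 0 ∨ x ^ 2 = y ^ 2 := by
  obtain ⟨k, hk⟩ : (2 : ℤ) ∣ x ^ 4 - y ^ 4 := ⟨z ^ 2 - y ^ 4, by linear_combination h⟩
  have hc : IsCoprime z (x * y) := by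
    have h1 : IsCoprime (x ^ 4 + y ^ 4) (x * y) := by
      refine IsCoprime.mul_right ?_ ?_
      · have := ((hxy.symm.pow_left (m := 4))).add_mul_left_left (x ^ 3)
        rwa [show y ^ 4 + x * x ^ 3 = x ^ 4 + y ^ 4 by ring] at this
      · have := ((hxy.pow_left (m := 4))).add_mul_left_left (y ^ 3)
        rwa [show x ^ 4 + y * y ^ 3 = x ^ 4 + y ^ 4 by ring] at this
    rw [h] at h1
    exact (IsCoprime.pow_left_iff two_pos).1 h1.of_mul_left_right
  rcases quartic_sub_eq_sq hc (z := k) (by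
    have e : 4 * (z ^ 4) = 4 * ((x * y) ^ 4 + k ^ 2) := by
      linear_combination (-(x ^ 4 + y ^ 4) - 2 * z ^ 2) * h + (x ^ 4 - y ^ 4 + 2 * k) * hk
    linarith) with h0 | h0
  · exact Or.inl h0
  · refine Or.inr ((pow_left_inj₀ (sq_nonneg x) (sq_nonneg y) two_ne_zero).1 ?_)
    rw [h0] at hk
    linear_combination hk

end FA.Torsion
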