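import Fermat.Agent.Torsion.Tate
import Fermat.Agent.Torsion.Quartic

/-!
# No rational point of order 16

A point of order 8 on `y² + (1-c)xy - by = x³ - bx²` has `b = (2d-1)(d-1)`, `c = b/d`. Being twice
a point gives `d = 1/(1+t²)` and a square value of `(t⁴-1)(t²-2t-1)`; with `t = (1+u)/(1-u)` this is
a point of `u(u²+1)(u²+2u-1) = r²`, the curve `X₁(16)`.
-/

set_option autoImplicit false

noncomputable section

open WeierstrassCurve
open FA.Thirteen (tateCurve)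

namespace FA.Torsion

theorem two_dvd_of_sq_add_sq {a b : ℤ} (h : (2 : ℤ) ∣ a ^ 2 + b ^ 2) :
    (2 : ℤ) ∣ a + b := by
  have h' : Even (a ^ 2 + b ^ 2) := even_iff_two_dvd.2 h
  simp only [Int.even_add, Int.even_pow' two_ne_zero] at h'
  exact (Int.even_add.2 h').two_dvd

/-- The integral points of `X₁(16)`. -/
theorem x16_int {a b z : ℤ} (hab : IsCoprime a b) (ha : a ≠ 0) (hb : b ≠ 0)
    (h : a * b * (a ^ 2 + b ^ 2) * (a ^ 2 + 2 * a * b - b ^ 2) = z ^ 2) : a ^ 2 = b ^ 2 := by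
  have hNa : IsCoprime a (a ^ 2 + b ^ 2) := by
    have := (hab.pow_right (n := 2)).add_mul_left_right a
    rwa [show b ^ 2 + a * a = a ^ 2 + b ^ 2 by ring] at this
  have hNb : IsCoprime b (a ^ 2 + b ^ 2) := by
    have := (hab.symm.pow_right (n := 2)).add_mul_left_right b
    rwa [show a ^ 2 + b * b = a ^ 2 + b ^ 2 by ring] at this
  have hHa : IsCoprime a (a ^ 2 + 2 * a * b - b ^ 2) := by
    have := (hab.pow_right (n := 2)).neg_right.add_mul_left_right (a + 2 * b)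
    rwa [show -b ^ 2 + a * (a + 2 * b) = a ^ 2 + 2 * a * b - b ^ 2 by ring] at this
  have hHb : IsCoprime b (a ^ 2 + 2 * a * b - b ^ 2) := by
    have := (hab.symm.pow_right (n := 2)).add_mul_left_right (2 * a - b)
    rwa [show a ^ 2 + b * (2 * a - b) = a ^ 2 + 2 * a * b - b ^ 2 by ring] at this
  obtain ⟨A, hA⟩ := Int.sq_of_isCoprime (a := a)
    (b := b * ((a ^ 2 + b ^ 2) * (a ^ 2 + 2 * a * b - b ^ 2)))
    (hab.mul_right (hNa.mul_right hHa)) (c := z) (by linear_combination h)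
  obtain ⟨B, hB⟩ := Int.sq_of_isCoprime (a := b)
    (b := a * ((a ^ 2 + b ^ 2) * (a ^ 2 + 2 * a * b - b ^ 2)))
    (hab.symm.mul_right (hNb.mul_right hHb)) (c := z) (by linear_combination h)
  have hA4 : a ^ 2 = A ^ 4 := by rcases hA with rfl | rfl <;> ring
  have hB4 : b ^ 2 = B ^ 4 := by rcases hB with rfl | rfl <;> ring
  have hA0 : A ≠ 0 := by rintro rfl; simp at hA4; exact ha hA4
  have hB0 : B ≠ 0 := by rintro rfl; simp at hB4; exact hb hB4
  have hABc : IsCoprime A B := by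
    have h1 : IsCoprime (a ^ 2) (b ^ 2) := hab.pow
    rw [hA4, hB4] at h1
    exact (IsCoprime.pow_iff (by norm_num) (by norm_num)).1 h1
  have hq : a * b = (A * B) ^ 2 ∨ a * b = -(A * B) ^ 2 := by
    rcases hA with e | e <;> rcases hB with e' | e' <;> rw [e, e'] <;> first
      | exact Or.inl (by ring1)
      | exact Or.inr (by ring1)
  obtain ⟨s, hs⟩ : A * B ∣ z := by
    refine (Int.pow_dvd_pow_iff two_ne_zero).1 ?_
    rw [← h, mul_assoc]
    rcases hq with e | e <;> rw [e]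
    · exact dvd_mul_right _ _
    · exact ((dvd_refl _).neg_right.mul_right _)
  -- common prime divisors of the two quadratic forms are `2`
  have common : ∀ k : ℤ, Prime k → k ∣ a ^ 2 + b ^ 2 → k ∣ a ^ 2 + 2 * a * b - b ^ 2 →
      k ∣ 2 := fun k hk h1 h2 => by
    have h3 : k ∣ 2 * (a * (a + b)) := by
      have := dvd_add h1 h2
      rwa [show a ^ 2 + b ^ 2 + (a ^ 2 + 2 * a * b - b ^ 2) = 2 * (a * (a + b)) by ring] at this
    rcases hk.dvd_or_dvd h3 with h4 | h4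
    · exact h4
    rcases hk.dvd_or_dvd h4 with h5 | h5
    · exact absurd (hNa.isUnit_of_dvd' h5 h1) hk.not_isUnit
    · have h6 : k ∣ 2 * (a * a) := by
        have := dvd_add h1 (dvd_mul_of_dvd_left h5 (a - b))
        rwa [show a ^ 2 + b ^ 2 + (a + b) * (a - b) = 2 * (a * a) by ring] at this
      rcases hk.dvd_or_dvd h6 with h7 | h7
      · exact h7
      · exact absurd (hNa.isUnit_of_dvd' ((hk.dvd_or_dvd h7).elim id id) h1) hk.not_isUnit
  have hN : 0 < a ^ 2 + b ^ 2 := by positivity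
  -- the product of the two forms is a square up to sign
  have hsq : (a ^ 2 + b ^ 2) * (a ^ 2 + 2 * a * b - b ^ 2) = s ^ 2 ∨
      (a ^ 2 + b ^ 2) * (a ^ 2 + 2 * a * b - b ^ 2) = -s ^ 2 := by
    have hab0 : a * b ≠ 0 := mul_ne_zero ha hb
    rw [hs] at h
    rcases hq with e | e
    · exact Or.inl (mul_left_cancel₀ hab0 (by rw [e] at h ⊢; linear_combination h))
    · exact Or.inr (mul_left_cancel₀ hab0 (by rw [e] at h ⊢; linear_combination h))
  by_cases h2 : (2 : ℤ) ∣ a ^ 2 + b ^ 2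
  · -- both odd
    obtain ⟨M, hM⟩ := two_dvd_of_sq_add_sq h2
    obtain ⟨N, hN'⟩ := h2
    obtain ⟨H, hH⟩ : (2 : ℤ) ∣ a ^ 2 + 2 * a * b - b ^ 2 :=
      ⟨M * (a - b) + a * b, by linear_combination (a - b) * hM⟩
    have hodd : ¬ (2 : ℤ) ∣ a := fun h0 =>
      absurd (Int.isUnit_iff.1 (hNa.isUnit_of_dvd' h0 ⟨N, hN'⟩)) (by norm_num)
    have hNodd : ¬ (2 : ℤ) ∣ N := fun ⟨j, hj⟩ => by
      obtain ⟨i, rfl⟩ : Odd a := Int.not_even_iff_odd.1 fun h0 => hodd h0.two_dvd
      obtain ⟨l, rfl⟩ : Odd b := by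
        refine Int.not_even_iff_odd.1 fun h0 => ?_
        obtain ⟨l, rfl⟩ := h0.two_dvd
        omega
      subst hj
      have : (2 : ℤ) = 4 * (j - i ^ 2 - i - l ^ 2 - l) := by linear_combination hN'
      omega
    have hco : IsCoprime N H := by
      refine isCoprime_of_prime_dvd (fun ⟨e, _⟩ => hNodd (e ▸ dvd_zero _)) fun k hk k1 k2 => hNodd ?_
      have := common k hk (hN' ▸ dvd_mul_of_dvd_right k1 2) (hH ▸ dvd_mul_of_dvd_right k2 2)
      exact ((hk.associated_of_dvd Int.prime_two this).symm.dvd).trans k1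
    obtain ⟨w, hw⟩ : ∃ w, N = w ^ 2 := by
      rw [hN', hH] at hsq
      obtain ⟨v, hv⟩ : (2 : ℤ) ∣ s := by
        refine Int.prime_two.dvd_of_dvd_pow (n := 2) ?_
        rcases hsq with e | e
        · exact ⟨2 * (N * H), by linear_combination -e⟩
        · exact ⟨-(2 * (N * H)), by linear_combination e⟩
      subst hv
      rcases hsq with e | e
      · obtain ⟨w, hw | hw⟩ := Int.sq_of_isCoprime hco (c := v) (by linarith)
        · exact ⟨w, hw⟩
        · exact ⟨0, by nlinarith [sq_nonneg w]⟩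
      · obtain ⟨w, hw | hw⟩ := Int.sq_of_isCoprime hco.neg_right (c := v) (by linarith)
        · exact ⟨w, hw⟩
        · exact ⟨0, by nlinarith [sq_nonneg w]⟩
    rcases quartic_add_eq_two_sq hABc (z := w) (by rw [← hA4, ← hB4, hN', hw]) with h0 | h0
    · exact absurd h0 (mul_ne_zero hA0 hB0)
    · rw [hA4, hB4, show A ^ 4 = (A ^ 2) ^ 2 by ring, h0]; ring
  · have hco : IsCoprime (a ^ 2 + b ^ 2) (a ^ 2 + 2 * a * b - b ^ 2) := by
      refine isCoprime_of_prime_dvd (fun ⟨e, _⟩ => hN.ne' e) fun k hk k1 k2 => h2 ?_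
      exact ((hk.associated_of_dvd Int.prime_two (common k hk k1 k2)).symm.dvd).trans k1
    obtain ⟨w, hw⟩ : ∃ w, a ^ 2 + b ^ 2 = w ^ 2 := by
      rcases hsq with e | e
      · obtain ⟨w, hw | hw⟩ := Int.sq_of_isCoprime hco e
        · exact ⟨w, hw⟩
        · nlinarith [sq_nonneg w]
      · obtain ⟨w, hw | hw⟩ := Int.sq_of_isCoprime hco.neg_right (c := s) (by linarith)
        · exact ⟨w, hw⟩
        · nlinarith [sq_nonneg w]
    exact absurd (by rw [← hA4, ← hB4, hw]) (not_fermat_42 (c := w) hA0 hB0)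

/-- The rational points of `X₁(16)`. -/
theorem x16_rat {u r : ℚ} (h : u * (u ^ 2 + 1) * (u ^ 2 + 2 * u - 1) = r ^ 2) :
    u = 0 ∨ u = 1 ∨ u = -1 := by
  by_cases h0 : u = 0
  · exact Or.inl h0
  refine Or.inr ?_
  have hden : (u.den : ℚ) ≠ 0 := Nat.cast_ne_zero.2 u.den_ne_zero
  have hco : IsCoprime u.num (u.den : ℤ) := by
    rw [Int.isCoprime_iff_gcd_eq_one, Int.gcd, Int.natAbs_natCast]; exact u.reduced
  have hnum : (u.num : ℚ) = u * u.den := (Rat.mul_den_eq_num u).symm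
  obtain ⟨z, hz⟩ : IsSquare (u.num * (u.den : ℤ) * (u.num ^ 2 + (u.den : ℤ) ^ 2) *
      (u.num ^ 2 + 2 * u.num * u.den - (u.den : ℤ) ^ 2)) := by
    refine Rat.isSquare_intCast_iff.1 ⟨r * (u.den : ℚ) ^ 3, ?_⟩
    push_cast
    rw [hnum]
    linear_combination (u.den : ℚ) ^ 6 * h
  have h1 := x16_int hco (Rat.num_ne_zero.2 h0) (Int.natCast_ne_zero.2 u.den_ne_zero)
    (z := z) (by rw [hz, sq])
  have h2 : (u.num : ℚ) ^ 2 = (u.den : ℚ) ^ 2 := by exact_mod_cast h1
  rw [hnum] at h2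
  exact sq_eq_one_iff.1 (mul_right_cancel₀ (pow_ne_zero 2 hden) (by linear_combination h2))

/-- A point of order `8` on the Tate normal form: `b = (2d-1)(d-1)` with `d = b/c`. -/
theorem tate_order_eight {b c : ℚ} [(tateCurve b c).IsElliptic]
    {h0 : (tateCurve b c).toAffine.Nonsingular 0 0}
    (h4 : 4 • Affine.Point.some 0 0 h0 ≠ 0) (h8 : 8 • Affine.Point.some 0 0 h0 = 0) :
    c ≠ 0 ∧ b = (2 * (b / c) - 1) * (b / c - 1) := by
  obtain ⟨h3, e3⟩ := tate_three (b := b) (c := c) (h0 := h0)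
  obtain ⟨h1, e1⟩ := tate_neg (b := b) (c := c) (h0 := h0)
  have hc : c ≠ 0 := by
    rintro rfl
    refine h4 ?_
    rw [succ_nsmul, e3, ← eq_neg_iff_add_eq_zero, e1, Affine.Point.some.injEq]
    simp
  refine ⟨hc, ?_⟩
  obtain ⟨h4', e4⟩ := tate_four (b := b) (c := c) (h0 := h0) hc
  have e8 : -Affine.Point.some _ _ h4' = Affine.Point.some _ _ h4' := by
    rw [← e4, neg_eq_iff_add_eq_zero, ← add_nsmul]; exact h8
  rw [Affine.Point.neg_some, Affine.Point.some.injEq] at e8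
  have hr : b / c ≠ 0 := div_ne_zero (tate_b_ne_zero b c) hc
  have e := e8.2
  simp only [Affine.negY, tateCurve] at e
  have hb : b = b / c * c := (div_mul_cancel₀ _ hc).symm
  generalize b / c = r at hr e hb ⊢
  subst hb
  have : r * (r * c - (2 * r - 1) * (r - 1)) = 0 := by linear_combination -e
  exact sub_eq_zero.1 ((mul_eq_zero.1 this).resolve_left hr)

set_option maxHeartbeats 1000000 in
/-- The halving condition for the origin of the order `8` family. -/
theorem tate_eight_halved {b c d : ℚ} [(tateCurve b c).IsElliptic]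
    (hbd : b = (2 * d - 1) * (d - 1)) (hd : d * c = b)
    {h0 : (tateCurve b c).toAffine.Nonsingular 0 0}
    {R : (tateCurve b c).toAffine.Point}
    (hR : 2 • R = Affine.Point.some 0 0 h0) :
    ∃ u r : ℚ, u * (u ^ 2 + 1) * (u ^ 2 + 2 * u - 1) = r ^ 2 ∧ u ≠ 0 ∧ u ≠ 1 ∧ u ≠ -1 := by
  have hb := tate_b_ne_zero b c
  obtain ⟨hd21, hd1⟩ := mul_ne_zero_iff.1 (hbd ▸ hb)
  have hd0 : d ≠ 0 := fun h => hb (by rw [← hd, h, zero_mul])
  rcases R with _ | ⟨x, y, hns⟩
  · rw [← Affine.Point.zero_def, nsmul_zero] at hR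
    exact absurd hR.symm (Affine.Point.some_ne_zero h0)
  have hy : y ≠ (tateCurve b c).toAffine.negY x y := fun e => Affine.Point.some_ne_zero h0 (by
    rw [← hR, two_nsmul]; exact Affine.Point.add_self_of_Y_eq e)
  have e2 := Affine.Point.add_self_of_Y_ne (h₁ := hns) hy
  rw [← two_nsmul, hR, Affine.Point.some.injEq] at e2
  obtain ⟨ex, ey⟩ := e2
  have hslope := Affine.slope_of_Y_ne (W := (tateCurve b c).toAffine) (x₁ := x) (x₂ := x) rfl hy
  generalize (tateCurve b c).toAffine.slope x x y y = ℓ at ex ey hslope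
  have hYne := sub_ne_zero.2 hy
  rw [eq_div_iff hYne] at hslope
  have heq := (Affine.equation_iff x y).1 hns.1
  simp only [tateCurve, Affine.addX, Affine.addY, Affine.negAddY, Affine.negY] at ex ey hslope heq hYne
  -- the model `Y² = X(X² + AX + B)`, translated to the point of order 2
  obtain ⟨e, he⟩ : ∃ e, e = d * (d - 1) := ⟨_, rfl⟩
  obtain ⟨A, hA⟩ : ∃ A, A = 3 * e + ((1 - c) ^ 2 / 4 - b) := ⟨_, rfl⟩
  obtain ⟨B, hB⟩ : ∃ B, B = 3 * e ^ 2 + 2 * ((1 - c) ^ 2 / 4 - b) * e - b * (1 - c) / 2 := ⟨_, rfl⟩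
  obtain ⟨X, hX⟩ : ∃ X, X = x - e := ⟨_, rfl⟩
  obtain ⟨Y, hY⟩ : ∃ Y, Y = y + ((1 - c) * x - b) / 2 := ⟨_, rfl⟩
  obtain ⟨l, hl⟩ : ∃ l, l = ℓ + (1 - c) / 2 := ⟨_, rfl⟩
  have hc : c = b / d := by rw [← hd]; field_simp
  have hge : e ^ 3 + ((1 - c) ^ 2 / 4 - b) * e ^ 2 - b * (1 - c) / 2 * e + b ^ 2 / 4 = 0 := by
    rw [he, hc, hbd]; field_simp; ring
  have hY2 : Y ^ 2 = X * (X ^ 2 + A * X + B) := by
    subst hX hY hA hB
    linear_combination heq + hge
  have htan : 2 * Y * l = 3 * X ^ 2 + 2 * A * X + B := by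
    subst hX hY hA hB hl
    linear_combination hslope
  have hex : -e = l ^ 2 - A - 2 * X := by
    subst hX hA hl
    linear_combination ex
  have hey : b / 2 = Y + l * (-e - X) := by
    subst hX hY hl
    linear_combination (-1 : ℚ) * ey - (ℓ + (1 - c)) * ex
  have hY0 : Y ≠ 0 := by
    rw [hY]; intro h; exact hYne (by linear_combination 2 * h)
  have hX0 : X ≠ 0 := fun h => hY0 (sq_eq_zero_iff.1 (by rw [hY2, h, zero_mul]))
  obtain ⟨w, hw⟩ : ∃ w, w = (X ^ 2 - B) / (2 * Y) := ⟨_, rfl⟩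
  obtain ⟨s, hs⟩ : ∃ s, s = Y / X := ⟨_, rfl⟩
  have hw' : 2 * Y * w = X ^ 2 - B := by rw [hw]; field_simp
  have hs' : X * s = Y := by rw [hs]; field_simp
  have hlsw : l = s + w := by
    refine mul_left_cancel₀ (mul_ne_zero (mul_ne_zero two_ne_zero hY0) hX0) ?_
    linear_combination X * htan - X * hw' - 2 * Y * hs' - 2 * hY2
  have hs2 : X * s ^ 2 = X ^ 2 + A * X + B :=
    mul_left_cancel₀ hX0 (by linear_combination hY2 + (X * s + Y) * hs')
  have hw2 : w ^ 2 = d * (1 - d) := by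
    refine mul_left_cancel₀ hX0 ?_
    rw [hlsw] at hex
    linear_combination (-X) * hex - hs2 - hw' - 2 * w * hs' - X * he
  have hkey : w * (A + 2 * w ^ 2 - s ^ 2) = b := by
    rw [hlsw] at hex hey
    linear_combination (-2 : ℚ) * hey + w * hex + 2 * hs' + (3 * w + 2 * s) * (hw2 + he)
  have hw0 : w ≠ 0 := by
    rintro rfl
    exact mul_ne_zero hd0 (sub_ne_zero.2 (Ne.symm (sub_ne_zero.1 hd1))) (by linear_combination -hw2)
  obtain ⟨t, ht⟩ : ∃ t, t = w / d := ⟨_, rfl⟩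
  have hwt : w = t * d := by rw [ht]; field_simp
  have hdt : d = 1 / (1 + t ^ 2) := by
    have : (0 : ℚ) < 1 + t ^ 2 := by positivity
    rw [eq_div_iff this.ne']
    refine mul_left_cancel₀ hd0 ?_
    rw [hwt] at hw2
    linear_combination hw2
  have ht0 : t ≠ 0 := fun h => hw0 (by rw [hwt, h, zero_mul])
  have ht1 : t ^ 2 ≠ 1 := fun h => hd21 (by rw [hdt, h]; norm_num)
  have htp : (0 : ℚ) < 1 + t ^ 2 := by positivity
  have hF : 4 * (t ^ 2 + 1) * s ^ 2 = (t + 1) ^ 3 * (t - 1) * (t ^ 2 - 2 * t - 1) := by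
    refine mul_left_cancel₀ hw0 ?_
    have e1 : w * s ^ 2 = w * (A + 2 * w ^ 2) - b := by linear_combination -hkey
    calc w * (4 * (t ^ 2 + 1) * s ^ 2) = 4 * (t ^ 2 + 1) * (w * (A + 2 * w ^ 2) - b) := by
          rw [← e1]; ring
      _ = _ := by
          rw [hA, he, hc, hwt, hbd, hdt]
          field_simp
          ring
  have htp1 : t + 1 ≠ 0 := fun h => ht1 (by rw [eq_neg_of_add_eq_zero_left h]; norm_num)
  refine ⟨(t - 1) / (t + 1), 4 * (t ^ 2 + 1) * s / (t + 1) ^ 4, ?_, ?_, ?_, ?_⟩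
  · field_simp
    linear_combination -4 * (t ^ 2 + 1) * hF
  · exact div_ne_zero (fun h => ht1 (by rw [sub_eq_zero.1 h]; norm_num)) htp1
  · rw [Ne, div_eq_iff htp1]; intro h; linarith
  · rw [Ne, div_eq_iff htp1]; intro h; exact ht0 (by linarith)

/-- **No rational point of order 16.** -/
theorem no_order_16 (E : WeierstrassCurve ℚ) [E.IsElliptic] (P : E.toAffine.Point) :
    addOrderOf P ≠ 16 := by
  intro hP
  have hne : ∀ k : ℕ, k ≠ 0 → k < 16 → k • P ≠ 0 := fun k hk hlt =>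
    nsmul_ne_zero_of_lt_addOrderOf hk (hP.symm ▸ hlt)
  have h16 : 16 • P = 0 := hP ▸ addOrderOf_nsmul_eq_zero P
  obtain ⟨b, c, h0, hE, e, he⟩ := exists_tate (2 • P)
    (by rw [← mul_nsmul]; exact hne _ (by norm_num) (by norm_num))
    (by rw [← mul_nsmul]; exact hne _ (by norm_num) (by norm_num))
  obtain ⟨hc, hb⟩ := tate_order_eight (h0 := h0)
    (fun h => hne 8 (by norm_num) (by norm_num) (by
      rw [show 8 = 2 * 4 from rfl, mul_nsmul, ← he, ← map_nsmul, h, map_zero]))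
    (e.injective (by rw [map_nsmul, he, ← mul_nsmul, map_zero]; exact h16))
  have hR : 2 • e.symm P = Affine.Point.some 0 0 h0 := e.injective (by
    rw [map_nsmul, AddEquiv.apply_symm_apply, he])
  obtain ⟨d, hd⟩ : ∃ d, d = b / c := ⟨_, rfl⟩
  have hdc : d * c = b := by rw [hd, div_mul_cancel₀ _ hc]
  rw [← hd] at hb
  obtain ⟨u, r, hu, hu0, hu1, hu2⟩ := tate_eight_halved hb hdc hR
  rcases x16_rat hu with h | h | h
  exacts [hu0 h, hu1 h, hu2 h]

end FA.Torsion

end
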