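import Fermat.Agent.Torsion.Order18Curve
import Fermat.Agent.Torsion.Eighteen.Points

/-!
# No rational point of order `18`

A point of order `18` gives a non-cuspidal rational point of `X₁(18)`, and there is none.
-/

set_option autoImplicit false

noncomputable section

namespace FA.Torsion

/-- An elliptic curve over `ℚ` has no rational point of order `18`. -/
theorem no_order_18 (E : WeierstrassCurve ℚ) [E.IsElliptic] (P : E.toAffine.Point) :
    addOrderOf P ≠ 18 :=
  Eighteen.no_order_18_of_onlyCusps Eighteen.onlyCusps18 E P

end FA.Torsion

end
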