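import Fermat.Agent.Torsion.X21Descent

/-!
# The fibre product of the `j`-maps of `X₀(3)` and `X₀(7)`

If `(s + 27)(s + 3)³ t = (t² + 13t + 49)(t² + 5t + 1)³ s` then a rational function `A` on the fibre
product satisfies a quadratic relation with `t`, with discriminant `(A² - 3A + 1)²` times
`A⁴ - 6A³ - 17A² - 6A + 1`: the curve `X₀(21)`. So `t` is one of `-49/2, -8, -49/8, -2`.
-/

set_option autoImplicit false
set_option linter.style.longLine false

noncomputable section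

namespace FA.Torsion.X21

/-- The denominator of the function `A`. -/
def dA {R : Type*} [CommRing R] (s t : R) : R :=
  (7 + 2 * t) * (s ^ 2 + 18 * s) - 1874 * t - 2394 * t ^ 2 - 1078 * t ^ 3 - 230 * t ^ 4 -
    24 * t ^ 5 - t ^ 6

/-- The numerator of the function `A`. -/
def nA {R : Type*} [CommRing R] (s t : R) : R :=
    28 - 246 * t - 322 * t ^ 2 - 119 * t ^ 3 - 18 * t ^ 4 - 1 * t ^ 5 + 7 * s - 88 * s * t
    - 63 * s * t ^ 2 - 14 * s * t ^ 3 - 1 * s * t ^ 4 - 1 * s ^ 2 * t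

set_option maxHeartbeats 4000000 in
/-- The function `A` satisfies a quadratic relation with `t`. -/
theorem fibre_identity {R : Type*} [CommRing R] (s t : R) :
    -(nA s t * dA s t ^ 3) * t ^ 2 +
        (nA s t ^ 4 - 6 * nA s t ^ 3 * dA s t - 3 * nA s t ^ 2 * dA s t ^ 2 -
          6 * nA s t * dA s t ^ 3 + dA s t ^ 4) * t - 49 * (nA s t ^ 3 * dA s t) =
      (2765952 - 69039040 * t + 433926752 * t ^ 2 + 2161389776 * t ^ 3 + 3923161776 * t ^ 4
      + 4079646040 * t ^ 5 + 2798554192 * t ^ 6 + 1355063812 * t ^ 7 + 480665412 * t ^ 8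
      + 127455930 * t ^ 9 + 25476722 * t ^ 10 + 3831236 * t ^ 11 + 427751 * t ^ 12
      + 34458 * t ^ 13 + 1897 * t ^ 14 + 64 * t ^ 15 + 1 * t ^ 16 + 2228128 * s
      - 47591936 * s * t - 76035064 * s * t ^ 2 + 5803000 * s * t ^ 3 + 95110360 * s * t ^ 4
      + 97672128 * s * t ^ 5 + 52775226 * s * t ^ 6 + 18095010 * s * t ^ 7
      + 4189632 * s * t ^ 8 + 667366 * s * t ^ 9 + 72400 * s * t ^ 10 + 5126 * s * t ^ 11
      + 214 * s * t ^ 12 + 4 * s * t ^ 13 + 633864 * s ^ 2 + 1057812 * s ^ 2 * t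
      + 4504668 * s ^ 2 * t ^ 2 + 7525854 * s ^ 2 * t ^ 3 + 5915694 * s ^ 2 * t ^ 4
      + 2613972 * s ^ 2 * t ^ 5 + 704088 * s ^ 2 * t ^ 6 + 118644 * s ^ 2 * t ^ 7
      + 12264 * s ^ 2 * t ^ 8 + 714 * s ^ 2 * t ^ 9 + 18 * s ^ 2 * t ^ 10 + 72030 * s ^ 3
      + 297038 * s ^ 3 * t + 446488 * s ^ 3 * t ^ 2 + 319130 * s ^ 3 * t ^ 3
      + 123664 * s ^ 3 * t ^ 4 + 27714 * s ^ 3 * t ^ 5 + 3626 * s ^ 3 * t ^ 6
      + 260 * s ^ 3 * t ^ 7 + 8 * s ^ 3 * t ^ 8 + 2401 * s ^ 4 + 4802 * s ^ 4 * t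
      + 3479 * s ^ 4 * t ^ 2 + 1078 * s ^ 4 * t ^ 3 + 149 * s ^ 4 * t ^ 4 + 8 * s ^ 4 * t ^ 5) *
        ((s + 27) * (s + 3) ^ 3 * t - (t ^ 2 + 13 * t + 49) * (t ^ 2 + 5 * t + 1) ^ 3 * s) := by
  simp only [dA, nA]
  ring

/-- A binary cubic without zeros modulo `p` has no rational root. -/
theorem cubic_ne_zero (p : ℕ) [NeZero p] (hp : p ≠ 1) {c₃ c₂ c₁ c₀ : ℤ}
    (h : ∀ n d : ZMod p, (c₃ : ZMod p) * n ^ 3 + c₂ * n ^ 2 * d + c₁ * n * d ^ 2 + c₀ * d ^ 3 = 0 →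
      n = 0 ∧ d = 0) (x : ℚ) : (c₃ : ℚ) * x ^ 3 + c₂ * x ^ 2 + c₁ * x + c₀ ≠ 0 := by
  intro hx
  have hnum : (x.num : ℚ) = x * x.den := (Rat.mul_den_eq_num x).symm
  have hZ : c₃ * x.num ^ 3 + c₂ * x.num ^ 2 * x.den + c₁ * x.num * (x.den : ℤ) ^ 2 +
      c₀ * (x.den : ℤ) ^ 3 = 0 := by
    refine (Int.cast_inj (α := ℚ)).1 ?_
    push_cast
    rw [hnum]
    linear_combination (x.den : ℚ) ^ 3 * hx
  obtain ⟨hn, hd⟩ := h (x.num : ZMod p) ((x.den : ℤ) : ZMod p) (by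
    have := congrArg (fun z : ℤ => (z : ZMod p)) hZ
    push_cast at this ⊢
    exact this)
  rw [ZMod.intCast_zmod_eq_zero_iff_dvd] at hn hd
  have h1 := Nat.dvd_gcd (Int.natCast_dvd.1 hn) (Int.natCast_dvd.1 hd)
  rw [Int.natAbs_natCast, x.reduced.gcd_eq_one] at h1
  exact hp (Nat.dvd_one.1 h1)

/-- The resultant of `dA` and `nA`, divided by `-2`. -/
def resPoly {R : Type*} [CommRing R] (t : R) : R :=
  67228 - 926443 * t - 2332841 * t ^ 2 + 36071448 * t ^ 3 + 118373661 * t ^ 4 +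
    166068301 * t ^ 5 + 136961986 * t ^ 6 + 74446953 * t ^ 7 + 28178745 * t ^ 8 +
    7633801 * t ^ 9 + 1494890 * t ^ 10 + 210517 * t ^ 11 + 20841 * t ^ 12 + 1380 * t ^ 13 +
    55 * t ^ 14 + t ^ 15

theorem resPoly_ne_zero (x : ℚ) : resPoly x ≠ 0 := by
  intro hx
  have hint : IsIntegral ℤ x :=
    ⟨resPoly (Polynomial.X : Polynomial ℤ), by unfold resPoly; monicity!,
      by simpa [resPoly, map_ofNat] using hx⟩
  obtain ⟨k, rfl⟩ := IsIntegrallyClosed.isIntegral_iff.1 hint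
  have hk : resPoly k = 0 := by
    refine (Int.cast_inj (α := ℚ)).1 ?_
    simpa [resPoly] using hx
  have h11 := congrArg (fun z : ℤ => (z : ZMod 11)) hk
  simp only [resPoly] at h11
  push_cast at h11
  have key : ∀ t : ZMod 11, resPoly t ≠ 0 := by unfold resPoly; decide +kernel
  exact key (k : ZMod 11) h11

/-- `dA` and `nA` have no common rational zero. -/
theorem dA_nA_ne_zero {s t : ℚ} (hd : dA s t = 0) (hn : nA s t = 0) : False := by
  obtain ⟨e1, he1⟩ : ∃ e1 : ℚ,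
      e1 = 49 - 476 * t - 581 * t ^ 2 - 224 * t ^ 3 - 35 * t ^ 4 - 2 * t ^ 5 := ⟨_, rfl⟩
  obtain ⟨e0, he0⟩ : ∃ e0 : ℚ, e0 = 196 - 1666 * t - 4620 * t ^ 2 - 3871 * t ^ 3 - 1442 * t ^ 4 -
      273 * t ^ 5 - 26 * t ^ 6 - t ^ 7 := ⟨_, rfl⟩
  have hlin : s * e1 + e0 = 0 := by
    have h : (7 + 2 * t) * nA s t + t * dA s t = 0 := by rw [hd, hn, mul_zero, mul_zero, add_zero]
    simp only [nA, dA] at h
    subst he1 he0
    linear_combination h
  have hQ : (7 + 2 * t) * (e0 ^ 2 - 18 * e0 * e1) +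
      (-1874 * t - 2394 * t ^ 2 - 1078 * t ^ 3 - 230 * t ^ 4 - 24 * t ^ 5 - t ^ 6) * e1 ^ 2 = 0 := by
    simp only [dA] at hd
    linear_combination e1 ^ 2 * hd -
      ((7 + 2 * t) * (s * e1 - e0) + 18 * (7 + 2 * t) * e1) * hlin
  by_cases h2 : 7 + 2 * t = 0
  · obtain rfl : t = -7 / 2 := by linarith
    simp only [dA] at hd
    norm_num at hd
  · refine resPoly_ne_zero t ((mul_eq_zero.1 (?_ : (7 + 2 * t) * resPoly t = 0)).resolve_left h2)
    subst he1 he0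
    simp only [resPoly]
    linear_combination (-1 / 2 : ℚ) * hQ

/-- The points of the fibre product. -/
theorem fibre_points {s t : ℚ} (ht : t ≠ 0)
    (hF : (s + 27) * (s + 3) ^ 3 * t = (t ^ 2 + 13 * t + 49) * (t ^ 2 + 5 * t + 1) ^ 3 * s) :
    t = -49 / 2 ∨ t = -8 ∨ t = -49 / 8 ∨ t = -2 := by
  have key := fibre_identity s t
  rw [sub_eq_zero.2 hF, mul_zero] at key
  obtain ⟨ν, hν⟩ : ∃ ν, ν = nA s t := ⟨_, rfl⟩
  obtain ⟨D, hD⟩ : ∃ D, D = dA s t := ⟨_, rfl⟩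
  rw [← hν, ← hD] at key
  have hD0 : D ≠ 0 := by
    intro h0
    rw [h0] at key
    have : ν ^ 4 * t = 0 := by linear_combination key
    exact dA_nA_ne_zero (hD.symm.trans h0) (hν.symm.trans
      ((pow_eq_zero_iff (n := 4) (by norm_num)).1 ((mul_eq_zero.1 this).resolve_right ht)))
  obtain ⟨A, hA⟩ : ∃ A, A = ν / D := ⟨_, rfl⟩
  have hν' : ν = A * D := by rw [hA, div_mul_cancel₀ _ hD0]
  have hq : -(A * t ^ 2) + (A ^ 4 - 6 * A ^ 3 - 3 * A ^ 2 - 6 * A + 1) * t - 49 * A ^ 3 = 0 := by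
    rw [hν'] at key
    refine mul_left_cancel₀ (pow_ne_zero 4 hD0) ?_
    linear_combination key
  have hA0 : A ≠ 0 := by
    intro h0
    rw [h0] at hq
    exact ht (by linear_combination hq)
  have h5 : A ^ 2 - 3 * A + 1 ≠ 0 := by
    intro h
    have h' : IsSquare ((5 : ℤ) : ℚ) := ⟨2 * A - 3, by push_cast; linear_combination -4 * h⟩
    obtain ⟨r, hr⟩ := Rat.isSquare_intCast_iff.1 h'
    have h3 := congrArg (fun z : ℤ => (z : ZMod 3)) hr
    push_cast at h3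
    have : ∀ r : ZMod 3, (5 : ZMod 3) ≠ r * r := by decide
    exact this _ h3
  have hQ : IsSquare (A ^ 4 - 6 * A ^ 3 - 17 * A ^ 2 - 6 * A + 1) := by
    refine ⟨(-2 * A * t + (A ^ 4 - 6 * A ^ 3 - 3 * A ^ 2 - 6 * A + 1)) / (A ^ 2 - 3 * A + 1), ?_⟩
    rw [div_mul_div_comm, eq_div_iff (mul_ne_zero h5 h5)]
    linear_combination 4 * A * hq
  have hden : (A.den : ℚ) ≠ 0 := Nat.cast_ne_zero.mpr A.den_ne_zero
  have hnd : (A.num : ℚ) = A * A.den := by rw [Rat.mul_den_eq_num]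
  obtain ⟨w, hw⟩ : IsSquare (A.num ^ 4 - 6 * A.num ^ 3 * A.den - 17 * A.num ^ 2 * (A.den : ℤ) ^ 2 -
      6 * A.num * (A.den : ℤ) ^ 3 + (A.den : ℤ) ^ 4) := by
    refine Rat.isSquare_intCast_iff.1 ?_
    obtain ⟨y, hy⟩ := hQ
    refine ⟨y * (A.den : ℚ) ^ 2, ?_⟩
    push_cast
    rw [hnd]
    linear_combination ((A.den : ℚ) ^ 4) * hy
  have hco : IsCoprime A.num (A.den : ℤ) := by
    rw [Int.isCoprime_iff_gcd_eq_one, Int.gcd, Int.natAbs_natCast]
    exact A.reduced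
  have hmn : A.num * (A.den : ℤ) = -2 := (descent hco (by rw [hw, sq])).resolve_left
    (mul_ne_zero (Rat.num_ne_zero.2 hA0) (by exact_mod_cast A.den_ne_zero))
  have hAv : A = -2 ∨ A = -1 / 2 := by
    have hdd : A.den ∣ 2 := Int.natCast_dvd_natCast.1 ⟨-A.num, by push_cast; linarith⟩
    rcases (Nat.dvd_prime Nat.prime_two).1 hdd with e | e
    · left
      rw [e] at hmn hnd
      push_cast at hmn hnd
      rw [show A.num = -2 by linarith] at hnd
      push_cast at hnd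
      linarith
    · right
      rw [e] at hmn hnd
      push_cast at hmn hnd
      rw [show A.num = -1 by linarith] at hnd
      push_cast at hnd
      linarith
  rcases hAv with h | h <;> rw [h] at hq
  · have : (2 * t + 49) * (t + 8) = 0 := by linear_combination hq
    rcases mul_eq_zero.1 this with h | h
    · exact Or.inl (by linarith)
    · exact Or.inr (Or.inl (by linarith))
  · have : (8 * t + 49) * (t + 2) = 0 := by linear_combination 16 * hq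
    rcases mul_eq_zero.1 this with h | h
    · exact Or.inr (Or.inr (Or.inl (by linarith)))
    · exact Or.inr (Or.inr (Or.inr (by linarith)))

end FA.Torsion.X21

end
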