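import Fermat.Agent.Torsion.Flex
import Fermat.Agent.Torsion.X21Fibre

/-!
# No rational point of order 21

On the family `b = d³ - d²`, `c = d² - d` of curves with a point of order 7, a point of order 3
gives a point of the fibre product of the `j`-maps of `X₀(3)` and `X₀(7)`, and none of the four
values of `t = (d³ - 8d² + 5d + 1)/(d(d-1))` left has a rational `d`.
-/

set_option autoImplicit false

noncomputable section

open WeierstrassCurve
open FA.Thirteen (tateCurve tateA1 tateA3)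

namespace FA.Torsion

/-- The parameters of a point of order `7` on the Tate normal form. -/
theorem tate_order_seven {b c : ℚ} [(tateCurve b c).IsElliptic]
    {h0 : (tateCurve b c).toAffine.Nonsingular 0 0}
    (h4 : 4 • Affine.Point.some 0 0 h0 ≠ 0) (h7 : 7 • Affine.Point.some 0 0 h0 = 0) :
    ∃ d : ℚ, d ≠ 0 ∧ d ≠ 1 ∧ b = d ^ 3 - d ^ 2 ∧ c = d ^ 2 - d := by
  obtain ⟨h3, e3⟩ := tate_three (b := b) (c := c) (h0 := h0)
  obtain ⟨h1, e1⟩ := tate_neg (b := b) (c := c) (h0 := h0)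
  have hc : c ≠ 0 := by
    rintro rfl
    refine h4 ?_
    rw [succ_nsmul, e3, ← eq_neg_iff_add_eq_zero, e1, Affine.Point.some.injEq]
    simp
  obtain ⟨h4', e4⟩ := tate_four (b := b) (c := c) (h0 := h0) hc
  rw [show 7 = 4 + 3 from rfl, add_nsmul, ← eq_neg_iff_add_eq_zero, e3, e4,
    Affine.Point.neg_some, Affine.Point.some.injEq] at h7
  have hb := tate_b_ne_zero b c
  have hbr : b = b / c * c := (div_mul_cancel₀ _ hc).symm
  obtain ⟨hx, -⟩ := h7
  have hr := div_ne_zero hb hc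
  generalize b / c = r at hbr hx hr
  exact ⟨r, hr, fun e => hc (by rw [← hx, e]; ring), by rw [hbr, ← hx]; ring, by rw [← hx]; ring⟩

/-- No point of order 3 on the family of `X₁(7)`. -/
theorem tate_seven_no_three {b c d : ℚ} [(tateCurve b c).IsElliptic] (hd0 : d ≠ 0) (hd1 : d ≠ 1)
    (hb : b = d ^ 3 - d ^ 2) (hc : c = d ^ 2 - d)
    (T : (tateCurve b c).toAffine.Point) (h : 3 • T = 0) : T = 0 := by
  by_contra hT
  obtain ⟨x, y, hns, -, hA3, hA2⟩ := flex_of_three h hT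
  obtain ⟨h4, hΔ⟩ := flex_invariants hns.1 hA3 hA2
  have hΔ0 : (tateCurve b c).Δ ≠ 0 := (tateCurve b c).isUnit_Δ.ne_zero
  have hΔu : (tateCurve b c).Δ = d ^ 7 * (d - 1) ^ 7 * (d ^ 3 - 8 * d ^ 2 + 5 * d + 1) := by
    rw [FA.Thirteen.Δ_tateCurve, hb, hc]; ring
  have h4u : (tateCurve b c).c₄ = (d ^ 2 - d + 1) *
      (d ^ 6 - 11 * d ^ 5 + 30 * d ^ 4 - 15 * d ^ 3 - 10 * d ^ 2 + 5 * d + 1) := by
    simp [tateCurve, WeierstrassCurve.c₄, WeierstrassCurve.b₂, WeierstrassCurve.b₄, hb, hc]; ring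
  generalize tateA3 (tateCurve b c) x y = A3 at hA3 h4 hΔ
  generalize tateA1 (tateCurve b c) x y = A1 at h4 hΔ
  rw [hΔu] at hΔ hΔ0
  rw [h4u] at h4
  obtain ⟨e, he⟩ : ∃ e, e = d * (d - 1) := ⟨_, rfl⟩
  obtain ⟨f, hf⟩ : ∃ f, f = d ^ 3 - 8 * d ^ 2 + 5 * d + 1 := ⟨_, rfl⟩
  have he0 : e ≠ 0 := he ▸ mul_ne_zero hd0 (sub_ne_zero.2 hd1)
  have hf0 : f ≠ 0 := hf ▸ right_ne_zero_of_mul hΔ0
  have hfac : (f ^ 2 + 13 * f * e + 49 * e ^ 2) * (f ^ 2 + 5 * f * e + e ^ 2) ^ 3 =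
      ((d ^ 2 - d + 1) *
        (d ^ 6 - 11 * d ^ 5 + 30 * d ^ 4 - 15 * d ^ 3 - 10 * d ^ 2 + 5 * d + 1)) ^ 3 := by
    rw [he, hf]; ring
  rw [h4] at hfac
  rw [← mul_pow, ← he, ← hf] at hΔ
  have hfib := X21.fibre_points (s := A1 ^ 3 / A3 - 27) (t := f / e) (div_ne_zero hf0 he0) (by
    refine mul_left_cancel₀ (mul_ne_zero (pow_ne_zero 4 hA3) (pow_ne_zero 8 he0)) ?_
    field_simp
    linear_combination (A1 ^ 3 * (A1 ^ 3 - 24 * A3) ^ 3) * hΔ -
      A3 ^ 3 * (A1 ^ 3 - 27 * A3) * hfac)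
  rcases hfib with h | h | h | h <;> rw [div_eq_iff he0, he, hf] at h
  · exact X21.cubic_ne_zero 5 (by decide) (c₃ := 2) (c₂ := 33) (c₁ := -39) (c₀ := 2) (by decide) d
      (by push_cast; linear_combination 2 * h)
  · exact X21.cubic_ne_zero 2 (by decide) (c₃ := 1) (c₂ := 0) (c₁ := -3) (c₀ := 1) (by decide) d
      (by push_cast; linear_combination h)
  · exact X21.cubic_ne_zero 5 (by decide) (c₃ := 8) (c₂ := -15) (c₁ := -9) (c₀ := 8) (by decide) d
      (by push_cast; linear_combination 8 * h)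
  · exact X21.cubic_ne_zero 2 (by decide) (c₃ := 1) (c₂ := -6) (c₁ := 3) (c₀ := 1) (by decide) d
      (by push_cast; linear_combination h)

/-- **No rational point of order 21.** -/
theorem no_order_21 (E : WeierstrassCurve ℚ) [E.IsElliptic] (P : E.toAffine.Point) :
    addOrderOf P ≠ 21 := by
  intro hP
  have hne : ∀ k : ℕ, k ≠ 0 → k < 21 → k • P ≠ 0 := fun k hk hlt =>
    nsmul_ne_zero_of_lt_addOrderOf hk (hP.symm ▸ hlt)
  have h21 : 21 • P = 0 := hP ▸ addOrderOf_nsmul_eq_zero P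
  obtain ⟨b, c, h0, hE, e, he⟩ := exists_tate (3 • P)
    (by rw [← mul_nsmul]; exact hne _ (by norm_num) (by norm_num))
    (by rw [← mul_nsmul]; exact hne _ (by norm_num) (by norm_num))
  obtain ⟨d, hd0, hd1, hb, hc⟩ := tate_order_seven (h0 := h0)
    (fun h => hne 12 (by norm_num) (by norm_num) (by
      rw [show 12 = 3 * 4 from rfl, mul_nsmul, ← he, ← map_nsmul, h, map_zero]))
    (e.injective (by rw [map_nsmul, he, ← mul_nsmul, map_zero]; exact h21))
  have hT := tate_seven_no_three hd0 hd1 hb hc (e.symm (7 • P)) (by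
    rw [← map_nsmul, ← mul_nsmul, h21, map_zero])
  exact hne 7 (by norm_num) (by norm_num) ((AddEquiv.map_eq_zero_iff e.symm).1 hT)

end FA.Torsion

end
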