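import Fermat.Agent.Thirteen.Tate
import Mathlib.NumberTheory.FLT.Basic

/-!
# Functions with values that multiply up to `n`-th powers

If `φ` is a function on a Weierstrass curve whose values at three collinear points multiply to an
`n`-th power, then `φ (k P) = φ(P) ^ k` up to `n`-th powers.  Together with the remark that
`f ^ i (f - 1)` is only exceptionally an `n`-th power in `ℚ`, this excludes points of order `27`
and `49`.
-/

set_option autoImplicit false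

noncomputable section

open WeierstrassCurve

namespace FA.Torsion

variable {K : Type*} [Field K]

/-- The three intersections of the line `y = μ x + ν` with `W` have abscissae `p, q, r`. -/
def LineCut (W : WeierstrassCurve K) (μ ν p q r : K) : Prop :=
  p + q + r = μ ^ 2 + W.a₁ * μ - W.a₂ ∧
    p * q + p * r + q * r = W.a₄ - 2 * μ * ν - W.a₁ * ν - W.a₃ * μ ∧
    p * q * r = ν ^ 2 + W.a₃ * ν - W.a₆

/-- The product over the intersections with one line of the equation of another line. -/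
theorem LineCut.prod_line {W : WeierstrassCurve K} {μ ν x₁ x₂ x₃ m k p q r : K}
    (h : LineCut W μ ν x₁ x₂ x₃) (h' : LineCut W m k p q r) :
    ((μ * x₁ + ν) - (m * x₁ + k)) * ((μ * x₂ + ν) - (m * x₂ + k)) *
        ((μ * x₃ + ν) - (m * x₃ + k)) =
      ((μ - m) * p + (ν - k)) * ((μ - m) * q + (ν - k)) * ((μ - m) * r + (ν - k)) := by
  obtain ⟨h1, h2, h3⟩ := h
  obtain ⟨g1, g2, g3⟩ := h'
  linear_combination (μ - m) ^ 3 * h3 + (μ - m) ^ 2 * (ν - k) * h2 + (μ - m) * (ν - k) ^ 2 * h1 -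
    (μ - m) ^ 3 * g3 - (μ - m) ^ 2 * (ν - k) * g2 - (μ - m) * (ν - k) ^ 2 * g1

/-- The product over the intersections with a line of the equation of a vertical line. -/
theorem LineCut.prod_vertical {W : WeierstrassCurve K} {μ ν x₁ x₂ x₃ x₀ y₀ : K}
    (h : LineCut W μ ν x₁ x₂ x₃) (h₀ : W.toAffine.Equation x₀ y₀) :
    (x₁ - x₀) * (x₂ - x₀) * (x₃ - x₀) =
      (μ * x₀ + ν - y₀) * (μ * x₀ + ν - W.toAffine.negY x₀ y₀) := by
  obtain ⟨h1, h2, h3⟩ := h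
  rw [Affine.equation_iff] at h₀
  simp only [Affine.negY]
  linear_combination h3 - x₀ * h2 + x₀ ^ 2 * h1 + h₀

variable [DecidableEq K] {W : WeierstrassCurve K}

/-- Three points with sum zero are cut out by a line. -/
theorem exists_line {x₁ y₁ x₂ y₂ x₃ y₃ : K} {h₁ : W.toAffine.Nonsingular x₁ y₁}
    {h₂ : W.toAffine.Nonsingular x₂ y₂} {h₃ : W.toAffine.Nonsingular x₃ y₃}
    (e : (Affine.Point.some x₁ y₁ h₁ + .some x₂ y₂ h₂ : W.toAffine.Point) = .some x₃ y₃ h₃) :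
    ∃ μ ν, y₁ = μ * x₁ + ν ∧ y₂ = μ * x₂ + ν ∧ W.toAffine.negY x₃ y₃ = μ * x₃ + ν ∧
      LineCut W μ ν x₁ x₂ x₃ := by
  have hxy : ¬(x₁ = x₂ ∧ y₁ = W.toAffine.negY x₂ y₂) := fun hh => by
    rw [Affine.Point.add_of_Y_eq hh.1 hh.2] at e
    exact Affine.Point.some_ne_zero h₃ e.symm
  rw [Affine.Point.add_some hxy, Affine.Point.some.injEq] at e
  obtain ⟨rfl, rfl⟩ := e
  have hp := Affine.addPolynomial_slope h₁.1 h₂.1 hxy
  rw [Affine.addPolynomial_eq, neg_inj, Cubic.prod_X_sub_C_eq, Cubic.toPoly_injective] at hp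
  obtain ⟨ℓ, hℓ⟩ : ∃ ℓ, W.toAffine.slope x₁ x₂ y₁ y₂ = ℓ := ⟨_, rfl⟩
  rw [hℓ] at hp ⊢
  simp only [Cubic.mk.injEq] at hp
  obtain ⟨-, e1, e2, e3⟩ := hp
  refine ⟨ℓ, y₁ - ℓ * x₁, by ring, ?_, ?_, ?_, ?_, ?_⟩
  · by_cases hx : x₁ = x₂
    · rw [← Affine.Y_eq_of_Y_ne h₁.1 h₂.1 hx fun hy => hxy ⟨hx, hy⟩, hx]
      ring
    · rw [← hℓ, Affine.slope_of_X_ne hx]
      field_simp [sub_ne_zero.mpr hx]
      ring
  · rw [Affine.addY, Affine.negY_negY, Affine.negAddY]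
    ring
  · linear_combination e1
  · linear_combination -e2
  · linear_combination e3

/-- **The chain**: `φ (k P) = φ (P) ^ k` up to `n`-th powers. -/
theorem val_nsmul {n : ℕ} {φ : K → K → K} {Good : K → K → Prop}
    (hline : ∀ {μ ν x₁ x₂ x₃ y₁ y₂ y₃ : K}, LineCut W μ ν x₁ x₂ x₃ → y₁ = μ * x₁ + ν →
      y₂ = μ * x₂ + ν → W.toAffine.negY x₃ y₃ = μ * x₃ + ν → W.toAffine.Equation x₁ y₁ →
      W.toAffine.Equation x₂ y₂ → W.toAffine.Equation x₃ y₃ → Good x₁ y₁ → Good x₂ y₂ →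
      Good x₃ y₃ → ∃ u, u ≠ 0 ∧ φ x₁ y₁ * φ x₂ y₂ * φ x₃ (W.toAffine.negY x₃ y₃) = u ^ n)
    (hneg : ∀ {x y : K}, W.toAffine.Equation x y → Good x y →
      ∃ u, u ≠ 0 ∧ φ x y * φ x (W.toAffine.negY x y) = u ^ n)
    {x₀ y₀ : K} {h₀ : W.toAffine.Nonsingular x₀ y₀} (m : ℕ)
    (hP : ∀ k, 1 ≤ k → k ≤ m → ∃ x y h,
      k • (Affine.Point.some x₀ y₀ h₀ : W.toAffine.Point) = .some x y h ∧ Good x y) :
    ∀ k, 1 ≤ k → k ≤ m → ∃ u, u ≠ 0 ∧ ∀ x y h,
      k • (Affine.Point.some x₀ y₀ h₀ : W.toAffine.Point) = .some x y h →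
        φ x y = φ x₀ y₀ ^ k * u ^ n := by
  intro k
  induction k with
  | zero => exact fun h => absurd h (by norm_num)
  | succ k ih =>
    intro _ hm
    rcases Nat.eq_zero_or_pos k with rfl | hk
    · refine ⟨1, one_ne_zero, fun x y h e => ?_⟩
      rw [zero_add, one_nsmul, Affine.Point.some.injEq] at e
      rw [← e.1, ← e.2, zero_add, pow_one, one_pow, mul_one]
    obtain ⟨v, hv0, hv⟩ := ih hk (Nat.le_of_succ_le hm)
    obtain ⟨x₁, y₁, h₁, e₁, g₁⟩ := hP k hk (Nat.le_of_succ_le hm)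
    obtain ⟨x₂, y₂, h₂, e₂, g₂⟩ := hP 1 le_rfl (le_trans (Nat.le_add_left 1 k) hm)
    obtain ⟨x₃, y₃, h₃, e₃, g₃⟩ := hP (k + 1) (Nat.le_add_left 1 k) hm
    obtain ⟨μ, ν, l₁, l₂, l₃, hc⟩ : ∃ μ ν, y₁ = μ * x₁ + ν ∧ y₂ = μ * x₂ + ν ∧
        W.toAffine.negY x₃ y₃ = μ * x₃ + ν ∧ LineCut W μ ν x₁ x₂ x₃ := by
      refine exists_line (h₁ := h₁) (h₂ := h₂) (h₃ := h₃) ?_
      rw [← e₁, ← e₂, ← e₃, add_nsmul]
    rw [one_nsmul, Affine.Point.some.injEq] at e₂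
    obtain ⟨u, hu0, hu⟩ := hline hc l₁ l₂ l₃ h₁.1 h₂.1 h₃.1 g₁ g₂ g₃
    obtain ⟨w, hw0, hw⟩ := hneg h₃.1 g₃
    have hne : φ x₃ (W.toAffine.negY x₃ y₃) ≠ 0 := fun h => by
      rw [h, mul_zero] at hw
      exact pow_ne_zero n hw0 hw.symm
    refine ⟨w * v / u, div_ne_zero (mul_ne_zero hw0 hv0) hu0, fun x y h e => ?_⟩
    rw [e₃, Affine.Point.some.injEq] at e
    rw [← e.1, ← e.2]
    have h1 := hv x₁ y₁ h₁ e₁
    rw [← e₂.1, ← e₂.2, h1] at hu
    apply mul_right_cancel₀ (pow_ne_zero n hu0)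
    rw [mul_assoc, ← mul_pow, div_mul_cancel₀ _ hu0, mul_pow]
    rw [← hw, ← hu, pow_succ]
    ring

/-- An integer with an exponent prime to `n` giving an `n`-th power is an `n`-th power. -/
theorem int_pow_of_pow_eq_pow {a A : ℤ} {i n : ℕ} (hn : n ≠ 0) (hin : i.Coprime n)
    (h : a ^ i = A ^ n) : ∃ c : ℤ, a = c ^ n := by
  obtain ⟨c, hc, -⟩ := (pow_eq_pow_iff_of_coprime (α := ℚ) (a := a) (b := A) hin).mp
    (by exact_mod_cast h)
  have hd : c.den = 1 := by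
    have := congrArg Rat.den hc
    rw [Rat.den_intCast, Rat.den_pow] at this
    exact (Nat.pow_eq_one.mp this.symm).resolve_right hn
  refine ⟨c.num, ?_⟩
  have := congrArg Rat.num hc
  rwa [Rat.num_intCast, Rat.num_pow] at this

/-- `f ^ i (f - 1)` is no `n`-th power when Fermat's equation of exponent `n` has no solution. -/
theorem no_rat_pow {i n : ℕ} (hn : Odd n) (hin : i.Coprime n)
    (hin' : (i + 1).Coprime n) (hflt : FermatLastTheoremFor n) {f z : ℚ} (hf0 : f ≠ 0)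
    (hf1 : f - 1 ≠ 0) : f ^ i * (f - 1) ≠ z ^ n := by
  intro h
  have hflt' : FermatLastTheoremWith ℤ n := fermatLastTheoremFor_iff_int.mp hflt
  obtain ⟨a, ha⟩ : ∃ a, f.num = a := ⟨_, rfl⟩
  obtain ⟨b, hb⟩ : ∃ b : ℤ, (f.den : ℤ) = b := ⟨_, rfl⟩
  have hb0 : 0 < b := by rw [← hb]; exact_mod_cast f.den_pos
  have hbq : (b : ℚ) ≠ 0 := by exact_mod_cast hb0.ne'
  have hab : IsCoprime a b := by
    rw [← ha, ← hb, Int.isCoprime_iff_nat_coprime, Int.natAbs_natCast]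
    exact f.reduced
  have hfab : f = (a : ℚ) / b := by
    rw [← ha, ← hb, Int.cast_natCast, Rat.num_div_den]
  have ha0 : a ≠ 0 := by rw [← ha]; exact Rat.num_ne_zero.mpr hf0
  have hab0 : a - b ≠ 0 := fun e => hf1 (by
    rw [hfab, sub_eq_zero.mp e, div_self hbq, sub_self])
  have hab' : IsCoprime (a - b) b := by
    simpa [sub_eq_add_neg] using hab.add_mul_right_left (-1)
  have hN : (z ^ n) = ((a ^ i * (a - b) : ℤ) : ℚ) / ((b ^ (i + 1) : ℤ) : ℚ) := by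
    rw [← h, hfab]
    push_cast
    rw [div_pow]
    field_simp
    ring
  have hco : (a ^ i * (a - b)).natAbs.Coprime (b ^ (i + 1)).natAbs :=
    Int.isCoprime_iff_nat_coprime.mp ((hab.pow_left.mul_left hab').pow_right)
  have hnum : z.num ^ n = a ^ i * (a - b) := by
    rw [← Rat.num_pow, hN, Rat.num_div_eq_of_coprime (pow_pos hb0 _) hco]
  have hden : b ^ (i + 1) = (z.den : ℤ) ^ n := by
    rw [← Nat.cast_pow, ← Rat.den_pow, hN, Rat.den_div_eq_of_coprime (pow_pos hb0 _) hco]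
  have hco' : IsCoprime (a ^ i) (a - b) := by
    refine IsCoprime.pow_left ?_
    simpa [sub_eq_neg_add] using hab.neg_right.add_mul_left_right 1
  obtain ⟨⟨A, hA⟩, B, hB⟩ := Int.eq_pow_of_mul_eq_pow_odd hco' hn hnum.symm
  obtain ⟨α, hα⟩ := int_pow_of_pow_eq_pow (Nat.pos_iff_ne_zero.mp hn.pos) hin hA
  obtain ⟨γ, hγ⟩ := int_pow_of_pow_eq_pow (Nat.pos_iff_ne_zero.mp hn.pos) hin' hden
  have hn0 : n ≠ 0 := by rintro rfl; simp at hn
  refine hflt' B γ α ?_ ?_ ?_ (by rw [← hB, ← hγ, ← hα]; ring)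
  · rintro rfl; exact hab0 (by rw [hB, zero_pow hn0])
  · rintro rfl; exact hb0.ne' (by rw [hγ, zero_pow hn0])
  · rintro rfl; exact ha0 (by rw [hα, zero_pow hn0])

end FA.Torsion

end
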