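import Fermat.Agent.Torsion.Tate
import Fermat.Agent.Torsion.PowerChain
import Mathlib.NumberTheory.FLT.Three

/-!
# No rational point of order `27`

Put `3 P`, of order `9`, at the origin of a Tate normal form: `b = r c`, `c = f ^ 2 (f - 1)`,
`r = f ^ 2 - f + 1`.  The point `(c, b - c)` is then a flex and its tangent is a function whose
values at collinear points multiply to cubes.  Its value at `3 P` is `(f (f - 1)) ^ 2`, so
`f (f - 1)` is a cube, against Fermat's theorem of exponent three.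
-/

set_option autoImplicit false

noncomputable section

open WeierstrassCurve
open FA.Thirteen (tateCurve add_eq_some eq_or_eq_neg_of_X_eq)

namespace FA.Torsion

/-- **No rational point of order `27`.** -/
theorem no_order_27 (E : WeierstrassCurve ℚ) [E.IsElliptic] (P : E.toAffine.Point) :
    addOrderOf P ≠ 27 := by
  intro hP
  have hk : ∀ k, ¬ 27 ∣ k → k • P ≠ 0 := fun k hk h =>
    hk (hP ▸ addOrderOf_dvd_iff_nsmul_eq_zero.mpr h)
  obtain ⟨b, c, h0, hE, e, he⟩ := exists_tate (3 • P)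
    (by rw [← mul_nsmul']; exact hk _ (by norm_num))
    (by rw [← mul_nsmul']; exact hk _ (by norm_num))
  obtain ⟨Q, hQ⟩ : ∃ Q, e.symm P = Q := ⟨_, rfl⟩
  have hQP : addOrderOf Q = 27 := by rw [← hQ, AddEquiv.addOrderOf_eq, hP]
  have hT : 3 • Q = Affine.Point.some 0 0 h0 := by
    rw [← hQ, ← map_nsmul, ← he, AddEquiv.symm_apply_apply]
  have hQ0 : ∀ k, ¬ 27 ∣ k → k • Q ≠ 0 := fun k hk h =>
    hk (hQP ▸ addOrderOf_dvd_iff_nsmul_eq_zero.mpr h)
  have h27 : 27 • Q = 0 := hQP ▸ addOrderOf_nsmul_eq_zero Q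
  have hmul : ∀ k, k • Affine.Point.some 0 0 h0 = (k * 3) • Q := fun k => by
    rw [← hT, mul_nsmul']
  obtain ⟨hN, eN⟩ := tate_neg (b := b) (c := c) (h0 := h0)
  obtain ⟨hT3, eT3⟩ := tate_three (b := b) (c := c) (h0 := h0)
  have hb := tate_b_ne_zero b c
  have hc : c ≠ 0 := fun hc => hQ0 12 (by norm_num) (by
    rw [← show 4 * 3 = 12 from rfl, ← hmul, succ_nsmul, eT3]
    simp only [hc, sub_zero, ← eN, neg_add_cancel])
  obtain ⟨r, hr⟩ : ∃ r, b / c = r := ⟨_, rfl⟩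
  have hbr : b = r * c := by rw [← hr, div_mul_cancel₀ _ hc]
  have hr0 : r ≠ 0 := fun h => hb (by rw [hbr, h, zero_mul])
  obtain ⟨hT4, eT4⟩ := tate_four (b := b) (c := c) (h0 := h0) hc
  simp only [hr] at eT4 hT4
  have hr1 : r - 1 ≠ 0 := fun h => by
    simp only [h, mul_zero] at eT4 hT4
    rcases eq_or_eq_neg_of_X_eq (h₁ := hT4) (h₂ := h0) with e' | e' <;> rw [← eT4] at e'
    · refine hQ0 9 (by norm_num) ?_
      rw [succ_nsmul, add_eq_right] at e'
      rwa [← show 3 * 3 = 9 from rfl, ← hmul]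
    · refine hQ0 15 (by norm_num) ?_
      rw [← show 5 * 3 = 15 from rfl, ← hmul, succ_nsmul, e', neg_add_cancel]
  obtain ⟨f, hf⟩ : ∃ f, c / (r - 1) = f := ⟨_, rfl⟩
  have hcf : c = f * (r - 1) := by rw [← hf, div_mul_cancel₀ _ hr1]
  obtain ⟨hT5, eT5⟩ := add_eq_some (W := tateCurve b c) (h₁ := hT4) (h₂ := h0)
    (ℓ := r * (f - 1)) (x₃ := r * f * (f - 1)) (y₃ := _) (mul_ne_zero hr0 hr1)
    (by rw [hcf]; ring)
    (by rw [hbr, hcf]; simp [tateCurve, Affine.addX]; ring)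
    rfl
  have hf5 : r * f * (f - 1) = r * (r - 1) := by
    have h9 : (4 + 1 : ℕ) • Affine.Point.some 0 0 h0 =
        -((4 : ℕ) • Affine.Point.some 0 0 h0) :=
      eq_neg_of_add_eq_zero_left (by rw [← add_nsmul, hmul]; exact h27)
    rw [succ_nsmul, eT4, eT5, Affine.Point.neg_some, Affine.Point.some.injEq] at h9
    exact h9.1
  have hrf : r = f ^ 2 - f + 1 := by
    apply mul_left_cancel₀ hr0
    linear_combination -hf5
  have hcf2 : c = f ^ 2 * (f - 1) := by rw [hcf, hrf]; ring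
  have hf0 : f ≠ 0 := fun h => hc (by rw [hcf2, h]; ring)
  have hf1 : f - 1 ≠ 0 := fun h => hc (by rw [hcf2, h]; ring)
  -- the tangent at the flex
  obtain ⟨m, hm⟩ : ∃ m, f ^ 2 - 1 = m := ⟨_, rfl⟩
  obtain ⟨k₀, hk₀⟩ : ∃ k₀, b - c - m * c = k₀ := ⟨_, rfl⟩
  have hcut : LineCut (tateCurve b c) m k₀ c c c := by
    refine ⟨?_, ?_, ?_⟩ <;>
    · simp only [tateCurve]
      simp only [← hk₀, ← hm, hbr, hrf, hcf2]
      ring
  let φ : ℚ → ℚ → ℚ := fun x y => y - (m * x + k₀)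
  have hsq : ∀ {x y : ℚ}, (tateCurve b c).toAffine.Equation x y →
      φ x y * φ x ((tateCurve b c).toAffine.negY x y) = (c - x) ^ 3 := by
    intro x y h
    obtain ⟨g1, g2, g3⟩ := hcut
    rw [Affine.equation_iff] at h
    simp only [tateCurve] at h g1 g2 g3
    simp only [φ, tateCurve, Affine.negY]
    linear_combination -h - x ^ 2 * g1 + x * g2 - g3
  have hgood : ∀ k, 1 ≤ k → k ≤ 3 → ∃ x y h,
      k • Q = Affine.Point.some (W' := (tateCurve b c).toAffine) x y h ∧ x ≠ c := by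
    intro k h1 h3
    rcases hh : k • Q with _ | ⟨x, y, h⟩
    · exact absurd hh (hQ0 k (by omega))
    refine ⟨x, y, h, rfl, ?_⟩
    rintro rfl
    rw [hmul] at eT3
    rcases eq_or_eq_neg_of_X_eq (h₁ := h) (h₂ := hT3) with e' | e' <;>
      rw [← eT3, ← hh] at e'
    · have := nsmul_eq_nsmul_iff_modEq.mp e'
      rw [hQP] at this
      unfold Nat.ModEq at this
      omega
    · exact hQ0 (k + 3 * 3) (by omega) (by rw [add_nsmul, e', neg_add_cancel])
  obtain ⟨x₀, y₀, hQ1, eQ, g₀⟩ := hgood 1 le_rfl (by norm_num)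
  rw [one_nsmul] at eQ
  obtain ⟨u, hu0, hu⟩ := val_nsmul (W := tateCurve b c) (n := 3) (φ := φ)
    (Good := fun x _ => x ≠ c) (h₀ := hQ1)
    (fun {μ ν x₁ x₂ x₃ y₁ y₂ y₃} hc' l₁ l₂ l₃ q₁ q₂ q₃ g₁ g₂ g₃ => by
      have hp : φ x₁ y₁ * φ x₂ y₂ * φ x₃ ((tateCurve b c).toAffine.negY x₃ y₃) =
          ((μ - m) * c + (ν - k₀)) ^ 3 := by
        simp only [φ, l₁, l₂, l₃]
        rw [hc'.prod_line hcut]
        ring
      have hne : ∀ {x y : ℚ}, (tateCurve b c).toAffine.Equation x y → x ≠ c → φ x y ≠ 0 :=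
        fun h g h' => sub_ne_zero.mpr (Ne.symm g) (eq_zero_of_pow_eq_zero
          (n := 3) (by rw [← hsq h, h', zero_mul]))
      refine ⟨_, fun h => ?_, hp⟩
      rw [h, zero_pow (by norm_num)] at hp
      exact mul_ne_zero (mul_ne_zero (hne q₁ g₁) (hne q₂ g₂))
        (hne ((Affine.equation_neg x₃ y₃).mpr q₃) g₃) hp)
    (fun {x y} h g => ⟨c - x, sub_ne_zero.mpr (Ne.symm g), hsq h⟩) 3
    (fun k h1 h3 => by rw [← eQ]; exact hgood k h1 h3) 3 (by norm_num) le_rfl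
  have hz := hu 0 0 h0 (by rw [← eQ, hT])
  have hval : φ 0 0 = (f * (f - 1)) ^ 2 := by
    simp only [φ]
    rw [← hk₀, ← hm, hbr, hrf, hcf2]
    ring
  rw [hval, ← mul_pow] at hz
  have hg : f * (f - 1) ≠ 0 := mul_ne_zero hf0 hf1
  refine no_rat_pow (i := 1) (n := 3) (by decide) (by norm_num) (by norm_num)
    fermatLastTheoremThree hf0 hf1 (z := f * (f - 1) / (φ x₀ y₀ * u)) ?_
  rw [pow_one, div_pow, ← hz]
  field_simp

end FA.Torsion

end
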