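import Fermat.Agent.Torsion.X35Eisenstein

/-!
# No integers with `X + Y + Z = 4 C` and `X Y Z = 7 C³`, `C ≠ 0`

This is the elliptic curve `35a`. A primitive solution gives `7x³ + y³ + z³ = 4xyz`, whose factor
in the third cyclotomic ring is a cube up to a unit, and that gives a smaller solution.
-/

set_option autoImplicit false

namespace FA.Torsion.X35

/-- The form `p² - pq + q²`. -/
def nm (p q : ℤ) : ℤ := p ^ 2 - p * q + q ^ 2

theorem nm_mod_five : ∀ a b : ZMod 5, a ^ 2 - a * b + b ^ 2 = 0 → a = 0 ∧ b = 0 := by decide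

theorem five_dvd_of_nm {p q : ℤ} (h : (5 : ℤ) ∣ nm p q) : (5 : ℤ) ∣ p ∧ (5 : ℤ) ∣ q := by
  have e := (ZMod.intCast_zmod_eq_zero_iff_dvd (nm p q) 5).2 h
  simp only [nm] at e
  push_cast at e
  obtain ⟨h1, h2⟩ := nm_mod_five _ _ e
  exact ⟨(ZMod.intCast_zmod_eq_zero_iff_dvd p 5).1 h1, (ZMod.intCast_zmod_eq_zero_iff_dvd q 5).1 h2⟩

theorem five_dvd_of_mul {A p q w : ℤ} (h : A * nm p q = (5 * w) ^ 3) (hA : ¬(5 : ℤ) ∣ A)
    (hp : (5 : ℤ) ∣ p) (hq : (5 : ℤ) ∣ q) : (5 : ℤ) ∣ w := by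
  have h5 : Prime (5 : ℤ) := Int.prime_iff_natAbs_prime.2 (by norm_num)
  obtain ⟨p, rfl⟩ := hp
  obtain ⟨q, rfl⟩ := hq
  have e : A * nm p q = 5 * w ^ 3 := by simp only [nm] at h ⊢; linarith
  have h1 : (5 : ℤ) ∣ nm p q := (h5.dvd_or_dvd ⟨w ^ 3, e⟩).resolve_left hA
  obtain ⟨⟨p, rfl⟩, ⟨q, rfl⟩⟩ := five_dvd_of_nm h1
  have e' : 5 * (A * nm p q) = w ^ 3 := by simp only [nm] at e ⊢; linarith
  exact h5.dvd_of_dvd_pow ⟨_, e'.symm⟩

/-- The two factors are coprime, so their roots are integers. -/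
theorem split {A p q x : ℤ} (hpq : IsCoprime p q) (h3 : ¬(3 : ℤ) ∣ p + q)
    (hA : ∀ l : ℤ, Prime l → l ∣ A → l ∣ x → l ∣ p + q ∨ l ∣ q) (h : A * nm p q = (5 * x) ^ 3) :
    ∃ c M : ℤ, A = (5 * c) ^ 3 ∧ nm p q = M ^ 3 ∧ x = c * M := by
  have hN5 : ¬(5 : ℤ) ∣ nm p q := fun h5 => by
    obtain ⟨h1, h2⟩ := five_dvd_of_nm h5
    have := hpq.isUnit_of_dvd' h1 h2
    norm_num [Int.isUnit_iff] at this
  have hco : IsCoprime A (nm p q) := by
    refine isCoprime_of_prime_dvd ?_ fun l hl hlA hlN => ?_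
    · rintro ⟨-, h0⟩
      exact hN5 (h0 ▸ dvd_zero _)
    have h5x : l ∣ 5 * x := hl.dvd_of_dvd_pow (h ▸ dvd_mul_of_dvd_left hlA _)
    have hlx : l ∣ x := (hl.dvd_or_dvd h5x).resolve_left fun hl5 => hN5 <| by
      have h5 : Prime (5 : ℤ) := Int.prime_iff_natAbs_prime.2 (by norm_num)
      exact (hl.associated_of_dvd h5 hl5).symm.dvd.trans hlN
    have hs : l ∣ p + q := (hA l hl hlA hlx).elim id fun hlq => by
      have : l ∣ p ^ 2 := by
        have e : p ^ 2 = nm p q + q * (p - q) := by simp only [nm]; ring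
        rw [e]; exact dvd_add hlN (dvd_mul_of_dvd_left hlq _)
      exact dvd_add (hl.dvd_of_dvd_pow this) hlq
    have h3pq : l ∣ 3 * (p * q) := by
      have e : 3 * (p * q) = (p + q) * (p + q) - nm p q := by simp only [nm]; ring
      rw [e]; exact dvd_sub (dvd_mul_of_dvd_left hs _) hlN
    rcases hl.dvd_or_dvd h3pq with h' | h'
    · exact h3 ((hl.associated_of_dvd Int.prime_three h').symm.dvd.trans hs)
    rcases hl.dvd_or_dvd h' with h' | h'
    · exact hl.not_isUnit (hpq.isUnit_of_dvd' h' (by simpa using dvd_sub hs h'))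
    · exact hl.not_isUnit (hpq.isUnit_of_dvd' (by simpa using dvd_sub hs h') h')
  have cube : ∀ {a b : ℤ}, IsCoprime a b → a * b = (5 * x) ^ 3 → ∃ d, a = d ^ 3 := fun hab he => by
    obtain ⟨d, hd⟩ := exists_associated_pow_of_mul_eq_pow' hab he
    rcases Int.associated_iff.1 hd with e | e
    · exact ⟨d, e.symm⟩
    · exact ⟨-d, by rw [Odd.neg_pow (by decide), e, neg_neg]⟩
  obtain ⟨α, hα⟩ := cube hco h
  obtain ⟨M, hM⟩ := cube hco.symm (by rw [mul_comm]; exact h)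
  have e : α * M = 5 * x := Odd.pow_injective (by decide : Odd 3) (by
    show (α * M) ^ 3 = (5 * x) ^ 3
    rw [mul_pow, ← hα, ← hM, h])
  have h5α : (5 : ℤ) ∣ α :=
    ((Int.prime_iff_natAbs_prime.2 (by norm_num) : Prime (5 : ℤ)).dvd_or_dvd ⟨x, e⟩).resolve_right
      fun hM5 => hN5 (hM ▸ dvd_pow hM5 (by norm_num))
  obtain ⟨c, rfl⟩ := h5α
  exact ⟨c, M, hα, hM, by linarith⟩

theorem natAbs_le_mul {c M : ℤ} (hM : M ≠ 0) : c.natAbs ≤ (c * M).natAbs := by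
  rw [Int.natAbs_mul]
  exact Nat.le_mul_of_pos_right _ (Int.natAbs_pos.2 hM)

/-- The descent step when `3 ∤ x`. -/
theorem step_one {x y z : ℤ} (hxy : IsCoprime x y) (hxz : IsCoprime x z) (hyz : IsCoprime y z)
    (hy : y ≠ 0) (hz : z ≠ 0) (he : 7 * x ^ 3 + y ^ 3 + z ^ 3 = 4 * (x * y * z)) (hx : x ≠ 0)
    (h3 : ¬(3 : ℤ) ∣ x) :
    ∃ X Y Z C : ℤ, C ≠ 0 ∧ C.natAbs < (x * y * z).natAbs ∧ X + Y + Z = 4 * C ∧
      X * Y * Z = 7 * C ^ 3 := by
  set p := 3 * y - 4 * x with hp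
  set q := 3 * z - 4 * x with hq
  have hAN : (3 * y + 3 * z + 4 * x) * nm p q = (5 * -x) ^ 3 := by
    simp only [nm, hp, hq]; linear_combination 27 * he
  have hs : ¬(3 : ℤ) ∣ p + q := fun hd => h3 <| by
    have e : x = (p + q) + 3 * (3 * x - y - z) := by rw [hp, hq]; ring
    rw [e]; exact dvd_add hd (dvd_mul_right _ _)
  have hpq : IsCoprime p q := by
    refine isCoprime_of_prime_dvd ?_ fun l hl hlp hlq => ?_
    · rintro ⟨h1, h2⟩
      exact hs (by rw [h1, h2]; simp)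
    have hl3 : ¬l ∣ 3 := fun h =>
      hs ((hl.associated_of_dvd Int.prime_three h).symm.dvd.trans (dvd_add hlp hlq))
    have hxl : ¬l ∣ x := fun hlx => by
      have : l ∣ 3 * y := by
        have := dvd_add hlp (dvd_mul_of_dvd_right hlx 4)
        rwa [hp, sub_add_cancel] at this
      exact hl.not_isUnit (hxy.isUnit_of_dvd' hlx ((hl.dvd_or_dvd this).resolve_left hl3))
    have h5x : l ∣ 5 * -x := hl.dvd_of_dvd_pow (n := 3) (hAN ▸ dvd_mul_of_dvd_right (by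
      simp only [nm, sq]
      exact dvd_add (dvd_sub (dvd_mul_of_dvd_left hlp _) (dvd_mul_of_dvd_left hlp _))
        (dvd_mul_of_dvd_left hlq _)) _)
    have h5 : Prime (5 : ℤ) := Int.prime_iff_natAbs_prime.2 (by norm_num)
    have hl5 : Associated l 5 := hl.associated_of_dvd h5
      ((hl.dvd_or_dvd h5x).resolve_right fun h => hxl (dvd_neg.1 h))
    have hA : ¬(5 : ℤ) ∣ 3 * y + 3 * z + 4 * x := fun h => hxl <| by
      have e : 12 * x = (3 * y + 3 * z + 4 * x) - p - q := by rw [hp, hq]; ring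
      have : l ∣ 12 * x := by rw [e]; exact dvd_sub (dvd_sub (hl5.dvd.trans h) hlp) hlq
      refine (hl.dvd_or_dvd this).resolve_left fun h12 => ?_
      have := hl5.symm.dvd.trans h12
      norm_num at this
    exact hxl (dvd_neg.1 (hl5.dvd.trans
      (five_dvd_of_mul hAN hA (hl5.symm.dvd.trans hlp) (hl5.symm.dvd.trans hlq))))
  obtain ⟨c, M, hA, hM, hxc⟩ := split (x := -x) hpq hs (fun l _ hlA hlx => by
    have e : p + q = (3 * y + 3 * z + 4 * x) + 12 * -x := by rw [hp, hq]; ring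
    rw [e]; exact Or.inl (dvd_add hlA (dvd_mul_of_dvd_right hlx _))) hAN
  obtain ⟨m, n, a, b, ha, hb, hMn, hcase⟩ := exists_cube hpq hs hM
  have hb3 : (3 : ℤ) ∣ b := hb ▸ dvd_mul_right _ _
  have hcase' : p = b - a ∧ q = -a := by
    have h12 : (3 : ℤ) ∣ p - q := ⟨y - z, by rw [hp, hq]; ring⟩
    rcases hcase with ⟨e1, e2⟩ | ⟨e1, e2⟩ | h
    · refine absurd ?_ hs
      rw [e2] at h12 ⊢
      exact dvd_add (by simpa using dvd_add h12 hb3) hb3
    · refine absurd ?_ hs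
      have : (3 : ℤ) ∣ a := by
        rw [e1, e2] at h12
        have e' : a = -(-b - (a - b)) := by ring
        rw [e']; exact dvd_neg.2 h12
      rw [e1, e2]; exact dvd_add (dvd_neg.2 hb3) (dvd_sub this hb3)
    · exact h
  have hc0 : c ≠ 0 := fun h => hx (by rw [h, zero_mul] at hxc; linarith)
  have hM0 : M ≠ 0 := fun h => hx (by rw [h, mul_zero] at hxc; linarith)
  have hrel : 125 * c ^ 3 + 12 * c * M + 2 * a - b = 0 := by
    obtain ⟨e1, e2⟩ := hcase'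
    rw [hp] at e1; rw [hq] at e2
    linear_combination e1 + e2 - hA - 12 * hxc
  subst hMn ha hb
  obtain ⟨X, hX⟩ : ∃ X, X = n - 2 * m + 4 * c := ⟨_, rfl⟩
  obtain ⟨Y, hY⟩ : ∃ Y, Y = m + n + 4 * c := ⟨_, rfl⟩
  obtain ⟨Z, hZ⟩ : ∃ Z, Z = m - 2 * n + 4 * c := ⟨_, rfl⟩
  have hprod : X * Y * Z = 189 * c ^ 3 := by
    rw [hX, hY, hZ]; linear_combination -hrel
  have h3XY : (3 : ℤ) ∣ Y - X := ⟨m, by rw [hX, hY]; ring⟩
  have h3ZY : (3 : ℤ) ∣ Y - Z := ⟨n, by rw [hZ, hY]; ring⟩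
  have h3Y : (3 : ℤ) ∣ Y := by
    rcases Int.prime_three.dvd_or_dvd (show (3 : ℤ) ∣ X * Y * Z from
      ⟨63 * c ^ 3, by rw [hprod]; ring⟩) with h | h
    · rcases Int.prime_three.dvd_or_dvd h with h | h
      · simpa using dvd_add h3XY h
      · exact h
    · simpa using dvd_add h3ZY h
  obtain ⟨X', hX'⟩ : (3 : ℤ) ∣ X := by simpa using dvd_sub h3Y h3XY
  obtain ⟨Z', hZ'⟩ : (3 : ℤ) ∣ Z := by simpa using dvd_sub h3Y h3ZY
  obtain ⟨Y', hY'⟩ := h3Y
  refine ⟨X', Y', Z', c, hc0, ?_, ?_, ?_⟩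
  · have h1 : c.natAbs ≤ x.natAbs := by
      have := natAbs_le_mul (c := c) hM0
      rwa [← hxc, Int.natAbs_neg] at this
    refine lt_of_le_of_ne (h1.trans ?_) fun heq => ?_
    · rw [Int.natAbs_mul, Int.natAbs_mul, mul_assoc]
      exact Nat.le_mul_of_pos_right _
        (Nat.mul_pos (Int.natAbs_pos.2 hy) (Int.natAbs_pos.2 hz))
    · rw [Int.natAbs_mul, Int.natAbs_mul, mul_assoc] at heq
      have h2 : y.natAbs * z.natAbs ≤ 1 := Nat.le_of_mul_le_mul_left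
        (by rw [mul_one, ← heq]; exact h1) (Int.natAbs_pos.2 hx)
      have hy1 : y.natAbs = 1 := by
        have := Int.natAbs_pos.2 hy; have := Int.natAbs_pos.2 hz; nlinarith
      have hz1 : z.natAbs = 1 := by
        have := Int.natAbs_pos.2 hy; have := Int.natAbs_pos.2 hz; nlinarith
      rcases Int.natAbs_eq_iff.1 hy1 with rfl | rfl <;>
        rcases Int.natAbs_eq_iff.1 hz1 with rfl | rfl <;>
        norm_num at he <;>
        rcases lt_or_gt_of_ne hx with hlt | hgt <;>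
        first
          | nlinarith [mul_nonneg_of_nonpos_of_nonpos hlt.le (show x + 1 ≤ 0 by omega),
              mul_self_nonneg (x + 1)]
          | nlinarith [mul_nonneg hgt.le (show 0 ≤ x - 1 by omega), mul_self_nonneg (x - 1)]
  · linarith [hX, hY, hZ, hX', hY', hZ']
  · rw [hX', hY', hZ'] at hprod; linarith

/-- The descent step when `3 ∣ x`. -/
theorem step_three {x y z : ℤ} (hxy : IsCoprime x y) (hxz : IsCoprime x z)
    (hy : y ≠ 0) (hz : z ≠ 0) (he : 7 * x ^ 3 + y ^ 3 + z ^ 3 = 4 * (x * y * z)) (hx : x ≠ 0)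
    (h3 : (3 : ℤ) ∣ x) :
    ∃ X Y Z C : ℤ, C ≠ 0 ∧ C.natAbs < (x * y * z).natAbs ∧ X + Y + Z = 4 * C ∧
      X * Y * Z = 7 * C ^ 3 := by
  have h3y : ¬(3 : ℤ) ∣ y := fun h => Int.prime_three.not_isUnit (hxy.isUnit_of_dvd' h3 h)
  have h3z : ¬(3 : ℤ) ∣ z := fun h => Int.prime_three.not_isUnit (hxz.isUnit_of_dvd' h3 h)
  obtain ⟨x', rfl⟩ := h3
  have h3yz : (3 : ℤ) ∣ y + z := Int.prime_three.dvd_of_dvd_pow (n := 3)
    ⟨-63 * x' ^ 3 + 4 * x' * y * z + y * z * (y + z), by linear_combination he⟩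
  obtain ⟨t, ht⟩ := h3yz
  obtain rfl : z = 3 * t - y := by linarith
  obtain ⟨w, rfl⟩ : (3 : ℤ) ∣ x' := by
    have h : (3 : ℤ) ∣ 4 * (x' * (y * (3 * t - y))) :=
      ⟨3 * t ^ 3 - 3 * t ^ 2 * y + t * y ^ 2 + 21 * x' ^ 3, by nlinarith⟩
    rcases Int.prime_three.dvd_or_dvd h with h | h
    · norm_num at h
    rcases Int.prime_three.dvd_or_dvd h with h | h
    · exact h
    rcases Int.prime_three.dvd_or_dvd h with h | h
    · exact absurd h h3y
    · exact absurd h h3z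
  have h3t : (3 : ℤ) ∣ t + 4 * w := by
    have h : (3 : ℤ) ∣ (t + 4 * w) * (y * y) :=
      ⟨4 * w * t * y - t ^ 3 + t ^ 2 * y - 189 * w ^ 3, by nlinarith⟩
    rcases Int.prime_three.dvd_or_dvd h with h | h
    · exact h
    · rcases Int.prime_three.dvd_or_dvd h with h | h <;> exact absurd h h3y
  obtain ⟨A, hA3⟩ := h3t
  set e := y - t - 4 * w with hedef
  set f := t - 8 * w with hfdef
  have hAN : A * nm e f = (5 * -w) ^ 3 := by
    refine mul_left_cancel₀ (show (27 : ℤ) ≠ 0 by norm_num) ?_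
    simp only [nm, hedef, hfdef]
    linear_combination he - 9 * ((y - t - 4 * w) ^ 2 - (y - t - 4 * w) * (t - 8 * w) +
      (t - 8 * w) ^ 2) * hA3
  have hf3 : (3 : ℤ) ∣ f := ⟨A - 4 * w, by rw [hfdef]; linarith⟩
  have he3 : ¬(3 : ℤ) ∣ e := fun h => h3y <| by
    have e' : y = e + 3 * A := by rw [hedef]; linarith
    rw [e']; exact dvd_add h (dvd_mul_right _ _)
  have hs : ¬(3 : ℤ) ∣ e + f := fun h => he3 (by simpa using dvd_sub h hf3)
  have hef : IsCoprime e f := by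
    refine isCoprime_of_prime_dvd ?_ fun l hl hle hlf => ?_
    · rintro ⟨h1, -⟩
      exact he3 (h1 ▸ dvd_zero _)
    have hl3 : ¬l ∣ 3 := fun h =>
      he3 ((hl.associated_of_dvd Int.prime_three h).symm.dvd.trans hle)
    have hwl : ¬l ∣ w := fun hlw => by
      have : l ∣ y := by
        have e' : y = e + f + 12 * w := by rw [hedef, hfdef]; ring
        rw [e']; exact dvd_add (dvd_add hle hlf) (dvd_mul_of_dvd_right hlw _)
      exact hl.not_isUnit (hxy.isUnit_of_dvd'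
        (dvd_mul_of_dvd_right (dvd_mul_of_dvd_right hlw 3) 3) this)
    have h5w : l ∣ 5 * -w := hl.dvd_of_dvd_pow (n := 3) (hAN ▸ dvd_mul_of_dvd_right (by
      simp only [nm, sq]
      exact dvd_add (dvd_sub (dvd_mul_of_dvd_left hle _) (dvd_mul_of_dvd_left hle _))
        (dvd_mul_of_dvd_left hlf _)) _)
    have h5 : Prime (5 : ℤ) := Int.prime_iff_natAbs_prime.2 (by norm_num)
    have hl5 : Associated l 5 := hl.associated_of_dvd h5
      ((hl.dvd_or_dvd h5w).resolve_right fun h => hwl (dvd_neg.1 h))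
    have hA : ¬(5 : ℤ) ∣ A := fun h => hwl <| by
      have e' : 12 * w = 3 * A - f := by rw [hfdef]; linarith
      have : l ∣ 12 * w := by rw [e']; exact dvd_sub (dvd_mul_of_dvd_right (hl5.dvd.trans h) _) hlf
      refine (hl.dvd_or_dvd this).resolve_left fun h12 => ?_
      have := hl5.symm.dvd.trans h12
      norm_num at this
    exact hwl (dvd_neg.1 (hl5.dvd.trans
      (five_dvd_of_mul hAN hA (hl5.symm.dvd.trans hle) (hl5.symm.dvd.trans hlf))))
  obtain ⟨c, M, hA, hM, hwc⟩ := split (x := -w) hef hs (fun l _ hlA hlw => Or.inr (by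
    have e' : f = 3 * A + 12 * -w := by rw [hfdef]; linarith
    rw [e']; exact dvd_add (dvd_mul_of_dvd_right hlA _) (dvd_mul_of_dvd_right hlw _))) hAN
  obtain ⟨m, n, a, b, ha, hb, hMn, hcase⟩ := exists_cube hef hs hM
  have hb3 : (3 : ℤ) ∣ b := hb ▸ dvd_mul_right _ _
  have hcase' : e = a ∧ f = b := by
    rcases hcase with h | ⟨e1, -⟩ | ⟨e1, e2⟩
    · exact h
    · exact absurd (e1 ▸ dvd_neg.2 hb3) he3
    · refine absurd ?_ he3
      rw [e2] at hf3; rw [e1]; exact dvd_sub hb3 (dvd_neg.1 hf3)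
  have hw0 : w ≠ 0 := fun h => hx (by rw [h]; ring)
  have hc0 : c ≠ 0 := fun h => hw0 (by rw [h, zero_mul] at hwc; linarith)
  have hM0 : M ≠ 0 := fun h => hw0 (by rw [h, mul_zero] at hwc; linarith)
  have hrel : 125 * c ^ 3 + 4 * c * M - m * n * (m - n) = 0 := by
    obtain ⟨-, e2⟩ := hcase'
    rw [hfdef, hb] at e2
    refine mul_left_cancel₀ (show (3 : ℤ) ≠ 0 by norm_num) ?_
    linear_combination e2 - 3 * hA - 12 * hwc - hA3
  subst hMn
  refine ⟨m + 4 * c, -n + 4 * c, n - m + 4 * c, 3 * c, by omega, ?_, by ring, by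
    linear_combination -hrel⟩
  have h1 : c.natAbs ≤ w.natAbs := by
    have := natAbs_le_mul (c := c) hM0
    rwa [← hwc, Int.natAbs_neg] at this
  have h2 : 0 < w.natAbs := Int.natAbs_pos.2 hw0
  have h3 : 0 < y.natAbs * (3 * t - y).natAbs :=
    Nat.mul_pos (Int.natAbs_pos.2 hy) (Int.natAbs_pos.2 hz)
  simp only [Int.natAbs_mul, mul_assoc]
  norm_num
  nlinarith

/-- No nonzero `C` has `X + Y + Z = 4 C` and `X Y Z = 7 C³`. -/
theorem no_triple : ∀ (N : ℕ) (X Y Z C : ℤ), C.natAbs = N → X + Y + Z = 4 * C →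
    X * Y * Z = 7 * C ^ 3 → C = 0 := by
  intro N
  induction N using Nat.strong_induction_on with
  | _ N ih => ?_
  intro X Y Z C hN hs hp
  by_contra hC
  have h7 : Prime (7 : ℤ) := Int.prime_iff_natAbs_prime.2 (by norm_num)
  have cop : ∀ U V W : ℤ, U + V + W = 4 * C → U * V * W = 7 * C ^ 3 → IsCoprime U V := by
    intro U V W hs' hp'
    refine isCoprime_of_prime_dvd (fun ⟨hU, hV⟩ => hC ?_) fun l hl ⟨U', hU⟩ ⟨V', hV⟩ => ?_
    · rw [hU, zero_mul, zero_mul] at hp'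
      simpa using hp'.symm
    have hlC : l ∣ C := by
      have h : l ∣ 7 * C ^ 3 := hp' ▸ ⟨U' * V * W, by rw [hU]; ring⟩
      rcases hl.dvd_or_dvd h with h | h
      · have hl7 : Associated l 7 := hl.associated_of_dvd h7 h
        have h2 : (7 : ℤ) * 7 ∣ 7 * C ^ 3 :=
          (mul_dvd_mul hl7.symm.dvd hl7.symm.dvd).trans (hp' ▸ ⟨U' * V' * W, by rw [hU, hV]; ring⟩)
        exact hl7.dvd.trans (h7.dvd_of_dvd_pow ((mul_dvd_mul_iff_left (by norm_num)).1 h2))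
      · exact hl.dvd_of_dvd_pow h
    obtain ⟨C', rfl⟩ := hlC
    have hlW : W = l * (4 * C' - U' - V') := by rw [hU, hV] at hs'; linarith
    have hl0 := hl.ne_zero
    have hC' : C' ≠ 0 := fun h => hC (by rw [h, mul_zero])
    refine hC' (ih C'.natAbs ?_ U' V' (4 * C' - U' - V') C' rfl (by ring) ?_)
    · have hl2 : 2 ≤ l.natAbs := (Int.prime_iff_natAbs_prime.1 hl).two_le
      rw [← hN, Int.natAbs_mul]
      have := Int.natAbs_pos.2 hC'
      nlinarith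
    · rw [hU, hV, hlW] at hp'
      refine mul_left_cancel₀ (pow_ne_zero 3 hl0) ?_
      linear_combination hp'
  obtain ⟨U, V, W, hs', hp', h7U⟩ :
      ∃ U V W : ℤ, U + V + W = 4 * C ∧ U * V * W = 7 * C ^ 3 ∧ (7 : ℤ) ∣ U := by
    rcases h7.dvd_or_dvd (show (7 : ℤ) ∣ X * Y * Z from ⟨C ^ 3, hp⟩) with h | h
    · rcases h7.dvd_or_dvd h with h | h
      · exact ⟨X, Y, Z, hs, hp, h⟩
      · exact ⟨Y, X, Z, by linarith, by linarith, h⟩
    · exact ⟨Z, Y, X, by linarith, by linarith, h⟩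
  have hUV := cop U V W hs' hp'
  have hUW := cop U W V (by linarith) (by linarith)
  have hVW := cop V W U (by linarith) (by linarith)
  obtain ⟨U', rfl⟩ := h7U
  have hU : IsCoprime U' V := hUV.of_mul_left_right
  have hU' : IsCoprime U' W := hUW.of_mul_left_right
  have hp3 : U' * V * W = C ^ 3 := by linarith
  have cube : ∀ {a b : ℤ}, IsCoprime a b → a * b = C ^ 3 → ∃ d, a = d ^ 3 := fun hab he => by
    obtain ⟨d, hd⟩ := exists_associated_pow_of_mul_eq_pow' hab he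
    rcases Int.associated_iff.1 hd with e | e
    · exact ⟨d, e.symm⟩
    · exact ⟨-d, by rw [Odd.neg_pow (by decide), e, neg_neg]⟩
  obtain ⟨x, rfl⟩ := cube (hU.mul_right hU') (by linarith)
  obtain ⟨y, rfl⟩ := cube (hU.symm.mul_right hVW) (by linarith)
  obtain ⟨z, rfl⟩ := cube (hU'.symm.mul_right hVW.symm) (by linarith)
  have hCe : C = x * y * z := Odd.pow_injective (by decide : Odd 3) (by
    show C ^ 3 = (x * y * z) ^ 3
    linear_combination -hp3)
  subst hCe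
  obtain ⟨⟨hx, hy⟩, hz⟩ : (x ≠ 0 ∧ y ≠ 0) ∧ z ≠ 0 := by simpa [mul_ne_zero_iff] using hC
  have hxy : IsCoprime x y := (IsCoprime.pow_iff (by norm_num) (by norm_num)).1 hU
  have hxz : IsCoprime x z := (IsCoprime.pow_iff (by norm_num) (by norm_num)).1 hU'
  have hyz : IsCoprime y z := (IsCoprime.pow_iff (by norm_num) (by norm_num)).1 hVW
  have he : 7 * x ^ 3 + y ^ 3 + z ^ 3 = 4 * (x * y * z) := hs'
  obtain ⟨X₁, Y₁, Z₁, C₁, hC₁, hlt, hs₁, hp₁⟩ : ∃ X Y Z C₁ : ℤ, C₁ ≠ 0 ∧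
      C₁.natAbs < (x * y * z).natAbs ∧ X + Y + Z = 4 * C₁ ∧ X * Y * Z = 7 * C₁ ^ 3 := by
    by_cases h3 : (3 : ℤ) ∣ x
    · exact step_three hxy hxz hy hz he hx h3
    · exact step_one hxy hxz hyz hy hz he hx h3
  exact hC₁ (ih C₁.natAbs (hN ▸ hlt) X₁ Y₁ Z₁ C₁ rfl hs₁ hp₁)

/-- Over `ℚ`: `X + Y + Z = 4 C` and `X Y Z = 7 C³` force `C = 0`. -/
theorem no_triple_rat {X Y Z C : ℚ} (hs : X + Y + Z = 4 * C) (hp : X * Y * Z = 7 * C ^ 3) :
    C = 0 := by
  set D : ℤ := (X.den : ℤ) * Y.den * Z.den * C.den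
  obtain ⟨x, hx⟩ : ∃ x : ℤ, (x : ℚ) = X * D :=
    ⟨X.num * Y.den * Z.den * C.den, by push_cast [D]; rw [← Rat.mul_den_eq_num]; ring⟩
  obtain ⟨y, hy⟩ : ∃ y : ℤ, (y : ℚ) = Y * D :=
    ⟨Y.num * X.den * Z.den * C.den, by push_cast [D]; rw [← Rat.mul_den_eq_num]; ring⟩
  obtain ⟨z, hz⟩ : ∃ z : ℤ, (z : ℚ) = Z * D :=
    ⟨Z.num * X.den * Y.den * C.den, by push_cast [D]; rw [← Rat.mul_den_eq_num]; ring⟩
  obtain ⟨c, hc⟩ : ∃ c : ℤ, (c : ℚ) = C * D :=
    ⟨C.num * X.den * Y.den * Z.den, by push_cast [D]; rw [← Rat.mul_den_eq_num]; ring⟩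
  have h1 : x + y + z = 4 * c := by
    have : ((x + y + z : ℤ) : ℚ) = ((4 * c : ℤ) : ℚ) := by
      push_cast; rw [hx, hy, hz, hc]; linear_combination (D : ℚ) * hs
    exact_mod_cast this
  have h2 : x * y * z = 7 * c ^ 3 := by
    have : ((x * y * z : ℤ) : ℚ) = ((7 * c ^ 3 : ℤ) : ℚ) := by
      push_cast; rw [hx, hy, hz, hc]; linear_combination (D : ℚ) ^ 3 * hp
    exact_mod_cast this
  have h0 := no_triple c.natAbs x y z c rfl h1 h2
  rw [h0, Int.cast_zero, eq_comm, mul_eq_zero] at hc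
  rcases hc with h | h
  · exact h
  · exact absurd h (by simp [D, X.den_ne_zero, Y.den_ne_zero, Z.den_ne_zero, C.den_ne_zero])

end FA.Torsion.X35
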