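import Mathlib

/-!
# The fibre product of the `j`-maps of `X₀(5)` and `X₀(7)`

A rational point `(a, b)` off the axes lifts to a point of
`Y² = (x² + x - 1)(x⁶ - 5x⁵ - 9x³ - 5x - 1)`, the model of `X₀(35)`: the function `x` is
`fibR1 / fibP`, and `fibR k` represents `x ^ k` with the same denominator modulo the equation.
-/

set_option autoImplicit false

namespace FA.Torsion.X35

/-- The equation of the fibre product. -/
def fibEq (a b : ℚ) : ℚ :=
  (a ^ 2 + 250 * a + 3125) ^ 3 * b ^ 7 - (b ^ 2 + 13 * b + 49) * (b ^ 2 + 245 * b + 2401) ^ 3 * a ^ 5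

/-- The common denominator. -/
def fibP (a b : ℚ) : ℚ :=
  2401 * (a ^ 2 + 250 * a + 3125) ^ 2 * (a ^ 2 - 500 * a - 15625) * a ^ 3 * b ^ 4

/-- `x ^ 1` times the denominator. -/
def fibR1 (a b : ℚ) : ℚ :=
  (((1081350562578125) * a ^ 6 + (129762067509375) * a ^ 7 + (692064360050) * a ^ 8) * b ^ 0) +
  (((397230818906250) * a ^ 6 + (52257921065000) * a ^ 7 + (290949506470) * a ^ 8) * b ^ 1) +
  (((51793133984375) * a ^ 6 + (7937410376875) * a ^ 7 + (46925480140) * a ^ 8) * b ^ 2) +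
  (((-143614501953125) * a ^ 4 + (-21829404296875) * a ^ 5 + (1544143125000) * a ^ 6 +
  (518464436875) * a ^ 7 + (3427115370) * a ^ 8 + (117649) * a ^ 9) * b ^ 3) + (((-14654541015625)
  * a ^ 4 + (-2227490234375) * a ^ 5 + (-75218828125) * a ^ 6 + (12996913125) * a ^ 7 +
  (104935705) * a ^ 8 + (12005) * a ^ 9) * b ^ 4) + (((121550625) * a ^ 7 + (972405) * a ^ 8) * b
  ^ 5) + (((-19073486328125) * a ^ 2 + (-4730224609375) * a ^ 3 + (-421142578125) * a ^ 4 +
  (-15771484375) * a ^ 5 + (-224609375) * a ^ 6 + (-985625) * a ^ 7 + (-635) * a ^ 8 + (-5) * a ^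
  9) * b ^ 6) + (((625) * a ^ 7 + (5) * a ^ 8) * b ^ 7)

/-- `x ^ 2` times the denominator. -/
def fibR2 (a b : ℚ) : ℚ :=
  (((-86508045006250) * a ^ 7 + (-3321908928240) * a ^ 8) * b ^ 0) + (((-22068378828125) * a ^ 6 +
  (-42724381411250) * a ^ 7 + (-1580449018155) * a ^ 8) * b ^ 1) + (((56296884765625) * a ^ 5 +
  (900750156250) * a ^ 6 + (-7840129360000) * a ^ 7 + (-291353042540) * a ^ 8 + (5764801) * a ^ 9)
  * b ^ 2) + (((-143614501953125) * a ^ 4 + (-11489160156250) * a ^ 5 + (-229783203125) * a ^ 6 +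
  (-667069830000) * a ^ 7 + (-25005118460) * a ^ 8 + (1176490) * a ^ 9) * b ^ 3) +
  (((-23447265625000) * a ^ 4 + (-3165380859375) * a ^ 5 + (-119674843750) * a ^ 6 +
  (-25318545000) * a ^ 7 + (-927890460) * a ^ 8 + (60025) * a ^ 9) * b ^ 4) + (((-14953613281250)
  * a ^ 3 + (-3588867187500) * a ^ 4 + (-301464843750) * a ^ 5 + (-10140703125) * a ^ 6 +
  (-354576250) * a ^ 7 + (-9905105) * a ^ 8 + (-490) * a ^ 9) * b ^ 5) + (((38146972656250) * a ^
  2 + (10681152343750) * a ^ 3 + (1135253906250) * a ^ 4 + (56152343750) * a ^ 5 + (1261718750) *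
  a ^ 6 + (9846250) * a ^ 7 + (1840) * a ^ 8 + (50) * a ^ 9) * b ^ 6) + (((-1250) * a ^ 7 + (-50)
  * a ^ 8) * b ^ 7)

/-- `x ^ 3` times the denominator. -/
def fibR3 (a b : ℚ) : ℚ :=
  (((-43254022503125) * a ^ 7 + (-1038096540075) * a ^ 8) * b ^ 0) + (((110341894140625) * a ^ 6 +
  (-10769368868125) * a ^ 7 + (-385578714885) * a ^ 8 + (282475249) * a ^ 9) * b ^ 1) +
  (((-168890654296875) * a ^ 5 + (13511252343750) * a ^ 6 + (-1415979245625) * a ^ 7 +
  (-60789826545) * a ^ 8 + (86472015) * a ^ 9) * b ^ 2) + (((-45956640625000) * a ^ 5 +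
  (-2068048828125) * a ^ 6 + (-186473665000) * a ^ 7 + (-5151849710) * a ^ 8 + (8823675) * a ^ 9)
  * b ^ 3) + (((-3470195312500) * a ^ 5 + (-313255468750) * a ^ 6 + (-15322881875) * a ^ 7 +
  (-237855065) * a ^ 8 + (264110) * a ^ 9) * b ^ 4) + (((-23447265625) * a ^ 5 + (-2813671875) * a
  ^ 6 + (-204085000) * a ^ 7 + (-3217340) * a ^ 8) * b ^ 5) + (((19073486328125) * a ^ 2 +
  (5035400390625) * a ^ 3 + (494384765625) * a ^ 4 + (21923828125) * a ^ 5 + (427734375) * a ^ 6 +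
  (2954375) * a ^ 7 + (655) * a ^ 8 + (15) * a ^ 9) * b ^ 6) + (((-625) * a ^ 7 + (-15) * a ^ 8) *
  b ^ 7)

/-- `x ^ 4` times the denominator. -/
def fibR4 (a b : ℚ) : ℚ :=
  (((43254022503125) * a ^ 7 + (-276825744020) * a ^ 8 + (13841287201) * a ^ 9) * b ^ 0) +
  (((-44136757656250) * a ^ 6 + (14123762450000) * a ^ 7 + (-370042576190) * a ^ 8 + (5649504980)
  * a ^ 9) * b ^ 1) + (((-56296884765625) * a ^ 5 + (-25221004375000) * a ^ 6 + (1026855178125) *
  a ^ 7 + (-117717236420) * a ^ 8 + (864720150) * a ^ 9) * b ^ 2) + (((-9191328125000) * a ^ 5 +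
  (-3584617968750) * a ^ 6 + (-54412662500) * a ^ 7 + (-15037895180) * a ^ 8 + (56471520) * a ^ 9)
  * b ^ 3) + (((-23447265625000) * a ^ 4 + (-4689453125000) * a ^ 5 + (-411921562500) * a ^ 6 +
  (-11307209375) * a ^ 7 + (-786999780) * a ^ 8 + (1260525) * a ^ 9) * b ^ 4) + (((29907226562500)
  * a ^ 3 + (4246826171875) * a ^ 4 + (87089843750) * a ^ 5 + (-8605625000) * a ^ 6 + (-302268750)
  * a ^ 7 + (-11102665) * a ^ 8 + (980) * a ^ 9) * b ^ 5) + (((1525878906250) * a ^ 3 +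
  (366210937500) * a ^ 4 + (30761718750) * a ^ 5 + (1015625000) * a ^ 6 + (9843750) * a ^ 7 +
  (-880) * a ^ 8 + (50) * a ^ 9) * b ^ 6) + (((-50) * a ^ 8) * b ^ 7)

/-- `x ^ 5` times the denominator. -/
def fibR5 (a b : ℚ) : ℚ :=
  (((86508045006250) * a ^ 7 + (5190482700375) * a ^ 8 + (-41523861603) * a ^ 9) * b ^ 0) +
  (((-110341894140625) * a ^ 6 + (30012995206250) * a ^ 7 + (2266863873225) * a ^ 8 +
  (-20338217928) * a ^ 9) * b ^ 1) + (((-40533757031250) * a ^ 6 + (3494910606250) * a ^ 7 +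
  (380909226075) * a ^ 8 + (-3914299879) * a ^ 9) * b ^ 2) + (((-17233740234375) * a ^ 5 +
  (-8042412109375) * a ^ 6 + (-16176737500) * a ^ 7 + (27753399100) * a ^ 8 + (-357652960) * a ^
  9) * b ^ 3) + (((14654541015625) * a ^ 4 + (-937890625000) * a ^ 5 + (-664026562500) * a ^ 6 +
  (-25495618750) * a ^ 7 + (668438400) * a ^ 8 + (-14643699) * a ^ 9) * b ^ 4) + (((7476806640625)
  * a ^ 3 + (4725341796875) * a ^ 4 + (525888671875) * a ^ 5 + (9666015625) * a ^ 6 + (-476984375)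
  * a ^ 7 + (-1115975) * a ^ 8 + (-184632) * a ^ 9) * b ^ 5) + (((-762939453125) * a ^ 3 +
  (-152587890625) * a ^ 4 + (-8056640625) * a ^ 5 + (107421875) * a ^ 6 + (15390625) * a ^ 7 +
  (184575) * a ^ 8 + (-23) * a ^ 9 + (1) * a ^ 10) * b ^ 6) + (((25) * a ^ 8 + (-1) * a ^ 9) * b ^
  7)

/-- `x ^ 6` times the denominator. -/
def fibR6 (a b : ℚ) : ℚ :=
  (((-77857240505625) * a ^ 7 + (-3045083184220) * a ^ 8 + (-41523861603) * a ^ 9) * b ^ 0) +
  (((-22068378828125) * a ^ 6 + (-44489851717500) * a ^ 7 + (-1973089614265) * a ^ 8 +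
  (-22033069422) * a ^ 9) * b ^ 1) + (((-8106751406250) * a ^ 6 + (-9742513690000) * a ^ 7 +
  (-476864338720) * a ^ 8 + (-4600311198) * a ^ 9) * b ^ 2) + (((-11489160156250) * a ^ 5 +
  (-2895268359375) * a ^ 6 + (-1077517778750) * a ^ 7 + (-54500311005) * a ^ 8 + (-461654676) * a
  ^ 9) * b ^ 3) + (((17585449218750) * a ^ 4 + (1031679687500) * a ^ 5 + (-209712343750) * a ^ 6 +
  (-55607160000) * a ^ 7 + (-2815724730) * a ^ 8 + (-21287266) * a ^ 9) * b ^ 4) +
  (((1495361328125) * a ^ 4 + (124414062500) * a ^ 5 + (-7556718750) * a ^ 6 + (-1177592500) * a ^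
  7 + (-48013140) * a ^ 8 + (-321636) * a ^ 9 + (49) * a ^ 10) * b ^ 5) + (((4577636718750) * a ^
  3 + (1159667968750) * a ^ 4 + (106933593750) * a ^ 5 + (4277343750) * a ^ 6 + (68655625) * a ^ 7
  + (322020) * a ^ 8 + (105) * a ^ 9 + (2) * a ^ 10) * b ^ 6) + (((-150) * a ^ 8 + (-2) * a ^ 9) *
  b ^ 7)

theorem fib_mul_1 (a b : ℚ) :
    fibR1 a b * fibR1 a b - fibP a b * fibR2 a b =
      ((((-1724092095947265625) * a ^ 7 + (-413782103027343750) * a ^ 8 + (-27033764064453125) * a ^ 9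
  + (-264820545937500) * a ^ 10 + (-706188122500) * a ^ 11) * b ^ 0) + (((-281484423828125000) * a
  ^ 7 + (-82193451757812500) * a ^ 8 + (-6287236090625000) * a ^ 9 + (-66655511562500) * a ^ 10 +
  (-190238433000) * a ^ 11) * b ^ 1) + (((-5744580078125000) * a ^ 7 + (-3883336132812500) * a ^ 8
  + (-441735229687500) * a ^ 9 + (-5386853587500) * a ^ 10 + (-17164989100) * a ^ 11) * b ^ 2) +
  (((457954406738281250) * a ^ 5 + (124563598632812500) * a ^ 6 + (11987414550781250) * a ^ 7 +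
  (459800878906250) * a ^ 8 + (-1937682031250) * a ^ 9 + (-108090018750) * a ^ 10 + (-549708950) *
  a ^ 11 + (-240100) * a ^ 12) * b ^ 3) + (((-75031250000) * a ^ 9 + (-1200500000) * a ^ 10 +
  (-4802000) * a ^ 11) * b ^ 4) + (((11920928955078125) * a ^ 4 + (3051757812500000) * a ^ 5 +
  (286865234375000) * a ^ 6 + (11962890625000) * a ^ 7 + (219238281250) * a ^ 8 + (1739062500) * a
  ^ 9 + (5325000) * a ^ 10 + (6300) * a ^ 11 + (25) * a ^ 12) * b ^ 5) + (((-390625) * a ^ 9 +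
  (-6250) * a ^ 10 + (-25) * a ^ 11) * b ^ 6)) *
        fibEq a b := by
  simp only [fibR1, fibR2, fibP, fibEq]
  ring

theorem fib_mul_2 (a b : ℚ) :
    fibR1 a b * fibR2 a b - fibP a b * fibR3 a b =
      ((((137927367675781250) * a ^ 8 + (21847695039843750) * a ^ 9 + (723842825562500) * a ^ 10 +
  (3389702988000) * a ^ 11) * b ^ 0) + (((35185552978515625) * a ^ 7 + (44193054541015625) * a ^ 8
  + (6843449312109375) * a ^ 9 + (225421734103125) * a ^ 10 + (1100788750950) * a ^ 11) * b ^ 1) +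
  (((-89759063720703125) * a ^ 6 + (-19387957763671875) * a ^ 7 + (1849754785156250) * a ^ 8 +
  (616278550781250) * a ^ 9 + (22813244059375) * a ^ 10 + (120410810275) * a ^ 11 + (-5882450) * a
  ^ 12) * b ^ 2) + (((228977203369140625) * a ^ 5 + (45795440673828125) * a ^ 6 +
  (2403344726562500) * a ^ 7 + (12661523437500) * a ^ 8 + (14489472265625) * a ^ 9 +
  (718881909375) * a ^ 10 + (4691554000) * a ^ 11 + (264110) * a ^ 12) * b ^ 3) +
  (((9346008300781250) * a ^ 5 + (2317810058593750) * a ^ 6 + (206359863281250) * a ^ 7 +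
  (7845263671875) * a ^ 8 + (270437890625) * a ^ 9 + (7873534375) * a ^ 10 + (49231525) * a ^ 11 +
  (2450) * a ^ 12) * b ^ 4) + (((-23841857910156250) * a ^ 4 + (-6866455078125000) * a ^ 5 +
  (-762939453125000) * a ^ 6 + (-40771484375000) * a ^ 7 + (-1069335937500) * a ^ 8 +
  (-12462500000) * a ^ 9 + (-50381250) * a ^ 10 + (-40450) * a ^ 11 + (-250) * a ^ 12) * b ^ 5) +
  (((781250) * a ^ 9 + (37500) * a ^ 10 + (250) * a ^ 11) * b ^ 6)) *
        fibEq a b := by
  simp only [fibR1, fibR2, fibR3, fibP, fibEq]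
  ring

theorem fib_mul_3 (a b : ℚ) :
    fibR1 a b * fibR3 a b - fibP a b * fibR4 a b =
      ((((68963683837890625) * a ^ 8 + (9930770472656250) * a ^ 9 + (242752167109375) * a ^ 10 +
  (1059282183750) * a ^ 11) * b ^ 0) + (((-175927764892578125) * a ^ 7 + (-18015003125000000) * a
  ^ 8 + (828690143750000) * a ^ 9 + (44136757656250) * a ^ 10 + (179429431125) * a ^ 11 +
  (-288240050) * a ^ 12) * b ^ 1) + (((269277191162109375) * a ^ 6 + (46674713134765625) * a ^ 7 +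
  (1999113867187500) * a ^ 8 + (142465585937500) * a ^ 9 + (4466617815625) * a ^ 10 +
  (16362034675) * a ^ 11 + (-44706620) * a ^ 12) * b ^ 2) + (((9159088134765625) * a ^ 6 +
  (4073962402343750) * a ^ 7 + (354288183593750) * a ^ 8 + (14926529296875) * a ^ 9 +
  (250619381250) * a ^ 10 + (1052778475) * a ^ 11 + (-1260525) * a ^ 12) * b ^ 3) +
  (((14654541015625) * a ^ 7 + (1875781250000) * a ^ 8 + (140683593750) * a ^ 9 + (3001250000) * a
  ^ 10 + (15906625) * a ^ 11) * b ^ 4) + (((-11920928955078125) * a ^ 4 + (-3242492675781250) * a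
  ^ 5 + (-334167480468750) * a ^ 6 + (-16174316406250) * a ^ 7 + (-376953125000) * a ^ 8 +
  (-3985156250) * a ^ 9 + (-15181250) * a ^ 10 + (-12650) * a ^ 11 + (-75) * a ^ 12) * b ^ 5) +
  (((390625) * a ^ 9 + (12500) * a ^ 10 + (75) * a ^ 11) * b ^ 6)) *
        fibEq a b := by
  simp only [fibR1, fibR3, fibR4, fibP, fibEq]
  ring

theorem fib_mul_4 (a b : ℚ) :
    fibR1 a b * fibR4 a b - fibP a b * fibR5 a b =
      ((((-68963683837890625) * a ^ 8 + (-7834274483984375) * a ^ 9 + (-13241027296875) * a ^ 10 +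
  (-2365730210375) * a ^ 11 + (-14123762450) * a ^ 12) * b ^ 0) + (((70371105957031250) * a ^ 7 +
  (-761133882031250) * a ^ 9 + (49613318606250) * a ^ 10 + (-299193171900) * a ^ 11 +
  (-3631824630) * a ^ 12) * b ^ 1) + (((89759063720703125) * a ^ 6 + (36621697998046875) * a ^ 7 +
  (4319924218750000) * a ^ 8 + (164892426562500) * a ^ 9 + (11855710321875) * a ^ 10 +
  (23520976325) * a ^ 11 + (-294122500) * a ^ 12) * b ^ 2) + (((5495452880859375) * a ^ 6 +
  (923236083984375) * a ^ 7 + (129077197265625) * a ^ 8 + (7358689843750) * a ^ 9 + (635439656250)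
  * a ^ 10 + (3678332000) * a ^ 11 + (-5642350) * a ^ 12 + (-2401) * a ^ 13) * b ^ 3) +
  (((-18692016601562500) * a ^ 5 + (-2803802490234375) * a ^ 6 + (-75665283203125) * a ^ 7 +
  (4943066406250) * a ^ 8 + (231946093750) * a ^ 9 + (8375478125) * a ^ 10 + (54300575) * a ^ 11 +
  (-4900) * a ^ 12) * b ^ 4) + (((-953674316406250) * a ^ 5 + (-236511230468750) * a ^ 6 +
  (-21057128906250) * a ^ 7 + (-788574218750) * a ^ 8 + (-11230468750) * a ^ 9 + (-48668750) * a ^
  10 + (-26850) * a ^ 11 + (-250) * a ^ 12) * b ^ 5) + (((31250) * a ^ 10 + (250) * a ^ 11) * b ^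
  6)) *
        fibEq a b := by
  simp only [fibR1, fibR4, fibR5, fibP, fibEq]
  ring

theorem fib_mul_5 (a b : ℚ) :
    fibR1 a b * fibR5 a b - fibP a b * fibR6 a b =
      ((((-137927367675781250) * a ^ 8 + (-24826926181640625) * a ^ 9 + (-1015145426093750) * a ^ 10 +
  (2648205459375) * a ^ 11 + (42371287350) * a ^ 12) * b ^ 0) + (((175927764892578125) * a ^ 7 +
  (1407422119140625) * a ^ 8 + (-4762716451171875) * a ^ 9 + (-264550320890625) * a ^ 10 +
  (1037664180000) * a ^ 11 + (14354354490) * a ^ 12) * b ^ 1) + (((28722900390625000) * a ^ 7 +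
  (4193543457031250) * a ^ 8 + (-185205261718750) * a ^ 9 + (-22077570156250) * a ^ 10 +
  (133590439500) * a ^ 11 + (1707086990) * a ^ 12) * b ^ 2) + (((45795440673828125) * a ^ 6 +
  (12163269042968750) * a ^ 7 + (1266152343750000) * a ^ 8 + (42402035156250) * a ^ 9 +
  (-119299687500) * a ^ 10 + (6628860875) * a ^ 11 + (73962805) * a ^ 12 + (7203) * a ^ 13) * b ^
  3) + (((-4673004150390625) * a ^ 5 + (-2990722656250000) * a ^ 6 + (-352307128906250) * a ^ 7 +
  (-8670703125000) * a ^ 8 + (249785156250) * a ^ 9 + (3119921875) * a ^ 10 + (119774375) * a ^ 11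
  + (911155) * a ^ 12) * b ^ 4) + (((476837158203125) * a ^ 5 + (99182128906250) * a ^ 6 +
  (5798339843750) * a ^ 7 + (-26855468750) * a ^ 8 + (-10156250000) * a ^ 9 + (-192312500) * a ^
  10 + (-908500) * a ^ 11 + (-510) * a ^ 12 + (-5) * a ^ 13) * b ^ 5) + (((-15625) * a ^ 10 +
  (500) * a ^ 11 + (5) * a ^ 12) * b ^ 6)) *
        fibEq a b := by
  simp only [fibR1, fibR5, fibR6, fibP, fibEq]
  ring

theorem fib_quad (a b : ℚ) :
    b ^ 2 * fibR1 a b + 49 * fibR5 a b +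
        b * (fibP a b + 5 * fibR1 a b - 5 * fibR3 a b + 5 * fibR5 a b - fibR6 a b) =
      ((((-6250) * a ^ 2 + (-375) * a ^ 3 + (3) * a ^ 4) * b ^ 0) + (((-625) * a ^ 2 + (-5) * a ^ 3) *
  b ^ 1)) *
        fibEq a b := by
  simp only [fibR1, fibR3, fibR5, fibR6, fibP, fibEq]
  ring

theorem quad_ne_zero {u v D : ℚ} (hD : ¬IsSquare D) (t : ℚ) (e : u ^ 2 - 4 * v = D) :
    t ^ 2 + u * t + v ≠ 0 := fun h =>
  hD ⟨2 * t + u, by linear_combination -e - 4 * h⟩

/-- A rational point of the fibre product gives a point of `X₀(35)` other than the cusps. -/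
theorem exists_point {a b : ℚ} (ha : a ≠ 0) (hb : b ≠ 0) (h : fibEq a b = 0) :
    ∃ x Y : ℚ, x ≠ 0 ∧
      Y ^ 2 = (x ^ 2 + x - 1) * (x ^ 6 - 5 * x ^ 5 - 9 * x ^ 3 - 5 * x - 1) := by
  have hP : fibP a b ≠ 0 := by
    refine mul_ne_zero (mul_ne_zero (mul_ne_zero (mul_ne_zero (by norm_num)
      (pow_ne_zero 2 ?_)) ?_) (pow_ne_zero 3 ha)) (pow_ne_zero 4 hb)
    · exact quad_ne_zero (D := 50000) (by rw [Rat.isSquare_ofNat_iff]; decide +kernel) a
        (by norm_num)
    · intro e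
      exact quad_ne_zero (u := -500) (v := -15625) (D := 312500)
        (by rw [Rat.isSquare_ofNat_iff]; decide +kernel) a (by norm_num) (by linear_combination e)
  set x := fibR1 a b / fibP a b with hx
  have h1 : x * fibP a b = fibR1 a b := div_mul_cancel₀ _ hP
  have step : ∀ {r r' : ℚ}, fibR1 a b * r - fibP a b * r' = 0 → x * r = r' := fun {r r'} e => by
    refine mul_left_cancel₀ hP ?_
    linear_combination e + r * h1
  have h2 : x * fibR1 a b = fibR2 a b := step (by rw [fib_mul_1, h, mul_zero])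
  have h3 : x * fibR2 a b = fibR3 a b := step (by rw [fib_mul_2, h, mul_zero])
  have h4 : x * fibR3 a b = fibR4 a b := step (by rw [fib_mul_3, h, mul_zero])
  have h5 : x * fibR4 a b = fibR5 a b := step (by rw [fib_mul_4, h, mul_zero])
  have h6 : x * fibR5 a b = fibR6 a b := step (by rw [fib_mul_5, h, mul_zero])
  have hq := fib_quad a b
  rw [h, mul_zero, ← h6, ← h5, ← h4, ← h3, ← h2, ← h1] at hq
  have hx' : b ^ 2 * x + 49 * x ^ 5 + b * (1 + 5 * x - 5 * x ^ 3 + 5 * x ^ 5 - x ^ 6) = 0 := by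
    refine mul_left_cancel₀ hP ?_
    linear_combination hq
  have hx0 : x ≠ 0 := fun e => hb (by rw [e] at hx'; linear_combination hx')
  have hB : x ^ 2 - 3 * x - 1 ≠ 0 := fun e =>
    quad_ne_zero (u := -3) (v := -1) (D := 13) (by rw [Rat.isSquare_ofNat_iff]; decide +kernel) x
      (by norm_num) (by linear_combination e)
  refine ⟨x, (2 * x * b + 1 + 5 * x - 5 * x ^ 3 + 5 * x ^ 5 - x ^ 6) / (x ^ 2 - 3 * x - 1),
    hx0, ?_⟩
  rw [div_pow, div_eq_iff (pow_ne_zero 2 hB)]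
  linear_combination 4 * x * hx'

end FA.Torsion.X35
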