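import Fermat.Agent.Torsion.Tate
import Fermat.Agent.Torsion.X35Descent
import Fermat.Agent.Torsion.X35Fibre

/-!
# No rational point of order `35`

The points of order `5` and `7` give two Tate normal forms with the same `j`, hence a rational
point of the fibre product of the `j`-maps of `X₀(5)` and `X₀(7)`; it gives a point of `35a` with
`X + Y + Z = 4 C`, `X Y Z = 7 C³`, `C ≠ 0`, and there is none.
-/

set_option autoImplicit false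

noncomputable section

open WeierstrassCurve
open FA.Thirteen (tateCurve)

namespace FA.Torsion.X35

variable {b c : ℚ} [(tateCurve b c).IsElliptic] {h0 : (tateCurve b c).toAffine.Nonsingular 0 0}

theorem eq_of_order_five (h : addOrderOf (Affine.Point.some 0 0 h0) = 5) : b = c := by
  have h5 := h ▸ addOrderOf_nsmul_eq_zero (Affine.Point.some 0 0 h0)
  obtain ⟨h2, e2⟩ := tate_two (b := b) (c := c) (h0 := h0)
  obtain ⟨h3, e3⟩ := tate_three (b := b) (c := c) (h0 := h0)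
  rw [show (5 : ℕ) = 3 + 2 from rfl, add_nsmul, add_eq_zero_iff_eq_neg, e3, e2,
    Affine.Point.neg_some, Affine.Point.some.injEq] at h5
  exact h5.1.symm

theorem exists_of_order_seven (h : addOrderOf (Affine.Point.some 0 0 h0) = 7) :
    ∃ d : ℚ, b = d ^ 3 - d ^ 2 ∧ c = d ^ 2 - d := by
  have h7 := h ▸ addOrderOf_nsmul_eq_zero (Affine.Point.some 0 0 h0)
  obtain ⟨h3, e3⟩ := tate_three (b := b) (c := c) (h0 := h0)
  have hc : c ≠ 0 := fun hc => by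
    obtain ⟨h', e1⟩ := tate_neg (b := b) (c := c) (h0 := h0)
    have e : 3 • Affine.Point.some 0 0 h0 = -Affine.Point.some 0 0 h0 := by
      rw [e3, e1, Affine.Point.some.injEq]
      exact ⟨hc, by rw [hc, sub_zero]⟩
    have h4 : 4 • Affine.Point.some 0 0 h0 = 0 := by rw [succ_nsmul, e, neg_add_cancel]
    have := addOrderOf_dvd_of_nsmul_eq_zero h4
    rw [h] at this
    norm_num at this
  obtain ⟨h4, e4⟩ := tate_four (b := b) (c := c) (h0 := h0) hc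
  rw [show (7 : ℕ) = 4 + 3 from rfl, add_nsmul, add_eq_zero_iff_eq_neg, e4, e3,
    Affine.Point.neg_some, Affine.Point.some.injEq] at h7
  have h1 := h7.1
  refine ⟨b / c, ?_, ?_⟩
  · have : b / c * c = b := div_mul_cancel₀ _ hc
    linear_combination (b / c) * -h1 - this
  · linear_combination -h1

omit [(tateCurve b c).IsElliptic] in
theorem c₄_tateCurve (b c : ℚ) :
    (tateCurve b c).c₄ = ((1 - c) ^ 2 - 4 * b) ^ 2 + 24 * b * (1 - c) := by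
  simp [tateCurve, WeierstrassCurve.c₄, WeierstrassCurve.b₂, WeierstrassCurve.b₄]
  ring

theorem c₄_cube_eq {W W' : WeierstrassCurve ℚ} [W.IsElliptic] [W'.IsElliptic] (h : W.j = W'.j) :
    W.c₄ ^ 3 * W'.Δ = W'.c₄ ^ 3 * W.Δ := by
  have e : ∀ (V : WeierstrassCurve ℚ) [V.IsElliptic], V.c₄ ^ 3 = V.j * V.Δ := fun V _ => by
    have hd := V.isUnit_Δ.ne_zero
    rw [WeierstrassCurve.j, Units.val_inv_eq_inv_val, WeierstrassCurve.coe_Δ', mul_comm V.Δ⁻¹,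
      mul_assoc, inv_mul_cancel₀ hd, mul_one]
  rw [e W, e W', h]; ring

omit [(tateCurve b c).IsElliptic] in
/-- The equation, homogenised. -/
theorem fib_scale {a b u k T D P G₁ G₂ : ℚ} (hau : a * u = T) (hbk : b * k = D)
    (h1 : (a ^ 2 + 250 * a + 3125) * u ^ 2 = P) (h2 : (b ^ 2 + 13 * b + 49) * k ^ 2 = G₁)
    (h3 : (b ^ 2 + 245 * b + 2401) * k ^ 2 = G₂) :
    fibEq a b * (u ^ 6 * k ^ 8) = P ^ 3 * D ^ 7 * k - G₁ * G₂ ^ 3 * (T ^ 5 * u) := by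
  subst hau hbk h1 h2 h3
  simp only [fibEq]
  ring

/-- Clearing the constants. -/
theorem fib_const {P k D G H T u : ℚ} (h : P ^ 3 * (D ^ 7 * k) = (G * H) ^ 3 * (T ^ 5 * u)) :
    (3125 * P) ^ 3 * (49 * D) ^ 7 * k -
      49 * G ^ 3 * (2401 * H) ^ 3 * ((125 * T) ^ 5 * u) = 0 := by
  linear_combination 3125 ^ 3 * 49 ^ 7 * h

omit [(tateCurve b c).IsElliptic] in
/-- The fibre product from the two normal forms. -/
theorem fibEq_eq_zero {t d : ℚ}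
    (hq : t ^ 2 - 11 * t - 1 ≠ 0) (hk : d ^ 3 - 8 * d ^ 2 + 5 * d + 1 ≠ 0)
    (h : (t ^ 4 - 12 * t ^ 3 + 14 * t ^ 2 + 12 * t + 1) ^ 3 *
        ((d * (d - 1)) ^ 7 * (d ^ 3 - 8 * d ^ 2 + 5 * d + 1)) =
      ((d ^ 2 - d + 1) * (d ^ 6 - 11 * d ^ 5 + 30 * d ^ 4 - 15 * d ^ 3 - 10 * d ^ 2 + 5 * d + 1)) ^ 3 *
        (t ^ 5 * (t ^ 2 - 11 * t - 1))) :
    fibEq (125 * t / (t ^ 2 - 11 * t - 1))
      (49 * (d * (d - 1)) / (d ^ 3 - 8 * d ^ 2 + 5 * d + 1)) = 0 := by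
  obtain ⟨a, ha⟩ : ∃ a, a = 125 * t / (t ^ 2 - 11 * t - 1) := ⟨_, rfl⟩
  obtain ⟨b, hb⟩ : ∃ b, b = 49 * (d * (d - 1)) / (d ^ 3 - 8 * d ^ 2 + 5 * d + 1) := ⟨_, rfl⟩
  rw [← ha, ← hb]
  have hau : a * (t ^ 2 - 11 * t - 1) = 125 * t := by rw [ha, div_mul_cancel₀ _ hq]
  have hbk : b * (d ^ 3 - 8 * d ^ 2 + 5 * d + 1) = 49 * (d * (d - 1)) := by
    rw [hb, div_mul_cancel₀ _ hk]
  have h1 : (a ^ 2 + 250 * a + 3125) * (t ^ 2 - 11 * t - 1) ^ 2 =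
      3125 * (t ^ 4 - 12 * t ^ 3 + 14 * t ^ 2 + 12 * t + 1) := by
    linear_combination (a * (t ^ 2 - 11 * t - 1) + 125 * t + 250 * (t ^ 2 - 11 * t - 1)) * hau
  have h2 : (b ^ 2 + 13 * b + 49) * (d ^ 3 - 8 * d ^ 2 + 5 * d + 1) ^ 2 =
      49 * (d ^ 2 - d + 1) ^ 3 := by
    linear_combination (b * (d ^ 3 - 8 * d ^ 2 + 5 * d + 1) + 49 * (d * (d - 1)) +
      13 * (d ^ 3 - 8 * d ^ 2 + 5 * d + 1)) * hbk
  have h3 : (b ^ 2 + 245 * b + 2401) * (d ^ 3 - 8 * d ^ 2 + 5 * d + 1) ^ 2 =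
      2401 * (d ^ 6 - 11 * d ^ 5 + 30 * d ^ 4 - 15 * d ^ 3 - 10 * d ^ 2 + 5 * d + 1) := by
    linear_combination (b * (d ^ 3 - 8 * d ^ 2 + 5 * d + 1) + 49 * (d * (d - 1)) +
      245 * (d ^ 3 - 8 * d ^ 2 + 5 * d + 1)) * hbk
  have key := (fib_scale hau hbk h1 h2 h3).trans (fib_const h)
  exact (mul_eq_zero.1 key).resolve_right (mul_ne_zero (pow_ne_zero 6 hq) (pow_ne_zero 8 hk))

omit [(tateCurve b c).IsElliptic] in
/-- The fibre product has no rational point off the axes. -/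
theorem fibEq_ne_zero {a b : ℚ} (ha : a ≠ 0) (hb : b ≠ 0) : fibEq a b ≠ 0 := fun h => by
  obtain ⟨x, Y, hx, he⟩ := exists_point ha hb h
  obtain ⟨S, hS⟩ : ∃ S, S = (x ^ 2 + x - 1) / x := ⟨_, rfl⟩
  have hS0 : S ≠ 0 := by
    rw [hS]
    refine div_ne_zero (fun e => ?_) hx
    exact quad_ne_zero (u := 1) (v := -1) (D := 5) (by rw [Rat.isSquare_ofNat_iff]; decide +kernel)
      x (by norm_num) (by linear_combination e)
  have hW : Y ^ 2 = x ^ 4 * (S * (S ^ 3 - 8 * S ^ 2 + 16 * S - 28)) := by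
    refine he.trans ?_
    rw [hS]; field_simp; ring
  obtain ⟨y, hy⟩ : ∃ y, y = (7 * (Y / x ^ 2) / S ^ 2 + 28 / S - 7) / 2 := ⟨_, rfl⟩
  have h0 : (7 : ℚ) / S = 0 := by
    refine no_triple_rat (X := y) (Y := -(y + 4 * (-7 / S) + 7)) (Z := 7) (by ring) ?_
    rw [hy]
    field_simp
    linear_combination -49 * hW
  exact hS0 ((div_eq_zero_iff.1 h0).resolve_left (by norm_num))

end FA.Torsion.X35

namespace FA.Torsion

/-- **No rational point of order `35`.** -/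
theorem no_order_35 (E : WeierstrassCurve ℚ) [E.IsElliptic] (P : E.toAffine.Point) :
    addOrderOf P ≠ 35 := by
  intro hP
  have h7 : addOrderOf (5 • P) = 7 := by
    rw [addOrderOf_nsmul' P (by norm_num), hP]; rfl
  have h5 : addOrderOf (7 • P) = 5 := by
    rw [addOrderOf_nsmul' P (by norm_num), hP]; rfl
  have hne : ∀ {Q : E.toAffine.Point} {n : ℕ}, 3 < n → addOrderOf Q = n →
      2 • Q ≠ 0 ∧ 3 • Q ≠ 0 := fun {Q n} hn hQ =>
    ⟨fun e => by have := addOrderOf_le_of_nsmul_eq_zero (by norm_num) e; omega,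
      fun e => by have := addOrderOf_le_of_nsmul_eq_zero (by norm_num) e; omega⟩
  obtain ⟨b₁, c₁, g₁, i₁, e₁, he₁, hj₁⟩ := exists_tate_j _ (hne (by norm_num) h5).1
    (hne (by norm_num) h5).2
  obtain ⟨b₂, c₂, g₂, i₂, e₂, he₂, hj₂⟩ := exists_tate_j _ (hne (by norm_num) h7).1
    (hne (by norm_num) h7).2
  obtain rfl := X35.eq_of_order_five ((addOrderOf_equiv he₁).trans h5)
  obtain ⟨d, rfl, rfl⟩ := X35.exists_of_order_seven ((addOrderOf_equiv he₂).trans h7)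
  have hu₁ := (tateCurve b₁ b₁).isUnit_Δ.ne_zero
  have hu₂ := (tateCurve (d ^ 3 - d ^ 2) (d ^ 2 - d)).isUnit_Δ.ne_zero
  have hj := X35.c₄_cube_eq (hj₁.trans hj₂.symm)
  rw [X35.c₄_tateCurve, X35.c₄_tateCurve] at hj
  rw [FA.Thirteen.Δ_tateCurve] at hj hu₁ hu₂
  rw [FA.Thirteen.Δ_tateCurve] at hj
  have e₁' : b₁ ^ 3 * (16 * b₁ ^ 2 - 8 * b₁ * b₁ ^ 2 - 20 * b₁ * b₁ + b₁ + b₁ * (b₁ - 1) ^ 3) =
      b₁ ^ 5 * (b₁ ^ 2 - 11 * b₁ - 1) := by ring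
  have e₂' : (d ^ 3 - d ^ 2) ^ 3 * (16 * (d ^ 3 - d ^ 2) ^ 2 -
      8 * (d ^ 3 - d ^ 2) * (d ^ 2 - d) ^ 2 - 20 * (d ^ 3 - d ^ 2) * (d ^ 2 - d) +
      (d ^ 3 - d ^ 2) + (d ^ 2 - d) * (d ^ 2 - d - 1) ^ 3) =
      d ^ 7 * (d - 1) ^ 7 * (d ^ 3 - 8 * d ^ 2 + 5 * d + 1) := by ring
  rw [e₁', e₂'] at hj
  rw [e₁'] at hu₁
  rw [e₂'] at hu₂
  simp only [mul_ne_zero_iff, pow_ne_zero_iff (n := 5) (by norm_num)] at hu₁
  simp only [mul_ne_zero_iff, pow_ne_zero_iff (n := 7) (by norm_num)] at hu₂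
  obtain ⟨ht, hq⟩ := hu₁
  obtain ⟨⟨hd, hd1⟩, hk⟩ := hu₂
  refine X35.fibEq_ne_zero (div_ne_zero (mul_ne_zero (by norm_num) ht) hq)
    (div_ne_zero (mul_ne_zero (by norm_num) (mul_ne_zero hd hd1)) hk)
    (X35.fibEq_eq_zero hq hk ?_)
  generalize hd7 : d ^ 3 - 8 * d ^ 2 + 5 * d + 1 = k at hj ⊢
  have e : ((1 - (d ^ 2 - d)) ^ 2 - 4 * (d ^ 3 - d ^ 2)) ^ 2 +
      24 * (d ^ 3 - d ^ 2) * (1 - (d ^ 2 - d)) =
      (d ^ 2 - d + 1) * (d ^ 6 - 11 * d ^ 5 + 30 * d ^ 4 - 15 * d ^ 3 - 10 * d ^ 2 + 5 * d + 1) := by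
    ring
  have e' : ((1 - b₁) ^ 2 - 4 * b₁) ^ 2 + 24 * b₁ * (1 - b₁) =
      b₁ ^ 4 - 12 * b₁ ^ 3 + 14 * b₁ ^ 2 + 12 * b₁ + 1 := by ring
  rw [e, e'] at hj
  rw [mul_pow d (d - 1)]
  exact hj

end FA.Torsion

end
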