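import Fermat.Agent.Torsion.Tate
import Fermat.Agent.Torsion.PowerChain
import Fermat.Agent.Root.MathlibForm

/-!
# No rational point of order `49`

Put `7 P`, of order `7`, at the origin of a Tate normal form: `c = d ^ 2 - d`, `b = d c`.  A
function with divisor `7 (T) - 7 (O)` has values at collinear points multiplying to seventh powers;
its value at `-T` is `d ^ 4 (d - 1)`, which would be a seventh power, against Fermat's theorem.
-/

set_option autoImplicit false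

noncomputable section

open WeierstrassCurve
open FA.Thirteen (tateCurve add_eq_some eq_or_eq_neg_of_X_eq)

namespace FA.Torsion

variable {K : Type*} [Field K]

/-- A function on Kubert's curve with a point of order `7` having divisor `7 (T) - 7 (O)`. -/
def kubertFun7 (b c d x y : K) : K :=
  y ^ 2 * (y - c * x) ^ 2 * (y - (d - 1) * x) / ((x - b) ^ 2 * (x - c) ^ 2)

private theorem regroup (a₁ a₂ a₃ b₁ b₂ b₃ c₁ c₂ c₃ p₁ p₂ p₃ q₁ q₂ q₃ : K) :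
    a₁ ^ 2 * b₁ ^ 2 * c₁ / (p₁ ^ 2 * q₁ ^ 2) * (a₂ ^ 2 * b₂ ^ 2 * c₂ / (p₂ ^ 2 * q₂ ^ 2)) *
        (a₃ ^ 2 * b₃ ^ 2 * c₃ / (p₃ ^ 2 * q₃ ^ 2)) =
      (a₁ * a₂ * a₃) ^ 2 * (b₁ * b₂ * b₃) ^ 2 * (c₁ * c₂ * c₃) /
        ((p₁ * p₂ * p₃) ^ 2 * (q₁ * q₂ * q₃) ^ 2) := by
  rw [div_mul_div_comm, div_mul_div_comm]
  congr 1 <;> ring

theorem kubertFun7_mul_neg {b c d x y : K} (hc : c = d ^ 2 - d) (hb : b = d * c)
    (hxb : x ≠ b) (hxc : x ≠ c) (h : (tateCurve b c).toAffine.Equation x y) :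
    kubertFun7 b c d x y * kubertFun7 b c d x ((tateCurve b c).toAffine.negY x y) = (-x) ^ 7 := by
  rw [Affine.equation_iff] at h
  simp only [tateCurve] at h
  obtain ⟨n, hn⟩ : ∃ n, (tateCurve b c).toAffine.negY x y = n := ⟨_, rfl⟩
  have e1 : y * n = -(x ^ 2 * (x - b)) := by
    rw [← hn]; simp only [tateCurve, Affine.negY]; linear_combination -h
  have e2 : (y - c * x) * (n - c * x) = -(x * (x - b) * (x - c)) := by
    rw [← hn]; simp only [tateCurve, Affine.negY]; linear_combination -h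
  have e3 : (y - (d - 1) * x) * (n - (d - 1) * x) = -(x * (x - c) ^ 2) := by
    rw [← hn]; simp only [tateCurve, Affine.negY]
    subst hb hc
    linear_combination -h
  rw [hn, kubertFun7, kubertFun7, div_mul_div_comm, div_eq_iff]
  · calc y ^ 2 * (y - c * x) ^ 2 * (y - (d - 1) * x) *
          (n ^ 2 * (n - c * x) ^ 2 * (n - (d - 1) * x)) =
        (y * n) ^ 2 * ((y - c * x) * (n - c * x)) ^ 2 *
          ((y - (d - 1) * x) * (n - (d - 1) * x)) := by ring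
      _ = _ := by rw [e1, e2, e3]; ring
  · exact mul_ne_zero (mul_ne_zero (pow_ne_zero 2 (sub_ne_zero.mpr hxb))
      (pow_ne_zero 2 (sub_ne_zero.mpr hxc))) (mul_ne_zero (pow_ne_zero 2 (sub_ne_zero.mpr hxb))
      (pow_ne_zero 2 (sub_ne_zero.mpr hxc)))

theorem kubertFun7_line {b c d μ ν x₁ x₂ x₃ : K} (hc : c = d ^ 2 - d) (hb : b = d * c)
    (h : LineCut (tateCurve b c) μ ν x₁ x₂ x₃)
    (hb₁ : x₁ ≠ b) (hb₂ : x₂ ≠ b) (hb₃ : x₃ ≠ b) (hc₁ : x₁ ≠ c) (hc₂ : x₂ ≠ c) (hc₃ : x₃ ≠ c) :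
    kubertFun7 b c d x₁ (μ * x₁ + ν) * kubertFun7 b c d x₂ (μ * x₂ + ν) *
      kubertFun7 b c d x₃ (μ * x₃ + ν) = ν ^ 7 := by
  have c1 : LineCut (tateCurve b c) 0 0 0 0 b := by
    refine ⟨?_, ?_, ?_⟩ <;> simp [tateCurve]
  have c2 : LineCut (tateCurve b c) c 0 0 b c := by
    refine ⟨?_, ?_, ?_⟩ <;> simp only [tateCurve] <;> ring
  have c3 : LineCut (tateCurve b c) (d - 1) 0 0 c c := by
    refine ⟨?_, ?_, ?_⟩ <;>
    · simp only [tateCurve]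
      subst hb hc
      ring
  have A := h.prod_line c1
  have B := h.prod_line c2
  have C := h.prod_line c3
  have Vb := h.prod_vertical (x₀ := b) (y₀ := b * c)
    (by rw [Affine.equation_iff]; simp only [tateCurve]; ring)
  have Vc := h.prod_vertical (x₀ := c) (y₀ := b - c)
    (by rw [Affine.equation_iff]; simp only [tateCurve]; ring)
  simp only [tateCurve, Affine.negY, zero_mul, sub_zero, add_zero, mul_zero, zero_add] at A B C Vb Vc
  have hd : ((x₁ - b) * (x₂ - b) * (x₃ - b)) ^ 2 * ((x₁ - c) * (x₂ - c) * (x₃ - c)) ^ 2 ≠ 0 := by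
    simp [sub_ne_zero, hb₁, hb₂, hb₃, hc₁, hc₂, hc₃]
  obtain ⟨P, hP⟩ : ∃ P, μ * b + ν = P := ⟨_, rfl⟩
  obtain ⟨Q, hQ⟩ : ∃ Q, μ * b + ν - b * c = Q := ⟨_, rfl⟩
  obtain ⟨R, hR⟩ : ∃ R, μ * c + ν - c ^ 2 = R := ⟨_, rfl⟩
  obtain ⟨S, hS⟩ : ∃ S, μ * c + ν - (b - c) = S := ⟨_, rfl⟩
  replace A : (μ * x₁ + ν) * (μ * x₂ + ν) * (μ * x₃ + ν) = ν ^ 2 * P := by
    rw [A, ← hP]; ring
  replace B : ((μ * x₁ + ν) - c * x₁) * ((μ * x₂ + ν) - c * x₂) * ((μ * x₃ + ν) - c * x₃) =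
      ν * Q * R := by
    rw [B, ← hQ, ← hR]; ring
  replace C : ((μ * x₁ + ν) - (d - 1) * x₁) * ((μ * x₂ + ν) - (d - 1) * x₂) *
      ((μ * x₃ + ν) - (d - 1) * x₃) = ν * S ^ 2 := by
    rw [C, ← hS, hb]; ring
  replace Vb : (x₁ - b) * (x₂ - b) * (x₃ - b) = Q * P := by
    rw [Vb, ← hP, ← hQ]; ring
  replace Vc : (x₁ - c) * (x₂ - c) * (x₃ - c) = S * R := by
    rw [Vc, ← hR, ← hS]; ring
  simp only [kubertFun7, regroup]
  rw [div_eq_iff hd, A, B, C, Vb, Vc]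
  ring

/-- **No rational point of order `49`.** -/
theorem no_order_49 (E : WeierstrassCurve ℚ) [E.IsElliptic] (P : E.toAffine.Point) :
    addOrderOf P ≠ 49 := by
  intro hP
  have hk : ∀ k, ¬ 49 ∣ k → k • P ≠ 0 := fun k hk h =>
    hk (hP ▸ addOrderOf_dvd_iff_nsmul_eq_zero.mpr h)
  obtain ⟨b, c, h0, hE, e, he⟩ := exists_tate (7 • P)
    (by rw [← mul_nsmul']; exact hk _ (by norm_num))
    (by rw [← mul_nsmul']; exact hk _ (by norm_num))
  obtain ⟨Q, hQ⟩ : ∃ Q, e.symm P = Q := ⟨_, rfl⟩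
  have hQP : addOrderOf Q = 49 := by rw [← hQ, AddEquiv.addOrderOf_eq, hP]
  have hT : 7 • Q = Affine.Point.some 0 0 h0 := by
    rw [← hQ, ← map_nsmul, ← he, AddEquiv.symm_apply_apply]
  have hQ0 : ∀ k, ¬ 49 ∣ k → k • Q ≠ 0 := fun k hk h =>
    hk (hQP ▸ addOrderOf_dvd_iff_nsmul_eq_zero.mpr h)
  have h49 : 49 • Q = 0 := hQP ▸ addOrderOf_nsmul_eq_zero Q
  have hmul : ∀ k, k • Affine.Point.some 0 0 h0 = (k * 7) • Q := fun k => by
    rw [← hT, mul_nsmul']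
  obtain ⟨hN, eN⟩ := tate_neg (b := b) (c := c) (h0 := h0)
  obtain ⟨hT2, eT2⟩ := tate_two (b := b) (c := c) (h0 := h0)
  obtain ⟨hT3, eT3⟩ := tate_three (b := b) (c := c) (h0 := h0)
  have hb := tate_b_ne_zero b c
  have hc : c ≠ 0 := fun hc => hQ0 28 (by norm_num) (by
    rw [← show 4 * 7 = 28 from rfl, ← hmul, succ_nsmul, eT3]
    simp only [hc, sub_zero, ← eN, neg_add_cancel])
  obtain ⟨d, hd⟩ : ∃ d, b / c = d := ⟨_, rfl⟩
  have hbd : b = d * c := by rw [← hd, div_mul_cancel₀ _ hc]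
  have hcd : c = d ^ 2 - d := by
    obtain ⟨hT4, eT4⟩ := tate_four (b := b) (c := c) (h0 := h0) hc
    have h7 : (4 : ℕ) • Affine.Point.some 0 0 h0 = -((3 : ℕ) • Affine.Point.some 0 0 h0) :=
      eq_neg_of_add_eq_zero_left (by rw [← add_nsmul, hmul]; exact h49)
    rw [eT4, eT3, Affine.Point.neg_some, Affine.Point.some.injEq] at h7
    rw [← h7.1, hd]
    ring
  have hd0 : d ≠ 0 := fun h => hb (by rw [hbd, h, zero_mul])
  have hd1 : d - 1 ≠ 0 := fun h => hc (by rw [hcd, sub_eq_zero.mp h]; ring)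
  have hgood : ∀ k, 1 ≤ k → k ≤ 6 → ∃ x y h,
      k • Q = Affine.Point.some (W' := (tateCurve b c).toAffine) x y h ∧
        x ≠ 0 ∧ x ≠ b ∧ x ≠ c := by
    intro k h1 h6
    rcases hh : k • Q with _ | ⟨x, y, h⟩
    · exact absurd hh (hQ0 k (by omega))
    have key : ∀ {x' y' : ℚ} {h' : (tateCurve b c).toAffine.Nonsingular x' y'} (j : ℕ), j * 7 < 43 →
        7 ≤ j * 7 → (j * 7) • Q = Affine.Point.some x' y' h' → x ≠ x' := by
      intro x' y' h' j hj hj' e'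
      rintro rfl
      rcases eq_or_eq_neg_of_X_eq (h₁ := h) (h₂ := h') with e'' | e'' <;>
        rw [← e', ← hh] at e''
      · have := nsmul_eq_nsmul_iff_modEq.mp e''
        rw [hQP] at this
        unfold Nat.ModEq at this
        omega
      · exact hQ0 (k + j * 7) (by omega) (by rw [add_nsmul, e'', neg_add_cancel])
    exact ⟨x, y, h, rfl, key 1 (by norm_num) (by norm_num) hT,
      key 2 (by norm_num) (by norm_num) (by rw [← hmul, eT2]),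
      key 3 (by norm_num) (by norm_num) (by rw [← hmul, eT3])⟩
  have hne : ∀ {x y : ℚ}, (tateCurve b c).toAffine.Equation x y → x ≠ 0 → x ≠ b → x ≠ c →
      kubertFun7 b c d x y ≠ 0 := fun {x y} h h0' hb' hc' hz => by
    have := kubertFun7_mul_neg hcd hbd hb' hc' h
    rw [hz, zero_mul] at this
    exact pow_ne_zero 7 (neg_ne_zero.mpr h0') this.symm
  obtain ⟨x₀, y₀, hQ1, eQ, g0, gb, gc⟩ := hgood 1 le_rfl (by norm_num)
  rw [one_nsmul] at eQ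
  obtain ⟨u, hu0, hu⟩ := val_nsmul (W := tateCurve b c) (n := 7)
    (φ := fun x y => kubertFun7 b c d x y) (Good := fun x _ => x ≠ 0 ∧ x ≠ b ∧ x ≠ c) (h₀ := hQ1)
    (fun {μ ν x₁ x₂ x₃ y₁ y₂ y₃} hc' l₁ l₂ l₃ q₁ q₂ q₃ g₁ g₂ g₃ => by
      have hp := kubertFun7_line hcd hbd hc' g₁.2.1 g₂.2.1 g₃.2.1 g₁.2.2 g₂.2.2 g₃.2.2
      rw [← l₁, ← l₂, ← l₃] at hp
      refine ⟨ν, fun h => ?_, hp⟩
      rw [h, zero_pow (by norm_num)] at hp
      exact mul_ne_zero (mul_ne_zero (hne q₁ g₁.1 g₁.2.1 g₁.2.2) (hne q₂ g₂.1 g₂.2.1 g₂.2.2))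
        (hne ((Affine.equation_neg x₃ y₃).mpr q₃) g₃.1 g₃.2.1 g₃.2.2) hp)
    (fun {x y} h g => ⟨-x, neg_ne_zero.mpr g.1, kubertFun7_mul_neg hcd hbd g.2.1 g.2.2 h⟩) 6
    (fun k h1 h6 => by rw [← eQ]; exact hgood k h1 h6) 6 (by norm_num) le_rfl
  obtain ⟨x₆, y₆, hQ6, eQ6, g6⟩ := hgood 6 (by norm_num) le_rfl
  obtain ⟨μ, ν, l₁, l₂, l₃, hcut⟩ := exists_line (h₁ := hQ6) (h₂ := hQ1) (h₃ := h0)
    (by rw [← eQ6, ← hT, ← eQ, ← succ_nsmul])
  have hν : ν = b := by simpa [tateCurve, Affine.negY] using l₃.symm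
  have hp := kubertFun7_line hcd hbd hcut g6.2.1 gb hb.symm g6.2.2 gc hc.symm
  rw [← l₁, ← l₂, hu x₆ y₆ hQ6 (by rw [← eQ, eQ6]), hν, mul_zero, zero_add] at hp
  have hv : kubertFun7 b c d 0 b = d ^ 4 * (d - 1) := by
    simp only [kubertFun7, mul_zero, sub_zero, zero_sub]
    rw [div_eq_iff (by simp [hb, hc]), hbd, hcd]
    ring
  rw [hv] at hp
  have hφ := hne hQ1.1 g0 gb gc
  refine no_rat_pow (i := 4) (n := 7) (by decide) (by norm_num) (by norm_num)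
    (FA.Root.fermatLastTheorem_closed 7 (by norm_num)) hd0 hd1
    (z := b / (kubertFun7 b c d x₀ y₀ * u)) ?_
  rw [div_pow, eq_div_iff (pow_ne_zero 7 (mul_ne_zero hφ hu0))]
  linear_combination hp

end FA.Torsion

end
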