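import Fermat.Agent.Torsion.Tate
import Mathlib.NumberTheory.PythagoreanTriples

/-!
# No `ℤ/2 × ℤ/10` in the rational torsion

With a point of order `5` the curve has the form `b = c = t`; full `2`-torsion makes the
discriminant `t⁵(t² - 11t - 1)` a square, and `a⁴ - 11a²b² - b⁴` is never a square (descent).
-/

set_option autoImplicit false

noncomputable section

open WeierstrassCurve
open FA.Thirteen (tateCurve)

namespace FA.Torsion

namespace TwoTen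

/-- Coprime factors of a square. -/
theorem exists_sq_or_neg_sq {p q r : ℤ} (hco : IsCoprime p q) (h : p * q = r ^ 2) :
    ∃ z, p = z ^ 2 ∨ p = -z ^ 2 := Int.sq_of_isCoprime hco h

/-- Coprime factors of a non-negative fourth power. -/
theorem exists_pow_four {p q r : ℤ} (hp : 0 ≤ p) (hco : IsCoprime p q) (h : p * q = r ^ 4) :
    ∃ z, p = z ^ 4 := by
  obtain ⟨z, hz⟩ := exists_associated_pow_of_mul_eq_pow' hco h
  refine ⟨z, ?_⟩
  rcases Int.associated_iff.1 hz with h' | h'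
  · exact h'.symm
  · have h4 : (0 : ℤ) ≤ z ^ 4 := by positivity
    have : z ^ 4 = 0 := by omega
    omega

/-- The descent. -/
theorem descent (N : ℕ) : ∀ a b c : ℤ, b.natAbs = N → IsCoprime a b → b ≠ 0 →
    a ^ 4 - 11 * a ^ 2 * b ^ 2 - b ^ 4 = c ^ 2 → False := by
  induction N using Nat.strong_induction_on with
  | _ N ih =>
  intro a b c hN hab hb h
  -- `a` is odd and `b` is even
  obtain ⟨ha2, β, rfl⟩ : ¬ (2 : ℤ) ∣ a ∧ (2 : ℤ) ∣ b := by
    have key : ∀ x y z : ZMod 16, x ^ 4 - 11 * x ^ 2 * y ^ 2 - y ^ 4 = z ^ 2 →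
        (¬ 2 ∣ x.val ∧ 2 ∣ y.val) ∨ (2 ∣ x.val ∧ 2 ∣ y.val) := by decide +kernel
    have h' := congrArg (fun x : ℤ => (x : ZMod 16)) h
    push_cast at h'
    have hv : ∀ x : ℤ, 2 ∣ (x : ZMod 16).val ↔ (2 : ℤ) ∣ x := fun x => by
      have := ZMod.val_intCast (n := 16) x
      omega
    rcases key _ _ _ h' with ⟨h1, h2⟩ | ⟨h1, h2⟩
    · exact ⟨fun e => h1 ((hv a).2 e), (hv b).1 h2⟩
    · exact absurd (hab.isUnit_of_dvd' ((hv a).1 h1) ((hv b).1 h2))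
        (fun hu => absurd (Int.isUnit_iff.1 hu) (by omega))
  have hβ : β ≠ 0 := right_ne_zero_of_mul hb
  have haβ : IsCoprime a β := hab.of_mul_right_right
  -- two factors of `125 β⁴`
  have hc2 : ¬ (2 : ℤ) ∣ c := fun hc => ha2 (Int.prime_two.dvd_of_dvd_pow (n := 4) (by
    rw [show a ^ 4 = c ^ 2 + 2 * (22 * a ^ 2 * β ^ 2 + 8 * β ^ 4) by linear_combination h]
    exact dvd_add (hc.pow two_ne_zero) (dvd_mul_right _ _)))
  obtain ⟨X, hX⟩ : (2 : ℤ) ∣ a ^ 2 - 22 * β ^ 2 - c := by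
    have h1 : ¬ (2 : ℤ) ∣ a ^ 2 := fun e => ha2 (Int.prime_two.dvd_of_dvd_pow e)
    omega
  obtain ⟨Y, hY⟩ : ∃ Y, Y = X + c := ⟨_, rfl⟩
  have hXY : X * Y = 125 * β ^ 4 := by
    have h4 : (2 * X) * (2 * Y) = 4 * (125 * β ^ 4) := by
      rw [hY, mul_add, ← hX]
      linear_combination h
    linarith
  have hsum : X + Y = a ^ 2 - 22 * β ^ 2 := by rw [hY]; linear_combination -hX
  have hco : IsCoprime X Y := by
    refine isCoprime_of_prime_dvd (fun h0 => ?_) fun k hk hkX hkY => ?_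
    · have := hXY
      rw [h0.1, zero_mul] at this
      exact hβ (by simpa using this.symm)
    have hks : k ∣ a ^ 2 - 22 * β ^ 2 := hsum ▸ dvd_add hkX hkY
    have hkβ : ¬ k ∣ β := fun e => hk.not_isUnit (haβ.isUnit_of_dvd'
      (hk.dvd_of_dvd_pow (n := 2) (by
        rw [show a ^ 2 = (a ^ 2 - 22 * β ^ 2) + β * (22 * β) by ring]
        exact dvd_add hks (e.mul_right _))) e)
    have hk5 : k ∣ 5 := by
      have h1 : k ∣ 5 ^ 3 * β ^ 4 := by
        rw [show (5 : ℤ) ^ 3 = 125 by norm_num, ← hXY]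
        exact hkX.mul_right Y
      exact hk.dvd_of_dvd_pow ((hk.dvd_or_dvd h1).resolve_right fun e => hkβ (hk.dvd_of_dvd_pow e))
    have h5 : (5 : ℤ) ∣ a ^ 2 - 22 * β ^ 2 :=
      ((hk.associated_of_dvd (by norm_num : Prime (5 : ℤ)) hk5).symm.dvd).trans hks
    have h5' : ∀ x y : ZMod 5, x ^ 2 - 22 * y ^ 2 = 0 → y = 0 := by decide
    have h5β : (5 : ℤ) ∣ β := by
      refine (ZMod.intCast_zmod_eq_zero_iff_dvd β 5).1 (h5' (a : ZMod 5) _ ?_)
      have := (ZMod.intCast_zmod_eq_zero_iff_dvd (a ^ 2 - 22 * β ^ 2) 5).2 h5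
      simpa using this
    exact hkβ (((hk.associated_of_dvd (by norm_num : Prime (5 : ℤ)) hk5).dvd).trans h5β)
  -- `a² = u⁴ + 22u²v² + 125v⁴`
  obtain ⟨hXp, hYp⟩ : 0 < X ∧ 0 < Y := by
    have hpos : (0 : ℤ) < X * Y := by rw [hXY]; positivity
    rcases pos_and_pos_or_neg_and_neg_of_mul_pos hpos with hp | ⟨hXn, hYn⟩
    · exact hp
    · exfalso
      have h1 : -(X + Y) ≤ 22 * β ^ 2 := by nlinarith [sq_nonneg a]
      have h2 := mul_self_le_mul_self (by omega) h1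
      have h3 : 0 < β ^ 4 := by positivity
      nlinarith [sq_nonneg (X - Y)]
  obtain ⟨U, V, hUp, hVp, hUV, hUVsum, hUVco, h5⟩ : ∃ U V : ℤ, 0 < U ∧ 0 < V ∧
      U * V = 125 * β ^ 4 ∧ U + V = a ^ 2 - 22 * β ^ 2 ∧ IsCoprime U V ∧ 5 ∣ V := by
    rcases (by norm_num : Prime (5 : ℤ)).dvd_or_dvd
      (⟨25 * β ^ 4, by rw [hXY]; ring⟩ : (5 : ℤ) ∣ X * Y) with h5 | h5
    · exact ⟨Y, X, hYp, hXp, by rw [mul_comm, hXY], by rw [add_comm, hsum], hco.symm, h5⟩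
    · exact ⟨X, Y, hXp, hYp, hXY, hsum, hco, h5⟩
  obtain ⟨V', rfl⟩ : (5 : ℤ) ^ 3 ∣ V := by
    refine IsCoprime.dvd_of_dvd_mul_left ?_ ⟨β ^ 4, by rw [hUV]; norm_num⟩
    exact (hUVco.symm.of_isCoprime_of_dvd_left h5).pow_left
  have hprod : U * V' = β ^ 4 := by
    refine mul_left_cancel₀ (by norm_num : (125 : ℤ) ≠ 0) ?_
    rw [← hUV]; ring
  have hco' : IsCoprime U V' := hUVco.of_mul_right_right
  obtain ⟨u, hu⟩ := exists_pow_four hUp.le hco' hprod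
  obtain ⟨v, hv⟩ := exists_pow_four (by linarith) hco'.symm ((mul_comm V' U).trans hprod)
  have hu0 : u ≠ 0 := fun e => by rw [hu, e] at hUp; norm_num at hUp
  have hv0 : v ≠ 0 := fun e => by rw [hv, e] at hVp; norm_num at hVp
  have hcop : IsCoprime u v := by
    rw [hu, hv] at hco'
    exact (IsCoprime.pow_iff (by norm_num) (by norm_num)).1 hco'
  have hb2 : (u * v) ^ 2 = β ^ 2 := by
    have h4 : ((u * v) ^ 2) ^ 2 = (β ^ 2) ^ 2 := by
      rw [← pow_mul, ← pow_mul, mul_pow, ← hu, ← hv, hprod]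
    exact (pow_left_inj₀ (sq_nonneg _) (sq_nonneg _) two_ne_zero).1 h4
  have heq : u ^ 4 + 22 * u ^ 2 * v ^ 2 + 125 * v ^ 4 = a ^ 2 := by
    linear_combination hUVsum + 22 * hb2 - hu - 125 * hv
  -- the Pythagorean triple
  have htri : PythagoreanTriple (u ^ 2 + 11 * v ^ 2) (2 * v ^ 2) a := by
    unfold PythagoreanTriple
    linear_combination heq
  have hodd : ¬ (2 : ℤ) ∣ u ^ 2 + 11 * v ^ 2 := fun e => ha2 (Int.prime_two.dvd_of_dvd_pow (n := 2) (by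
    rw [← heq, show u ^ 4 + 22 * u ^ 2 * v ^ 2 + 125 * v ^ 4 =
      (u ^ 2 + 11 * v ^ 2) * (u ^ 2 + 11 * v ^ 2) + 2 * (2 * v ^ 4) by ring]
    exact dvd_add (e.mul_right _) (dvd_mul_right _ _)))
  have hgcd : IsCoprime (u ^ 2 + 11 * v ^ 2) (2 * v ^ 2) := by
    refine IsCoprime.mul_right ((Int.prime_two.coprime_iff_not_dvd).2 hodd).symm ?_
    exact (hcop.pow (m := 2) (n := 2)).add_mul_right_left 11
  obtain ⟨r, s, hrs, -, hcrs, -⟩ := PythagoreanTriple.coprime_classification.1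
    ⟨htri, Int.isCoprime_iff_gcd_eq_one.1 hgcd⟩
  obtain ⟨hr1, hr2⟩ : u ^ 2 + 11 * v ^ 2 = r ^ 2 - s ^ 2 ∧ 2 * v ^ 2 = 2 * r * s := by
    rcases hrs with hh | ⟨hh, -⟩
    · exact hh
    · exact absurd ⟨r * s, by rw [hh]; ring⟩ hodd
  have hrs' : r * s = v ^ 2 := by linarith
  have hcrs' : IsCoprime r s := Int.isCoprime_iff_gcd_eq_one.2 hcrs
  obtain ⟨ρ, hρ⟩ := exists_sq_or_neg_sq hcrs' hrs'
  obtain ⟨σ, hσ⟩ := exists_sq_or_neg_sq hcrs'.symm ((mul_comm s r).trans hrs')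
  have hr4 : r ^ 2 = ρ ^ 4 := by rcases hρ with e | e <;> rw [e] <;> ring
  have hs4 : s ^ 2 = σ ^ 4 := by rcases hσ with e | e <;> rw [e] <;> ring
  have hρσ : v ^ 2 = (ρ * σ) ^ 2 := by
    refine (pow_left_inj₀ (sq_nonneg v) (sq_nonneg _) two_ne_zero).1 ?_
    rw [← hrs', mul_pow, hr4, hs4]; ring
  have hσ0 : σ ≠ 0 := fun e => hv0 (by simpa [e] using hρσ)
  have hρ0 : ρ ≠ 0 := fun e => hv0 (by simpa [e] using hρσ)
  have hnew : ρ ^ 4 - 11 * ρ ^ 2 * σ ^ 2 - σ ^ 4 = u ^ 2 := by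
    linear_combination -hr1 + 11 * hρσ - hr4 + hs4
  have hcoρ : IsCoprime ρ σ := by
    have h1 : IsCoprime (r ^ 2) (s ^ 2) := hcrs'.pow
    rw [hr4, hs4] at h1
    exact (IsCoprime.pow_iff (by norm_num) (by norm_num)).1 h1
  have hlt : σ.natAbs < N := by
    have h1 : v.natAbs = ρ.natAbs * σ.natAbs := by
      rw [← Int.natAbs_mul]; exact Int.natAbs_eq_iff_sq_eq.2 hρσ
    have h2 : β.natAbs = u.natAbs * v.natAbs := by
      rw [← Int.natAbs_mul]; exact Int.natAbs_eq_iff_sq_eq.2 hb2.symm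
    have h3 : 1 ≤ u.natAbs := Int.natAbs_pos.2 hu0
    have h4 : 1 ≤ ρ.natAbs := Int.natAbs_pos.2 hρ0
    have h5 : 1 ≤ σ.natAbs := Int.natAbs_pos.2 hσ0
    rw [← hN, Int.natAbs_mul, h2, h1, show (2 : ℤ).natAbs = 2 from rfl]
    nlinarith [Nat.mul_le_mul h3 (Nat.mul_le_mul h4 (le_refl σ.natAbs))]
  exact ih _ hlt ρ σ u rfl hcoρ hσ0 hnew

/-- `t(t² - 11t - 1)` is a rational square only for `t = 0`. -/
theorem not_isSquare {t : ℚ} (ht : t ≠ 0) : ¬ IsSquare (t * (t ^ 2 - 11 * t - 1)) := by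
  intro hsq
  set m := t.num
  set n : ℤ := (t.den : ℤ)
  have hm : m ≠ 0 := Rat.num_ne_zero.2 ht
  have hn : 0 < n := Int.natCast_pos.2 t.den_pos
  have hco : IsCoprime m n := Int.isCoprime_iff_gcd_eq_one.2 t.reduced
  obtain ⟨r, hr⟩ : ∃ r : ℤ, m * n * (m ^ 2 - 11 * m * n - n ^ 2) = r ^ 2 := by
    have h1 : IsSquare ((m * n * (m ^ 2 - 11 * m * n - n ^ 2) : ℤ) : ℚ) := by
      have h2 : ((m * n * (m ^ 2 - 11 * m * n - n ^ 2) : ℤ) : ℚ) =
          t * (t ^ 2 - 11 * t - 1) * ((n : ℚ) ^ 2) ^ 2 := by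
        have hn' : (n : ℚ) ≠ 0 := by exact_mod_cast hn.ne'
        have ht' : t = m / n := by simp [m, n, Rat.num_div_den]
        push_cast
        rw [ht']
        field_simp
      rw [h2]
      exact hsq.mul (IsSquare.sq _)
    obtain ⟨r, hr⟩ := Rat.isSquare_intCast_iff.1 h1
    exact ⟨r, by rw [hr, sq]⟩
  have hQm : IsCoprime m (m ^ 2 - 11 * m * n - n ^ 2) := by
    have := ((hco.pow_right (n := 2)).neg_right).add_mul_left_right (m - 11 * n)
    rwa [show m ^ 2 - 11 * m * n - n ^ 2 = -n ^ 2 + m * (m - 11 * n) by ring]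
  have hQn : IsCoprime n (m ^ 2 - 11 * m * n - n ^ 2) := by
    have := (hco.symm.pow_right (n := 2)).add_mul_left_right (-11 * m - n)
    rwa [show m ^ 2 - 11 * m * n - n ^ 2 = m ^ 2 + n * (-11 * m - n) by ring]
  obtain ⟨z, hz⟩ := exists_sq_or_neg_sq (hco.mul_right hQm) ((mul_assoc _ _ _).symm.trans hr)
  obtain ⟨w, hw⟩ := exists_sq_or_neg_sq (hco.symm.mul_right hQn) (r := r) (by rw [← hr]; ring)
  replace hw : n = w ^ 2 := hw.resolve_right (fun e => by nlinarith [sq_nonneg w])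
  have hz0 : z ≠ 0 := fun e => hm (by rcases hz with h | h <;> rw [h, e] <;> ring)
  have hw0 : w ≠ 0 := fun e => hn.ne' (by rw [hw, e]; ring)
  have hzw : IsCoprime z w := by
    rw [hw] at hco
    have h2 := (IsCoprime.pow_right_iff (by norm_num)).1 hco
    rcases hz with e | e <;> rw [e] at h2
    · exact (IsCoprime.pow_left_iff (by norm_num)).1 h2
    · exact (IsCoprime.pow_left_iff (by norm_num)).1 (IsCoprime.neg_left_iff _ _ |>.1 h2)
  obtain ⟨e, he⟩ : (z * w) ∣ r := (Int.pow_dvd_pow_iff two_ne_zero).1 (by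
    rw [← hr, hw]
    rcases hz with e | e <;> rw [e]
    · exact Dvd.intro (z ^ 4 - 11 * z ^ 2 * w ^ 2 - w ^ 4) (by ring)
    · exact Dvd.intro (-(z ^ 4 + 11 * z ^ 2 * w ^ 2 - w ^ 4)) (by ring))
  have hc : (z * w) ^ 2 ≠ 0 := pow_ne_zero _ (mul_ne_zero hz0 hw0)
  rw [he, hw] at hr
  rcases hz with h | h <;> rw [h] at hr
  · exact descent _ z w e rfl hzw hw0 (mul_left_cancel₀ hc (by linear_combination hr))
  · exact descent _ w z e rfl hzw.symm hz0 (mul_left_cancel₀ hc (by linear_combination hr))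

section roots

variable {K : Type*} [Field K] {W : WeierstrassCurve K}

/-- Two points of order two make the discriminant a square. -/
theorem isSquare_Δ_of_two_roots [NeZero (2 : K)] {e₁ e₂ : K} (hne : e₁ ≠ e₂)
    (h₁ : 4 * e₁ ^ 3 + W.b₂ * e₁ ^ 2 + 2 * W.b₄ * e₁ + W.b₆ = 0)
    (h₂ : 4 * e₂ ^ 3 + W.b₂ * e₂ ^ 2 + 2 * W.b₄ * e₂ + W.b₆ = 0) : IsSquare W.Δ := by
  have h2 : (2 : K) ≠ 0 := two_ne_zero
  obtain ⟨e₃, he₃⟩ : ∃ e₃, W.b₂ = -4 * (e₁ + e₂ + e₃) :=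
    ⟨-W.b₂ / (2 * 2) - e₁ - e₂, by field_simp; ring⟩
  have hb4 : W.b₄ = 2 * (e₁ * e₂ + e₁ * e₃ + e₂ * e₃) := by
    refine mul_left_cancel₀ h2 (mul_left_cancel₀ (sub_ne_zero.2 hne) ?_)
    linear_combination h₁ - h₂ - (e₁ ^ 2 - e₂ ^ 2) * he₃
  have hb6 : W.b₆ = -4 * (e₁ * e₂ * e₃) := by
    linear_combination h₁ - e₁ ^ 2 * he₃ - 2 * e₁ * hb4
  have h8 := W.b_relation
  refine ⟨4 * ((e₁ - e₂) * (e₁ - e₃) * (e₂ - e₃)), ?_⟩
  refine mul_left_cancel₀ (mul_ne_zero h2 h2) ?_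
  have hΔ : 2 * 2 * W.Δ = -W.b₂ ^ 2 * (W.b₂ * W.b₆ - W.b₄ ^ 2) - 32 * W.b₄ ^ 3 - 108 * W.b₆ ^ 2 +
      36 * W.b₂ * W.b₄ * W.b₆ := by
    rw [WeierstrassCurve.Δ]
    linear_combination -W.b₂ ^ 2 * h8
  rw [hΔ, he₃, hb4, hb6]
  ring

/-- The `x`-coordinate of a point of order two. -/
theorem root_of_two_nsmul [DecidableEq K] {x y : K} {h : W.toAffine.Nonsingular x y}
    (h2 : 2 • Affine.Point.some x y h = 0) :
    2 * y + W.a₁ * x + W.a₃ = 0 ∧ 4 * x ^ 3 + W.b₂ * x ^ 2 + 2 * W.b₄ * x + W.b₆ = 0 := by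
  have hy : y = W.toAffine.negY x y := by
    by_contra hne
    rw [two_nsmul, Affine.Point.add_self_of_Y_ne hne] at h2
    exact Affine.Point.some_ne_zero _ h2
  simp only [Affine.negY] at hy
  have hy' : 2 * y + W.a₁ * x + W.a₃ = 0 := by linear_combination hy
  refine ⟨hy', ?_⟩
  have heq := (Affine.equation_iff x y).1 h.1
  simp only [WeierstrassCurve.b₂, WeierstrassCurve.b₄, WeierstrassCurve.b₆]
  linear_combination (2 * y + W.a₁ * x + W.a₃) * hy' - 4 * heq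

end roots

end TwoTen

/-- **No `ℤ/2 × ℤ/10`.** -/
theorem two_times_ten (E : WeierstrassCurve ℚ) [E.IsElliptic] (P R : E.toAffine.Point)
    (hP : addOrderOf P = 2) (hR : addOrderOf R = 10) : P = 5 • R := by
  by_contra hne
  have hord : ∀ n, n • R = 0 ↔ 10 ∣ n := fun n => by
    rw [← addOrderOf_dvd_iff_nsmul_eq_zero, hR]
  obtain ⟨b, c, h0, hE, e, he⟩ := exists_tate (2 • R)
    (by rw [smul_smul, Ne, hord]; norm_num) (by rw [smul_smul, Ne, hord]; norm_num)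
  have := hE
  -- the point of order five gives `b = c`
  have h5 : 5 • Affine.Point.some 0 0 h0 = 0 := e.injective (by
    rw [map_nsmul, he, map_zero, smul_smul, hord]; norm_num)
  obtain ⟨h2', e2⟩ := tate_two (b := b) (c := c) (h0 := h0)
  obtain ⟨h3', e3⟩ := tate_three (b := b) (c := c) (h0 := h0)
  have hbc : c = b := by
    have h23 : (3 : ℕ) • Affine.Point.some 0 0 h0 = -((2 : ℕ) • Affine.Point.some 0 0 h0) := by
      rw [eq_neg_iff_add_eq_zero, ← add_nsmul]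
      exact h5
    rw [e2, e3, Affine.Point.neg_some, Affine.Point.some.injEq] at h23
    exact h23.1
  subst hbc
  -- two points of order two
  have hP' : 2 • e.symm P = 0 ∧ e.symm P ≠ 0 := by
    refine ⟨e.injective (by rw [map_nsmul, e.apply_symm_apply, map_zero,
      ← addOrderOf_dvd_iff_nsmul_eq_zero, hP]), fun h => ?_⟩
    rw [AddEquiv.map_eq_zero_iff] at h
    rw [h, addOrderOf_zero] at hP
    omega
  have hR' : 2 • e.symm (5 • R) = 0 ∧ e.symm (5 • R) ≠ 0 := by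
    refine ⟨e.injective (by rw [map_nsmul, e.apply_symm_apply, map_zero, smul_smul, hord]; norm_num),
      fun h => ?_⟩
    rw [AddEquiv.map_eq_zero_iff, hord] at h
    omega
  rcases hx : e.symm P with _ | ⟨x₁, y₁, n₁⟩
  · exact hP'.2 hx
  rcases hx' : e.symm (5 • R) with _ | ⟨x₂, y₂, n₂⟩
  · exact hR'.2 hx'
  rw [hx] at hP'
  rw [hx'] at hR'
  obtain ⟨q₁, r₁⟩ := TwoTen.root_of_two_nsmul hP'.1
  obtain ⟨q₂, r₂⟩ := TwoTen.root_of_two_nsmul hR'.1
  have hxx : x₁ ≠ x₂ := by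
    rintro rfl
    obtain rfl : y₁ = y₂ := by linarith
    exact hne (e.symm.injective (hx.trans hx'.symm))
  have hsq := TwoTen.isSquare_Δ_of_two_roots hxx r₁ r₂
  have ht : c ≠ 0 := tate_b_ne_zero c c
  refine TwoTen.not_isSquare ht ?_
  rw [FA.Thirteen.Δ_tateCurve] at hsq
  obtain ⟨d, hd⟩ := hsq
  refine ⟨d / c ^ 2, ?_⟩
  field_simp
  linear_combination hd

end FA.Torsion

end
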