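import Fermat.Agent.Torsion.TwoTwelveDescent
import Fermat.Agent.Thirteen.Tate

/-!
# No subgroup `ℤ/2 × ℤ/12`

With three roots `e₁, e₂, e₃` of the two-torsion cubic, `x(2Q) - e₁` is a square. A point of order
`4` over `(e₁, ·)` makes `e₁ - e₂`, `e₁ - e₃` squares, and a point `Q = 2Q'` of order `3` then
gives two rational points of the unit circle whose abscissas differ by `1`.
-/

set_option autoImplicit false

noncomputable section

open WeierstrassCurve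
open FA.Thirteen (eq_or_eq_neg_of_X_eq)

namespace FA.Torsion

variable {W : WeierstrassCurve ℚ}

/-- The two-torsion cubic has the given three roots. -/
theorem cubic_of_roots {e₁ e₂ e₃ : ℚ} (h12 : e₁ ≠ e₂) (h13 : e₁ ≠ e₃) (h23 : e₂ ≠ e₃)
    (h1 : 4 * e₁ ^ 3 + W.b₂ * e₁ ^ 2 + 2 * W.b₄ * e₁ + W.b₆ = 0)
    (h2 : 4 * e₂ ^ 3 + W.b₂ * e₂ ^ 2 + 2 * W.b₄ * e₂ + W.b₆ = 0)
    (h3 : 4 * e₃ ^ 3 + W.b₂ * e₃ ^ 2 + 2 * W.b₄ * e₃ + W.b₆ = 0) :
    W.b₂ = -4 * (e₁ + e₂ + e₃) ∧ W.b₄ = 2 * (e₁ * e₂ + e₁ * e₃ + e₂ * e₃) ∧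
      W.b₆ = -4 * e₁ * e₂ * e₃ := by
  have a12 : 4 * (e₁ ^ 2 + e₁ * e₂ + e₂ ^ 2) + W.b₂ * (e₁ + e₂) + 2 * W.b₄ = 0 :=
    mul_left_cancel₀ (sub_ne_zero.mpr h12) (by linear_combination h1 - h2)
  have a13 : 4 * (e₁ ^ 2 + e₁ * e₃ + e₃ ^ 2) + W.b₂ * (e₁ + e₃) + 2 * W.b₄ = 0 :=
    mul_left_cancel₀ (sub_ne_zero.mpr h13) (by linear_combination h1 - h3)
  have hb2 : W.b₂ = -4 * (e₁ + e₂ + e₃) :=
    mul_left_cancel₀ (sub_ne_zero.mpr h23) (by linear_combination a12 - a13)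
  have hb4 : W.b₄ = 2 * (e₁ * e₂ + e₁ * e₃ + e₂ * e₃) := by
    rw [hb2] at a12; linear_combination a12 / 2
  refine ⟨hb2, hb4, ?_⟩
  rw [hb2, hb4] at h1
  linear_combination h1

/-- `2y + a₁x + a₃` squared is the two-torsion cubic. -/
theorem eta_sq {x y : ℚ} (h : W.toAffine.Nonsingular x y) :
    (2 * y + W.a₁ * x + W.a₃) ^ 2 = 4 * x ^ 3 + W.b₂ * x ^ 2 + 2 * W.b₄ * x + W.b₆ := by
  simp only [b₂, b₄, b₆]
  linear_combination 4 * (Affine.equation_iff x y).mp h.1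

/-- The abscissa of a point of order `2` is a root of the cubic. -/
theorem root_of_two {x y : ℚ} {h : W.toAffine.Nonsingular x y}
    (h2 : 2 • Affine.Point.some x y h = 0) :
    4 * x ^ 3 + W.b₂ * x ^ 2 + 2 * W.b₄ * x + W.b₆ = 0 := by
  have e : y = W.toAffine.negY x y := by
    by_contra hy
    rw [two_nsmul, Affine.Point.add_self_of_Y_ne hy] at h2
    exact Affine.Point.some_ne_zero _ h2
  rw [← eta_sq h, show 2 * y + W.a₁ * x + W.a₃ = 0 by
    simp only [Affine.negY] at e; linear_combination e, sq, mul_zero]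

/-- Distinct points of order `2` have distinct abscissas. -/
theorem ne_of_two_torsion {x₁ y₁ x₂ y₂ : ℚ} {h₁ : W.toAffine.Nonsingular x₁ y₁}
    {h₂ : W.toAffine.Nonsingular x₂ y₂} (t₂ : 2 • Affine.Point.some x₂ y₂ h₂ = 0)
    (hne : Affine.Point.some x₁ y₁ h₁ ≠ Affine.Point.some x₂ y₂ h₂) : x₁ ≠ x₂ := by
  rintro rfl
  rcases eq_or_eq_neg_of_X_eq (h₁ := h₁) (h₂ := h₂) with e | e
  · exact hne e
  · rw [two_nsmul, add_eq_zero_iff_eq_neg] at t₂
    exact hne (e.trans t₂.symm)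

/-- The doubling formula relative to three roots of the cubic. -/
theorem double_sub_root {e₁ e₂ e₃ : ℚ} (hb2 : W.b₂ = -4 * (e₁ + e₂ + e₃))
    (hb4 : W.b₄ = 2 * (e₁ * e₂ + e₁ * e₃ + e₂ * e₃)) (hb6 : W.b₆ = -4 * e₁ * e₂ * e₃)
    {x y x' y' : ℚ} {h : W.toAffine.Nonsingular x y} {h' : W.toAffine.Nonsingular x' y'}
    (hd : 2 • Affine.Point.some x y h = Affine.Point.some x' y' h') :
    (x' - e₁) * (4 * ((x - e₁) * (x - e₂) * (x - e₃))) =
        ((x - e₁) ^ 2 - (e₁ - e₂) * (e₁ - e₃)) ^ 2 ∧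
      (x - e₁) * (x - e₂) * (x - e₃) ≠ 0 ∧
      ∃ η : ℚ, η ^ 2 = 4 * ((x - e₁) * (x - e₂) * (x - e₃)) := by
  have hy : y ≠ W.toAffine.negY x y := fun e => by
    rw [two_nsmul, Affine.Point.add_self_of_Y_eq e] at hd
    exact Affine.Point.some_ne_zero _ hd.symm
  have hη : 2 * y + W.a₁ * x + W.a₃ ≠ 0 := fun e => hy (by
    simp only [Affine.negY]; linear_combination e)
  have hsq := eta_sq h
  rw [show 4 * x ^ 3 + W.b₂ * x ^ 2 + 2 * W.b₄ * x + W.b₆ =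
    4 * ((x - e₁) * (x - e₂) * (x - e₃)) by rw [hb2, hb4, hb6]; ring] at hsq
  refine ⟨?_, fun e => hη (pow_eq_zero_iff two_ne_zero |>.mp (by rw [hsq, e, mul_zero])), _, hsq⟩
  rw [two_nsmul, Affine.Point.add_self_of_Y_ne hy, Affine.Point.some.injEq] at hd
  obtain ⟨hx', -⟩ := hd
  obtain ⟨l, hl⟩ : ∃ l, W.toAffine.slope x x y y = l := ⟨_, rfl⟩
  rw [hl] at hx'
  simp only [Affine.addX] at hx'
  rw [Affine.slope_of_Y_ne rfl hy, div_eq_iff (by
    simp only [Affine.negY]; exact fun e => hη (by linear_combination e))] at hl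
  simp only [Affine.negY] at hl
  have key : (2 * l + W.a₁) * (2 * y + W.a₁ * x + W.a₃) = 6 * x ^ 2 + W.b₂ * x + W.b₄ := by
    simp only [b₂, b₄]; linear_combination -2 * hl
  have h4 : 4 * (x' - e₁) = (2 * l + W.a₁) ^ 2 - W.b₂ - 8 * x - 4 * e₁ := by
    rw [← hx', b₂]; ring
  rw [← hsq]
  refine mul_left_cancel₀ (by norm_num : (4 : ℚ) ≠ 0) ?_
  rw [← mul_assoc, h4, sub_mul, sub_mul, sub_mul, ← mul_pow, key, hsq, hb2, hb4]
  ring

/-- The algebraic core: halving conditions give two points on the unit circle. -/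
theorem no_halving {w u v a b : ℚ} (hw : w ≠ 0) (hu : u ≠ 0) (hv : v ≠ 0)
    (hua : u ^ 2 = w ^ 2 + a ^ 2) (hvb : v ^ 2 = w ^ 2 + b ^ 2)
    (h : (w ^ 4 - a ^ 2 * b ^ 2) ^ 2 = (2 * (w ^ 2 * u * v)) ^ 2) : False := by
  have main : ∀ v' : ℚ, v' ≠ 0 → v' ^ 2 = w ^ 2 + b ^ 2 →
      (w * (u - v')) ^ 2 = (u * v') ^ 2 → False := fun v' hv' hvb' hk => by
    obtain ⟨W', V', hW, hV, hWV⟩ : ∃ W' V' : ℚ, W' ^ 2 = w ^ 2 ∧ V' ^ 2 = v' ^ 2 ∧
        W' * (u + V') + u * V' = 0 := by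
      rcases sq_eq_sq_iff_eq_or_eq_neg.mp hk with e | e
      · exact ⟨w, -v', rfl, neg_sq v', by linear_combination e⟩
      · exact ⟨-w, -v', neg_sq w, neg_sq v', by linear_combination -e⟩
    have hW0 : W' ≠ 0 := fun e => hw (pow_eq_zero_iff two_ne_zero |>.mp (by rw [← hW, e]; ring))
    have hV0 : V' ≠ 0 := fun e => hv' (pow_eq_zero_iff two_ne_zero |>.mp (by rw [← hV, e]; ring))
    have hsum : W' + u ≠ 0 := fun e => by
      refine mul_ne_zero hW0 hu ?_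
      linear_combination hWV - V' * e
    have hVeq : V' * (W' + u) = -(W' * u) := by linear_combination hWV
    have hb : b ^ 2 * (W' + u) ^ 2 = W' ^ 2 * (u ^ 2 - (W' + u) ^ 2) := by
      have : b ^ 2 = V' ^ 2 - W' ^ 2 := by linear_combination -hvb' - hV + hW
      linear_combination (W' + u) ^ 2 * this + (V' * (W' + u) - W' * u) * hVeq
    rcases circle_pair (t := W' / u) (a := a / u) (b := b * (W' + u) / (W' * u))
      (by field_simp; linear_combination -hua + hW)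
      (by field_simp; linear_combination hb) with e | e
    · exact div_ne_zero hW0 hu e
    · rw [div_eq_iff hu] at e; exact hsum (by linear_combination e)
  rcases sq_eq_sq_iff_eq_or_eq_neg.mp h with e | e
  · refine main v hv hvb ?_
    linear_combination e - (v ^ 2 - w ^ 2) * hua - a ^ 2 * hvb
  · refine main (-v) (neg_ne_zero.mpr hv) (by rw [neg_sq, hvb]) ?_
    linear_combination e - (v ^ 2 - w ^ 2) * hua - a ^ 2 * hvb

variable [W.IsElliptic]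

omit [W.IsElliptic] in
theorem exists_some {Q : W.toAffine.Point} (hQ : Q ≠ 0) :
    ∃ x y h, Q = Affine.Point.some x y h := by
  rcases Q with _ | ⟨x, y, h⟩
  · exact absurd rfl hQ
  · exact ⟨x, y, h, rfl⟩

/-- **No subgroup `ℤ/2 × ℤ/12`**: the only point of order `2` is a multiple of a point of order
`12`. -/
theorem two_times_twelve (E : WeierstrassCurve ℚ) [E.IsElliptic] (P R : E.toAffine.Point)
    (hP : addOrderOf P = 2) (hR : addOrderOf R = 12) : P = 6 • R := by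
  by_contra hne
  have h12 : 12 • R = 0 := hR ▸ addOrderOf_nsmul_eq_zero R
  have hz : ∀ k : ℕ, k • R = 0 → 12 ∣ k := fun k hk => hR ▸ addOrderOf_dvd_of_nsmul_eq_zero hk
  have hP2 : 2 • P = 0 := hP ▸ addOrderOf_nsmul_eq_zero P
  have hP0 : P ≠ 0 := fun e => by rw [e, addOrderOf_zero] at hP; norm_num at hP
  have hT2 : 2 • (6 • R) = 0 := by rw [← mul_nsmul]; exact h12
  have hT0 : 6 • R ≠ 0 := fun e => by have := hz 6 e; omega
  have hU2 : 2 • (P + 6 • R) = 0 := by rw [nsmul_add, hP2, hT2, add_zero]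
  have hU0 : P + 6 • R ≠ 0 := fun e => hne (by
    rw [two_nsmul, add_eq_zero_iff_eq_neg] at hT2
    exact (add_eq_zero_iff_eq_neg.mp e).trans hT2.symm)
  obtain ⟨e₁, y₁, k₁, eT⟩ := exists_some hT0
  obtain ⟨e₂, y₂, k₂, eP⟩ := exists_some hP0
  obtain ⟨e₃, y₃, k₃, eU⟩ := exists_some hU0
  have n12 : e₁ ≠ e₂ := ne_of_two_torsion (eP ▸ hP2) (eT ▸ eP ▸ Ne.symm hne)
  have n13 : e₁ ≠ e₃ := ne_of_two_torsion (eU ▸ hU2)
    (by rw [← eT, ← eU]; exact fun e => hP0 (right_eq_add.mp e))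
  have n23 : e₂ ≠ e₃ := ne_of_two_torsion (eU ▸ hU2)
    (by rw [← eP, ← eU]; exact fun e => hT0 (left_eq_add.mp e))
  obtain ⟨hb2, hb4, hb6⟩ := cubic_of_roots n12 n13 n23 (root_of_two (eT ▸ hT2))
    (root_of_two (eP ▸ hP2)) (root_of_two (eU ▸ hU2))
  -- the formulas for the three roots
  have sq : ∀ {x y x' y' : ℚ} {h : E.toAffine.Nonsingular x y}
      {h' : E.toAffine.Nonsingular x' y'},
      2 • Affine.Point.some x y h = Affine.Point.some x' y' h' →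
      (x' - e₁) * (4 * ((x - e₁) * (x - e₂) * (x - e₃))) =
          ((x - e₁) ^ 2 - (e₁ - e₂) * (e₁ - e₃)) ^ 2 ∧
      (x - e₁) * (x - e₂) * (x - e₃) ≠ 0 ∧
      (∃ r, x' - e₁ = r ^ 2) ∧ (∃ r, x' - e₂ = r ^ 2) ∧ ∃ r, x' - e₃ = r ^ 2 :=
      fun {x y x' y' h h'} hd => by
    obtain ⟨f1, hne', η, hη⟩ := double_sub_root hb2 hb4 hb6 hd
    have hη0 : η ≠ 0 := fun e => hne' (by rw [e] at hη; linarith)
    have conv : ∀ {d q K : ℚ}, d * K = q ^ 2 → η ^ 2 = K → ∃ r, d = r ^ 2 := fun {d q K} e hK =>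
      ⟨q / η, by field_simp; rw [hK]; exact e⟩
    obtain ⟨f2, -⟩ := double_sub_root (e₁ := e₂) (e₂ := e₁) (e₃ := e₃)
      (by rw [hb2]; ring) (by rw [hb4]; ring) (by rw [hb6]; ring) hd
    obtain ⟨f3, -⟩ := double_sub_root (e₁ := e₃) (e₂ := e₁) (e₃ := e₂)
      (by rw [hb2]; ring) (by rw [hb4]; ring) (by rw [hb6]; ring) hd
    exact ⟨f1, hne', conv f1 hη, conv f2 (by rw [hη]; ring), conv f3 (by rw [hη]; ring)⟩
  -- the point of order `4`
  obtain ⟨xs, ys, ks, eS⟩ : ∃ x y h, 3 • R = Affine.Point.some x y h :=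
    exists_some fun e => by have := hz 3 e; omega
  obtain ⟨-, -, -, ⟨a, ha⟩, b, hb⟩ := sq (h := ks) (h' := k₁)
    (by rw [← eS, ← eT, ← mul_nsmul])
  -- the point of order `3`, which is a double
  obtain ⟨xh, yh, kh, eH⟩ : ∃ x y h, 2 • R = Affine.Point.some x y h :=
    exists_some fun e => by have := hz 2 e; omega
  obtain ⟨xq, yq, kq, eQ⟩ : ∃ x y h, 4 • R = Affine.Point.some x y h :=
    exists_some fun e => by have := hz 4 e; omega
  obtain ⟨-, -, ⟨w, hw⟩, ⟨u, hu⟩, v, hv⟩ := sq (h := kh) (h' := kq)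
    (by rw [← eH, ← eQ, ← mul_nsmul])
  obtain ⟨hn, hkn⟩ : ∃ h, -(4 • R) = Affine.Point.some xq (E.toAffine.negY xq yq) h :=
    ⟨_, by rw [eQ, Affine.Point.neg_some]⟩
  obtain ⟨f1, hne', -⟩ := sq (h := kq) (h' := hn) (by
    rw [← eQ, ← hkn, eq_neg_iff_add_eq_zero, ← succ_nsmul, ← mul_nsmul]
    exact h12)
  have hua : u ^ 2 = w ^ 2 + a ^ 2 := by rw [← hu, ← hw, ← ha]; ring
  have hvb : v ^ 2 = w ^ 2 + b ^ 2 := by rw [← hv, ← hw, ← hb]; ring
  rw [hw, hu, hv, ha, hb] at f1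
  rw [hw, hu, hv] at hne'
  obtain ⟨⟨hw0, hu0⟩, hv0⟩ := (mul_ne_zero_iff.mp hne').imp_left mul_ne_zero_iff.mp
  refine no_halving (pow_ne_zero_iff two_ne_zero |>.mp hw0) (pow_ne_zero_iff two_ne_zero |>.mp hu0)
    (pow_ne_zero_iff two_ne_zero |>.mp hv0) hua hvb ?_
  linear_combination -f1

end FA.Torsion

end
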