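import Fermat.Agent.Torsion.Assembly
import Fermat.Agent.Torsion.Order14
import Fermat.Agent.Torsion.Order15
import Fermat.Agent.Torsion.Order16
import Fermat.Agent.Torsion.Order18
import Fermat.Agent.Torsion.Order21
import Fermat.Agent.Torsion.Order27
import Fermat.Agent.Torsion.Order35
import Fermat.Agent.Torsion.Order49
import Fermat.Agent.Torsion.TwoTen
import Fermat.Agent.Torsion.TwoTwelve
import Fermat.Agent.TwentyFive.Main

/-!
# Mazur's torsion theorem

The torsion subgroup of an elliptic curve over `ℚ` is one of fifteen groups.
-/

set_option autoImplicit false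

noncomputable section

namespace FA.Torsion

/-- The excluded orders and groups. -/
theorem exclusions : Exclusions where
  order N hN E _ P := by
    fin_cases hN
    exacts [no_order_14 E P, no_order_15 E P, no_order_16 E P, no_order_18 E P, no_order_21 E P,
      no_order_27 E P, no_order_35 E P, no_order_49 E P]
  ten := two_times_ten
  twelve := two_times_twelve

/-- **Mazur's torsion theorem.** -/
theorem mazur_torsion (E : WeierstrassCurve ℚ) [E.IsElliptic] :
    (∃ n ∈ ({1, 2, 3, 4, 5, 6, 7, 8, 9, 10, 12} : Finset ℕ),
        Nonempty (AddCommGroup.torsion E.toAffine.Point ≃+ ZMod n)) ∨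
      ∃ m ∈ ({1, 2, 3, 4} : Finset ℕ),
        Nonempty (AddCommGroup.torsion E.toAffine.Point ≃+ ZMod 2 × ZMod (2 * m)) :=
  torsion_groups_of exclusions FA.TwentyFive.no_order_25 E

end FA.Torsion

end
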