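import Fermat.Agent.Thirteen.Summary
import Fermat.Agent.Frob.Charpoly
import Mathlib.NumberTheory.Padics.PadicNumbers

/-!
# The rational torsion injects into the points modulo a prime above `7`

For an integral Weierstrass equation and a prime `q > 7` not dividing the discriminant, the order
of the rational torsion subgroup divides the number of points modulo `q`.
-/

set_option autoImplicit false
set_option linter.unusedSectionVars false
set_option linter.style.haveILetI false

noncomputable section

open WeierstrassCurve FA.Local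
open FA.Frob (ratCurve Res redCurve redHom redHom_injOn redCurve_isElliptic intModel)

namespace FA.Torsion

/-- The points of an integral equation modulo `q`, with the one at infinity. -/
def countMod (W : WeierstrassCurve ℤ) (q : ℕ) [NeZero q] : ℕ :=
  (Finset.univ.filter fun p : ZMod q × ZMod q =>
    p.2 ^ 2 + (W.a₁ : ZMod q) * p.1 * p.2 + (W.a₃ : ZMod q) * p.2 =
      p.1 ^ 3 + (W.a₂ : ZMod q) * p.1 ^ 2 + (W.a₄ : ZMod q) * p.1 + (W.a₆ : ZMod q)).card + 1

variable (q : ℕ) [hq : Fact q.Prime]

/-- The valuation subring of `ℚ` at `q`. -/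
abbrev ringAt : ValuationSubring ℚ := (Rat.padicValuation q).valuationSubring

theorem ringAt_val_intCast {z : ℤ} (hz : ¬ (q : ℤ) ∣ z) : (ringAt q).valuation (z : ℚ) = 1 :=
  (Valuation.isEquiv_valuation_valuationSubring _).eq_one_iff_eq_one.mp (by
    rw [Rat.padicValuation_cast, Int.padicValuation_eq_one_iff.mpr hz])

theorem ringAt_val_le (z : ℤ) : (ringAt q).valuation (z : ℚ) ≤ 1 :=
  (ringAt q).valuation_le_one ⟨(z : ℚ), intCast_mem _ z⟩

theorem charP_res : CharP (Res (ringAt q)) q := by
  rw [CharP.charP_iff_prime_eq_zero hq.out, ← map_natCast (IsLocalRing.residue (ringAt q)),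
    IsLocalRing.residue_eq_zero_iff, ValuationSubring.valuation_lt_one_iff]
  refine (Valuation.isEquiv_valuation_valuationSubring _).lt_one_iff_lt_one.mp ?_
  rw [show (((q : ringAt q)) : ℚ) = ((q : ℤ) : ℚ) from by push_cast; rfl,
    Rat.padicValuation_cast, Int.padicValuation_lt_one_iff]

/-- The residue field has only `q` elements. -/
theorem surjective_res (φ : ZMod q →+* Res (ringAt q)) : Function.Surjective φ := by
  haveI := charP_res q
  intro r
  obtain ⟨⟨a, ha⟩, rfl⟩ := IsLocalRing.residue_surjective r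
  have hd : (a.den : Res (ringAt q)) ≠ 0 := by
    rw [ne_eq, CharP.cast_eq_zero_iff (Res (ringAt q)) q]
    exact Rat.padicValuation_le_one_iff.mp ha
  have e : IsLocalRing.residue (ringAt q) ⟨a, ha⟩ * (a.den : Res (ringAt q)) = (a.num : Res _) := by
    rw [← map_natCast (IsLocalRing.residue (ringAt q)), ← map_mul,
      ← map_intCast (IsLocalRing.residue (ringAt q))]
    congr 1
    exact Subtype.ext (by push_cast; exact Rat.mul_den_eq_num a)
  exact ⟨(a.num : ZMod q) / (a.den : ZMod q), by
    rw [map_div₀, map_intCast, map_natCast, div_eq_iff hd, e]⟩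

theorem intCoeff_at (W : WeierstrassCurve ℤ) :
    IntCoeff (ringAt q).valuation (ratCurve W).toAffine := by
  constructor <;> exact ringAt_val_le q _

/-- The number of points of the reduced curve. -/
theorem natCard_redCurve (W : WeierstrassCurve ℤ)
    [(redCurve (ringAt q) (ratCurve W).toAffine (intCoeff_at q W)).IsElliptic] :
    Finite (redCurve (ringAt q) (ratCurve W).toAffine (intCoeff_at q W)).toAffine.Point ∧
      Nat.card (redCurve (ringAt q) (ratCurve W).toAffine (intCoeff_at q W)).toAffine.Point =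
        countMod W q := by
  haveI := charP_res q
  set φ : ZMod q →+* Res (ringAt q) := ZMod.castHom (dvd_refl q) _ with hφ
  set V := W.map (Int.castRingHom (ZMod q)) with hV
  have e : redCurve (ringAt q) (ratCurve W).toAffine (intCoeff_at q W) = V.map φ := by
    have e' : intModel (ringAt q) (ratCurve W).toAffine (intCoeff_at q W) =
        W.map (Int.castRingHom (ringAt q)) := by
      ext <;> simp [intModel]
    rw [redCurve, e', hV, map_map, map_map,
      RingHom.ext_int ((IsLocalRing.residue _).comp (Int.castRingHom _)) (φ.comp (Int.castRingHom _))]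
  revert ‹(redCurve (ringAt q) (ratCurve W).toAffine (intCoeff_at q W)).IsElliptic›
  rw [e]
  intro hE
  let f : Option {p : ZMod q × ZMod q // V.toAffine.Equation p.1 p.2} → (V.map φ).toAffine.Point
    | none => 0
    | some p => .some (φ p.1.1) (φ p.1.2) (Affine.equation_iff_nonsingular.mp (p.2.map φ))
  have hf : Function.Bijective f := by
    refine ⟨?_, ?_⟩
    · rintro (_ | ⟨⟨x, y⟩, h⟩) (_ | ⟨⟨x', y'⟩, h'⟩) he
      · rfl
      · exact absurd he.symm (Affine.Point.some_ne_zero _)
      · exact absurd he (Affine.Point.some_ne_zero _)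
      · simp only [f, Affine.Point.some.injEq, φ.injective.eq_iff] at he
        obtain ⟨rfl, rfl⟩ := he
        rfl
    · rintro (_ | ⟨x, y, h⟩)
      · exact ⟨none, rfl⟩
      · obtain ⟨x, rfl⟩ := surjective_res q φ x
        obtain ⟨y, rfl⟩ := surjective_res q φ y
        exact ⟨some ⟨(x, y), (Affine.map_equation (W := V.toAffine) φ.injective x y).mp h.1⟩, rfl⟩
  refine ⟨Finite.of_surjective f hf.2, ?_⟩
  rw [← Nat.card_eq_of_bijective f hf, Finite.card_option, countMod, ← Fintype.card_coe,
    ← Nat.card_eq_fintype_card]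
  congr 1
  refine Nat.card_congr (Equiv.subtypeEquivRight fun p => ?_)
  rw [Finset.mem_filter, Affine.equation_iff]
  simp [hV]

/-- The torsion subgroup is finite and its order divides the number of points modulo `q > 7`. -/
theorem natCard_torsion_dvd (W : WeierstrassCurve ℤ) [(ratCurve W).IsElliptic] (h7 : 7 < q)
    (hΔ : ¬ (q : ℤ) ∣ W.Δ) :
    Finite (AddCommGroup.torsion (ratCurve W).toAffine.Point) ∧
      Nat.card (AddCommGroup.torsion (ratCurve W).toAffine.Point) ∣ countMod W q := by
  classical
  have hΔ' : (ringAt q).valuation (ratCurve W).toAffine.Δ = 1 := by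
    rw [show (ratCurve W).toAffine.Δ = ((W.Δ : ℤ) : ℚ) from W.map_Δ _, ringAt_val_intCast q hΔ]
  haveI := redCurve_isElliptic (intCoeff_at q W) hΔ'
  obtain ⟨hfin, hcard⟩ := natCard_redCurve q W
  let r := (redHom (intCoeff_at q W) hΔ').comp
    (AddCommGroup.torsion (ratCurve W).toAffine.Point).subtype
  have hr : Function.Injective r := (injective_iff_map_eq_zero r).mpr fun P hP => by
    by_contra hne
    set n := addOrderOf (P : (ratCurve W).toAffine.Point) with hn
    have hn0 : n ≠ 0 := ((AddCommGroup.mem_torsion _).mp P.2).addOrderOf_pos.ne'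
    have hn1 : n ≠ 1 := fun h => hne (Subtype.ext (AddMonoid.addOrderOf_eq_one_iff.mp h))
    have hl := Nat.minFac_prime hn1
    have hd := Nat.minFac_dvd n
    have hQ : addOrderOf ((n / n.minFac) • (P : (ratCurve W).toAffine.Point)) = n.minFac := by
      rw [addOrderOf_nsmul_of_dvd (fun h => hn0 (by
        have := Nat.div_mul_cancel hd; rw [h, zero_mul] at this; exact this.symm))
        (Nat.div_dvd_of_dvd hd), ← hn, Nat.div_div_self hd hn0]
    have hle : n.minFac ≤ 7 := FA.Summary.mazur_prime_dvd_all _ _ hn0 hl hd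
    have hv : (ringAt q).valuation ((n.minFac : ℕ) : ℚ) = 1 := by
      rw [show ((n.minFac : ℕ) : ℚ) = ((n.minFac : ℤ) : ℚ) from (Int.cast_natCast _).symm]
      refine ringAt_val_intCast q fun h => ?_
      have := Nat.le_of_dvd hl.pos (Int.natCast_dvd_natCast.mp h)
      omega
    have h0 := redHom_injOn (intCoeff_at q W) hΔ' hl hv
      (P := (n / n.minFac) • (P : (ratCurve W).toAffine.Point))
      (by
        have := addOrderOf_nsmul_eq_zero ((n / n.minFac) • (P : (ratCurve W).toAffine.Point))
        rwa [hQ] at this)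
      (by rw [map_nsmul]; exact (congrArg ((n / n.minFac) • ·) hP).trans (nsmul_zero _))
    rw [h0, addOrderOf_zero] at hQ
    exact hl.one_lt.ne hQ
  exact ⟨Finite.of_injective r hr, hcard ▸ AddSubgroup.card_dvd_of_injective r hr⟩

/-- A finite group that embeds into the points is the torsion subgroup as soon as the order of
that subgroup divides its own. -/
theorem torsion_equiv_of {E : WeierstrassCurve ℚ} [E.IsElliptic] {G : Type*} [AddCommGroup G]
    [Finite G] (φ : G →+ E.toAffine.Point) (hφ : Function.Injective φ)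
    [Finite (AddCommGroup.torsion E.toAffine.Point)]
    (h : Nat.card (AddCommGroup.torsion E.toAffine.Point) ∣ Nat.card G) :
    Nonempty (AddCommGroup.torsion E.toAffine.Point ≃+ G) := by
  let ψ := φ.codRestrict (AddCommGroup.torsion E.toAffine.Point) fun x =>
    (AddCommGroup.mem_torsion (φ x)).mpr (φ.isOfFinAddOrder (isOfFinAddOrder_of_finite x))
  have hψ : Function.Injective ψ := fun x y e => hφ (congrArg Subtype.val e)
  exact ⟨(AddEquiv.ofBijective ψ
    (hψ.bijective_of_nat_card_le (Nat.le_of_dvd Nat.card_pos h))).symm⟩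

/-- The homomorphism `k ↦ k • P`. -/
def cyclicHom {A : Type*} [AddCommGroup A] {n : ℕ} (P : A) (hP : n • P = 0) : ZMod n →+ A :=
  ZMod.lift n ⟨zmultiplesHom A P, by simpa using hP⟩

theorem cyclicHom_apply {A : Type*} [AddCommGroup A] {n : ℕ} [NeZero n] {P : A} (hP : n • P = 0)
    (k : ZMod n) : cyclicHom P hP k = k.val • P := by
  conv_lhs => rw [← ZMod.natCast_zmod_val k]
  rw [← Int.cast_natCast, cyclicHom, ZMod.lift_coe]
  exact natCast_zsmul P k.val

theorem cyclicHom_injective {A : Type*} [AddCommGroup A] {n : ℕ} [NeZero n] {P : A} (hP : n • P = 0)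
    (h : ∀ k : Fin n, (k : ℕ) • P = 0 → (k : ℕ) = 0) : Function.Injective (cyclicHom P hP) :=
  (injective_iff_map_eq_zero _).mpr fun k hk => (ZMod.val_eq_zero k).mp
    (h ⟨k.val, ZMod.val_lt k⟩ (by rwa [cyclicHom_apply] at hk))

/-- The homomorphism `(j, k) ↦ j • T + k • P`. -/
def twoHom {A : Type*} [AddCommGroup A] {n : ℕ} (T P : A) (hT : 2 • T = 0) (hP : n • P = 0) :
    ZMod 2 × ZMod n →+ A :=
  (cyclicHom T hT).coprod (cyclicHom P hP)

theorem twoHom_injective {A : Type*} [AddCommGroup A] {n : ℕ} [NeZero n] {T P : A}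
    (hT : 2 • T = 0) (hP : n • P = 0)
    (h : ∀ j : Fin 2, ∀ k : Fin n, (j : ℕ) • T + (k : ℕ) • P = 0 → (j : ℕ) = 0 ∧ (k : ℕ) = 0) :
    Function.Injective (twoHom T P hT hP) :=
  (injective_iff_map_eq_zero _).mpr fun k hk => by
    rw [twoHom, AddMonoidHom.coprod_apply, cyclicHom_apply, cyclicHom_apply] at hk
    obtain ⟨h1, h2⟩ := h ⟨_, ZMod.val_lt k.1⟩ ⟨_, ZMod.val_lt k.2⟩ hk
    exact Prod.ext ((ZMod.val_eq_zero _).mp h1) ((ZMod.val_eq_zero _).mp h2)

end FA.Torsion

end
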