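import Fermat.Agent.Torsion.Short
import Fermat.Agent.Frob.Det
import Fermat.Agent.EC.TorsionGalois
import Fermat.Agent.TW.Primes

/-!
# The rational torsion is small

Full `p`-torsion over `ℚ` is impossible for odd `p` (the cyclotomic character is not trivial) and
full `4`-torsion is impossible (the derivative of the cubic is negative at the middle root).
-/

set_option autoImplicit false
set_option linter.unusedSectionVars false
set_option linter.style.haveILetI false

noncomputable section

open WeierstrassCurve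
open scoped WeierstrassCurve.Affine

namespace FA.Torsion

local notation "Qb" => AlgebraicClosure ℚ
local notation "GQ" => AlgebraicClosure ℚ ≃ₐ[ℚ] AlgebraicClosure ℚ

variable (E : WeierstrassCurve ℚ) [E.IsElliptic]

/-- The inclusion of the rational points. -/
def toQb : E.toAffine.Point →+ (E⁄Qb).Point :=
  (Affine.Point.map (Algebra.ofId ℚ Qb) : (E⁄ℚ).toAffine.Point →+ (E⁄Qb).toAffine.Point)

theorem toQb_injective : Function.Injective (toQb E) := Affine.Point.map_injective _

theorem map_fixed (σ : GQ) (P : (E⁄ℚ).toAffine.Point) :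
    Affine.Point.map σ.toAlgHom (Affine.Point.map (Algebra.ofId ℚ Qb) P) =
      Affine.Point.map (Algebra.ofId ℚ Qb) P := by
  rw [Affine.Point.map_map]
  congr 2
  exact AlgHom.ext fun z => σ.commutes z

theorem toQb_fixed (σ : GQ) (P : E.toAffine.Point) : σ • toQb E P = toQb E P := map_fixed E σ P

/-- A rational point killed by `n`, over `ℚ̄`. -/
def toTorsion (n : ℕ) (P : E.toAffine.Point) (h : n • P = 0) :
    Submodule.torsionBy ℤ (E⁄Qb).Point n :=
  ⟨toQb E P, by
    rw [Submodule.mem_torsionBy_iff, natCast_zsmul, ← map_nsmul, h, map_zero]⟩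

theorem toTorsion_injective {n : ℕ} :
    Function.Injective fun P : {P : E.toAffine.Point // n • P = 0} => toTorsion E n P.1 P.2 :=
  fun _ _ h => Subtype.ext (toQb_injective E (congrArg Subtype.val h))

theorem natCard_two_torsion_le : Nat.card {P : E.toAffine.Point // 2 • P = 0} ≤ 4 := by
  have := FA.EC.finite_torsion E two_ne_zero
  exact (Nat.card_le_card_of_injective _ (toTorsion_injective E)).trans
    (FA.EC.natCard_torsion E two_ne_zero).le

/-- The torsion killed by a fixed number is finite. -/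
theorem finite_killed {n : ℕ} (hn : n ≠ 0) : Finite {P : E.toAffine.Point // n • P = 0} := by
  have := FA.EC.finite_torsion E hn
  exact Finite.of_injective _ (toTorsion_injective E)

/-- **No rational `(ℤ/p)²`** for odd `p`. -/
theorem not_injective_prime {p : ℕ} (hp : p.Prime) (ho : Odd p)
    (φ : ZMod p × ZMod p →+ E.toAffine.Point) : ¬ Function.Injective φ := by
  intro hφ
  haveI := Fact.mk hp
  haveI : NeZero p := ⟨hp.ne_zero⟩
  have hp3 : 3 ≤ p := by rcases ho with ⟨k, rfl⟩; have := hp.two_le; omega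
  have hk : ∀ x, p • φ x = 0 := fun x => by
    rw [← map_nsmul, show p • x = 0 from by ext <;> simp, map_zero]
  let f : ZMod p × ZMod p → Submodule.torsionBy ℤ (E⁄Qb).Point p :=
    fun x => toTorsion E p (φ x) (hk x)
  have hf : Function.Injective f := fun x y h =>
    hφ (toQb_injective E (congrArg Subtype.val h))
  haveI := FA.EC.finite_torsion E hp.ne_zero
  have hs : Function.Surjective f := (hf.bijective_of_nat_card_le (by
    rw [FA.EC.natCard_torsion E hp.ne_zero, Nat.card_prod, Nat.card_zmod, sq])).2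
  obtain ⟨σ, hσ⟩ := FA.TW.exists_cyclotomic_action hp (a := 2)
    (fun h => by have := Nat.le_of_dvd two_pos h; omega)
  have hfix : Affine.Point.galoisRepModuleEnd (K := Qb) ℚ E.toAffine p σ = 1 := by
    refine LinearMap.ext fun x => ?_
    obtain ⟨z, rfl⟩ := hs x
    exact Subtype.ext (toQb_fixed E σ (φ z))
  have hdet := FA.Frob.det_galoisRepModuleEnd p E (IsAlgClosed.card_rootsOfUnity_eq Qb p) σ
  rw [hfix, map_one, FA.Frob.cycloChar_apply] at hdet
  have h2 : ((2 : ℕ) : ZMod p) = 1 := by
    refine Eq.trans ?_ hdet.symm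
    refine modularCyclotomicCharacter.unique Qb _ _ fun t ht => ?_
    have ht' : (t : Qb) ^ p = 1 := by
      rw [← Units.val_pow_eq_pow_val, (mem_rootsOfUnity p t).mp ht, Units.val_one]
    show σ (t : Qb) = _
    rw [hσ _ ht', ZMod.val_natCast]
    exact pow_eq_pow_mod 2 ht'
  rw [← Nat.cast_one, ZMod.natCast_eq_natCast_iff'] at h2
  rw [Nat.mod_eq_of_lt (by omega), Nat.mod_eq_of_lt (by omega)] at h2
  omega

/-- **No rational `(ℤ/4)²`**. -/
theorem not_injective_four (φ : ZMod 4 × ZMod 4 →+ E.toAffine.Point) :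
    ¬ Function.Injective φ := by
  intro hφ
  obtain ⟨a, b, d, hE, ⟨e⟩⟩ := exists_shortCurve (W := E)
  let ψ : ZMod 4 × ZMod 4 →+ (shortCurve a b d).toAffine.Point := e.symm.toAddMonoidHom.comp φ
  have hψ : Function.Injective ψ := e.symm.injective.comp hφ
  have hcoord : ∀ u : ZMod 4 × ZMod 4, 2 • u ≠ 0 → ∃ (r s : ℚ) (hr : (shortCurve a b d).toAffine.Nonsingular r 0),
      ψ (2 • u) = Affine.Point.some r 0 hr ∧ s ^ 2 = 3 * r ^ 2 + 2 * a * r + b ∧
        r ^ 3 + a * r ^ 2 + b * r + d = 0 := by
    intro u hu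
    have h4 : 2 • (2 • u) = 0 := by
      rw [← mul_nsmul]; ext <;> simp [show (4 : ZMod 4) = 0 from rfl]
    have hu0 : u ≠ 0 := by rintro rfl; exact hu (smul_zero _)
    obtain ⟨r, t, hr, hrt⟩ : ∃ r t h, ψ (2 • u) = Affine.Point.some r t h := by
      rcases hc : ψ (2 • u) with _ | ⟨r, t, h⟩
      · exact absurd (hψ (hc.trans (map_zero ψ).symm)) hu
      · exact ⟨r, t, h, rfl⟩
    have ht : t = 0 := y_eq_zero_of_double (h := hr) (by rw [← hrt, ← map_nsmul, h4, map_zero])
    subst ht
    obtain ⟨x, y, hxy, hx⟩ : ∃ x y h, ψ u = Affine.Point.some x y h := by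
      rcases hc : ψ u with _ | ⟨x, y, h⟩
      · exact absurd (hψ (hc.trans (map_zero ψ).symm)) hu0
      · exact ⟨x, y, h, rfl⟩
    refine ⟨r, x - r, hr, hrt, sq_eq_derivative_of_double (h := hxy) (he := hr) ?_, ?_⟩
    · rw [← hx, ← map_nsmul, hrt]
    · linear_combination -(shortCurve_equation hr)
  obtain ⟨r, s, hr, e1, hs, fr⟩ := hcoord (1, 0) (by decide)
  obtain ⟨r', s', hr', e1', hs', fr'⟩ := hcoord (0, 1) (by decide)
  obtain ⟨r'', s'', hr'', e1'', hs'', fr''⟩ := hcoord (1, 1) (by decide)
  have n1 : r ≠ r' := fun h => by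
    have := hψ (e1.trans ((Affine.Point.some.injEq ..).mpr ⟨h, rfl⟩ |>.trans e1'.symm))
    revert this; decide
  have n2 : r ≠ r'' := fun h => by
    have := hψ (e1.trans ((Affine.Point.some.injEq ..).mpr ⟨h, rfl⟩ |>.trans e1''.symm))
    revert this; decide
  have n3 : r' ≠ r'' := fun h => by
    have := hψ (e1'.trans ((Affine.Point.some.injEq ..).mpr ⟨h, rfl⟩ |>.trans e1''.symm))
    revert this; decide
  have q12 : r ^ 2 + r * r' + r' ^ 2 + a * (r + r') + b = 0 :=
    mul_left_cancel₀ (sub_ne_zero.mpr n1) (by linear_combination fr - fr')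
  have q13 : r ^ 2 + r * r'' + r'' ^ 2 + a * (r + r'') + b = 0 :=
    mul_left_cancel₀ (sub_ne_zero.mpr n2) (by linear_combination fr - fr'')
  have hsum : a = -(r + r' + r'') := mul_left_cancel₀ (sub_ne_zero.mpr n3) (by
    linear_combination q12 - q13)
  subst hsum
  have hb : b = r * r' + r * r'' + r' * r'' := by linear_combination q12
  subst hb
  have : (s * s' * s'') ^ 2 + ((r - r') * (r - r'') * (r' - r'')) ^ 2 = 0 := by
    rw [mul_pow, mul_pow, hs, hs', hs'']; ring
  have hne : 0 < ((r - r') * (r - r'') * (r' - r'')) ^ 2 := by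
    refine lt_of_le_of_ne (sq_nonneg _) (Ne.symm ?_)
    exact pow_ne_zero _ (mul_ne_zero (mul_ne_zero (sub_ne_zero.mpr n1) (sub_ne_zero.mpr n2))
      (sub_ne_zero.mpr n3))
  nlinarith [sq_nonneg (s * s' * s'')]

end FA.Torsion

end
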