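import Fermat.Agent.Thirteen.Tate

/-!
# The Tate normal form of a point of order at least `4`

A point `P` with `2 • P ≠ 0` and `3 • P ≠ 0` becomes the origin of `y² + (1-c)xy - by = x³ - bx²`
with `b ≠ 0`; the first multiples of the origin are listed.
-/

set_option autoImplicit false

noncomputable section

open WeierstrassCurve
open FA.Frob (vcX vcY vcEquiv vcEquiv_some vc_coeffs)
open FA.Thirteen (tateCurve tateA3 tateA2 lam13 bc13 add_eq_some eq_or_eq_neg_of_X_eq)

namespace FA.Torsion

variable {K : Type*} [Field K]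

theorem tate_b_ne_zero (b c : K) [(tateCurve b c).IsElliptic] : b ≠ 0 := fun h =>
  (tateCurve b c).isUnit_Δ.ne_zero (by rw [FA.Thirteen.Δ_tateCurve, h]; ring)

theorem j_congr {W W' : WeierstrassCurve K} (h : W = W') [W.IsElliptic]
    [W'.IsElliptic] : W.j = W'.j := by
  subst h; rfl

variable [DecidableEq K] {W : WeierstrassCurve K} [W.IsElliptic]

/-- **Tate normal form**, with the `j`-invariant. -/
theorem exists_tate_j (P : W.toAffine.Point) (h2 : 2 • P ≠ 0) (h3 : 3 • P ≠ 0) :
    ∃ (b c : K) (h0 : (tateCurve b c).toAffine.Nonsingular 0 0)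
      (_ : (tateCurve b c).IsElliptic) (e : (tateCurve b c).toAffine.Point ≃+ W.toAffine.Point),
      e (Affine.Point.some 0 0 h0) = P ∧ (tateCurve b c).j = W.j := by
  rcases P with _ | ⟨x, y, h⟩
  · exact absurd (smul_zero _) h2
  have hy : y ≠ W.toAffine.negY x y := fun e => h2 (by
    rw [two_nsmul]; exact Affine.Point.add_self_of_Y_eq e)
  have hA3 : tateA3 W x y ≠ 0 := fun e => hy (by
    simp only [tateA3] at e
    simp only [Affine.negY]
    linear_combination e)
  have hl : W.toAffine.slope x x y y = lam13 W x y := by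
    rw [Affine.slope_of_Y_ne rfl hy, lam13, show y - W.toAffine.negY x y = tateA3 W x y by
      simp only [tateA3, Affine.negY]; ring]
  have hA2 : tateA2 W x y ≠ 0 := fun e => by
    have ex : W.toAffine.addX x x (lam13 W x y) = x := by
      simp only [tateA2] at e
      simp only [Affine.addX]
      linear_combination -e
    have e2 := Affine.Point.add_self_of_Y_ne (h₁ := h) hy
    simp only [hl, ex] at e2
    obtain ⟨h', e2'⟩ : ∃ h', 2 • Affine.Point.some x y h =
        Affine.Point.some x (W.toAffine.addY x x y (lam13 W x y)) h' :=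
      ⟨_, (two_nsmul _).trans e2⟩
    rcases eq_or_eq_neg_of_X_eq (h₁ := h') (h₂ := h) with e' | e' <;> rw [← e2'] at e'
    · rw [two_nsmul, add_eq_right] at e'
      exact Affine.Point.some_ne_zero h e'
    · exact h3 (by rw [succ_nsmul, e', neg_add_cancel])
  let C : VariableChange K :=
    ⟨Units.mk0 (tateA3 W x y / tateA2 W x y) (div_ne_zero hA3 hA2), x, lam13 W x y, y⟩
  have hlam : lam13 W x y * tateA3 W x y = 3 * x ^ 2 + 2 * W.a₂ * x + W.a₄ - W.a₁ * y :=
    div_mul_cancel₀ _ hA3
  have heq := (Affine.equation_iff x y).mp h.1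
  have hC : C • W = tateCurve (bc13 W x y).1 (bc13 W x y).2 := by
    ext <;>
      simp only [C, variableChange_a₁, variableChange_a₂, variableChange_a₃, variableChange_a₄,
        variableChange_a₆, tateCurve, bc13, Units.val_inv_eq_inv_val, Units.val_mk0]
    · simp only [FA.Thirteen.tateA1]; field_simp; ring
    · rw [show W.a₂ - lam13 W x y * W.a₁ + 3 * x - lam13 W x y ^ 2 = tateA2 W x y by
        simp only [tateA2]; ring]
      field_simp
    · rw [show W.a₃ + x * W.a₁ + 2 * y = tateA3 W x y by simp only [tateA3]; ring]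
      field_simp
    · rw [show W.a₄ - lam13 W x y * W.a₃ + 2 * x * W.a₂ - (y + x * lam13 W x y) * W.a₁ + 3 * x ^ 2 -
        2 * lam13 W x y * y = 0 by simp only [tateA3] at hlam; linear_combination -hlam, mul_zero]
    · rw [show W.a₆ + x * W.a₄ + x ^ 2 * W.a₂ + x ^ 3 - y * W.a₃ - y ^ 2 - x * y * W.a₁ = 0 by
        linear_combination -heq, mul_zero]
  have hr : C.r = x := rfl
  have ht : C.t = y := rfl
  clear_value C
  have hE : (tateCurve (bc13 W x y).1 (bc13 W x y).2).IsElliptic := by
    refine ⟨?_⟩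
    rw [← hC, WeierstrassCurve.variableChange_Δ]
    exact ((Units.isUnit _).pow _).mul W.isUnit_Δ
  have h0 : (tateCurve (bc13 W x y).1 (bc13 W x y).2).toAffine.Nonsingular 0 0 := by
    refine (WeierstrassCurve.Affine.equation_iff_nonsingular).mp ?_
    rw [Affine.equation_iff]
    simp [tateCurve]
  have hj : (tateCurve (bc13 W x y).1 (bc13 W x y).2).j = W.j :=
    (j_congr hC.symm).trans (W.variableChange_j C)
  refine ⟨_, _, h0, hE, vcEquiv C hC, ?_, hj⟩
  rw [vcEquiv_some, Affine.Point.some.injEq]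
  simp [hr, ht, vcX, vcY]

/-- **Tate normal form**: `P` with `2 • P ≠ 0 ≠ 3 • P` is the origin of some `tateCurve b c`. -/
theorem exists_tate (P : W.toAffine.Point) (h2 : 2 • P ≠ 0) (h3 : 3 • P ≠ 0) :
    ∃ (b c : K) (h0 : (tateCurve b c).toAffine.Nonsingular 0 0)
      (_ : (tateCurve b c).IsElliptic) (e : (tateCurve b c).toAffine.Point ≃+ W.toAffine.Point),
      e (Affine.Point.some 0 0 h0) = P := by
  obtain ⟨b, c, h0, hE, e, he, -⟩ := exists_tate_j P h2 h3
  exact ⟨b, c, h0, hE, e, he⟩

omit [W.IsElliptic] in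
/-- Tate's normal form is reached by an isomorphism, so orders are preserved. -/
theorem addOrderOf_equiv {b c : K} {h0 : (tateCurve b c).toAffine.Nonsingular 0 0}
    {e : (tateCurve b c).toAffine.Point ≃+ W.toAffine.Point} {P : W.toAffine.Point}
    (he : e (Affine.Point.some 0 0 h0) = P) :
    addOrderOf (Affine.Point.some 0 0 h0) = addOrderOf P := by
  rw [← he, AddEquiv.addOrderOf_eq e]

variable {b c : K} [(tateCurve b c).IsElliptic] {h0 : (tateCurve b c).toAffine.Nonsingular 0 0}

omit [DecidableEq K] [(tateCurve b c).IsElliptic] in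
theorem tate_neg : ∃ h, -Affine.Point.some 0 0 h0 = Affine.Point.some (W' := (tateCurve b c).toAffine) 0 b h := by
  have e : (tateCurve b c).toAffine.negY 0 0 = b := by simp [tateCurve, Affine.negY]
  have hn := (Affine.nonsingular_neg 0 0).mpr h0
  rw [e] at hn
  exact ⟨hn, by rw [Affine.Point.neg_some, Affine.Point.some.injEq]; exact ⟨rfl, e⟩⟩

/-- `2P = (b, bc)`. -/
theorem tate_two : ∃ h, 2 • Affine.Point.some 0 0 h0 =
    Affine.Point.some (W' := (tateCurve b c).toAffine) b (b * c) h := by
  have hb := tate_b_ne_zero b c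
  have hy : (0 : K) ≠ (tateCurve b c).toAffine.negY 0 0 := by
    simp [tateCurve, Affine.negY, hb.symm]
  have hl : (tateCurve b c).toAffine.slope 0 0 0 0 = 0 := by
    rw [Affine.slope_of_Y_ne rfl hy]; simp [tateCurve]
  have hx : (tateCurve b c).toAffine.addX 0 0 0 = b := by simp [tateCurve, Affine.addX]
  have hyy : (tateCurve b c).toAffine.addY 0 0 0 0 = b * c := by
    simp [tateCurve, Affine.addX, Affine.addY, Affine.negAddY, Affine.negY]; ring
  have := Affine.Point.add_self_of_Y_ne (h₁ := h0) hy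
  simp only [hl, hx, hyy] at this
  exact ⟨_, (two_nsmul _).trans this⟩

/-- `3P = (c, b - c)`. -/
theorem tate_three : ∃ h, 3 • Affine.Point.some 0 0 h0 =
    Affine.Point.some (W' := (tateCurve b c).toAffine) c (b - c) h := by
  have hb := tate_b_ne_zero b c
  obtain ⟨h2, e2⟩ := tate_two (b := b) (c := c) (h0 := h0)
  obtain ⟨h3, e3⟩ := add_eq_some (W := tateCurve b c) (h₁ := h2) (h₂ := h0) (ℓ := c) (x₃ := c)
    (y₃ := b - c) hb (by ring)
    (by simp [tateCurve, Affine.addX]; ring)
    (by simp [tateCurve, Affine.addY, Affine.negAddY, Affine.negY, Affine.addX]; ring)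
  exact ⟨h3, by rw [succ_nsmul, e2, e3]⟩

/-- `4P = (r(r-1), r²(c - r + 1))` with `r = b/c`, when `c ≠ 0`. -/
theorem tate_four (hc : c ≠ 0) : ∃ h, 4 • Affine.Point.some 0 0 h0 =
    Affine.Point.some (W' := (tateCurve b c).toAffine) (b / c * (b / c - 1))
      ((b / c) ^ 2 * (c - b / c + 1)) h := by
  obtain ⟨h3, e3⟩ := tate_three (b := b) (c := c) (h0 := h0)
  obtain ⟨h4, e4⟩ := add_eq_some (W := tateCurve b c) (h₁ := h3) (h₂ := h0) (ℓ := b / c - 1)
    (x₃ := b / c * (b / c - 1)) (y₃ := (b / c) ^ 2 * (c - b / c + 1)) hc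
    (by field_simp; ring)
    (by simp [tateCurve, Affine.addX]; field_simp; ring)
    (by simp [tateCurve, Affine.addY, Affine.negAddY, Affine.negY, Affine.addX]; field_simp; ring)
  exact ⟨h4, by rw [succ_nsmul, e3, e4]⟩

end FA.Torsion

end
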