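import Mathlib.GroupTheory.Exponent
import Mathlib.GroupTheory.SpecificGroups.Cyclic
import Mathlib.Data.ZMod.QuotientGroup
import Mathlib.Data.Nat.Prime.Factorial
import Mathlib.Tactic

/-!
# Finite abelian groups with small `p`-rank

A finite abelian group without a subgroup `(ℤ/p)²` for odd primes `p` or `(ℤ/4)²`, and with at most
four elements killed by two, is cyclic or `ℤ/2 × ℤ/n` with `n` its exponent.
-/

set_option autoImplicit false
set_option linter.unusedSectionVars false
set_option linter.style.haveILetI false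

noncomputable section

namespace FA.Torsion

variable {G : Type*} [AddCommGroup G]

/-- The map `ℤ/k × ℤ/m → G` given by two elements. -/
def pairHom {k m : ℕ} (v u : G) (hv : k • v = 0) (hu : m • u = 0) : ZMod k × ZMod m →+ G :=
  (ZMod.lift k ⟨zmultiplesHom G v, by simpa using hv⟩).coprod
    (ZMod.lift m ⟨zmultiplesHom G u, by simpa using hu⟩)

theorem pairHom_apply {k m : ℕ} (v u : G) (hv : k • v = 0) (hu : m • u = 0) (i j : ℤ) :
    pairHom v u hv hu ((i : ZMod k), (j : ZMod m)) = i • v + j • u := by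
  simp [pairHom]

/-- Two elements in independent position give an injective map. -/
theorem pairHom_injective {k m : ℕ} {v u : G} (hv : k • v = 0) (hu : m • u = 0)
    (hu' : addOrderOf u = m) (hind : ∀ i : ℤ, i • v ∈ AddSubgroup.zmultiples u → (k : ℤ) ∣ i) :
    Function.Injective (pairHom v u hv hu) := by
  rw [injective_iff_map_eq_zero]
  rintro ⟨x, y⟩ h
  obtain ⟨i, rfl⟩ := ZMod.intCast_surjective x
  obtain ⟨j, rfl⟩ := ZMod.intCast_surjective y
  rw [pairHom_apply] at h
  obtain ⟨t, ht⟩ := hind i ⟨-j, by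
    show (-j) • u = i • v
    rw [neg_smul]; exact neg_eq_of_add_eq_zero_left h⟩
  have hiv : i • v = 0 := by
    rw [ht, mul_comm, mul_smul, natCast_zsmul, hv, smul_zero]
  rw [hiv, zero_add] at h
  rw [Prod.mk_eq_zero, ZMod.intCast_zmod_eq_zero_iff_dvd, ZMod.intCast_zmod_eq_zero_iff_dvd]
  exact ⟨⟨t, ht⟩, hu' ▸ addOrderOf_dvd_iff_zsmul_eq_zero.mpr h⟩

/-- The structure theorem. -/
theorem cyclic_or_two_times [Finite G]
    (hodd : ∀ p : ℕ, p.Prime → Odd p → ∀ φ : ZMod p × ZMod p →+ G, ¬ Function.Injective φ)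
    (h4 : ∀ φ : ZMod 4 × ZMod 4 →+ G, ¬ Function.Injective φ)
    (h2 : Nat.card {x : G // 2 • x = 0} ≤ 4) :
    ∃ g : G, (Nonempty (G ≃+ ZMod (addOrderOf g)) ∨
      (∃ y : G, addOrderOf y = 2 ∧ y ∉ AddSubgroup.zmultiples g ∧ Even (addOrderOf g) ∧
        Nonempty (G ≃+ ZMod 2 × ZMod (addOrderOf g)))) := by
  obtain ⟨g, hg⟩ := AddMonoid.exists_addOrderOf_eq_exponent
    (AddMonoid.ExponentExists.of_finite (G := G))
  refine ⟨g, ?_⟩
  set n := addOrderOf g with hn
  have hnx : ∀ x : G, n • x = 0 := fun x => by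
    rw [hg]; exact AddMonoid.exponent_nsmul_eq_zero x
  have hn0 : 0 < n := addOrderOf_pos g
  have hng : n • g = 0 := addOrderOf_nsmul_eq_zero g
  set K := AddSubgroup.zmultiples g with hK
  -- no square inside
  have hsq : ∀ (m : ℕ) (v : G), m ∣ n → m • v = 0 →
      (∀ i : ℤ, i • v ∈ K → (m : ℤ) ∣ i) →
      ∃ φ : ZMod m × ZMod m →+ G, Function.Injective φ := by
    intro m v hmn hv hind
    have hu : addOrderOf ((n / m) • g) = m := by
      rw [addOrderOf_nsmul_of_dvd (Nat.pos_of_dvd_of_pos hmn hn0 |> fun hm =>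
        (Nat.div_pos (Nat.le_of_dvd hn0 hmn) hm).ne') (Nat.div_dvd_of_dvd hmn),
        Nat.div_div_self hmn hn0.ne']
    refine ⟨_, pairHom_injective hv ((congrArg (· • ((n / m) • g)) hu.symm).trans (addOrderOf_nsmul_eq_zero _)) hu fun i hi =>
      hind i (AddSubgroup.zmultiples_le_of_mem (nsmul_mem (AddSubgroup.mem_zmultiples g) _) hi)⟩
  -- every element is in `K + G[2]`
  have hdec : ∀ x : G, ∃ y : G, 2 • y = 0 ∧ x - y ∈ K := by
    intro x
    set d := addOrderOf (x : G ⧸ K) with hd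
    have hdn : d ∣ n := addOrderOf_dvd_of_nsmul_eq_zero (by
      rw [← QuotientAddGroup.mk_nsmul, hnx, QuotientAddGroup.mk_zero])
    have hd0 : 0 < d := Nat.pos_of_dvd_of_pos hdn hn0
    have hdK : d • x ∈ K := by
      rw [← QuotientAddGroup.eq_zero_iff, QuotientAddGroup.mk_nsmul, hd]
      exact addOrderOf_nsmul_eq_zero _
    obtain ⟨a, ha : a • g = d • x⟩ := hdK
    obtain ⟨c, hc⟩ := hdn
    have hda : (d : ℤ) ∣ a := by
      have h1 : ((c : ℤ) * a) • g = 0 := by
        rw [mul_smul, ha, natCast_zsmul, ← mul_nsmul, ← hc, hnx]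
      rw [← addOrderOf_dvd_iff_zsmul_eq_zero, ← hn, hc, mul_comm (c : ℤ) a, Nat.cast_mul] at h1
      have hc0 : (c : ℤ) ≠ 0 := by
        rintro h; rw [Int.natCast_eq_zero] at h; rw [hc, h, mul_zero] at hn0; exact lt_irrefl 0 hn0
      exact Int.dvd_of_mul_dvd_mul_right hc0 h1
    obtain ⟨t, rfl⟩ := hda
    set y := x - t • g with hy
    have hyK : x - y ∈ K := by rw [hy, sub_sub_cancel]; exact ⟨t, rfl⟩
    have hdy : d • y = 0 := by
      rw [hy, nsmul_sub, ← ha, ← natCast_zsmul, ← mul_smul, sub_self]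
    have hind : ∀ i : ℤ, i • y ∈ K → (d : ℤ) ∣ i := by
      intro i hi
      have hxy : (x : G ⧸ K) = y := by
        rw [← sub_eq_zero, ← QuotientAddGroup.mk_sub, QuotientAddGroup.eq_zero_iff]; exact hyK
      rw [hd, hxy, addOrderOf_dvd_iff_zsmul_eq_zero, ← QuotientAddGroup.mk_zsmul,
        QuotientAddGroup.eq_zero_iff]
      exact hi
    have hdiv : ∀ m : ℕ, m ∣ d → ∃ φ : ZMod m × ZMod m →+ G, Function.Injective φ := by
      rintro m ⟨e, he⟩
      have he0 : (e : ℤ) ≠ 0 := by
        rintro h; rw [Int.natCast_eq_zero] at h; rw [he, h, mul_zero] at hd0; exact lt_irrefl 0 hd0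
      refine hsq m (e • y) ((dvd_mul_right m e).trans (he ▸ ⟨c, hc⟩)) (by
        rw [← mul_nsmul, mul_comm e m, ← he, hdy]) fun i hi => ?_
      rw [← natCast_zsmul, ← mul_smul] at hi
      have := hind _ hi
      rw [he, Nat.cast_mul] at this
      exact Int.dvd_of_mul_dvd_mul_right he0 this
    have hd2 : d ∣ 2 := by
      by_contra hcon
      have h2d : 2 < d := by
        by_contra hle
        interval_cases d <;> simp at hcon
      rcases Nat.four_dvd_or_exists_odd_prime_and_dvd_of_two_lt h2d with h | ⟨p, hp, hpd, hpo⟩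
      · obtain ⟨φ, hφ⟩ := hdiv 4 h
        exact h4 φ hφ
      · obtain ⟨φ, hφ⟩ := hdiv p hpd
        exact hodd p hp hpo φ hφ
    obtain ⟨e, he⟩ := hd2
    exact ⟨y, by rw [he, mul_nsmul, hdy, nsmul_zero], hyK⟩
  by_cases hcyc : ∀ y : G, 2 • y = 0 → y ∈ K
  · left
    have htop : K = ⊤ := by
      refine eq_top_iff.mpr fun x _ => ?_
      obtain ⟨y, hy, hxy⟩ := hdec x
      simpa using add_mem hxy (hcyc y hy)
    haveI : IsAddCyclic G := isAddCyclic_iff_exists_zmultiples_eq_top.mpr ⟨g, hK ▸ htop⟩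
    have hcard : Nat.card G = n := by
      rw [hn, ← Nat.card_zmultiples, ← hK, htop]; simp
    exact ⟨((zmodAddCyclicAddEquiv (G := G) inferInstance).symm).trans
      (ZMod.ringEquivCongr hcard).toAddEquiv⟩
  · right
    simp only [not_forall] at hcyc
    obtain ⟨y, hy2, hyK⟩ := hcyc
    have hy0 : y ≠ 0 := fun e => hyK (e ▸ zero_mem K)
    have hyo : addOrderOf y = 2 := addOrderOf_eq_prime hy2 hy0
    have heven : Even n := by
      rw [even_iff_two_dvd, ← hyo]
      exact addOrderOf_dvd_of_nsmul_eq_zero (hnx y)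
    refine ⟨y, hyo, hyK, heven, ?_⟩
    obtain ⟨h, hh⟩ := even_iff_two_dvd.mp heven
    have hh0 : h • g ≠ 0 := fun e => by
      have := Nat.le_of_dvd (by omega) (addOrderOf_dvd_of_nsmul_eq_zero e)
      omega
    have hh2 : 2 • (h • g) = 0 := by rw [← mul_nsmul, mul_comm, ← hh, hng]
    have hhK : h • g ∈ K := nsmul_mem (AddSubgroup.mem_zmultiples g) _
    have hind : ∀ i : ℤ, i • y ∈ K → (2 : ℤ) ∣ i := by
      intro i hi
      by_contra hodd'
      obtain ⟨r, hr⟩ : ∃ r, i = 2 * r + 1 := ⟨i / 2, by omega⟩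
      apply hyK
      rwa [hr, add_smul, one_smul, mul_comm, mul_smul, ofNat_zsmul, hy2, smul_zero, zero_add] at hi
    have hinj := pairHom_injective (k := 2) hy2 hng hn.symm hind
    refine ⟨(AddEquiv.ofBijective _ ⟨hinj, fun x => ?_⟩).symm⟩
    obtain ⟨z, hz2, hxz⟩ := hdec x
    -- the elements killed by two are those of `⟨h g, y⟩`
    classical
    haveI := Fintype.ofFinite G
    have hz : z = 0 ∨ z = h • g ∨ z = y ∨ z = y + h • g := by
      by_contra hne
      simp only [not_or] at hne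
      have h5 : ({0, h • g, y, y + h • g, z} : Finset G).card = 5 := by
        have n1 : y ≠ h • g := fun e => hyK (e ▸ hhK)
        have n2 : y + h • g ≠ 0 := fun e => hyK (by
          rw [eq_neg_of_add_eq_zero_left e]; exact neg_mem hhK)
        rw [Finset.card_insert_of_notMem, Finset.card_insert_of_notMem,
          Finset.card_insert_of_notMem, Finset.card_insert_of_notMem, Finset.card_singleton] <;>
          simp [hh0, hy0, n1.symm, n2.symm, hh0.symm, hy0.symm, Ne.symm hne.1,
            Ne.symm hne.2.1, Ne.symm hne.2.2.1, Ne.symm hne.2.2.2]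
      have : ({0, h • g, y, y + h • g, z} : Finset G).card ≤ Nat.card {x : G // 2 • x = 0} := by
        rw [Nat.card_eq_fintype_card, Fintype.card_subtype]
        refine Finset.card_le_card fun w hw => ?_
        simp only [Finset.mem_insert, Finset.mem_singleton] at hw
        rw [Finset.mem_filter]
        refine ⟨Finset.mem_univ _, ?_⟩
        rcases hw with rfl | rfl | rfl | rfl | rfl
        · exact smul_zero _
        · exact hh2
        · exact hy2
        · rw [nsmul_add, hy2, hh2, add_zero]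
        · exact hz2
      omega
    obtain ⟨t, ht : t • g = x - z⟩ := hxz
    rcases hz with rfl | rfl | rfl | rfl
    · exact ⟨(((0 : ℤ) : ZMod 2), (t : ZMod n)), by rw [pairHom_apply, ht]; simp⟩
    · exact ⟨(((0 : ℤ) : ZMod 2), ((t + h : ℤ) : ZMod n)), by
        rw [pairHom_apply, add_smul, ht, natCast_zsmul]; simp⟩
    · exact ⟨(((1 : ℤ) : ZMod 2), (t : ZMod n)), by rw [pairHom_apply, ht, one_smul]; abel⟩
    · exact ⟨(((1 : ℤ) : ZMod 2), ((t + h : ℤ) : ZMod n)), by
        rw [pairHom_apply, add_smul, ht, natCast_zsmul, one_smul]; abel⟩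

end FA.Torsion

end
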