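import Mathlib

/-!
# The Diophantine equation behind the rational points of `X₀(21)`

The coprime solutions of `m⁴ - 6m³n - 17m²n² - 6mn³ + n⁴ = w²` have `mn = 0` or `mn = -2`, by
descent on the concordant forms `x² + 9y²`, `x² + 16y²`.
-/

set_option autoImplicit false

namespace FA.Torsion.X21

/-- Four numbers. -/
theorem four_numbers {r s p q : ℤ} (hr : r ≠ 0) (h : r * s = p * q) :
    ∃ a b c d : ℤ, r = a * c ∧ s = b * d ∧ p = a * b ∧ q = c * d ∧ IsCoprime b c := by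
  obtain ⟨g, c, b, hg, hcb, hr', hp'⟩ := Int.exists_gcd_one'
    (m := r) (n := p) (Nat.pos_of_ne_zero fun e => hr (Int.gcd_eq_zero_iff.mp e).1)
  have hcb' : IsCoprime c b := Int.isCoprime_iff_gcd_eq_one.mpr hcb
  have hg0 : (g : ℤ) ≠ 0 := by exact_mod_cast hg.ne'
  have hc0 : c ≠ 0 := by rintro rfl; exact hr (by rw [hr', zero_mul])
  have e : c * s = b * q := mul_left_cancel₀ hg0 (by rw [hr', hp'] at h; linear_combination h)
  obtain ⟨d, hd⟩ : c ∣ q := hcb'.dvd_of_dvd_mul_left ⟨s, e.symm⟩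
  exact ⟨g, b, c, d, by rw [hr', mul_comm], mul_left_cancel₀ hc0 (by rw [e, hd]; ring),
    by rw [hp', mul_comm], hd, hcb'.symm⟩

theorem not_both_dvd {p x y : ℤ} (hp : Prime p) (h : IsCoprime x y) (hx : p ∣ x) (hy : p ∣ y) :
    False :=
  hp.not_isUnit (h.isUnit_of_dvd' hx hy)

theorem prime_three : Prime (3 : ℤ) := by norm_num

/-- Pythagorean parameters with the even one first. -/
theorem triple_even_first {x y u : ℤ} (hxy : IsCoprime x y) (hx : Odd x) (hy : y ≠ 0)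
    (h : x ^ 2 + y ^ 2 = u ^ 2) :
    ∃ r s ε : ℤ, (ε = 1 ∨ ε = -1) ∧ IsCoprime r s ∧ Even r ∧ Odd s ∧
      x = ε * (r ^ 2 - s ^ 2) ∧ y = 2 * r * s := by
  have hu : u ≠ 0 := by
    rintro rfl
    have h1 : 0 < y ^ 2 := by positivity
    nlinarith [sq_nonneg x]
  have ht : PythagoreanTriple x y |u| := by
    unfold PythagoreanTriple; rw [← sq |u|, sq_abs]; linear_combination h
  obtain ⟨p, q, hp1, hp2, -, hpq, hpar, -⟩ := ht.coprime_classification'
    (Int.isCoprime_iff_gcd_eq_one.1 hxy) (Int.odd_iff.1 hx) (abs_pos.2 hu)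
  have hpq' : IsCoprime p q := Int.isCoprime_iff_gcd_eq_one.2 hpq
  rcases hpar with ⟨h1, h2⟩ | ⟨h1, h2⟩
  · exact ⟨p, q, 1, Or.inl rfl, hpq', Int.even_iff.2 h1, Int.odd_iff.2 h2,
      by rw [hp1]; ring, hp2⟩
  · exact ⟨q, p, -1, Or.inr rfl, hpq'.symm, Int.even_iff.2 h2, Int.odd_iff.2 h1,
      by rw [hp1]; ring, by rw [hp2]; ring⟩

/-- The split of `a²A = d²B`. -/
theorem split_square {a d A B : ℤ} (ha : a ≠ 0) (had : IsCoprime a d) (h : a ^ 2 * A = d ^ 2 * B) :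
    ∃ κ, B = κ * a ^ 2 ∧ A = κ * d ^ 2 := by
  obtain ⟨κ, hκ⟩ : a ^ 2 ∣ B := (had.pow (m := 2) (n := 2)).dvd_of_dvd_mul_left ⟨A, h.symm⟩
  exact ⟨κ, by rw [hκ, mul_comm], mul_left_cancel₀ (pow_ne_zero 2 ha) (by rw [h, hκ]; ring)⟩

theorem dvd_seven {κ : ℤ} (h : κ ∣ 7) : κ = 1 ∨ κ = -1 ∨ κ = 7 ∨ κ = -7 := by
  have h1 : κ.natAbs ∣ 7 := Int.natAbs_dvd_natAbs.2 h
  rcases (Nat.dvd_prime (by norm_num : Nat.Prime 7)).1 h1 with e | e <;> omega

theorem coprime_combine {κ b c N : ℤ} (hbc : IsCoprime b c) (hb : κ ∣ N * b ^ 2)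
    (hc : κ ∣ N * c ^ 2) : κ ∣ N := by
  obtain ⟨i, j, hij⟩ := hbc.pow (m := 2) (n := 2)
  have := dvd_add (hb.mul_left i) (hc.mul_left j)
  rwa [show i * (N * b ^ 2) + j * (N * c ^ 2) = N * (i * b ^ 2 + j * c ^ 2) by ring, hij,
    mul_one] at this

/-- `x² + y²` and `9x² + 16y²` are not both squares when `x` is odd and `3 ∤ y`. -/
theorem no_variant {x y u v : ℤ} (hxy : IsCoprime x y) (hx : Odd x) (h3 : ¬ (3 : ℤ) ∣ y)
    (h1 : x ^ 2 + y ^ 2 = u ^ 2) (h2 : 9 * x ^ 2 + 16 * y ^ 2 = v ^ 2) : False := by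
  have hy : y ≠ 0 := by rintro rfl; exact h3 (dvd_zero _)
  obtain ⟨p, q, δ, hδ, hpq, -, -, hxp, hyp⟩ := triple_even_first hxy hx hy h1
  have hco : IsCoprime (3 * x) (4 * y) := by
    refine IsCoprime.mul_right ?_ (IsCoprime.mul_left ?_ hxy)
    · refine IsCoprime.mul_left (by norm_num [Int.isCoprime_iff_gcd_eq_one]) ?_
      obtain ⟨k, rfl⟩ := hx
      exact ⟨1 - 2 * k, k * k, by ring⟩
    · exact (prime_three.coprime_iff_not_dvd).2 h3
  obtain ⟨r, s, ε, hε, hrs, -, hs, hxr, hyr⟩ := triple_even_first hco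
    ((by decide : Odd (3 : ℤ)).mul hx) (mul_ne_zero (by norm_num) hy) (u := v)
    (by linear_combination h2)
  have e : r * s = 4 * (p * q) := by linarith
  obtain ⟨r', hr'⟩ : (4 : ℤ) ∣ r := by
    refine IsCoprime.dvd_of_dvd_mul_right ?_ ⟨p * q, e⟩
    obtain ⟨k, rfl⟩ := hs
    exact ⟨-(k * k + k), 2 * k + 1, by ring⟩
  subst hr'
  have e' : r' * s = p * q := by linarith
  have hr0 : r' ≠ 0 := by rintro rfl; exact hy (by rw [mul_zero] at hyr; linarith)
  obtain ⟨a, b, c, d, rfl, rfl, rfl, rfl, hbc⟩ := four_numbers hr0 e'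
  obtain ⟨hb, hd⟩ := Int.odd_mul.1 hs
  have ha : a ≠ 0 := left_ne_zero_of_mul hr0
  have had : IsCoprime a d := hrs.of_mul_left_right.of_mul_left_left.of_mul_right_right
  obtain ⟨κ, hB, hA⟩ := split_square (A := 16 * ε * c ^ 2 - 3 * δ * b ^ 2)
    (B := ε * b ^ 2 - 3 * δ * c ^ 2) ha had (by
      linear_combination -hxr + 3 * hxp)
  have hκ : κ ∣ 7 := by
    refine coprime_combine hbc ?_ ?_
    · refine ⟨16 * ε * a ^ 2 + 3 * δ * d ^ 2, ?_⟩
      rcases hε with rfl | rfl <;> rcases hδ with rfl | rfl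
      · linear_combination (16 : ℤ) * hB + 3 * hA
      · linear_combination (16 : ℤ) * hB - 3 * hA
      · linear_combination (-16 : ℤ) * hB + 3 * hA
      · linear_combination (-16 : ℤ) * hB - 3 * hA
    · refine ⟨ε * d ^ 2 + 3 * δ * a ^ 2, ?_⟩
      rcases hε with rfl | rfl <;> rcases hδ with rfl | rfl
      · linear_combination hA + 3 * hB
      · linear_combination hA - 3 * hB
      · linear_combination -hA + 3 * hB
      · linear_combination -hA - 3 * hB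
  obtain ⟨i, rfl⟩ := hb
  obtain ⟨j, rfl⟩ := hd
  have h8 := congrArg (fun z : ℤ => (z : ZMod 8)) hA
  push_cast at h8
  have key : ∀ i j c : ZMod 8, ∀ ε δ κ : ZMod 8, ε = 1 ∨ ε = -1 → δ = 1 ∨ δ = -1 →
      κ = 1 ∨ κ = -1 → 16 * ε * c ^ 2 - 3 * δ * (2 * i + 1) ^ 2 ≠ κ * (2 * j + 1) ^ 2 := by
    intro i j c ε δ κ hε hδ hκ
    have h16 : (16 : ZMod 8) = 0 := by decide
    have hodd : ∀ t : ZMod 8, (2 * t + 1) ^ 2 = 1 := by decide
    rw [h16, hodd, hodd]
    rcases hε with rfl | rfl <;> rcases hδ with rfl | rfl <;> rcases hκ with rfl | rfl <;>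
      simp <;> decide
  refine key _ _ _ _ _ _ ?_ ?_ ?_ h8
  · rcases hε with rfl | rfl <;> simp
  · rcases hδ with rfl | rfl <;> simp
  · rcases dvd_seven hκ with rfl | rfl | rfl | rfl
    · exact Or.inl (by norm_num)
    · exact Or.inr (by norm_num)
    · exact Or.inr (by decide)
    · exact Or.inl (by decide)

/-- `x² + 9y²` and `x² + 16y²` are both squares only if `y = 0` (`x` odd, prime to `y`). -/
theorem concordant {x y U V : ℤ} (hxy : IsCoprime x y) (hx : Odd x)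
    (h9 : x ^ 2 + 9 * y ^ 2 = U ^ 2) (h16 : x ^ 2 + 16 * y ^ 2 = V ^ 2) : y = 0 := by
  induction hn : y.natAbs using Nat.strong_induction_on generalizing x y U V with
  | _ N ih =>
  subst hn
  by_contra hy
  by_cases h3 : (3 : ℤ) ∣ x
  · obtain ⟨x', rfl⟩ := h3
    obtain ⟨U', rfl⟩ : (3 : ℤ) ∣ U := prime_three.dvd_of_dvd_pow (n := 2)
      ⟨3 * x' ^ 2 + 3 * y ^ 2, by linear_combination -h9⟩
    refine no_variant (x := x') (y := y) (u := U') (v := V) hxy.of_mul_left_right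
      (Int.odd_mul.1 hx).2 (fun h => not_both_dvd prime_three hxy (dvd_mul_right 3 x') h) ?_
      (by linear_combination h16)
    linarith
  have hx3 : IsCoprime x 3 := ((prime_three.coprime_iff_not_dvd).2 h3).symm
  have hx4 : IsCoprime x 4 := by
    obtain ⟨k, rfl⟩ := hx
    exact ⟨2 * k + 1, -(k * k + k), by ring⟩
  obtain ⟨r, s, δ, hδ, hrs, -, hs, hxr, hyr⟩ := triple_even_first (hx4.mul_right hxy) hx
    (mul_ne_zero (by norm_num) hy) (u := V) (by linear_combination h16)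
  obtain ⟨p, q, η, hη, hpq, -, -, hxp, hyp⟩ := triple_even_first (hx3.mul_right hxy) hx
    (mul_ne_zero (by norm_num) hy) (u := U) (by linear_combination h9)
  have e : r * s * 3 = 4 * (p * q) := by linarith
  obtain ⟨r', hr'⟩ : (4 : ℤ) ∣ r := by
    have h43 : IsCoprime (4 : ℤ) (s * 3) := by
      refine IsCoprime.mul_right ?_ (by norm_num [Int.isCoprime_iff_gcd_eq_one])
      obtain ⟨k, rfl⟩ := hs
      exact ⟨-(k * k + k), 2 * k + 1, by ring⟩
    exact h43.dvd_of_dvd_mul_right ⟨p * q, by linear_combination e⟩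
  subst hr'
  have e' : 3 * (r' * s) = p * q := by linarith
  -- put the multiple of 3 first
  obtain ⟨f, g, ε, hε, hfg, hef, hxe⟩ : ∃ f g ε : ℤ, (ε = 1 ∨ ε = -1) ∧ IsCoprime (3 * f) g ∧
      r' * s = f * g ∧ (4 * r') ^ 2 - s ^ 2 = ε * ((3 * f) ^ 2 - g ^ 2) := by
    have hh : η * δ = 1 ∨ η * δ = -1 := by
      rcases hη with rfl | rfl <;> rcases hδ with rfl | rfl <;> simp
    have hd2 : δ * δ = 1 := by rcases hδ with rfl | rfl <;> norm_num
    have hsq : (4 * r') ^ 2 - s ^ 2 = η * δ * (p ^ 2 - q ^ 2) := by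
      linear_combination δ * hxp - δ * hxr - ((4 * r') ^ 2 - s ^ 2) * hd2
    rcases prime_three.dvd_or_dvd ⟨r' * s, e'.symm⟩ with ⟨f, rfl⟩ | ⟨f, rfl⟩
    · exact ⟨f, q, η * δ, hh, hpq, mul_left_cancel₀ (by norm_num : (3 : ℤ) ≠ 0)
        (by linear_combination e'), hsq⟩
    · exact ⟨f, p, -(η * δ), by omega, hpq.symm, mul_left_cancel₀ (by norm_num : (3 : ℤ) ≠ 0)
        (by linear_combination e'), by linear_combination hsq⟩
  have hy2 : y = 2 * (r' * s) := by linarith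
  have hr0 : r' ≠ 0 := by rintro rfl; exact hy (by rw [hy2]; ring)
  obtain ⟨a, b, c, d, rfl, rfl, rfl, rfl, hbc⟩ := four_numbers hr0 hef
  obtain ⟨hb, hd⟩ := Int.odd_mul.1 hs
  obtain ⟨ha, hc⟩ := mul_ne_zero_iff.1 hr0
  have hb0 : b ≠ 0 := by rintro rfl; simp at hb
  have hd0 : d ≠ 0 := by rintro rfl; simp at hd
  have had : IsCoprime a d := hrs.of_mul_left_right.of_mul_left_left.of_mul_right_right
  have hcd : IsCoprime c d := hrs.of_mul_left_right.of_mul_left_right.of_mul_right_right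
  obtain ⟨κ, hB, hA⟩ := split_square (A := 16 * c ^ 2 - 9 * ε * b ^ 2)
    (B := b ^ 2 - ε * c ^ 2) ha had (by linear_combination hxe)
  have hκ : κ ∣ 7 := by
    refine coprime_combine hbc ?_ ?_
    · refine ⟨16 * a ^ 2 + ε * d ^ 2, ?_⟩
      rcases hε with rfl | rfl
      · linear_combination (16 : ℤ) * hB + hA
      · linear_combination (16 : ℤ) * hB - hA
    · refine ⟨d ^ 2 + 9 * ε * a ^ 2, ?_⟩
      rcases hε with rfl | rfl
      · linear_combination hA + 9 * hB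
      · linear_combination hA - 9 * hB
  have hlt : ∀ k : ℤ, k ≠ 0 → k ∣ a ∨ k ∣ c → k.natAbs < y.natAbs := fun k _ hk => by
    have h1 : k.natAbs ≤ (a * c).natAbs := Nat.le_of_dvd (Int.natAbs_pos.2 hr0)
      (Int.natAbs_dvd_natAbs.2 (hk.elim (fun h => h.mul_right c) (fun h => h.mul_left a)))
    have h2 : 1 ≤ (b * d).natAbs := Int.natAbs_pos.2 (mul_ne_zero hb0 hd0)
    have h3' : 0 < (a * c).natAbs := Int.natAbs_pos.2 hr0
    rw [hy2, Int.natAbs_mul, Int.natAbs_mul (a * c)]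
    simp only [Int.reduceAbs]
    nlinarith
  -- the class of `κ` modulo 8
  have h8 : (κ : ZMod 8) = -(ε : ZMod 8) := by
    obtain ⟨i, rfl⟩ := hb
    obtain ⟨j, rfl⟩ := hd
    have h := congrArg (fun z : ℤ => (z : ZMod 8)) hA
    push_cast at h
    have hodd : ∀ t : ZMod 8, (2 * t + 1) ^ 2 = 1 := by decide
    have h16' : (16 : ZMod 8) = 0 := by decide
    have h9' : (9 : ZMod 8) = 1 := by decide
    rw [hodd, hodd, h16', h9'] at h
    linear_combination -h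
  rcases dvd_seven hκ with rfl | rfl | rfl | rfl <;> rcases hε with rfl | rfl <;>
    first
      | exact absurd h8 (by decide)
      | skip
  · -- `b² + c² = a²`, `16c² + 9b² = d²`
    by_cases hc3 : (3 : ℤ) ∣ c
    · obtain ⟨k, rfl⟩ := hc3
      obtain ⟨d', rfl⟩ : (3 : ℤ) ∣ d := prime_three.dvd_of_dvd_pow (n := 2)
        ⟨48 * k ^ 2 + 3 * b ^ 2, by linear_combination -hA⟩
      have hk : k ≠ 0 := right_ne_zero_of_mul hc
      exact hk (ih _ (hlt k hk (Or.inr (dvd_mul_left k 3))) hbc.of_mul_right_right hb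
        (U := a) (V := d') (by linear_combination hB)
        (mul_left_cancel₀ (by norm_num : (9 : ℤ) ≠ 0) (by linear_combination hA)) rfl)
    · exact no_variant hbc hb hc3 (u := a) (v := d) (by linear_combination hB)
        (by linear_combination hA)
  · -- `16c² + d² = 9b²`
    have h := congrArg (fun z : ℤ => (z : ZMod 3)) hA
    push_cast at h
    have key : ∀ c b d : ZMod 3, 16 * c ^ 2 - 9 * 1 * b ^ 2 = -1 * d ^ 2 → c = 0 ∧ d = 0 := by
      decide
    obtain ⟨hc', hd'⟩ := key _ _ _ h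
    exact not_both_dvd prime_three hcd ((ZMod.intCast_zmod_eq_zero_iff_dvd c 3).1 hc')
      ((ZMod.intCast_zmod_eq_zero_iff_dvd d 3).1 hd')
  · -- a smaller solution
    exact ha (ih _ (hlt a ha (Or.inl dvd_rfl)) had.symm hd (U := c) (V := b)
      (mul_left_cancel₀ (by norm_num : (7 : ℤ) ≠ 0) (by linear_combination -9 * hB - hA))
      (mul_left_cancel₀ (by norm_num : (7 : ℤ) ≠ 0) (by linear_combination -16 * hB - hA)) rfl)
  · -- `b² + c² = -7a²`
    have := sq_nonneg b; have := sq_nonneg c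
    have : 0 < a ^ 2 := by positivity
    linarith

/-- A solution with one of the four numbers `b, c` even is the known one. -/
theorem four_case {a b c d w : ℤ} (hbc : IsCoprime b c) (had : IsCoprime a d)
    (hb : b ≠ 0) (hc : c ≠ 0) (hd : d ≠ 0) (hev : Even b ∨ Even c)
    (hq : a ^ 2 * (c ^ 2 - b ^ 2) - 3 * (b * c) * (a * d) + d ^ 2 * (b ^ 2 - 7 * c ^ 2) = 0)
    (he : (4 * b ^ 2 - 7 * c ^ 2) * (b ^ 2 - 4 * c ^ 2) = w ^ 2) :
    a * b * (c * d) = -2 := by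
  obtain ⟨g, P, Q, hg, hPQ, hP, hQ⟩ := Int.exists_gcd_one'
    (m := 4 * b ^ 2 - 7 * c ^ 2) (n := b ^ 2 - 4 * c ^ 2) (Nat.pos_of_ne_zero fun e => by
      obtain ⟨e1, e2⟩ := Int.gcd_eq_zero_iff.mp e
      have h1 : 0 < c ^ 2 := by positivity
      linarith)
  have hgZ : (g : ℤ) ≠ 0 := by exact_mod_cast hg.ne'
  have hg9 : g ∣ 9 := by
    refine Int.natCast_dvd_natCast.1 (coprime_combine (N := 9) hbc ?_ ?_)
    · exact ⟨4 * P - 7 * Q, by linear_combination 4 * hP - 7 * hQ⟩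
    · exact ⟨P - 4 * Q, by linear_combination hP - 4 * hQ⟩
  obtain ⟨w', rfl⟩ : (g : ℤ) ∣ w := (Int.pow_dvd_pow_iff two_ne_zero).1
    ⟨P * Q, by rw [← he, hP, hQ]; ring⟩
  have hPQ' : IsCoprime P Q := Int.isCoprime_iff_gcd_eq_one.2 hPQ
  have hw : P * Q = w' ^ 2 := mul_left_cancel₀ (pow_ne_zero 2 hgZ)
    (by linear_combination (norm := (rw [hP, hQ]; ring1)) he)
  obtain ⟨Z, hZ⟩ := Int.sq_of_isCoprime hPQ' hw
  obtain ⟨W, hW⟩ := Int.sq_of_isCoprime hPQ'.symm ((mul_comm Q P).trans hw)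
  -- both forms are squares
  obtain ⟨z, ζ, hz, hζ⟩ : ∃ z ζ : ℤ, b ^ 2 - 4 * c ^ 2 = z ^ 2 ∧ 4 * b ^ 2 - 7 * c ^ 2 = ζ ^ 2 := by
    have key : ∀ b c : ZMod 8, ∀ g : Fin 3, ∀ Z W : ZMod 8, ∀ σ τ : Fin 2,
        (b = 2 * (b.val / 2 : ℕ) ∧ c ≠ 2 * (c.val / 2 : ℕ) ∨
          c = 2 * (c.val / 2 : ℕ) ∧ b ≠ 2 * (b.val / 2 : ℕ)) →
        4 * b ^ 2 - 7 * c ^ 2 = (-1) ^ σ.val * 3 ^ g.val * Z ^ 2 →
        b ^ 2 - 4 * c ^ 2 = (-1) ^ τ.val * 3 ^ g.val * W ^ 2 →
          g ≠ 1 ∧ (σ = 0 ∨ τ = 0) := by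
      decide +kernel
    obtain ⟨k, hk, rfl⟩ : ∃ k ≤ 2, g = 3 ^ k := (Nat.dvd_prime_pow Nat.prime_three).1
      (by simpa using hg9)
    obtain ⟨σ, hσ⟩ : ∃ σ : Fin 2, P = (-1) ^ σ.val * Z ^ 2 := by
      rcases hZ with rfl | rfl
      exacts [⟨0, by simp⟩, ⟨1, by simp⟩]
    obtain ⟨τ, hτ⟩ : ∃ τ : Fin 2, Q = (-1) ^ τ.val * W ^ 2 := by
      rcases hW with rfl | rfl
      exacts [⟨0, by simp⟩, ⟨1, by simp⟩]
    subst hσ hτ
    push_cast at hP hQ
    have h8P := congrArg (fun z : ℤ => (z : ZMod 8)) hP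
    have h8Q := congrArg (fun z : ℤ => (z : ZMod 8)) hQ
    push_cast at h8P h8Q
    have par : ∀ t : ℤ, Even t ↔ (t : ZMod 8) = 2 * ((t : ZMod 8).val / 2 : ℕ) := by
      intro t
      constructor
      · rintro ⟨s, rfl⟩
        have : ∀ s : ZMod 8, s + s = 2 * ((s + s).val / 2 : ℕ) := by decide
        push_cast
        exact this _
      · intro h
        have h2 := congrArg (ZMod.castHom (by norm_num : 2 ∣ 8) (ZMod 2)) h
        rw [map_intCast, map_mul, map_ofNat, (by decide : (2 : ZMod 2) = 0), zero_mul,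
          ZMod.intCast_zmod_eq_zero_iff_dvd] at h2
        exact even_iff_two_dvd.2 h2
    have hnb : ¬ (Even b ∧ Even c) := fun h =>
      not_both_dvd Int.prime_two hbc h.1.two_dvd h.2.two_dvd
    obtain ⟨hg1, hσ'⟩ := key b c ⟨k, by omega⟩ Z W σ τ (by
        rcases hev with h | h
        · exact Or.inl ⟨(par b).1 h, fun e => hnb ⟨h, (par c).2 e⟩⟩
        · exact Or.inr ⟨(par c).1 h, fun e => hnb ⟨(par b).2 e, h⟩⟩)
      (by rw [h8P]; ring) (by rw [h8Q]; ring)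
    have hk1 : k ≠ 1 := fun e => hg1 (Fin.ext (by simp [e]))
    obtain ⟨s, hs⟩ : ∃ s : ℤ, (3 : ℤ) ^ k = s ^ 2 := by
      interval_cases k
      exacts [⟨1, by norm_num⟩, absurd rfl hk1, ⟨3, by norm_num⟩]
    rw [hs] at hP hQ
    fin_cases σ <;> fin_cases τ <;> simp at hσ' hP hQ hw
    · exact ⟨W * s, Z * s, by rw [hQ]; ring, by rw [hP]; ring⟩
    · -- `PQ` is a square
      have h0 : Z * W = 0 := sq_eq_zero_iff.1 (by nlinarith [sq_nonneg w', sq_nonneg (Z * W)])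
      rcases mul_eq_zero.1 h0 with rfl | rfl
      · simp at hP
        have hP' : 4 * b ^ 2 - 7 * c ^ 2 = 0 := by linarith
        have h7 : Prime (7 : ℤ) := by norm_num
        have h7b : (7 : ℤ) ∣ b := h7.dvd_of_dvd_pow (n := 2)
          ((h7.dvd_or_dvd (⟨c ^ 2, by linarith⟩ : (7 : ℤ) ∣ 4 * b ^ 2)).resolve_left (by norm_num))
        obtain ⟨i, hi⟩ := h7b
        have h7c : (7 : ℤ) ∣ c := h7.dvd_of_dvd_pow (n := 2)
          ⟨4 * i ^ 2, mul_left_cancel₀ (by norm_num : (7 : ℤ) ≠ 0)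
            (by subst hi; linear_combination -hP')⟩
        exact (not_both_dvd h7 hbc ⟨i, hi⟩ h7c).elim
      · exact ⟨0, Z * s, by rw [hQ]; ring, by rw [hP]; ring⟩
    · have h0 : Z * W = 0 := sq_eq_zero_iff.1 (by nlinarith [sq_nonneg w', sq_nonneg (Z * W)])
      rcases mul_eq_zero.1 h0 with rfl | rfl
      · exact ⟨W * s, 0, by rw [hQ]; ring, by rw [hP]; ring⟩
      · simp at hQ
        have : 0 < c ^ 2 := by positivity
        nlinarith [mul_self_nonneg (Z * s)]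
  have hnb : ¬ (Even b ∧ Even c) := fun h =>
    not_both_dvd Int.prime_two hbc h.1.two_dvd h.2.two_dvd
  rcases hev with hbe | hce
  · -- `b` even
    have hco : Odd c := Int.not_even_iff_odd.1 fun h => hnb ⟨hbe, h⟩
    obtain ⟨b', rfl⟩ := hbe.two_dvd
    obtain ⟨z', rfl⟩ : (2 : ℤ) ∣ z := Int.prime_two.dvd_of_dvd_pow (n := 2)
      ⟨2 * b' ^ 2 - 2 * c ^ 2, by linear_combination -hz⟩
    have h1 : c ^ 2 + z' ^ 2 = b' ^ 2 := by linarith
    have hcz : IsCoprime c z' := by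
      refine (IsCoprime.pow_iff two_pos two_pos).1 ?_
      have := ((hbc.of_mul_left_right.symm).pow (m := 2) (n := 2)).add_mul_left_right (-1)
      rwa [show b' ^ 2 + c ^ 2 * -1 = z' ^ 2 by linear_combination -h1] at this
    by_cases h3 : (3 : ℤ) ∣ z'
    · obtain ⟨k, rfl⟩ := h3
      obtain ⟨v, rfl⟩ : (3 : ℤ) ∣ ζ := prime_three.dvd_of_dvd_pow (n := 2)
        ⟨3 * c ^ 2 + 48 * k ^ 2, by linear_combination -hζ - 16 * h1⟩
      obtain rfl := concordant hcz.of_mul_right_right hco (U := b') (V := v)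
        (by linear_combination h1) (by linarith)
      simp only [mul_zero, isCoprime_zero_right] at hcz
      have hc1 := Int.isUnit_iff.1 hcz
      have hc2 : c ^ 2 = 1 := by rcases hc1 with rfl | rfl <;> norm_num
      have hb2 : b' ^ 2 = 1 := by rw [← hc2]; linear_combination -h1
      have hbc2 : b' * c = 1 ∨ b' * c = -1 := sq_eq_one_iff.1 (by rw [mul_pow, hb2, hc2, one_mul])
      have h0 : a ^ 2 + 2 * (b' * c) * (a * d) + d ^ 2 = 0 := by
        rw [mul_pow, hb2, hc2] at hq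
        linarith
      have hsum : (a + b' * c * d) ^ 2 = 0 := by
        rcases hbc2 with e | e <;> rw [e] at h0 ⊢ <;> linear_combination h0
      have ha' : a = -(b' * c) * d := by linarith [sq_eq_zero_iff.1 hsum]
      have hd1 : d ^ 2 = 1 := by
        have hdu : IsUnit d := had.isUnit_of_dvd' ⟨-(b' * c), by rw [ha']; ring⟩ dvd_rfl
        rcases Int.isUnit_iff.1 hdu with rfl | rfl <;> norm_num
      rw [ha']
      linear_combination (-2 : ℤ) * b' ^ 2 * c ^ 2 * hd1 - 2 * c ^ 2 * hb2 - 2 * hc2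
    · exact (no_variant hcz hco h3 (u := b') (v := ζ) h1 (by linarith)).elim
  · -- `c` even
    have hbo : Odd b := Int.not_even_iff_odd.1 fun h => hnb ⟨h, hce⟩
    obtain ⟨c', rfl⟩ := hce.two_dvd
    obtain ⟨v, rfl⟩ : (2 : ℤ) ∣ ζ := Int.prime_two.dvd_of_dvd_pow (n := 2)
      ⟨2 * b ^ 2 - 14 * c' ^ 2, by linear_combination -hζ⟩
    have h16 : z ^ 2 + 16 * c' ^ 2 = b ^ 2 := by linarith
    have hzo : Odd z := by
      refine (Int.odd_pow' two_ne_zero).1 ?_
      rw [show z ^ 2 = b ^ 2 + 2 * (-8 * c' ^ 2) by linarith]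
      exact hbo.pow.add_even (even_two_mul _)
    have hzc : IsCoprime z c' := by
      refine (IsCoprime.pow_iff two_pos two_pos).1 ?_
      have := (hbc.of_mul_right_right.pow (m := 2) (n := 2)).add_mul_left_left (-16)
      rwa [show b ^ 2 + c' ^ 2 * -16 = z ^ 2 by linarith] at this
    obtain rfl := concordant hzc hzo (U := v) (V := b) (by linarith) h16
    exact absurd (mul_zero 2) hc

/-- **Descent on `X₀(21)`.** -/
theorem descent {m n w : ℤ} (hco : IsCoprime m n)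
    (h : m ^ 4 - 6 * m ^ 3 * n - 17 * m ^ 2 * n ^ 2 - 6 * m * n ^ 3 + n ^ 4 = w ^ 2) :
    m * n = 0 ∨ m * n = -2 := by
  by_cases hmn : m * n = 0
  · exact Or.inl hmn
  refine Or.inr ?_
  obtain ⟨hm, hn⟩ := mul_ne_zero_iff.1 hmn
  obtain ⟨X, hX⟩ : ∃ X, X = m ^ 2 - 3 * (m * n) + n ^ 2 := ⟨_, rfl⟩
  have hXw : X ^ 2 = w ^ 2 + 28 * (m * n) ^ 2 := by rw [hX]; linear_combination h
  -- `m, n` are not both odd
  have hev : Even m ∨ Even n := by
    by_contra hcon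
    push Not at hcon
    obtain ⟨i, rfl⟩ := Int.not_even_iff_odd.1 hcon.1
    obtain ⟨j, rfl⟩ := Int.not_even_iff_odd.1 hcon.2
    have h8 := congrArg (fun z : ℤ => (z : ZMod 8)) h
    push_cast at h8
    have hodd : ∀ t : ZMod 8, (2 * t + 1) ^ 2 = 1 := by decide
    have h4 : ∀ t : ZMod 8, (2 * t + 1) ^ 4 = 1 := by decide
    have h3 : ∀ t : ZMod 8, (2 * t + 1) ^ 3 = 2 * t + 1 := by decide
    rw [h4, h4, h3, h3, hodd, hodd] at h8
    have key2 : ∀ i j v : ZMod 8,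
        1 - 6 * (2 * i + 1) * (2 * j + 1) - 17 * 1 * 1 - 6 * (2 * i + 1) * (2 * j + 1) + 1 ≠
          v ^ 2 := by decide
    exact key2 _ _ _ h8
  have hXodd : Odd X := by
    have hne : ¬ (Even m ∧ Even n) := fun h =>
      not_both_dvd Int.prime_two hco h.1.two_dvd h.2.two_dvd
    rw [hX]
    simp only [← Int.not_even_iff_odd, Int.even_add, Int.even_sub, Int.even_pow' two_ne_zero,
      Int.even_mul, (by decide : ¬ Even (3 : ℤ))] at hne ⊢
    tauto
  have hwodd : Odd w := by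
    refine (Int.odd_pow' two_ne_zero).1 ?_
    rw [show w ^ 2 = X ^ 2 + 2 * (-14 * (m * n) ^ 2) by linarith]
    exact hXodd.pow.add_even (even_two_mul _)
  obtain ⟨U, hU⟩ : (2 : ℤ) ∣ X - w := (hXodd.sub_odd hwodd).two_dvd
  obtain ⟨V, hV⟩ : (2 : ℤ) ∣ X + w := (hXodd.add_odd hwodd).two_dvd
  have hUV : U * V = 7 * (m * n) ^ 2 := by
    refine mul_left_cancel₀ (by norm_num : (4 : ℤ) ≠ 0) ?_
    linear_combination hXw - hV * (X - w) - 2 * V * hU
  have hXmn : IsCoprime X (m * n) := by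
    rw [hX]
    refine IsCoprime.mul_right ?_ ?_
    · have := (hco.symm.pow_left (m := 2)).add_mul_left_left (m - 3 * n)
      rwa [show n ^ 2 + m * (m - 3 * n) = m ^ 2 - 3 * (m * n) + n ^ 2 by ring] at this
    · have := (hco.pow_left (m := 2)).add_mul_left_left (n - 3 * m)
      rwa [show m ^ 2 + n * (n - 3 * m) = m ^ 2 - 3 * (m * n) + n ^ 2 by ring] at this
  have hXUV : X = U + V := by linarith
  have hU0 : U ≠ 0 := by rintro rfl; simp [hm, hn] at hUV
  have hV0 : V ≠ 0 := by rintro rfl; simp [hm, hn] at hUV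
  have hco' : IsCoprime U V := by
    refine isCoprime_of_prime_dvd (fun e => hU0 e.1) fun k hk k1 k2 => ?_
    have hkX : k ∣ X := hXUV ▸ dvd_add k1 k2
    rcases hk.dvd_or_dvd (hUV ▸ k1.mul_right V) with h7 | hv
    · have h7' : Associated k 7 := hk.associated_of_dvd (by norm_num) h7
      have h49 : (7 : ℤ) * 7 ∣ 7 * (m * n) ^ 2 :=
        hUV ▸ mul_dvd_mul (h7'.symm.dvd.trans k1) (h7'.symm.dvd.trans k2)
      have := (by norm_num : Prime (7 : ℤ)).dvd_of_dvd_pow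
        ((mul_dvd_mul_iff_left (by norm_num : (7 : ℤ) ≠ 0)).1 h49)
      exact not_both_dvd (by norm_num : Prime (7 : ℤ)) hXmn (h7'.symm.dvd.trans hkX) this
    · exact not_both_dvd hk hXmn hkX (hk.dvd_of_dvd_pow hv)
  -- `X = ± (p² + 7q²)`
  obtain ⟨p, q, ε, hε, hpq, hXpq⟩ : ∃ p q ε : ℤ, (ε = 1 ∨ ε = -1) ∧ p * q = m * n ∧
      X = ε * (p ^ 2 + 7 * q ^ 2) := by
    have main : ∀ u' v : ℤ, IsCoprime u' v → X = 7 * u' + v → u' * v = (m * n) ^ 2 →
        ∃ p q ε : ℤ, (ε = 1 ∨ ε = -1) ∧ p * q = m * n ∧ X = ε * (p ^ 2 + 7 * q ^ 2) := by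
      intro u' v huv hXv hsq
      obtain ⟨q, hq⟩ := Int.sq_of_isCoprime huv hsq
      obtain ⟨p, hp⟩ := Int.sq_of_isCoprime huv.symm ((mul_comm v u').trans hsq)
      have h2 : (p * q) ^ 2 = (m * n) ^ 2 ∨ -(p * q) ^ 2 = (m * n) ^ 2 := by
        rcases hq with rfl | rfl <;> rcases hp with rfl | rfl <;> first
          | exact Or.inl (by linear_combination hsq)
          | exact Or.inr (by linear_combination hsq)
      have h3 : (p * q) ^ 2 = (m * n) ^ 2 := by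
        rcases h2 with e | e
        · exact e
        · have := sq_nonneg (p * q); have : 0 < (m * n) ^ 2 := by positivity
          linarith
      have hpn : 0 < (m * n) ^ 2 := by positivity
      obtain ⟨ε, hε, hX'⟩ : ∃ ε : ℤ, (ε = 1 ∨ ε = -1) ∧ X = ε * (p ^ 2 + 7 * q ^ 2) := by
        rcases hq with rfl | rfl <;> rcases hp with rfl | rfl
        · exact ⟨1, Or.inl rfl, by linarith⟩
        · exfalso; linarith [sq_nonneg (q * p)]
        · exfalso; linarith [sq_nonneg (q * p)]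
        · exact ⟨-1, Or.inr rfl, by linarith⟩
      rcases sq_eq_sq_iff_eq_or_eq_neg.1 h3 with e | e
      · exact ⟨p, q, ε, hε, e, hX'⟩
      · exact ⟨-p, q, ε, hε, by linarith, by rw [hX']; ring⟩
    rcases (by norm_num : Prime (7 : ℤ)).dvd_or_dvd (⟨_, hUV⟩ : (7 : ℤ) ∣ U * V) with
      ⟨U', rfl⟩ | ⟨V', rfl⟩
    · exact main U' V hco'.of_mul_left_right hXUV
        (mul_left_cancel₀ (by norm_num : (7 : ℤ) ≠ 0) (by linear_combination hUV))
    · exact main V' U hco'.of_mul_right_right.symm (by linarith)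
        (mul_left_cancel₀ (by norm_num : (7 : ℤ) ≠ 0) (by linear_combination hUV))
  obtain ⟨a, b, c, d, rfl, rfl, rfl, rfl, hbc⟩ := four_numbers hm hpq.symm
  have had : IsCoprime a d := hco.of_mul_left_left.of_mul_right_right
  obtain ⟨ha, hc⟩ := mul_ne_zero_iff.1 hm
  obtain ⟨hb, hd⟩ := mul_ne_zero_iff.1 hn
  rcases hε with rfl | rfl
  · have hq : a ^ 2 * (c ^ 2 - b ^ 2) - 3 * (b * c) * (a * d) + d ^ 2 * (b ^ 2 - 7 * c ^ 2) = 0 := by
      rw [hX] at hXpq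
      linear_combination hXpq
    have hdisc : ∀ a b c d : ℤ, d ≠ 0 →
        a ^ 2 * (c ^ 2 - b ^ 2) - 3 * (b * c) * (a * d) + d ^ 2 * (b ^ 2 - 7 * c ^ 2) = 0 →
        ∃ e, (4 * b ^ 2 - 7 * c ^ 2) * (b ^ 2 - 4 * c ^ 2) = e ^ 2 := by
      intro a b c d hd hq
      have he : (2 * a * (c ^ 2 - b ^ 2) - 3 * b * c * d) ^ 2 =
          d ^ 2 * ((4 * b ^ 2 - 7 * c ^ 2) * (b ^ 2 - 4 * c ^ 2)) := by
        linear_combination 4 * (c ^ 2 - b ^ 2) * hq
      obtain ⟨e, hde⟩ := (Int.pow_dvd_pow_iff two_ne_zero).1 (Dvd.intro _ he.symm)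
      refine ⟨e, mul_left_cancel₀ (pow_ne_zero 2 hd) ?_⟩
      rw [← he, hde, mul_pow]
    rw [← hpq]
    simp only [Int.even_mul] at hev
    by_cases hbce : Even b ∨ Even c
    · obtain ⟨e, he⟩ := hdisc a b c d hd hq
      exact four_case hbc had hb hc hd hbce hq he
    · have had' : Even a ∨ Even d := by tauto
      have hq' : b ^ 2 * (d ^ 2 - a ^ 2) - 3 * (a * d) * (b * c) + c ^ 2 * (a ^ 2 - 7 * d ^ 2) = 0 := by
        linear_combination hq
      obtain ⟨e, he⟩ := hdisc b a d c hc hq'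
      linear_combination four_case had hbc ha hd hc had' hq' he
  · exfalso
    rw [hX] at hXpq
    have he : (2 * a * (c ^ 2 + b ^ 2) - 3 * b * c * d) ^ 2 =
        -(d ^ 2 * (4 * b ^ 4 + 23 * b ^ 2 * c ^ 2 + 28 * c ^ 4)) := by
      linear_combination 4 * (c ^ 2 + b ^ 2) * hXpq
    have : 0 < d ^ 2 * (4 * b ^ 4 + 23 * b ^ 2 * c ^ 2 + 28 * c ^ 4) := by positivity
    linarith [sq_nonneg (2 * a * (c ^ 2 + b ^ 2) - 3 * b * c * d)]

end FA.Torsion.X21
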