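import Mathlib.NumberTheory.PythagoreanTriples
import Mathlib.RingTheory.Int.Basic
import Mathlib.Data.Rat.Lemmas
import Mathlib.Tactic.LinearCombination

/-!
# The Diophantine core of the exclusion of `ℤ/2 × ℤ/12`

The numbers `x² + y²` and `x² + 4 y²` are squares together only trivially, by infinite descent.
Consequently no two rational points of the unit circle have abscissas `t`, `t + 1` with `t ≠ 0, -1`.
-/

set_option autoImplicit false

namespace FA.Torsion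

/-- A primitive Pythagorean triple with odd first leg. -/
theorem pythagorean_odd_leg {x y z : ℤ} (hx : Odd x) (hco : IsCoprime x y)
    (h : x ^ 2 + y ^ 2 = z ^ 2) :
    ∃ m n : ℤ, x = m ^ 2 - n ^ 2 ∧ y = 2 * m * n ∧ IsCoprime m n ∧
      (Even m ∧ Odd n ∨ Odd m ∧ Even n) := by
  have hpy : PythagoreanTriple x y z := by
    unfold PythagoreanTriple
    linear_combination h
  obtain ⟨m, n, hxy, -, hg, hpar⟩ :=
    PythagoreanTriple.coprime_classification.mp ⟨hpy, Int.isCoprime_iff_gcd_eq_one.mp hco⟩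
  refine ⟨m, n, ?_, ?_, Int.isCoprime_iff_gcd_eq_one.mpr hg, ?_⟩
  all_goals
    rcases hxy with ⟨h1, h2⟩ | ⟨h1, -⟩
    swap
    · exact absurd hx (Int.not_odd_iff_even.mpr ⟨m * n, by rw [h1]; ring⟩)
  · exact h1
  · exact h2
  · simpa [Int.even_iff, Int.odd_iff] using hpar

/-- One step of the descent. -/
theorem descent_step {m n r s : ℤ} (hm : Odd m) (hn : Even n) (hr : Odd r) (hmn : IsCoprime m n)
    (hn0 : n ≠ 0) (h1 : m ^ 2 - n ^ 2 = r ^ 2 - s ^ 2) (h2 : r * s = 2 * (m * n)) :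
    ∃ x y z w : ℤ, y ≠ 0 ∧ y.natAbs < (2 * m * n).natAbs ∧ Odd x ∧ IsCoprime x y ∧
      x ^ 2 + y ^ 2 = z ^ 2 ∧ x ^ 2 + 4 * y ^ 2 = w ^ 2 := by
  have hm0 : m ≠ 0 := by rintro rfl; simp at hm
  obtain ⟨g, c, b, -, hcb, hmc, hrb⟩ := Int.exists_gcd_one'
    (m := m) (n := r) (Nat.pos_of_ne_zero fun h => hm0 (Int.gcd_eq_zero_iff.mp h).1)
  obtain ⟨a, ha⟩ : ∃ a : ℤ, (g : ℤ) = a := ⟨_, rfl⟩
  rw [ha] at hmc hrb
  have hcob : IsCoprime c b := Int.isCoprime_iff_gcd_eq_one.mpr hcb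
  obtain ⟨hc, hao⟩ := Int.odd_mul.mp (hmc ▸ hm)
  have hb : Odd b := (Int.odd_mul.mp (hrb ▸ hr)).1
  have ha0 : a ≠ 0 := by rintro rfl; simp at hao
  have hb0 : b ≠ 0 := by rintro rfl; simp at hb
  have hc0 : c ≠ 0 := by rintro rfl; simp at hc
  have hbs : b * s = c * (2 * n) := mul_left_cancel₀ ha0 (by
    rw [hmc, hrb] at h2; linear_combination h2)
  have hb2 : IsCoprime b (c * 2) := by
    refine hcob.symm.mul_right ?_
    obtain ⟨j, hj⟩ := hb
    exact ⟨1, -j, by rw [hj]; ring⟩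
  obtain ⟨d, hd⟩ : b ∣ n := hb2.dvd_of_dvd_mul_left ⟨s, by linear_combination -hbs⟩
  have hsd : s = 2 * c * d := mul_left_cancel₀ hb0 (by rw [hbs, hd]; ring)
  have hd0 : d ≠ 0 := by rintro rfl; simp [hd] at hn0
  have hde : Even d := (Int.even_mul.mp (hd ▸ hn)).resolve_left (Int.not_even_iff_odd.mpr hb)
  have had : IsCoprime a d := by
    refine hmn.of_isCoprime_of_dvd_left ⟨c, by rw [hmc]; ring⟩ |>.of_isCoprime_of_dvd_right ?_
    exact ⟨b, by rw [hd]; ring⟩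
  have key : a ^ 2 * (c ^ 2 - b ^ 2) = d ^ 2 * (b ^ 2 - 4 * c ^ 2) := by
    rw [hmc, hrb, hd, hsd] at h1
    linear_combination h1
  obtain ⟨k, hk⟩ : d ^ 2 ∣ c ^ 2 - b ^ 2 :=
    (had.symm.pow (m := 2) (n := 2)).dvd_of_dvd_mul_left ⟨_, key⟩
  have hk' : b ^ 2 - 4 * c ^ 2 = a ^ 2 * k :=
    mul_left_cancel₀ (pow_ne_zero 2 hd0) (by rw [← key, hk]; ring)
  have hk3 : k ∣ 3 := by
    obtain ⟨i, j, hij⟩ := hcob.pow (m := 2) (n := 2)
    have hkc : k ∣ 3 * c ^ 2 := ⟨-(d ^ 2 + a ^ 2), by linear_combination -hk - hk'⟩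
    have hkb : k ∣ 3 * b ^ 2 :=
      ⟨-(4 * d ^ 2 + a ^ 2), by linear_combination -4 * hk - hk'⟩
    have := dvd_add (dvd_mul_of_dvd_right hkc i) (dvd_mul_of_dvd_right hkb j)
    rwa [show i * (3 * c ^ 2) + j * (3 * b ^ 2) = 3 * (i * c ^ 2 + j * b ^ 2) by ring, hij,
      mul_one] at this
  have hkmod : k % 4 = 1 := by
    obtain ⟨b', hb'⟩ := hb
    obtain ⟨a', ha'⟩ := hao
    rw [hb', ha'] at hk'
    have h4 : k = 1 + 4 * ((b' ^ 2 + b' - c ^ 2) - (a' ^ 2 + a') * k) := by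
      linear_combination -hk'
    omega
  have hka : k.natAbs ≤ 3 :=
    Nat.le_of_dvd (by norm_num) (by simpa using Int.natAbs_dvd_natAbs.mpr hk3)
  obtain rfl | rfl : k = 1 ∨ k = -3 := by omega
  · exfalso
    have : 0 < c ^ 2 := by positivity
    nlinarith [sq_nonneg a, sq_nonneg d]
  refine ⟨a, d, c, b, hd0, ?_, hao, had, by linarith, by linarith⟩
  rw [hmc, hd]
  simp only [Int.natAbs_mul]
  have h1 : 1 ≤ c.natAbs * a.natAbs * b.natAbs := Nat.one_le_iff_ne_zero.mpr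
    (mul_ne_zero (mul_ne_zero (Int.natAbs_ne_zero.mpr hc0) (Int.natAbs_ne_zero.mpr ha0))
      (Int.natAbs_ne_zero.mpr hb0))
  have h2 : 1 ≤ d.natAbs := Int.natAbs_pos.mpr hd0
  have h3 : (2 : ℤ).natAbs = 2 := rfl
  rw [h3]
  nlinarith

/-- `x² + y²` and `x² + 4 y²` are both squares only if `y = 0`. -/
theorem concordant_one_four (N : ℕ) : ∀ x y z w : ℤ, y.natAbs = N → Odd x → IsCoprime x y →
    x ^ 2 + y ^ 2 = z ^ 2 → x ^ 2 + 4 * y ^ 2 = w ^ 2 → y = 0 := by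
  induction N using Nat.strong_induction_on with
  | _ N ih =>
  intro x y z w hN hx hco h1 h2
  by_contra hy
  obtain ⟨m, n, hxm, hym, hmn, hparm⟩ := pythagorean_odd_leg hx hco h1
  have hco2 : IsCoprime x (2 * y) := by
    refine IsCoprime.mul_right ?_ hco
    obtain ⟨j, hj⟩ := hx
    exact ⟨1, -j, by rw [hj]; ring⟩
  obtain ⟨r, s, hxr, hyr, hrs, hparr⟩ := pythagorean_odd_leg hx hco2
    (show x ^ 2 + (2 * y) ^ 2 = w ^ 2 by linear_combination h2)
  have hprod : r * s = 2 * (m * n) := by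
    rw [hym] at hyr; linarith
  have heq : m ^ 2 - n ^ 2 = r ^ 2 - s ^ 2 := hxm ▸ hxr
  have hm0 : m ≠ 0 := by rintro rfl; simp [hym] at hy
  have hn0 : n ≠ 0 := by rintro rfl; simp [hym] at hy
  have fin : ∀ m' n' : ℤ, (2 * m' * n').natAbs = N → ∀ r' s' : ℤ, Odd m' → Even n' → Odd r' →
      IsCoprime m' n' → n' ≠ 0 → m' ^ 2 - n' ^ 2 = r' ^ 2 - s' ^ 2 → r' * s' = 2 * (m' * n') →
      False := fun m' n' hN' r' s' a1 a2 a3 a4 a5 a6 a7 => by
    obtain ⟨x', y', z', w', hy', hlt, hx', hco', e1, e2⟩ := descent_step a1 a2 a3 a4 a5 a6 a7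
    exact hy' (ih _ (hN' ▸ hlt) x' y' z' w' rfl hx' hco' e1 e2)
  -- the parities agree
  have hsame : Odd m ↔ Odd r := by
    rcases hparm with ⟨⟨i, hi⟩, ⟨j, hj⟩⟩ | ⟨⟨i, hi⟩, ⟨j, hj⟩⟩ <;>
      rcases hparr with ⟨⟨k, hk⟩, ⟨l, hl⟩⟩ | ⟨⟨k, hk⟩, ⟨l, hl⟩⟩ <;>
        rw [hi, hj, hk, hl] at heq <;> rw [hi, hk] <;> ring_nf at heq <;>
          simp only [Int.odd_iff] <;> omega
  rcases hparm with ⟨hm, hn⟩ | ⟨hm, hn⟩
  · have hr : ¬ Odd r := fun h => Int.not_odd_iff_even.mpr hm (hsame.mpr h)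
    refine fin n m (by rw [← hN, hym]; ring_nf) s r hn hm
      ((hparr.resolve_right fun h => hr h.1).2) hmn.symm hm0 (by linear_combination -heq)
      (by linear_combination hprod)
  · exact fin m n (by rw [← hN, hym]) r s hm hn (hsame.mp hm) hmn hn0 heq hprod

theorem sq_of_coprime_mul {a b : ℤ} (hco : IsCoprime a b) (ha : 0 < a) (h : IsSquare (a * b)) :
    ∃ A, a = A ^ 2 := by
  obtain ⟨c, hc⟩ := h
  obtain ⟨A, hA | hA⟩ := Int.sq_of_isCoprime hco (c := c) (by rw [hc, sq])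
  · exact ⟨A, hA⟩
  · exact absurd hA (by have := sq_nonneg A; intro; linarith)

/-- No coprime positive `p`, `q` with `p` odd make `p (p + 2q)` and `q (q + 2p)` squares. -/
theorem no_two_squares {p q : ℤ} (hp : 0 < p) (hq : 0 < q) (hco : IsCoprime p q) (hodd : Odd p)
    (h1 : IsSquare (p * (p + 2 * q))) (h2 : IsSquare (q * (q + 2 * p))) : False := by
  have hp2 : IsCoprime p 2 := by
    obtain ⟨j, hj⟩ := hodd
    exact ⟨1, -j, by rw [hj]; ring⟩
  have c1 : IsCoprime p (p + 2 * q) := by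
    have := (hp2.mul_right hco).add_mul_left_right 1
    rwa [mul_one, add_comm] at this
  obtain ⟨A, hA⟩ := sq_of_coprime_mul c1 hp h1
  obtain ⟨B, hB⟩ := sq_of_coprime_mul c1.symm (by linarith) (by rwa [mul_comm])
  have hAo : Odd A := (Int.odd_pow' two_ne_zero).mp (hA ▸ hodd)
  have hBo : Odd B := (Int.odd_pow' two_ne_zero).mp (hB ▸ hodd.add_even (even_two_mul q))
  obtain ⟨j, hj⟩ : Even q := by
    obtain ⟨A', hA'⟩ := hAo
    obtain ⟨B', hB'⟩ := hBo
    have : 2 * q = 4 * (B' ^ 2 + B' - A' ^ 2 - A') := by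
      rw [hA'] at hA
      rw [hB'] at hB
      linear_combination hB - hA
    exact ⟨B' ^ 2 + B' - A' ^ 2 - A', by omega⟩
  have hj2 : q = 2 * j := by omega
  have hjp : IsCoprime p j := by
    rw [hj2] at hco; exact hco.of_mul_right_right
  have c2 : IsCoprime j (j + p) := by
    have := hjp.symm.add_mul_left_right 1
    rwa [mul_one, add_comm] at this
  have hsq : IsSquare (j * (j + p)) := by
    obtain ⟨c, hc⟩ := h2
    obtain ⟨c', hc'⟩ : (2 : ℤ) ∣ c := (Int.pow_dvd_pow_iff two_ne_zero).mp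
      ⟨j * (j + p), by rw [hj2] at hc; linear_combination -hc⟩
    exact ⟨c', by rw [hc', hj2] at hc; linarith⟩
  obtain ⟨C, hC⟩ := sq_of_coprime_mul c2 (by omega) hsq
  obtain ⟨D, hD⟩ := sq_of_coprime_mul c2.symm (by omega) (by rwa [mul_comm])
  have hC0 : C = 0 := concordant_one_four _ A C D B rfl hAo
    ((IsCoprime.pow_iff two_pos two_pos).mp (hA ▸ hC ▸ hjp))
    (by linarith) (by linarith)
  rw [hC0] at hC
  omega

/-- Two rational points of the unit circle whose abscissas differ by `1` are degenerate. -/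
theorem circle_pair {t a b : ℚ} (h1 : a ^ 2 + t ^ 2 = 1) (h2 : b ^ 2 + (t + 1) ^ 2 = 1) :
    t = 0 ∨ t = -1 := by
  by_contra hcon
  obtain ⟨ht0, ht1⟩ := not_or.mp hcon
  have hneg : t < 0 := lt_of_le_of_ne (by nlinarith [sq_nonneg b, sq_nonneg t]) ht0
  have hgt : -1 < t := lt_of_le_of_ne (by nlinarith [sq_nonneg a, sq_nonneg (t + 1)]) (Ne.symm ht1)
  obtain ⟨p, hp⟩ : ∃ p : ℤ, -t.num = p := ⟨_, rfl⟩
  have hden : (t.den : ℚ) ≠ 0 := by exact_mod_cast t.den_nz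
  have ht : t = -(p : ℚ) / (t.den : ℚ) := by
    rw [← hp]; push_cast; rw [neg_neg, Rat.num_div_den]
  have hp0 : 0 < p := hp ▸ neg_pos.mpr (Rat.num_neg.mpr hneg)
  have hq0 : 0 < (t.den : ℤ) - p := by
    rw [sub_pos, ← @Int.cast_lt ℚ]
    have hd : (0 : ℚ) < (t.den : ℚ) := by positivity
    rw [ht, lt_div_iff₀ hd] at hgt
    push_cast
    linarith
  have hco : IsCoprime p ((t.den : ℤ) - p) := by
    have h := ((Int.isCoprime_iff_nat_coprime.mpr (by simpa using t.reduced) :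
      IsCoprime t.num (t.den : ℤ))).neg_left.add_mul_left_right (-1)
    rw [hp] at h
    rwa [show (t.den : ℤ) - p = (t.den : ℤ) + p * -1 by ring]
  have sq1 : IsSquare (((t.den : ℤ) - p) * ((t.den : ℤ) - p + 2 * p)) := by
    rw [← Rat.isSquare_intCast_iff]
    refine ⟨a * t.den, ?_⟩
    rw [ht] at h1
    field_simp at h1
    push_cast
    linear_combination -h1
  have sq2 : IsSquare (p * (p + 2 * ((t.den : ℤ) - p))) := by
    rw [← Rat.isSquare_intCast_iff]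
    refine ⟨b * t.den, ?_⟩
    rw [ht] at h2
    field_simp at h2
    push_cast
    linear_combination -h2
  rcases Int.even_or_odd p with he | ho
  · refine no_two_squares hq0 hp0 hco.symm ?_ sq1 sq2
    rw [sub_eq_add_neg]
    refine (Int.not_even_iff_odd.mp fun hd => ?_ : Odd (t.den : ℤ)).add_even he.neg
    have := hco.isUnit_of_dvd' he.two_dvd (dvd_sub hd.two_dvd he.two_dvd)
    exact absurd (Int.isUnit_iff.mp this) (by norm_num)
  · exact no_two_squares hp0 hq0 hco ho sq2 sq1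

end FA.Torsion
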