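import Fermat.Agent.Thirteen.Tate
import Mathlib.GroupTheory.OrderOfElement

/-!
# Models `y² = x³ + a x² + b x + d`

Every curve over a field of characteristic other than two has such a model; its points of order
two are the roots of the cubic, and a root `e` whose point is a double has a square derivative.
-/

set_option autoImplicit false
set_option linter.unusedSectionVars false
set_option linter.style.haveILetI false

noncomputable section

open WeierstrassCurve
open FA.Frob (vcX vcY vcEquiv vcEquiv_some)

namespace FA.Torsion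

variable {K : Type*} [Field K]

/-- The curve `y² = x³ + a x² + b x + d`. -/
def shortCurve (a b d : K) : WeierstrassCurve K := ⟨0, a, 0, b, d⟩

theorem shortCurve_negY (a b d x y : K) : (shortCurve a b d).toAffine.negY x y = -y := by
  simp [shortCurve, Affine.negY]

theorem shortCurve_equation {a b d x y : K} (h : (shortCurve a b d).toAffine.Nonsingular x y) :
    y ^ 2 = x ^ 3 + a * x ^ 2 + b * x + d := by
  simpa [shortCurve] using (Affine.equation_iff x y).mp h.1

theorem shortCurve_Δ_zero (a b : K) :
    (shortCurve a b 0).Δ = 16 * b ^ 2 * (a ^ 2 - 4 * b) := by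
  simp [shortCurve, WeierstrassCurve.Δ, WeierstrassCurve.b₂, WeierstrassCurve.b₄,
    WeierstrassCurve.b₆, WeierstrassCurve.b₈]
  ring

variable [DecidableEq K]

/-- A point with nonzero double has `y ≠ 0`. -/
theorem y_ne_zero_of_double {a b d x y : K} {h : (shortCurve a b d).toAffine.Nonsingular x y}
    (h2 : 2 • Affine.Point.some x y h ≠ 0) : y ≠ 0 := fun e => h2 (by
  rw [two_nsmul]
  exact Affine.Point.add_self_of_Y_eq (by rw [shortCurve_negY, e, neg_zero]))

/-- A point killed by two has `y = 0`. -/
theorem y_eq_zero_of_double [NeZero (2 : K)] {a b d x y : K}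
    {h : (shortCurve a b d).toAffine.Nonsingular x y} (h2 : 2 • Affine.Point.some x y h = 0) :
    y = 0 := by
  by_contra hy
  have hne : y ≠ (shortCurve a b d).toAffine.negY x y := by
    rw [shortCurve_negY]
    exact fun e => hy (mul_left_cancel₀ (NeZero.ne (2 : K)) (by linear_combination e))
  rw [two_nsmul, Affine.Point.add_self_of_Y_ne hne] at h2
  exact Affine.Point.some_ne_zero _ h2

/-- The double of a point with `y ≠ 0`. -/
theorem exists_double [NeZero (2 : K)] {a b d x y : K}
    {h : (shortCurve a b d).toAffine.Nonsingular x y} (hy : y ≠ 0) :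
    ∃ h', 2 • Affine.Point.some x y h = Affine.Point.some
      (((3 * x ^ 2 + 2 * a * x + b) / (2 * y)) ^ 2 - a - x - x)
      (-((3 * x ^ 2 + 2 * a * x + b) / (2 * y) *
        (((3 * x ^ 2 + 2 * a * x + b) / (2 * y)) ^ 2 - a - x - x - x) + y)) h' := by
  have hne : y ≠ (shortCurve a b d).toAffine.negY x y := by
    rw [shortCurve_negY]
    exact fun e => hy (mul_left_cancel₀ (NeZero.ne (2 : K)) (by linear_combination e))
  have hl : (shortCurve a b d).toAffine.slope x x y y = (3 * x ^ 2 + 2 * a * x + b) / (2 * y) := by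
    rw [Affine.slope_of_Y_ne rfl hne, shortCurve_negY]
    simp [shortCurve]
    ring
  have ex : (shortCurve a b d).toAffine.addX x x ((3 * x ^ 2 + 2 * a * x + b) / (2 * y)) =
      ((3 * x ^ 2 + 2 * a * x + b) / (2 * y)) ^ 2 - a - x - x := by
    simp [shortCurve, Affine.addX]
  have ey : (shortCurve a b d).toAffine.addY x x y ((3 * x ^ 2 + 2 * a * x + b) / (2 * y)) =
      -((3 * x ^ 2 + 2 * a * x + b) / (2 * y) *
        (((3 * x ^ 2 + 2 * a * x + b) / (2 * y)) ^ 2 - a - x - x - x) + y) := by
    rw [Affine.addY, shortCurve_negY]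
    simp [shortCurve, Affine.negAddY, Affine.addX]
  have e := Affine.Point.add_self_of_Y_ne (h₁ := h) hne
  simp only [hl, ex, ey] at e
  exact ⟨_, (two_nsmul _).trans e⟩

/-- If `(e, 0)` is the double of `(x, y)` then `f'(e) = (x - e)²`. -/
theorem sq_eq_derivative_of_double [NeZero (2 : K)] {a b d x y e : K}
    {h : (shortCurve a b d).toAffine.Nonsingular x y}
    {he : (shortCurve a b d).toAffine.Nonsingular e 0}
    (h2 : 2 • Affine.Point.some x y h = Affine.Point.some e 0 he) :
    (x - e) ^ 2 = 3 * e ^ 2 + 2 * a * e + b := by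
  have hy : y ≠ 0 := y_ne_zero_of_double (by rw [h2]; exact Affine.Point.some_ne_zero he)
  obtain ⟨h', e2⟩ := exists_double (h := h) hy
  rw [e2, Affine.Point.some.injEq] at h2
  have hE := shortCurve_equation h
  have hroot := shortCurve_equation he
  have hA : (3 * x ^ 2 + 2 * a * x + b) ^ 2 = (e + a + x + x) * (2 * y) ^ 2 := by
    have h1 := h2.1
    rw [div_pow] at h1
    have h2y : (2 * y) ^ 2 ≠ 0 := pow_ne_zero _ (mul_ne_zero (NeZero.ne (2 : K)) hy)
    field_simp at h1
    linear_combination h1
  refine sub_eq_zero.mp (pow_eq_zero_iff (two_ne_zero) |>.mp ?_)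
  linear_combination hA + 4 * (e + a + x + x) * hE - 4 * (e + a + x + x) * hroot

/-- Every elliptic curve over `ℚ` has such a model, with a given point at `(e, 0)` if it has order
two. -/
theorem exists_shortCurve {W : WeierstrassCurve ℚ} [W.IsElliptic] :
    ∃ (a b d : ℚ) (_ : (shortCurve a b d).IsElliptic),
      Nonempty ((shortCurve a b d).toAffine.Point ≃+ W.toAffine.Point) := by
  let C : VariableChange ℚ := ⟨1, 0, -W.a₁ / 2, -W.a₃ / 2⟩
  have hC : C • W = shortCurve (C • W).a₂ (C • W).a₄ (C • W).a₆ := by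
    ext <;> simp [C, shortCurve, variableChange_a₁, variableChange_a₃] <;> ring
  haveI : (shortCurve (C • W).a₂ (C • W).a₄ (C • W).a₆).IsElliptic := hC ▸ inferInstance
  exact ⟨_, _, _, this, ⟨vcEquiv C hC⟩⟩

/-- Moving a root of the cubic to the origin. -/
theorem exists_shortCurve_origin {W : WeierstrassCurve ℚ} [W.IsElliptic] {T : W.toAffine.Point}
    (hT : addOrderOf T = 2) :
    ∃ (a b : ℚ) (_ : (shortCurve a b 0).IsElliptic)
      (h0 : (shortCurve a b 0).toAffine.Nonsingular 0 0)
      (e : (shortCurve a b 0).toAffine.Point ≃+ W.toAffine.Point),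
      e (Affine.Point.some 0 0 h0) = T := by
  obtain ⟨a, b, d, hE, ⟨e⟩⟩ := exists_shortCurve (W := W)
  have hT' : addOrderOf (e.symm T) = 2 := (AddEquiv.addOrderOf_eq e.symm T).trans hT
  obtain ⟨x, y, h, hxy⟩ : ∃ x y h, e.symm T = Affine.Point.some x y h := by
    rcases hc : e.symm T with _ | ⟨x, y, h⟩
    · rw [hc, ← Affine.Point.zero_def, addOrderOf_zero] at hT'; norm_num at hT'
    · exact ⟨x, y, h, rfl⟩
  have hy : y = 0 := y_eq_zero_of_double (h := h) (by
    rw [← hxy, ← hT', addOrderOf_nsmul_eq_zero])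
  subst hy
  have hx := shortCurve_equation h
  let C : VariableChange ℚ := ⟨1, x, 0, 0⟩
  have hC : C • shortCurve a b d = shortCurve (a + 3 * x) (3 * x ^ 2 + 2 * a * x + b) 0 := by
    ext <;> simp [C, shortCurve, variableChange_a₁, variableChange_a₂, variableChange_a₃,
      variableChange_a₄, variableChange_a₆]
    · ring
    · linear_combination -hx
  haveI : (shortCurve (a + 3 * x) (3 * x ^ 2 + 2 * a * x + b) 0).IsElliptic := hC ▸ inferInstance
  have h0 : (shortCurve (a + 3 * x) (3 * x ^ 2 + 2 * a * x + b) 0).toAffine.Nonsingular 0 0 :=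
    Affine.equation_iff_nonsingular.mp ((FA.Frob.equation_vc C hC 0 0).mp (by
      simpa [C, vcX, vcY] using h.1))
  refine ⟨_, _, this, h0, (vcEquiv C hC).trans e, ?_⟩
  rw [AddEquiv.trans_apply, vcEquiv_some]
  refine (congrArg e ?_).trans (e.apply_symm_apply T)
  rw [hxy, Affine.Point.some.injEq]
  simp [C, vcX, vcY]

end FA.Torsion

end
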