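import Fermat.Agent.Torsion.RealisedBasic
import Fermat.Agent.Torsion.Summary

/-!
# Each of the fifteen groups is a torsion subgroup

The converse of Mazur's torsion theorem: for each of the fifteen groups an explicit elliptic curve
over `ℚ` has that torsion subgroup. The upper bound is a count of points modulo one or two good
primes above `7`, the lower bound an explicit subgroup.
-/

set_option autoImplicit false
set_option linter.style.haveILetI false

noncomputable section

open WeierstrassCurve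
open FA.Frob (ratCurve)

namespace FA.Torsion

/-- An integral point of an integral equation. -/
def intPoint (W : WeierstrassCurve ℤ) (hΔ : W.Δ ≠ 0) (x y : ℤ)
    (h : y ^ 2 + W.a₁ * x * y + W.a₃ * y = x ^ 3 + W.a₂ * x ^ 2 + W.a₄ * x + W.a₆) :
    (ratCurve W).toAffine.Point :=
  haveI := FA.Frob.ratCurve_isElliptic_of_Δ hΔ
  .some (x : ℚ) (y : ℚ) (Affine.equation_iff_nonsingular.mp ((Affine.equation_iff _ _).mpr (by
    simp only [map_a₁, map_a₂, map_a₃, map_a₄, map_a₆, eq_intCast]
    exact_mod_cast h)))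

/-- The group `G` is the torsion subgroup of some elliptic curve over `ℚ`. -/
def IsTorsionGroup (G : Type) [AddCommGroup G] : Prop :=
  ∃ E : WeierstrassCurve ℚ, E.IsElliptic ∧
    Nonempty (AddCommGroup.torsion E.toAffine.Point ≃+ G)

theorem isTorsionGroup_of {G : Type} [AddCommGroup G] [Finite G] (W : WeierstrassCurve ℤ)
    (hΔ : W.Δ ≠ 0) (φ : G →+ (ratCurve W).toAffine.Point) (hφ : Function.Injective φ)
    (p q : ℕ) [Fact p.Prime] [Fact q.Prime] (hp : 7 < p) (hq : 7 < q)
    (hpΔ : ¬ (p : ℤ) ∣ W.Δ) (hqΔ : ¬ (q : ℤ) ∣ W.Δ)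
    (h : Nat.gcd (countMod W p) (countMod W q) = Nat.card G) : IsTorsionGroup G := by
  haveI := FA.Frob.ratCurve_isElliptic_of_Δ hΔ
  obtain ⟨hfin, hd⟩ := natCard_torsion_dvd p W hp hpΔ
  exact ⟨_, this, torsion_equiv_of φ hφ (h ▸ Nat.dvd_gcd hd (natCard_torsion_dvd q W hq hqΔ).2)⟩

theorem isTorsionGroup_cyclic {n : ℕ} [NeZero n] (W : WeierstrassCurve ℤ) (hΔ : W.Δ ≠ 0)
    (P : (ratCurve W).toAffine.Point) (hP : n • P = 0)
    (hk : ∀ k : Fin n, (k : ℕ) • P = 0 → (k : ℕ) = 0)
    (p q : ℕ) [Fact p.Prime] [Fact q.Prime] (hp : 7 < p) (hq : 7 < q)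
    (hpΔ : ¬ (p : ℤ) ∣ W.Δ) (hqΔ : ¬ (q : ℤ) ∣ W.Δ)
    (h : Nat.gcd (countMod W p) (countMod W q) = n) : IsTorsionGroup (ZMod n) :=
  isTorsionGroup_of W hΔ _ (cyclicHom_injective hP hk) p q hp hq hpΔ hqΔ (by rw [h, Nat.card_zmod])

theorem isTorsionGroup_two {n : ℕ} [NeZero n] (W : WeierstrassCurve ℤ) (hΔ : W.Δ ≠ 0)
    (T P : (ratCurve W).toAffine.Point) (hT : 2 • T = 0) (hP : n • P = 0)
    (hk : ∀ j : Fin 2, ∀ k : Fin n, (j : ℕ) • T + (k : ℕ) • P = 0 → (j : ℕ) = 0 ∧ (k : ℕ) = 0)
    (p q : ℕ) [Fact p.Prime] [Fact q.Prime] (hp : 7 < p) (hq : 7 < q)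
    (hpΔ : ¬ (p : ℤ) ∣ W.Δ) (hqΔ : ¬ (q : ℤ) ∣ W.Δ)
    (h : Nat.gcd (countMod W p) (countMod W q) = 2 * n) : IsTorsionGroup (ZMod 2 × ZMod n) :=
  isTorsionGroup_of W hΔ _ (twoHom_injective hT hP hk) p q hp hq hpΔ hqΔ
    (by rw [h, Nat.card_prod, Nat.card_zmod, Nat.card_zmod])

local instance realFact_prime_eleven : Fact (Nat.Prime 11) := ⟨by norm_num⟩

local instance realFact_prime_thirteen : Fact (Nat.Prime 13) := ⟨by norm_num⟩

local instance realFact_prime_seventeen : Fact (Nat.Prime 17) := ⟨by norm_num⟩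

theorem isTorsionGroup_1 : IsTorsionGroup (ZMod 1) :=
  isTorsionGroup_cyclic ⟨0, -1, 0, 0, 1⟩ (by decide +kernel) 0 (nsmul_zero _) (by decide +kernel)
    11 13 (by norm_num) (by norm_num) (by decide +kernel) (by decide +kernel) (by decide +kernel)

theorem isTorsionGroup_2 : IsTorsionGroup (ZMod 2) :=
  isTorsionGroup_cyclic ⟨0, 0, 0, 2, 0⟩ (by decide +kernel)
    (intPoint _ (by decide +kernel) 0 0 (by decide +kernel)) (by decide +kernel) (by decide +kernel)
    11 13 (by norm_num) (by norm_num) (by decide +kernel) (by decide +kernel) (by decide +kernel)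

theorem isTorsionGroup_3 : IsTorsionGroup (ZMod 3) :=
  isTorsionGroup_cyclic ⟨0, 0, 1, 0, 0⟩ (by decide +kernel)
    (intPoint _ (by decide +kernel) 0 0 (by decide +kernel)) (by decide +kernel) (by decide +kernel)
    11 13 (by norm_num) (by norm_num) (by decide +kernel) (by decide +kernel) (by decide +kernel)

theorem isTorsionGroup_4 : IsTorsionGroup (ZMod 4) :=
  isTorsionGroup_cyclic ⟨0, 0, 0, 1, 2⟩ (by decide +kernel)
    (intPoint _ (by decide +kernel) 1 2 (by decide +kernel)) (by decide +kernel) (by decide +kernel)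
    11 13 (by norm_num) (by norm_num) (by decide +kernel) (by decide +kernel) (by decide +kernel)

theorem isTorsionGroup_5 : IsTorsionGroup (ZMod 5) :=
  isTorsionGroup_cyclic ⟨1, 1, 1, 0, 1⟩ (by decide +kernel)
    (intPoint _ (by decide +kernel) (-1) 1 (by decide +kernel)) (by decide +kernel)
    (by decide +kernel)
    11 13 (by norm_num) (by norm_num) (by decide +kernel) (by decide +kernel) (by decide +kernel)

theorem isTorsionGroup_6 : IsTorsionGroup (ZMod 6) :=
  isTorsionGroup_cyclic ⟨1, 0, 0, -3, 1⟩ (by decide +kernel)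
    (intPoint _ (by decide +kernel) 0 1 (by decide +kernel)) (by decide +kernel) (by decide +kernel)
    11 11 (by norm_num) (by norm_num) (by decide +kernel) (by decide +kernel) (by decide +kernel)

theorem isTorsionGroup_7 : IsTorsionGroup (ZMod 7) :=
  isTorsionGroup_cyclic ⟨1, -1, 1, -3, 3⟩ (by decide +kernel)
    (intPoint _ (by decide +kernel) (-1) 2 (by decide +kernel)) (by decide +kernel)
    (by decide +kernel)
    11 17 (by norm_num) (by norm_num) (by decide +kernel) (by decide +kernel) (by decide +kernel)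

theorem isTorsionGroup_8 : IsTorsionGroup (ZMod 8) :=
  isTorsionGroup_cyclic ⟨1, 1, 1, -4, 5⟩ (by decide +kernel)
    (intPoint _ (by decide +kernel) (-1) (-3) (by decide +kernel)) (by decide +kernel)
    (by decide +kernel)
    13 13 (by norm_num) (by norm_num) (by decide +kernel) (by decide +kernel) (by decide +kernel)

theorem isTorsionGroup_9 : IsTorsionGroup (ZMod 9) :=
  isTorsionGroup_cyclic ⟨1, -1, 1, -14, 29⟩ (by decide +kernel)
    (intPoint _ (by decide +kernel) (-3) 7 (by decide +kernel)) (by decide +kernel)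
    (by decide +kernel)
    11 11 (by norm_num) (by norm_num) (by decide +kernel) (by decide +kernel) (by decide +kernel)

theorem isTorsionGroup_10 : IsTorsionGroup (ZMod 10) :=
  isTorsionGroup_cyclic ⟨1, 0, 0, -45, 81⟩ (by decide +kernel)
    (intPoint _ (by decide +kernel) (-6) 15 (by decide +kernel)) (by decide +kernel)
    (by decide +kernel)
    13 13 (by norm_num) (by norm_num) (by decide +kernel) (by decide +kernel) (by decide +kernel)

theorem isTorsionGroup_12 : IsTorsionGroup (ZMod 12) :=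
  isTorsionGroup_cyclic ⟨1, -1, 1, -122, 1721⟩ (by decide +kernel)
    (intPoint _ (by decide +kernel) (-9) 49 (by decide +kernel)) (by decide +kernel)
    (by decide +kernel)
    11 11 (by norm_num) (by norm_num) (by decide +kernel) (by decide +kernel) (by decide +kernel)

theorem isTorsionGroup_2x2 : IsTorsionGroup (ZMod 2 × ZMod 2) :=
  isTorsionGroup_two ⟨0, 0, 0, -1, 0⟩ (by decide +kernel)
    (intPoint _ (by decide +kernel) (-1) 0 (by decide +kernel))
    (intPoint _ (by decide +kernel) 0 0 (by decide +kernel))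
    (by decide +kernel) (by decide +kernel) (by decide +kernel)
    11 13 (by norm_num) (by norm_num) (by decide +kernel) (by decide +kernel) (by decide +kernel)

theorem isTorsionGroup_2x4 : IsTorsionGroup (ZMod 2 × ZMod 4) :=
  isTorsionGroup_two ⟨0, -1, 0, -4, 4⟩ (by decide +kernel)
    (intPoint _ (by decide +kernel) (-2) 0 (by decide +kernel))
    (intPoint _ (by decide +kernel) 0 2 (by decide +kernel))
    (by decide +kernel) (by decide +kernel) (by decide +kernel)
    11 11 (by norm_num) (by norm_num) (by decide +kernel) (by decide +kernel) (by decide +kernel)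

theorem isTorsionGroup_2x6 : IsTorsionGroup (ZMod 2 × ZMod 6) :=
  isTorsionGroup_two ⟨1, 0, 1, -19, 26⟩ (by decide +kernel)
    (intPoint _ (by decide +kernel) 3 (-2) (by decide +kernel))
    (intPoint _ (by decide +kernel) 1 2 (by decide +kernel))
    (by decide +kernel) (by decide +kernel) (by decide +kernel)
    11 11 (by norm_num) (by norm_num) (by decide +kernel) (by decide +kernel) (by decide +kernel)

theorem isTorsionGroup_2x8 : IsTorsionGroup (ZMod 2 × ZMod 8) :=
  isTorsionGroup_two ⟨1, 0, 0, -1070, 7812⟩ (by decide +kernel)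
    (intPoint _ (by decide +kernel) (-36) 18 (by decide +kernel))
    (intPoint _ (by decide +kernel) 4 58 (by decide +kernel))
    (by decide +kernel) (by decide +kernel) (by decide +kernel)
    11 11 (by norm_num) (by norm_num) (by decide +kernel) (by decide +kernel) (by decide +kernel)

/-- Every cyclic group of Mazur's list occurs. -/
theorem torsion_realised_cyclic {n : ℕ}
    (hn : n ∈ ({1, 2, 3, 4, 5, 6, 7, 8, 9, 10, 12} : Finset ℕ)) :
    ∃ E : WeierstrassCurve ℚ, E.IsElliptic ∧
      Nonempty (AddCommGroup.torsion E.toAffine.Point ≃+ ZMod n) := by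
  fin_cases hn
  exacts [isTorsionGroup_1, isTorsionGroup_2, isTorsionGroup_3, isTorsionGroup_4, isTorsionGroup_5,
    isTorsionGroup_6, isTorsionGroup_7, isTorsionGroup_8, isTorsionGroup_9, isTorsionGroup_10,
    isTorsionGroup_12]

/-- Every non-cyclic group of Mazur's list occurs. -/
theorem torsion_realised_two {m : ℕ} (hm : m ∈ ({1, 2, 3, 4} : Finset ℕ)) :
    ∃ E : WeierstrassCurve ℚ, E.IsElliptic ∧
      Nonempty (AddCommGroup.torsion E.toAffine.Point ≃+ ZMod 2 × ZMod (2 * m)) := by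
  fin_cases hm
  exacts [isTorsionGroup_2x2, isTorsionGroup_2x4, isTorsionGroup_2x6, isTorsionGroup_2x8]

/-- **Mazur's torsion theorem, sharp form**: a group is the torsion subgroup of an elliptic curve
over `ℚ` if and only if it is one of the fifteen groups. -/
theorem mazur_torsion_iff (G : Type) [AddCommGroup G] :
    (∃ E : WeierstrassCurve ℚ, E.IsElliptic ∧
        Nonempty (AddCommGroup.torsion E.toAffine.Point ≃+ G)) ↔
      (∃ n ∈ ({1, 2, 3, 4, 5, 6, 7, 8, 9, 10, 12} : Finset ℕ), Nonempty (G ≃+ ZMod n)) ∨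
        ∃ m ∈ ({1, 2, 3, 4} : Finset ℕ), Nonempty (G ≃+ ZMod 2 × ZMod (2 * m)) := by
  constructor
  · rintro ⟨E, hE, ⟨e⟩⟩
    rcases mazur_torsion E with ⟨n, hn, ⟨f⟩⟩ | ⟨m, hm, ⟨f⟩⟩
    · exact Or.inl ⟨n, hn, ⟨e.symm.trans f⟩⟩
    · exact Or.inr ⟨m, hm, ⟨e.symm.trans f⟩⟩
  · rintro (⟨n, hn, ⟨e⟩⟩ | ⟨m, hm, ⟨e⟩⟩)
    · obtain ⟨E, hE, ⟨f⟩⟩ := torsion_realised_cyclic hn
      exact ⟨E, hE, ⟨f.trans e.symm⟩⟩
    · obtain ⟨E, hE, ⟨f⟩⟩ := torsion_realised_two hm
      exact ⟨E, hE, ⟨f.trans e.symm⟩⟩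

end FA.Torsion

end
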