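import Fermat.Agent.Frob.VarChange
import Fermat.Agent.NagellLutz.Main
import Fermat.Agent.Torsion.RealisedBasic

/-!
# The rational torsion and the points modulo a small prime

At a prime `q` not dividing the discriminant of an integral Weierstrass equation the kernel of
reduction has no torsion of odd order, and none at all if `q ≠ 2`. So the order of the rational
torsion subgroup divides the number of points modulo `q` for `q ≥ 3`, its odd part for `q = 2`.
-/

set_option autoImplicit false
set_option linter.style.haveILetI false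

noncomputable section

open WeierstrassCurve FA.Local
open FA.Frob (ratCurve redHom redHom_apply redHom_injOn redFun_eq_zero_iff redCurve_isElliptic
  vcEquiv)
open FA.Torsion (ringAt ringAt_val_intCast intCoeff_at natCard_redCurve countMod)

namespace FA.Torsion

variable (q : ℕ) [hq : Fact q.Prime]

/-- A point of prime order `l` in the kernel of reduction at `q` has `l = q = 2`. -/
theorem eq_zero_of_redHom_of_prime (W : WeierstrassCurve ℤ) [(ratCurve W).IsElliptic]
    (hΔ' : (ringAt q).valuation (ratCurve W).toAffine.Δ = 1)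
    [(FA.Frob.redCurve (ringAt q) (ratCurve W).toAffine (intCoeff_at q W)).IsElliptic]
    [DecidableEq (FA.Frob.Res (ringAt q))] {l : ℕ} (hl : l.Prime) (hlq : Odd l ∨ q ≠ 2)
    {P : (ratCurve W).toAffine.Point} (hP : l • P = 0)
    (h : redHom (intCoeff_at q W) hΔ' P = 0) : P = 0 := by
  rcases hl.eq_two_or_odd' with rfl | hodd
  · have hq2 : q ≠ 2 := hlq.resolve_left (by decide)
    refine redHom_injOn (intCoeff_at q W) hΔ' hl ?_ hP h
    rw [show ((2 : ℕ) : ℚ) = ((2 : ℤ) : ℚ) by norm_num]
    refine ringAt_val_intCast q fun hd => hq2 ?_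
    exact (Nat.prime_dvd_prime_iff_eq hq.out Nat.prime_two).mp (by exact_mod_cast hd)
  · have hI : IntCoeff (Rat.padicValuation q) (ratCurve W).toAffine := by
      constructor <;> exact intCast_le_one _
    rcases P with _ | ⟨x, y, hxy⟩
    · rfl
    refine FA.NagellLutz.eq_zero_of_e1_of_odd hI hl hodd ?_ hP
    rw [redHom_apply, redFun_eq_zero_iff, e1_some] at h
    rw [e1_some]
    exact (Valuation.isEquiv_valuation_valuationSubring _).one_lt_iff_one_lt.mpr h

/-- The number of points of the equation modulo `q`. -/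
theorem natCard_point_reduction (W : WeierstrassCurve ℤ) (hΔ : ¬ (q : ℤ) ∣ W.Δ) :
    Nat.card (W.map (Int.castRingHom (ZMod q))).toAffine.Point = countMod W q := by
  set V := W.map (Int.castRingHom (ZMod q)) with hV
  haveI : V.IsElliptic := ⟨isUnit_iff_ne_zero.mpr (by
    rw [hV, map_Δ, eq_intCast, ne_eq, ZMod.intCast_zmod_eq_zero_iff_dvd]; exact hΔ)⟩
  let f : Option {p : ZMod q × ZMod q // V.toAffine.Equation p.1 p.2} → V.toAffine.Point
    | none => 0
    | some p => .some p.1.1 p.1.2 (Affine.equation_iff_nonsingular.mp p.2)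
  have hf : Function.Bijective f := by
    refine ⟨?_, ?_⟩
    · rintro (_ | ⟨⟨x, y⟩, h⟩) (_ | ⟨⟨x', y'⟩, h'⟩) he
      · rfl
      · exact absurd he.symm (Affine.Point.some_ne_zero _)
      · exact absurd he (Affine.Point.some_ne_zero _)
      · simp only [f, Affine.Point.some.injEq] at he
        obtain ⟨rfl, rfl⟩ := he
        rfl
    · rintro (_ | ⟨x, y, h⟩)
      · exact ⟨none, rfl⟩
      · exact ⟨some ⟨(x, y), h.1⟩, rfl⟩
  classical
  rw [← Nat.card_eq_of_bijective f hf, Finite.card_option, countMod, ← Fintype.card_coe,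
    ← Nat.card_eq_fintype_card]
  congr 1
  refine Nat.card_congr (Equiv.subtypeEquivRight fun p => ?_)
  rw [Finset.mem_filter, Affine.equation_iff]
  simp [hV]

/-- The kernel of reduction on torsion: trivial for `q ≠ 2`, without odd torsion for `q = 2`. -/
theorem exists_torsion_hom (W : WeierstrassCurve ℤ) [(ratCurve W).IsElliptic]
    (hΔ : ¬ (q : ℤ) ∣ W.Δ) :
    ∃ (G : Type) (_ : AddCommGroup G) (_ : Finite G)
      (r : AddCommGroup.torsion (ratCurve W).toAffine.Point →+ G),
      Nat.card G = Nat.card (W.map (Int.castRingHom (ZMod q))).toAffine.Point ∧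
      ∀ (P : AddCommGroup.torsion (ratCurve W).toAffine.Point) (l : ℕ), l.Prime →
        (Odd l ∨ q ≠ 2) → l • P = 0 → r P = 0 → P = 0 := by
  classical
  have hΔ' : (ringAt q).valuation (ratCurve W).toAffine.Δ = 1 := by
    rw [show (ratCurve W).toAffine.Δ = ((W.Δ : ℤ) : ℚ) from W.map_Δ _, ringAt_val_intCast q hΔ]
  haveI := redCurve_isElliptic (intCoeff_at q W) hΔ'
  obtain ⟨hfin, hcard⟩ := natCard_redCurve q W
  refine ⟨_, inferInstance, hfin, (redHom (intCoeff_at q W) hΔ').comp
    (AddCommGroup.torsion (ratCurve W).toAffine.Point).subtype,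
    hcard.trans (natCard_point_reduction q W hΔ).symm, fun P l hl hlq hP h => Subtype.ext ?_⟩
  exact eq_zero_of_redHom_of_prime q W hΔ' hl hlq (congrArg Subtype.val hP) h

/-- For `q ≥ 3` the order of the torsion subgroup divides the number of points modulo `q`. -/
theorem natCard_torsion_dvd_of_three_le (W : WeierstrassCurve ℤ) [(ratCurve W).IsElliptic]
    (hq3 : 3 ≤ q) (hΔ : ¬ (q : ℤ) ∣ W.Δ) :
    Finite (AddCommGroup.torsion (ratCurve W).toAffine.Point) ∧
      Nat.card (AddCommGroup.torsion (ratCurve W).toAffine.Point) ∣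
        Nat.card (W.map (Int.castRingHom (ZMod q))).toAffine.Point := by
  obtain ⟨G, _, _, r, hG, hr⟩ := exists_torsion_hom q W hΔ
  have inj : Function.Injective r := (injective_iff_map_eq_zero r).mpr fun P hP => by
    by_contra hne
    have hn : IsOfFinAddOrder P := by
      obtain ⟨m, hm, h0⟩ := isOfFinAddOrder_iff_nsmul_eq_zero.mp
        ((AddCommGroup.mem_torsion _).mp P.2)
      exact isOfFinAddOrder_iff_nsmul_eq_zero.mpr ⟨m, hm, Subtype.ext h0⟩
    have hn1 : addOrderOf P ≠ 1 := fun h => hne (AddMonoid.addOrderOf_eq_one_iff.mp h)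
    have hl := Nat.minFac_prime hn1
    have hd := Nat.minFac_dvd (addOrderOf P)
    refine absurd (hr ((addOrderOf P / (addOrderOf P).minFac) • P) _ hl (Or.inr (by omega)) ?_
      (by rw [map_nsmul, hP, nsmul_zero])) ?_
    · rw [← mul_nsmul', Nat.mul_div_cancel' hd, addOrderOf_nsmul_eq_zero]
    · intro h0
      have := Nat.le_of_dvd (Nat.div_pos (Nat.le_of_dvd hn.addOrderOf_pos hd) hl.pos)
        (addOrderOf_dvd_of_nsmul_eq_zero h0)
      have := Nat.div_lt_self hn.addOrderOf_pos hl.one_lt
      omega
  exact ⟨Finite.of_injective r inj, hG ▸ AddSubgroup.card_dvd_of_injective r inj⟩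

/-- Isomorphic groups have equally many torsion elements. -/
theorem natCard_torsion_congr {A B : Type*} [AddCommGroup A] [AddCommGroup B] (e : A ≃+ B) :
    Nat.card (AddCommGroup.torsion A) = Nat.card (AddCommGroup.torsion B) := by
  refine Nat.card_congr (e.toEquiv.subtypeEquiv fun x => ?_)
  rw [AddCommGroup.mem_torsion, AddCommGroup.mem_torsion]
  exact ⟨fun h => (e : A →+ B).isOfFinAddOrder h, fun h => by
    simpa using (e.symm : B →+ A).isOfFinAddOrder h⟩

/-- For any `q` of good reduction the odd divisors of the order of the torsion subgroup divide the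
number of points modulo `q`. -/
theorem odd_dvd_of_dvd_natCard_torsion (W : WeierstrassCurve ℤ) [(ratCurve W).IsElliptic]
    (hΔ : ¬ (q : ℤ) ∣ W.Δ) {m : ℕ} (hm : Odd m)
    (hmd : m ∣ Nat.card (AddCommGroup.torsion (ratCurve W).toAffine.Point)) :
    m ∣ Nat.card (W.map (Int.castRingHom (ZMod q))).toAffine.Point := by
  have h0 : W.Δ ≠ 0 := fun h => hΔ (by rw [h]; exact dvd_zero _)
  obtain ⟨q', hq', hp'⟩ := Nat.exists_infinite_primes (W.Δ.natAbs + 3)
  haveI := Fact.mk hp'
  obtain ⟨hfin, -⟩ := natCard_torsion_dvd_of_three_le q' W (by omega) fun hd => by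
    have := Nat.le_of_dvd (Int.natAbs_pos.mpr h0) (Int.natCast_dvd.mp hd)
    omega
  obtain ⟨G, _, _, r, hG, hr⟩ := exists_torsion_hom q W hΔ
  have hker : Nat.Coprime m (Nat.card r.ker) := Nat.coprime_of_dvd fun l hl hlm hlk => by
    haveI := Fact.mk hl
    obtain ⟨⟨P, hP⟩, hord⟩ := exists_prime_addOrderOf_dvd_card' l hlk
    have hPl : addOrderOf P = l := (AddSubgroup.addOrderOf_coe ⟨P, hP⟩).trans hord
    have hz : P = 0 := hr P l hl (Or.inl (hm.of_dvd_nat hlm))
      (hPl ▸ addOrderOf_nsmul_eq_zero P) hP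
    rw [hz, addOrderOf_zero] at hPl
    exact hl.one_lt.ne hPl
  rw [← AddSubgroup.card_mul_index r.ker, AddSubgroup.index_ker] at hmd
  exact hG ▸ (hker.dvd_of_dvd_mul_left hmd).trans (AddSubgroup.card_addSubgroup_dvd_card r.range)

end FA.Torsion

namespace FA.Summary

/-- **Reduction is injective on torsion**: for an integral model `W` of `E` and a prime `q ≥ 3` not
dividing its discriminant, the order of the rational torsion subgroup divides `#W(𝔽_q)`. -/
theorem torsion_card_dvd_pointCount (E : WeierstrassCurve ℚ) [E.IsElliptic]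
    (W : WeierstrassCurve ℤ) (C : VariableChange ℚ) (hW : C • E = W.map (Int.castRingHom ℚ))
    {q : ℕ} (hq : q.Prime) (hq3 : 3 ≤ q) (hgood : ¬ (q : ℤ) ∣ W.Δ) :
    Nat.card (AddCommGroup.torsion E.toAffine.Point) ∣
      Nat.card (W.map (Int.castRingHom (ZMod q))).toAffine.Point := by
  haveI := Fact.mk hq
  haveI : (ratCurve W).IsElliptic := by
    have h : (C • E).IsElliptic := inferInstance
    rwa [hW] at h
  rw [← FA.Torsion.natCard_torsion_congr (vcEquiv C hW)]
  exact (FA.Torsion.natCard_torsion_dvd_of_three_le q W hq3 hgood).2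

/-- For an integral model with good reduction at any prime `q`, `2` included, the odd divisors of
the order of the rational torsion subgroup divide `#W(𝔽_q)`. -/
theorem torsion_card_odd_dvd_pointCount (E : WeierstrassCurve ℚ) [E.IsElliptic]
    (W : WeierstrassCurve ℤ) (C : VariableChange ℚ) (hW : C • E = W.map (Int.castRingHom ℚ))
    {q : ℕ} (hq : q.Prime) (hgood : ¬ (q : ℤ) ∣ W.Δ) {m : ℕ} (hm : Odd m)
    (hmd : m ∣ Nat.card (AddCommGroup.torsion E.toAffine.Point)) :
    m ∣ Nat.card (W.map (Int.castRingHom (ZMod q))).toAffine.Point := by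
  haveI := Fact.mk hq
  haveI : (ratCurve W).IsElliptic := by
    have h : (C • E).IsElliptic := inferInstance
    rwa [hW] at h
  rw [← FA.Torsion.natCard_torsion_congr (vcEquiv C hW)] at hmd
  exact FA.Torsion.odd_dvd_of_dvd_natCard_torsion q W hgood hm hmd

end FA.Summary

end
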