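import Fermat.Agent.Torsion.PowerChain
import Fermat.Agent.Torsion.Tate

/-!
# A point of order `27` over any field

If `P` has order `27`, the ratio `f` of the differences of the abscissae of `3 P`, `6 P`, `12 P`
is the parameter of the point `3 P` of order `9`, which gives `j`; and `(f (f - 1))²` is a cube.
-/

set_option autoImplicit false
set_option linter.unusedSectionVars false

noncomputable section

open WeierstrassCurve
open FA.Frob (vcX vcY vcEquiv vcEquiv_some vc_coeffs)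
open FA.Thirteen (tateCurve tateA3 tateA2 lam13 bc13 add_eq_some eq_or_eq_neg_of_X_eq)

namespace FA.Torsion

variable {K : Type*} [Field K] [DecidableEq K] {W : WeierstrassCurve K} [W.IsElliptic]

/-- **Tate normal form**, with the affine change of abscissae. -/
theorem exists_tate_coord (P : W.toAffine.Point) (h2 : 2 • P ≠ 0) (h3 : 3 • P ≠ 0) :
    ∃ (b c : K) (h0 : (tateCurve b c).toAffine.Nonsingular 0 0)
      (_ : (tateCurve b c).IsElliptic) (e : (tateCurve b c).toAffine.Point ≃+ W.toAffine.Point)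
      (s w : K), e (Affine.Point.some 0 0 h0) = P ∧ (tateCurve b c).j = W.j ∧ s ≠ 0 ∧
      ∀ (X Y : K) (hns : (tateCurve b c).toAffine.Nonsingular X Y),
        ∃ y h, e (Affine.Point.some X Y hns) = Affine.Point.some (s * X + w) y h := by
  rcases P with _ | ⟨x, y, h⟩
  · exact absurd (smul_zero _) h2
  have hy : y ≠ W.toAffine.negY x y := fun e => h2 (by
    rw [two_nsmul]; exact Affine.Point.add_self_of_Y_eq e)
  have hA3 : tateA3 W x y ≠ 0 := fun e => hy (by
    simp only [tateA3] at e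
    simp only [Affine.negY]
    linear_combination e)
  have hl : W.toAffine.slope x x y y = lam13 W x y := by
    rw [Affine.slope_of_Y_ne rfl hy, lam13, show y - W.toAffine.negY x y = tateA3 W x y by
      simp only [tateA3, Affine.negY]; ring]
  have hA2 : tateA2 W x y ≠ 0 := fun e => by
    have ex : W.toAffine.addX x x (lam13 W x y) = x := by
      simp only [tateA2] at e
      simp only [Affine.addX]
      linear_combination -e
    have e2 := Affine.Point.add_self_of_Y_ne (h₁ := h) hy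
    simp only [hl, ex] at e2
    obtain ⟨h', e2'⟩ : ∃ h', 2 • Affine.Point.some x y h =
        Affine.Point.some x (W.toAffine.addY x x y (lam13 W x y)) h' :=
      ⟨_, (two_nsmul _).trans e2⟩
    rcases eq_or_eq_neg_of_X_eq (h₁ := h') (h₂ := h) with e' | e' <;> rw [← e2'] at e'
    · rw [two_nsmul, add_eq_right] at e'
      exact Affine.Point.some_ne_zero h e'
    · exact h3 (by rw [succ_nsmul, e', neg_add_cancel])
  let C : VariableChange K :=
    ⟨Units.mk0 (tateA3 W x y / tateA2 W x y) (div_ne_zero hA3 hA2), x, lam13 W x y, y⟩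
  have hlam : lam13 W x y * tateA3 W x y = 3 * x ^ 2 + 2 * W.a₂ * x + W.a₄ - W.a₁ * y :=
    div_mul_cancel₀ _ hA3
  have heq := (Affine.equation_iff x y).mp h.1
  have hC : C • W = tateCurve (bc13 W x y).1 (bc13 W x y).2 := by
    ext <;>
      simp only [C, variableChange_a₁, variableChange_a₂, variableChange_a₃, variableChange_a₄,
        variableChange_a₆, tateCurve, bc13, Units.val_inv_eq_inv_val, Units.val_mk0]
    · simp only [FA.Thirteen.tateA1]; field_simp; ring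
    · rw [show W.a₂ - lam13 W x y * W.a₁ + 3 * x - lam13 W x y ^ 2 = tateA2 W x y by
        simp only [tateA2]; ring]
      field_simp
    · rw [show W.a₃ + x * W.a₁ + 2 * y = tateA3 W x y by simp only [tateA3]; ring]
      field_simp
    · rw [show W.a₄ - lam13 W x y * W.a₃ + 2 * x * W.a₂ - (y + x * lam13 W x y) * W.a₁ + 3 * x ^ 2 -
        2 * lam13 W x y * y = 0 by simp only [tateA3] at hlam; linear_combination -hlam, mul_zero]
    · rw [show W.a₆ + x * W.a₄ + x ^ 2 * W.a₂ + x ^ 3 - y * W.a₃ - y ^ 2 - x * y * W.a₁ = 0 by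
        linear_combination -heq, mul_zero]
  have hr : C.r = x := rfl
  have ht : C.t = y := rfl
  clear_value C
  have hE : (tateCurve (bc13 W x y).1 (bc13 W x y).2).IsElliptic := by
    refine ⟨?_⟩
    rw [← hC, WeierstrassCurve.variableChange_Δ]
    exact ((Units.isUnit _).pow _).mul W.isUnit_Δ
  have h0 : (tateCurve (bc13 W x y).1 (bc13 W x y).2).toAffine.Nonsingular 0 0 := by
    refine (WeierstrassCurve.Affine.equation_iff_nonsingular).mp ?_
    rw [Affine.equation_iff]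
    simp [tateCurve]
  have hj : (tateCurve (bc13 W x y).1 (bc13 W x y).2).j = W.j :=
    (j_congr hC.symm).trans (W.variableChange_j C)
  refine ⟨_, _, h0, hE, vcEquiv C hC, (C.u : K) ^ 2, C.r, ?_, hj, pow_ne_zero 2 C.u.ne_zero, ?_⟩
  · rw [vcEquiv_some, Affine.Point.some.injEq]
    simp [hr, ht, vcX, vcY]
  · intro X Y hns
    exact ⟨_, _, vcEquiv_some C hC _⟩

/-- The numerator of the invariant of a point of order `9`. -/
def nineNum (t : K) : K := (t + 3) ^ 3 * (t ^ 3 + 9 * t ^ 2 + 27 * t + 3) ^ 3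

/-- The denominator of the invariant of a point of order `9`. -/
def nineDen (t : K) : K := t * (t ^ 2 + 9 * t + 27)

/-- **The data of a point of order `27`.** -/
theorem order_27_data (P : W.toAffine.Point) (hP : addOrderOf P = 27) :
    ∃ (x₁ y₁ x₂ y₂ x₄ y₄ : K) (h₁ : W.toAffine.Nonsingular x₁ y₁)
      (h₂ : W.toAffine.Nonsingular x₂ y₂) (h₄ : W.toAffine.Nonsingular x₄ y₄) (f z : K),
      3 • P = Affine.Point.some x₁ y₁ h₁ ∧ 2 • 3 • P = Affine.Point.some x₂ y₂ h₂ ∧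
      4 • 3 • P = Affine.Point.some x₄ y₄ h₄ ∧
      x₄ - x₁ ≠ 0 ∧ f * (x₄ - x₁) = x₂ - x₁ ∧ f ≠ 0 ∧ f - 1 ≠ 0 ∧ z ^ 3 = (f * (f - 1)) ^ 2 ∧
      W.j * nineDen ((f ^ 3 - 3 * f + 1) / (f * (f - 1)) - 6) =
        nineNum ((f ^ 3 - 3 * f + 1) / (f * (f - 1)) - 6) := by
  have hk : ∀ k, ¬ 27 ∣ k → k • P ≠ 0 := fun k hk h =>
    hk (hP ▸ addOrderOf_dvd_iff_nsmul_eq_zero.mpr h)
  obtain ⟨b, c, h0, hE, e, s, w, he, hj, hs, hx⟩ := exists_tate_coord (3 • P)
    (by rw [← mul_nsmul']; exact hk _ (by norm_num))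
    (by rw [← mul_nsmul']; exact hk _ (by norm_num))
  obtain ⟨Q, hQ⟩ : ∃ Q, e.symm P = Q := ⟨_, rfl⟩
  have hQP : addOrderOf Q = 27 := by rw [← hQ, AddEquiv.addOrderOf_eq, hP]
  have hT : 3 • Q = Affine.Point.some 0 0 h0 := by
    rw [← hQ, ← map_nsmul, ← he, AddEquiv.symm_apply_apply]
  have hQ0 : ∀ k, ¬ 27 ∣ k → k • Q ≠ 0 := fun k hk h =>
    hk (hQP ▸ addOrderOf_dvd_iff_nsmul_eq_zero.mpr h)
  have h27 : 27 • Q = 0 := hQP ▸ addOrderOf_nsmul_eq_zero Q
  have hmul : ∀ k, k • Affine.Point.some 0 0 h0 = (k * 3) • Q := fun k => by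
    rw [← hT, mul_nsmul']
  obtain ⟨hN, eN⟩ := tate_neg (b := b) (c := c) (h0 := h0)
  obtain ⟨hT3, eT3⟩ := tate_three (b := b) (c := c) (h0 := h0)
  have hb := tate_b_ne_zero b c
  have hc : c ≠ 0 := fun hc => hQ0 12 (by norm_num) (by
    rw [← show 4 * 3 = 12 from rfl, ← hmul, succ_nsmul, eT3]
    simp only [hc, sub_zero, ← eN, neg_add_cancel])
  obtain ⟨r, hr⟩ : ∃ r, b / c = r := ⟨_, rfl⟩
  have hbr : b = r * c := by rw [← hr, div_mul_cancel₀ _ hc]
  have hr0 : r ≠ 0 := fun h => hb (by rw [hbr, h, zero_mul])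
  obtain ⟨hT4, eT4⟩ := tate_four (b := b) (c := c) (h0 := h0) hc
  simp only [hr] at eT4 hT4
  have hr1 : r - 1 ≠ 0 := fun h => by
    simp only [h, mul_zero] at eT4 hT4
    rcases eq_or_eq_neg_of_X_eq (h₁ := hT4) (h₂ := h0) with e' | e' <;> rw [← eT4] at e'
    · refine hQ0 9 (by norm_num) ?_
      rw [succ_nsmul, add_eq_right] at e'
      rwa [← show 3 * 3 = 9 from rfl, ← hmul]
    · refine hQ0 15 (by norm_num) ?_
      rw [← show 5 * 3 = 15 from rfl, ← hmul, succ_nsmul, e', neg_add_cancel]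
  obtain ⟨f, hf⟩ : ∃ f, c / (r - 1) = f := ⟨_, rfl⟩
  have hcf : c = f * (r - 1) := by rw [← hf, div_mul_cancel₀ _ hr1]
  obtain ⟨hT5, eT5⟩ := add_eq_some (W := tateCurve b c) (h₁ := hT4) (h₂ := h0)
    (ℓ := r * (f - 1)) (x₃ := r * f * (f - 1)) (y₃ := _) (mul_ne_zero hr0 hr1)
    (by rw [hcf]; ring)
    (by rw [hbr, hcf]; simp [tateCurve, Affine.addX]; ring)
    rfl
  have hf5 : r * f * (f - 1) = r * (r - 1) := by
    have h9 : (4 + 1 : ℕ) • Affine.Point.some 0 0 h0 =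
        -((4 : ℕ) • Affine.Point.some 0 0 h0) :=
      eq_neg_of_add_eq_zero_left (by rw [← add_nsmul, hmul]; exact h27)
    rw [succ_nsmul, eT4, eT5, Affine.Point.neg_some, Affine.Point.some.injEq] at h9
    exact h9.1
  have hrf : r = f ^ 2 - f + 1 := by
    apply mul_left_cancel₀ hr0
    linear_combination -hf5
  have hcf2 : c = f ^ 2 * (f - 1) := by rw [hcf, hrf]; ring
  have hf0 : f ≠ 0 := fun h => hc (by rw [hcf2, h]; ring)
  have hf1 : f - 1 ≠ 0 := fun h => hc (by rw [hcf2, h]; ring)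
  -- the tangent at the flex
  obtain ⟨m, hm⟩ : ∃ m, f ^ 2 - 1 = m := ⟨_, rfl⟩
  obtain ⟨k₀, hk₀⟩ : ∃ k₀, b - c - m * c = k₀ := ⟨_, rfl⟩
  have hcut : LineCut (tateCurve b c) m k₀ c c c := by
    refine ⟨?_, ?_, ?_⟩ <;>
    · simp only [tateCurve]
      simp only [← hk₀, ← hm, hbr, hrf, hcf2]
      ring
  let φ : K → K → K := fun x y => y - (m * x + k₀)
  have hsq : ∀ {x y : K}, (tateCurve b c).toAffine.Equation x y →
      φ x y * φ x ((tateCurve b c).toAffine.negY x y) = (c - x) ^ 3 := by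
    intro x y h
    obtain ⟨g1, g2, g3⟩ := hcut
    rw [Affine.equation_iff] at h
    simp only [tateCurve] at h g1 g2 g3
    simp only [φ, tateCurve, Affine.negY]
    linear_combination -h - x ^ 2 * g1 + x * g2 - g3
  have hgood : ∀ k, 1 ≤ k → k ≤ 3 → ∃ x y h,
      k • Q = Affine.Point.some (W' := (tateCurve b c).toAffine) x y h ∧ x ≠ c := by
    intro k h1 h3
    rcases hh : k • Q with _ | ⟨x, y, h⟩
    · exact absurd hh (hQ0 k (by omega))
    refine ⟨x, y, h, rfl, ?_⟩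
    rintro rfl
    rw [hmul] at eT3
    rcases eq_or_eq_neg_of_X_eq (h₁ := h) (h₂ := hT3) with e' | e' <;>
      rw [← eT3, ← hh] at e'
    · have := nsmul_eq_nsmul_iff_modEq.mp e'
      rw [hQP] at this
      unfold Nat.ModEq at this
      omega
    · exact hQ0 (k + 3 * 3) (by omega) (by rw [add_nsmul, e', neg_add_cancel])
  obtain ⟨x₀, y₀, hQ1, eQ, g₀⟩ := hgood 1 le_rfl (by norm_num)
  rw [one_nsmul] at eQ
  obtain ⟨u, hu0, hu⟩ := val_nsmul (W := tateCurve b c) (n := 3) (φ := φ)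
    (Good := fun x _ => x ≠ c) (h₀ := hQ1)
    (fun {μ ν x₁ x₂ x₃ y₁ y₂ y₃} hc' l₁ l₂ l₃ q₁ q₂ q₃ g₁ g₂ g₃ => by
      have hp : φ x₁ y₁ * φ x₂ y₂ * φ x₃ ((tateCurve b c).toAffine.negY x₃ y₃) =
          ((μ - m) * c + (ν - k₀)) ^ 3 := by
        simp only [φ, l₁, l₂, l₃]
        rw [hc'.prod_line hcut]
        ring
      have hne : ∀ {x y : K}, (tateCurve b c).toAffine.Equation x y → x ≠ c → φ x y ≠ 0 :=
        fun h g h' => sub_ne_zero.mpr (Ne.symm g) (eq_zero_of_pow_eq_zero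
          (n := 3) (by rw [← hsq h, h', zero_mul]))
      refine ⟨_, fun h => ?_, hp⟩
      rw [h, zero_pow (by norm_num)] at hp
      exact mul_ne_zero (mul_ne_zero (hne q₁ g₁) (hne q₂ g₂))
        (hne ((Affine.equation_neg x₃ y₃).mpr q₃) g₃) hp)
    (fun {x y} h g => ⟨c - x, sub_ne_zero.mpr (Ne.symm g), hsq h⟩) 3
    (fun k h1 h3 => by rw [← eQ]; exact hgood k h1 h3) 3 (by norm_num) le_rfl
  have hz := hu 0 0 h0 (by rw [← eQ, hT])
  have hval : φ 0 0 = (f * (f - 1)) ^ 2 := by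
    simp only [φ]
    rw [← hk₀, ← hm, hbr, hrf, hcf2]
    ring
  obtain ⟨hA, eA⟩ := tate_two (b := b) (c := c) (h0 := h0)
  obtain ⟨z₁, hz₁, e₁⟩ := hx 0 0 h0
  obtain ⟨z₂, hz₂, e₂⟩ := hx _ _ hA
  obtain ⟨z₄, hz₄, e₄⟩ := hx _ _ hT4
  refine ⟨_, z₁, _, z₂, _, z₄, hz₁, hz₂, hz₄, f, φ x₀ y₀ * u, by rw [← e₁, he],
    by rw [← e₂, ← eA, map_nsmul, he], by rw [← e₄, ← eT4, map_nsmul, he],
    ?_, ?_, hf0, hf1, ?_, ?_⟩
  · rw [show s * (r * (r - 1)) + w - (s * 0 + w) = s * (r * (r - 1)) by ring]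
    exact mul_ne_zero hs (mul_ne_zero hr0 hr1)
  · rw [hbr, hcf2, hrf]
    ring
  · rw [mul_pow, ← hz, hval]
  · rw [← hj, WeierstrassCurve.j, Units.val_inv_eq_inv_val, coe_Δ', inv_mul_eq_div,
      div_mul_eq_mul_div, div_eq_iff (tateCurve b c).isUnit_Δ.ne_zero,
      FA.Thirteen.Δ_tateCurve]
    simp only [nineNum, nineDen, tateCurve, WeierstrassCurve.c₄, WeierstrassCurve.b₂,
      WeierstrassCurve.b₄]
    rw [hbr, hrf, hcf2]
    field_simp
    ring

end FA.Torsion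

end
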