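import Fermat.Agent.Torsion.Tate

/-!
# Points of order 3

A rational point of order 3 is a flex: moved to the origin with horizontal tangent the curve
becomes `y² + A₁xy + A₃y = x³`, whose `c₄` and `Δ` give the parameter of `X₁(3)`.
-/

set_option autoImplicit false

noncomputable section

open WeierstrassCurve
open FA.Thirteen (tateA1 tateA2 tateA3 lam13 eq_or_eq_neg_of_X_eq)

namespace FA.Torsion

variable {K : Type*} [Field K] [DecidableEq K] {W : WeierstrassCurve K} [W.IsElliptic]

omit [W.IsElliptic] in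
/-- A point `≠ 0` killed by `3` is a flex. -/
theorem flex_of_three {T : W.toAffine.Point} (h : 3 • T = 0) (hT : T ≠ 0) :
    ∃ (x y : K) (hns : W.toAffine.Nonsingular x y), T = Affine.Point.some x y hns ∧
      tateA3 W x y ≠ 0 ∧ tateA2 W x y = 0 := by
  rcases T with _ | ⟨x, y, hns⟩
  · exact absurd rfl hT
  refine ⟨x, y, hns, rfl, ?_⟩
  have hy : y ≠ W.toAffine.negY x y := fun e => hT (by
    have h2 := Affine.Point.add_self_of_Y_eq (h₁ := hns) e
    rw [← two_nsmul] at h2
    rwa [succ_nsmul, h2, zero_add] at h)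
  have hA3 : tateA3 W x y ≠ 0 := fun e => hy (by
    simp only [tateA3] at e
    simp only [Affine.negY]
    linear_combination e)
  have hl : W.toAffine.slope x x y y = lam13 W x y := by
    rw [Affine.slope_of_Y_ne rfl hy, lam13, show y - W.toAffine.negY x y = tateA3 W x y by
      simp only [tateA3, Affine.negY]; ring]
  have e2 := Affine.Point.add_self_of_Y_ne (h₁ := hns) hy
  rw [← two_nsmul] at e2
  rw [succ_nsmul, ← eq_neg_iff_add_eq_zero, e2, Affine.Point.neg_some,
    Affine.Point.some.injEq, hl] at h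
  refine ⟨hA3, ?_⟩
  have e := h.1
  simp only [Affine.addX] at e
  simp only [tateA2]
  linear_combination -e

omit [DecidableEq K] [W.IsElliptic] in
/-- The invariants of a curve with a flex. -/
theorem flex_invariants {x y : K} (heq : W.toAffine.Equation x y) (hA3 : tateA3 W x y ≠ 0)
    (hA2 : tateA2 W x y = 0) :
    W.c₄ = tateA1 W x y * (tateA1 W x y ^ 3 - 24 * tateA3 W x y) ∧
      W.Δ = tateA3 W x y ^ 3 * (tateA1 W x y ^ 3 - 27 * tateA3 W x y) := by
  have hlam : lam13 W x y * tateA3 W x y = 3 * x ^ 2 + 2 * W.a₂ * x + W.a₄ - W.a₁ * y :=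
    div_mul_cancel₀ _ hA3
  rw [Affine.equation_iff] at heq
  simp only [tateA2] at hA2
  simp only [tateA3] at hlam
  let C : VariableChange K := ⟨1, x, lam13 W x y, y⟩
  have hC : C • W = ⟨tateA1 W x y, 0, tateA3 W x y, 0, 0⟩ := by
    ext <;>
      simp only [C, variableChange_a₁, variableChange_a₂, variableChange_a₃, variableChange_a₄,
        variableChange_a₆, inv_one, Units.val_one, one_pow, one_mul]
    · simp only [tateA1]
    · linear_combination hA2
    · simp only [tateA3]; ring
    · linear_combination -hlam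
    · linear_combination -heq
  have h4 := variableChange_c₄ (W := W) (C := C)
  have hD := variableChange_Δ (W := W) (C := C)
  rw [hC] at h4 hD
  simp only [C, inv_one, Units.val_one, one_pow, one_mul] at h4 hD
  rw [← h4, ← hD]
  simp [WeierstrassCurve.c₄, WeierstrassCurve.Δ, WeierstrassCurve.b₂, WeierstrassCurve.b₄,
    WeierstrassCurve.b₆, WeierstrassCurve.b₈]
  constructor <;> ring

omit [DecidableEq K] [W.IsElliptic] in
/-- The abscissa of a flex is a root of the third division polynomial. -/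
theorem flex_psi {x y : K} (heq : W.toAffine.Equation x y) (hA3 : tateA3 W x y ≠ 0)
    (hA2 : tateA2 W x y = 0) :
    3 * x ^ 4 + W.b₂ * x ^ 3 + 3 * W.b₄ * x ^ 2 + 3 * W.b₆ * x + W.b₈ = 0 ∧
      tateA3 W x y ^ 2 = 4 * x ^ 3 + W.b₂ * x ^ 2 + 2 * W.b₄ * x + W.b₆ := by
  have hlam : lam13 W x y * tateA3 W x y = 3 * x ^ 2 + 2 * W.a₂ * x + W.a₄ - W.a₁ * y :=
    div_mul_cancel₀ _ hA3
  rw [Affine.equation_iff] at heq
  simp only [tateA2] at hA2
  generalize lam13 W x y = l at hA2 hlam
  simp only [tateA3, WeierstrassCurve.b₂, WeierstrassCurve.b₄, WeierstrassCurve.b₆,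
    WeierstrassCurve.b₈] at *
  constructor
  · linear_combination (2 * y + W.a₁ * x + W.a₃) ^ 2 * hA2 +
      (l * (2 * y + W.a₁ * x + W.a₃) + (3 * x ^ 2 + 2 * W.a₂ * x + W.a₄ - W.a₁ * y) +
        W.a₁ * (2 * y + W.a₁ * x + W.a₃)) * hlam -
      (12 * x + 4 * W.a₂ + W.a₁ ^ 2) * heq
  · linear_combination 4 * heq

end FA.Torsion

end
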