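import Fermat.Agent.Torsion.Isogeny
import Fermat.Agent.Torsion.Groups
import Fermat.Agent.Torsion.Basic
import Fermat.Agent.Thirteen.Summary

/-!
# The torsion theorem from the excluded groups

The rational torsion subgroup is one of the fifteen groups once the orders `14, 15, 16, 18, 21, 25,
27, 35, 49` and the groups `ℤ/2 × ℤ/10`, `ℤ/2 × ℤ/12` are excluded.
-/

set_option autoImplicit false
set_option linter.unusedSectionVars false
set_option linter.style.haveILetI false

noncomputable section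

open WeierstrassCurve

namespace FA.Torsion

/-- The exclusions other than `25`. -/
structure Exclusions : Prop where
  order : ∀ N ∈ [14, 15, 16, 18, 21, 27, 35, 49], ∀ (E : WeierstrassCurve ℚ) [E.IsElliptic]
    (P : E.toAffine.Point), addOrderOf P ≠ N
  ten : TwoTimesTen
  twelve : TwoTimesTwelve

variable (H : Exclusions) (E : WeierstrassCurve ℚ) [E.IsElliptic]

include H in
/-- No multiple of an excluded number is an order. -/
theorem not_dvd_addOrderOf {P : E.toAffine.Point} (hP : addOrderOf P ≠ 0) {N : ℕ}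
    (hN : N ∈ [14, 15, 16, 18, 20, 21, 24, 27, 35, 49]) : ¬ N ∣ addOrderOf P := by
  intro hd
  have hQ : addOrderOf ((addOrderOf P / N) • P) = N := by
    rw [addOrderOf_nsmul_of_dvd (fun h => hP (by
      have := Nat.div_mul_cancel hd; rw [h, zero_mul] at this; exact this.symm))
      (Nat.div_dvd_of_dvd hd), Nat.div_div_self hd hP]
  rcases eq_or_ne N 20 with rfl | h20
  · exact no_order_twenty_of H.ten E _ hQ
  rcases eq_or_ne N 24 with rfl | h24
  · exact no_order_twentyfour_of H.twelve E _ hQ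
  refine H.order N ?_ E _ hQ
  fin_cases hN <;> simp_all

include H in
/-- Without points of order `25` every finite order divides `2520`. -/
theorem addOrderOf_dvd_2520 (h25 : ∀ P : E.toAffine.Point, addOrderOf P ≠ 25)
    {P : E.toAffine.Point} (hP : addOrderOf P ≠ 0) : addOrderOf P ∣ 2520 := by
  have h25' : ¬ 25 ∣ addOrderOf P := fun hd => h25 ((addOrderOf P / 25) • P) (by
    rw [addOrderOf_nsmul_of_dvd (fun h => hP (by
      have := Nat.div_mul_cancel hd; rw [h, zero_mul] at this; exact this.symm))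
      (Nat.div_dvd_of_dvd hd), Nat.div_div_self hd hP])
  rw [Nat.dvd_iff_prime_pow_dvd_dvd]
  intro p k hp hd
  rcases Nat.eq_zero_or_pos k with rfl | hk
  · simp
  have h7 : p ≤ 7 := FA.Summary.mazur_prime_dvd_all E P hP hp ((dvd_pow_self p hk.ne').trans hd)
  have hle : ∀ m, ¬ p ^ m ∣ addOrderOf P → k < m := fun m hm => by
    by_contra hc
    exact hm ((pow_dvd_pow p (Nat.le_of_not_lt hc)).trans hd)
  have hb := fun N hN => not_dvd_addOrderOf H E hP (N := N) hN
  interval_cases p <;> norm_num at hp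
  · have : k < 4 := hle 4 (hb 16 (by simp))
    exact (pow_dvd_pow 2 (show k ≤ 3 by omega)).trans (by norm_num)
  · have : k < 3 := hle 3 (hb 27 (by simp))
    exact (pow_dvd_pow 3 (show k ≤ 2 by omega)).trans (by norm_num)
  · have : k < 2 := hle 2 h25'
    exact (pow_dvd_pow 5 (show k ≤ 1 by omega)).trans (by norm_num)
  · have : k < 2 := hle 2 (hb 49 (by simp))
    exact (pow_dvd_pow 7 (show k ≤ 1 by omega)).trans (by norm_num)

include H in
/-- The orders of rational torsion points. -/
theorem addOrderOf_mem (h25 : ∀ P : E.toAffine.Point, addOrderOf P ≠ 25)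
    {P : E.toAffine.Point} (hP : addOrderOf P ≠ 0) :
    addOrderOf P ∈ ({1, 2, 3, 4, 5, 6, 7, 8, 9, 10, 12} : Finset ℕ) := by
  have hd := addOrderOf_dvd_2520 H E h25 hP
  have hb : ∀ N ∈ [14, 15, 18, 20, 21, 24, 35], ¬ N ∣ addOrderOf P := fun N hN =>
    not_dvd_addOrderOf H E hP (by fin_cases hN <;> simp)
  have key : ∀ n ∈ Nat.divisors 2520, (∀ N ∈ [14, 15, 18, 20, 21, 24, 35], ¬ N ∣ n) →
      n ∈ ({1, 2, 3, 4, 5, 6, 7, 8, 9, 10, 12} : Finset ℕ) := by decide +kernel
  exact key _ (Nat.mem_divisors.mpr ⟨hd, by norm_num⟩) hb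

/-- The fifteen groups. -/
def IsMazurGroup : Prop :=
  (∃ n ∈ ({1, 2, 3, 4, 5, 6, 7, 8, 9, 10, 12} : Finset ℕ),
      Nonempty (AddCommGroup.torsion E.toAffine.Point ≃+ ZMod n)) ∨
    ∃ m ∈ ({1, 2, 3, 4} : Finset ℕ),
      Nonempty (AddCommGroup.torsion E.toAffine.Point ≃+ ZMod 2 × ZMod (2 * m))

include H in
/-- **The torsion theorem** for curves without a point of order `25`. -/
theorem isMazurGroup_of (h25 : ∀ P : E.toAffine.Point, addOrderOf P ≠ 25) : IsMazurGroup E := by
  have hfin : ∀ P : AddCommGroup.torsion E.toAffine.Point, addOrderOf (P : E.toAffine.Point) ≠ 0 :=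
    fun P => ((AddCommGroup.mem_torsion _).mp P.2).addOrderOf_pos.ne'
  haveI : Finite (AddCommGroup.torsion E.toAffine.Point) := by
    haveI := finite_killed E (n := 2520) (by norm_num)
    exact Finite.of_injective (fun P => (⟨P.1, addOrderOf_dvd_iff_nsmul_eq_zero.mp
      (addOrderOf_dvd_2520 H E h25 (hfin P))⟩ : {P : E.toAffine.Point // 2520 • P = 0}))
      fun P Q h => Subtype.ext (congrArg (fun R : {P : E.toAffine.Point // 2520 • P = 0} => R.1) h)
  let ι := (AddCommGroup.torsion E.toAffine.Point).subtype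
  have hι : Function.Injective ι := Subtype.val_injective
  have h2 : Nat.card {x : AddCommGroup.torsion E.toAffine.Point // 2 • x = 0} ≤ 4 := by
    haveI := finite_killed E two_ne_zero
    refine le_trans ?_ (natCard_two_torsion_le E)
    exact Nat.card_le_card_of_injective
      (fun x => (⟨x.1.1, by rw [← AddSubgroup.coe_nsmul, x.2]; rfl⟩ :
        {P : E.toAffine.Point // 2 • P = 0}))
      fun x y h => Subtype.ext (Subtype.ext
        (congrArg (fun R : {P : E.toAffine.Point // 2 • P = 0} => R.1) h))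
  obtain ⟨g, hg⟩ := cyclic_or_two_times (G := AddCommGroup.torsion E.toAffine.Point)
    (fun p hp ho φ hφ => not_injective_prime E hp ho (ι.comp φ) (hι.comp hφ))
    (fun φ hφ => not_injective_four E (ι.comp φ) (hι.comp hφ)) h2
  have hgo : addOrderOf (g : E.toAffine.Point) = addOrderOf g := AddSubgroup.addOrderOf_coe g
  have hmem := addOrderOf_mem H E h25 (hfin g)
  rw [hgo] at hmem
  rcases hg with hg | ⟨y, hy, hyg, heven, hg⟩
  · exact Or.inl ⟨_, hmem, hg⟩
  right
  obtain ⟨m, hm⟩ := even_iff_two_dvd.mp heven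
  rw [hm] at hmem hg
  refine ⟨m, ?_, hg⟩
  have hy' : addOrderOf (y : E.toAffine.Point) = 2 := (AddSubgroup.addOrderOf_coe y).trans hy
  have hne : ∀ k : ℕ, k • (g : E.toAffine.Point) ≠ y := fun k h => hyg ⟨k, by
    show (k : ℤ) • g = y
    rw [natCast_zsmul]; exact Subtype.ext h⟩
  have h5 : m ≠ 5 := fun h => hne 5 (H.ten E _ _ hy' (by rw [hgo, hm, h]; rfl)).symm
  have h6 : m ≠ 6 := fun h => hne 6 (H.twelve E _ _ hy' (by rw [hgo, hm, h]; rfl)).symm
  simp only [Finset.mem_insert, Finset.mem_singleton] at hmem ⊢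
  omega

/-- **The torsion theorem**: one of the fifteen groups, in Mathlib terms only. -/
theorem torsion_groups_of (H : Exclusions)
    (no_order_25 : ∀ (E : WeierstrassCurve ℚ) [E.IsElliptic] (P : E.toAffine.Point),
      addOrderOf P ≠ 25)
    (E : WeierstrassCurve ℚ) [E.IsElliptic] :
    (∃ n ∈ ({1, 2, 3, 4, 5, 6, 7, 8, 9, 10, 12} : Finset ℕ),
        Nonempty (AddCommGroup.torsion E.toAffine.Point ≃+ ZMod n)) ∨
      ∃ m ∈ ({1, 2, 3, 4} : Finset ℕ),
        Nonempty (AddCommGroup.torsion E.toAffine.Point ≃+ ZMod 2 × ZMod (2 * m)) :=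
  isMazurGroup_of H E (no_order_25 E)

end FA.Torsion

end
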