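import Mathlib

/-!
# The sextic of `X₁(18)`

`y² = f18 x` is a model of the modular curve `X₁(18)`; its rational cusps are the two points at
infinity and those with `x = 0, -1`.
-/

set_option autoImplicit false

noncomputable section

namespace FA.Torsion.Eighteen

/-- The sextic of the model `y² = f18 x` of `X₁(18)`. -/
def f18 {R : Type*} [CommRing R] (x : R) : R :=
  x ^ 6 + 4 * x ^ 5 + 10 * x ^ 4 + 10 * x ^ 3 + 5 * x ^ 2 + 2 * x + 1

theorem map_f18 {R S : Type*} [CommRing R] [CommRing S] (φ : R →+* S) (x : R) :
    φ (f18 x) = f18 (φ x) := by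
  simp [f18, map_ofNat]

/-- The statement that the only rational points of `y² = f18 x` have `x = 0` or `x = -1`. -/
def OnlyCusps18 : Prop := ∀ x y : ℚ, y ^ 2 = f18 x → x = 0 ∨ x = -1

end FA.Torsion.Eighteen

end
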