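import Fermat.Agent.Torsion.Short

/-!
# Orders `20` and `24` from the groups `ℤ/2 × ℤ/10` and `ℤ/2 × ℤ/12`

A point `R` of order `2m` with `T = m R` moved to `(0, 0)` on `y² = x³ + a x² + b x` gives on the
two-isogenous curve `y² = x³ - 2 a x² + (a² - 4 b) x` a point of order `m` and two independent
points of order two. Of the isogeny only compatibility with doubling is used.
-/

set_option autoImplicit false
set_option linter.unusedSectionVars false
set_option linter.style.haveILetI false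

noncomputable section

open WeierstrassCurve

namespace FA.Torsion

variable {a b : ℚ}

theorem image_equation {x y : ℚ} (hx : x ≠ 0) (he : y ^ 2 = x ^ 3 + a * x ^ 2 + b * x + 0) :
    (shortCurve (-2 * a) (a ^ 2 - 4 * b) 0).toAffine.Equation
      (y ^ 2 / x ^ 2) (y * (x ^ 2 - b) / x ^ 2) := by
  rw [Affine.equation_iff]
  simp only [shortCurve, zero_mul, add_zero]
  field_simp
  linear_combination (-(y ^ 2) * (y ^ 2 - a * x ^ 2 + x ^ 3 + b * x)) * he

theorem isElliptic_image (h : (shortCurve a b 0).IsElliptic) :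
    (shortCurve (-2 * a) (a ^ 2 - 4 * b) 0).IsElliptic := by
  have h1 := h.isUnit.ne_zero
  rw [shortCurve_Δ_zero] at h1
  obtain ⟨hb, hd⟩ := mul_ne_zero_iff.mp h1
  refine ⟨(show (shortCurve (-2 * a) (a ^ 2 - 4 * b) 0).Δ ≠ 0 from ?_).isUnit⟩
  rw [shortCurve_Δ_zero]
  refine mul_ne_zero (mul_ne_zero (by norm_num) (pow_ne_zero _ hd)) ?_
  rw [show (-2 * a) ^ 2 - 4 * (a ^ 2 - 4 * b) = 16 * b by ring]
  exact mul_ne_zero (by norm_num) (right_ne_zero_of_mul hb |> fun h => by
    intro e; exact h (by rw [e]; ring))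

variable [(shortCurve a b 0).IsElliptic] [(shortCurve (-2 * a) (a ^ 2 - 4 * b) 0).IsElliptic]

/-- The image of a point off the kernel. -/
def imagePoint {x y : ℚ} (hx : x ≠ 0) (h : (shortCurve a b 0).toAffine.Nonsingular x y) :
    (shortCurve (-2 * a) (a ^ 2 - 4 * b) 0).toAffine.Point :=
  .some (y ^ 2 / x ^ 2) (y * (x ^ 2 - b) / x ^ 2)
    (Affine.equation_iff_nonsingular.mp (image_equation hx (shortCurve_equation h)))

theorem imagePoint_ne_zero {x y : ℚ} (hx : x ≠ 0)
    (h : (shortCurve a b 0).toAffine.Nonsingular x y) : imagePoint hx h ≠ 0 :=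
  Affine.Point.some_ne_zero _

theorem imagePoint_neg {x y : ℚ} (hx : x ≠ 0) (h : (shortCurve a b 0).toAffine.Nonsingular x y)
    (h' : (shortCurve a b 0).toAffine.Nonsingular x (-y)) :
    imagePoint hx h' = -imagePoint hx h := by
  rw [imagePoint, imagePoint, Affine.Point.neg_some, Affine.Point.some.injEq, shortCurve_negY]
  exact ⟨by rw [neg_sq], by ring⟩

/-- The map commutes with doubling. -/
theorem two_nsmul_imagePoint {x y x' y' : ℚ} (hx : x ≠ 0) (hx' : x' ≠ 0)
    {h : (shortCurve a b 0).toAffine.Nonsingular x y}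
    {h' : (shortCurve a b 0).toAffine.Nonsingular x' y'}
    (e : 2 • Affine.Point.some x y h = Affine.Point.some x' y' h') :
    2 • imagePoint hx h = imagePoint hx' h' := by
  have hy : y ≠ 0 := y_ne_zero_of_double (by rw [e]; exact Affine.Point.some_ne_zero h')
  obtain ⟨h2, e2⟩ := exists_double (h := h) hy
  rw [e, Affine.Point.some.injEq] at e2
  obtain ⟨rfl, rfl⟩ := e2
  have hE := shortCurve_equation h
  have ha : a = (y ^ 2 - x ^ 3 - b * x) / x ^ 2 := by
    field_simp
    linear_combination -hE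
  have hx3 : ((3 * x ^ 2 + 2 * a * x + b) / (2 * y)) ^ 2 - a - x - x =
      ((x ^ 2 - b) / (2 * y)) ^ 2 := by
    field_simp
    linear_combination -4 * (a + 2 * x) * hE
  have hxb : x ^ 2 - b ≠ 0 := by
    intro e0
    apply hx'
    rw [hx3, e0, zero_div, zero_pow two_ne_zero]
  have hY : y * (x ^ 2 - b) / x ^ 2 ≠ 0 := div_ne_zero (mul_ne_zero hy hxb) (pow_ne_zero _ hx)
  obtain ⟨h3, e3⟩ := exists_double
    (h := Affine.equation_iff_nonsingular.mp (image_equation hx hE)) hY
  rw [imagePoint, e3, imagePoint, Affine.Point.some.injEq, hx3]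
  subst ha
  clear * - hx hy hxb
  obtain ⟨w, rfl⟩ : ∃ w, b = x ^ 2 - w := ⟨x ^ 2 - b, (sub_sub_cancel _ _).symm⟩
  rw [sub_sub_cancel] at hxb
  simp only [sub_sub_cancel]
  constructor
  · field_simp
    ring
  · field_simp
    ring

/-- A point of a large order has nonzero abscissa. -/
theorem x_ne_zero_of_two {x y : ℚ} {h : (shortCurve a b 0).toAffine.Nonsingular x y}
    (h2 : 2 • Affine.Point.some x y h ≠ 0) : x ≠ 0 := fun e => by
  have hE := shortCurve_equation h
  rw [e] at hE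
  exact y_ne_zero_of_double h2 (pow_eq_zero_iff two_ne_zero |>.mp (by rw [hE]; ring))

theorem exists_some_of_ne_zero {W : WeierstrassCurve ℚ} {P : W.toAffine.Point} (hP : P ≠ 0) :
    ∃ x y h, P = Affine.Point.some x y h := by
  rcases P with _ | ⟨x, y, h⟩
  · exact absurd rfl hP
  · exact ⟨x, y, h, rfl⟩

theorem nsmul_ne_zero_of_not_dvd {G : Type*} [AddMonoid G] {g : G} {n k : ℕ}
    (hg : addOrderOf g = n) (hk : ¬ n ∣ k) : k • g ≠ 0 := fun h =>
  hk (hg ▸ addOrderOf_dvd_of_nsmul_eq_zero h)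

/-- The image of a point of order four above the kernel has order two and is not `(0, 0)`. -/
theorem addOrderOf_imagePoint_quarter {h0 : (shortCurve a b 0).toAffine.Nonsingular 0 0} {x y : ℚ}
    {h : (shortCurve a b 0).toAffine.Nonsingular x y}
    (e : 2 • Affine.Point.some x y h = Affine.Point.some 0 0 h0) (hx : x ≠ 0)
    {h0' : (shortCurve (-2 * a) (a ^ 2 - 4 * b) 0).toAffine.Nonsingular 0 0} :
    addOrderOf (imagePoint hx h) = 2 ∧ imagePoint hx h ≠ Affine.Point.some 0 0 h0' := by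
  have hy : y ≠ 0 := y_ne_zero_of_double (by rw [e]; exact Affine.Point.some_ne_zero h0)
  have hb : x ^ 2 = b := by
    have := sq_eq_derivative_of_double e
    linear_combination this
  have hY : y * (x ^ 2 - b) / x ^ 2 = 0 := by rw [hb, sub_self, mul_zero, zero_div]
  refine ⟨addOrderOf_eq_prime ?_ (imagePoint_ne_zero hx h), fun e' => ?_⟩
  · rw [two_nsmul]
    exact Affine.Point.add_self_of_Y_eq (by rw [shortCurve_negY, hY, neg_zero])
  · rw [imagePoint, Affine.Point.some.injEq] at e'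
    exact div_ne_zero (pow_ne_zero _ hy) (pow_ne_zero _ hx) e'.1

/-- A point `S` with `x ≠ 0`, `2S`, `4S = -S` gives an image killed by five. -/
theorem five_nsmul_imagePoint {x y : ℚ} {h : (shortCurve a b 0).toAffine.Nonsingular x y}
    (h5 : addOrderOf (Affine.Point.some x y h) = 5) (hx : x ≠ 0) :
    addOrderOf (imagePoint hx h) = 5 := by
  obtain ⟨x', y', h', e⟩ := exists_some_of_ne_zero
    (nsmul_ne_zero_of_not_dvd h5 (show ¬ 5 ∣ 2 by norm_num))
  have hx' : x' ≠ 0 := x_ne_zero_of_two (h := h') (by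
    rw [← e, ← mul_nsmul]; exact nsmul_ne_zero_of_not_dvd h5 (by norm_num))
  have hn := (Affine.nonsingular_neg x y).mpr h
  rw [shortCurve_negY] at hn
  have e4 : 2 • Affine.Point.some x' y' h' = Affine.Point.some x (-y) hn := by
    rw [← e, ← mul_nsmul]
    refine (eq_neg_of_add_eq_zero_left (?_ : (2 * 2) • Affine.Point.some x y h +
      Affine.Point.some x y h = 0)).trans ?_
    · rw [← succ_nsmul]
      exact (congrArg (· • Affine.Point.some x y h) h5.symm).trans (addOrderOf_nsmul_eq_zero _)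
    · rw [Affine.Point.neg_some, Affine.Point.some.injEq, shortCurve_negY]
      exact ⟨rfl, rfl⟩
  have i2 := two_nsmul_imagePoint hx hx' e
  have i4 := two_nsmul_imagePoint hx' hx e4
  rw [imagePoint_neg hx h hn, ← i2, ← mul_nsmul, eq_neg_iff_add_eq_zero, ← succ_nsmul] at i4
  haveI : Fact (Nat.Prime 5) := ⟨by norm_num⟩
  exact addOrderOf_eq_prime i4 (imagePoint_ne_zero hx h)

/-- A point `S` of order three gives an image of order three. -/
theorem three_nsmul_imagePoint {x y : ℚ} {h : (shortCurve a b 0).toAffine.Nonsingular x y}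
    (h3 : addOrderOf (Affine.Point.some x y h) = 3) (hx : x ≠ 0) :
    addOrderOf (imagePoint hx h) = 3 := by
  have hn := (Affine.nonsingular_neg x y).mpr h
  rw [shortCurve_negY] at hn
  have e : 2 • Affine.Point.some x y h = Affine.Point.some x (-y) hn := by
    refine (eq_neg_of_add_eq_zero_left (?_ : 2 • Affine.Point.some x y h +
      Affine.Point.some x y h = 0)).trans ?_
    · rw [← succ_nsmul]
      exact (congrArg (· • Affine.Point.some x y h) h3.symm).trans (addOrderOf_nsmul_eq_zero _)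
    · rw [Affine.Point.neg_some, Affine.Point.some.injEq, shortCurve_negY]
      exact ⟨rfl, rfl⟩
  have i := two_nsmul_imagePoint hx hx e
  rw [imagePoint_neg hx h hn, eq_neg_iff_add_eq_zero, ← succ_nsmul] at i
  haveI : Fact (Nat.Prime 3) := ⟨by norm_num⟩
  exact addOrderOf_eq_prime i (imagePoint_ne_zero hx h)

theorem addOrderOf_origin {c d : ℚ} [(shortCurve c d 0).IsElliptic]
    (h0 : (shortCurve c d 0).toAffine.Nonsingular 0 0) :
    addOrderOf (Affine.Point.some 0 0 h0) = 2 :=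
  addOrderOf_eq_prime (by
    rw [two_nsmul]
    exact Affine.Point.add_self_of_Y_eq (by rw [shortCurve_negY, neg_zero]))
    (Affine.Point.some_ne_zero h0)

theorem origin_nonsingular (c d : ℚ) [(shortCurve c d 0).IsElliptic] :
    (shortCurve c d 0).toAffine.Nonsingular 0 0 :=
  Affine.equation_iff_nonsingular.mp (by rw [Affine.equation_iff]; simp [shortCurve])

/-- The statement on `ℤ/2 × ℤ/10`. -/
def TwoTimesTen : Prop :=
  ∀ (E : WeierstrassCurve ℚ) [E.IsElliptic] (P R : E.toAffine.Point),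
    addOrderOf P = 2 → addOrderOf R = 10 → P = 5 • R

/-- The statement on `ℤ/2 × ℤ/12`. -/
def TwoTimesTwelve : Prop :=
  ∀ (E : WeierstrassCurve ℚ) [E.IsElliptic] (P R : E.toAffine.Point),
    addOrderOf P = 2 → addOrderOf R = 12 → P = 6 • R

/-- **No point of order `20`** follows from the absence of `ℤ/2 × ℤ/10`. -/
theorem no_order_twenty_of (H : TwoTimesTen) (E : WeierstrassCurve ℚ) [E.IsElliptic]
    (P : E.toAffine.Point) : addOrderOf P ≠ 20 := by
  intro hP
  have hT : addOrderOf (10 • P) = 2 := by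
    rw [addOrderOf_nsmul' P (by norm_num), hP]; norm_num
  obtain ⟨a, b, hE, h0, e, he⟩ := exists_shortCurve_origin hT
  haveI := isElliptic_image hE
  set R := e.symm P with hR
  have hR20 : addOrderOf R = 20 := (AddEquiv.addOrderOf_eq e.symm P).trans hP
  have hR10 : 10 • R = Affine.Point.some 0 0 h0 := e.injective (by
    rw [map_nsmul, hR, e.apply_symm_apply, he])
  obtain ⟨x₅, y₅, h₅, e₅⟩ := exists_some_of_ne_zero
    (nsmul_ne_zero_of_not_dvd hR20 (show ¬ 20 ∣ 5 by norm_num))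
  have hx₅ : x₅ ≠ 0 := x_ne_zero_of_two (h := h₅) (by
    rw [← e₅, ← mul_nsmul]; exact nsmul_ne_zero_of_not_dvd hR20 (by norm_num))
  obtain ⟨x₄, y₄, h₄, e₄⟩ := exists_some_of_ne_zero
    (nsmul_ne_zero_of_not_dvd hR20 (show ¬ 20 ∣ 4 by norm_num))
  have hx₄ : x₄ ≠ 0 := x_ne_zero_of_two (h := h₄) (by
    rw [← e₄, ← mul_nsmul]; exact nsmul_ne_zero_of_not_dvd hR20 (by norm_num))
  have h4ord : addOrderOf (Affine.Point.some x₄ y₄ h₄) = 5 := by
    rw [← e₄, addOrderOf_nsmul' R (by norm_num), hR20]; norm_num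
  have h5dbl : 2 • Affine.Point.some x₅ y₅ h₅ = Affine.Point.some 0 0 h0 := by
    rw [← e₅, ← mul_nsmul, ← hR10]
  have h0' := origin_nonsingular (-2 * a) (a ^ 2 - 4 * b)
  obtain ⟨hQ2, hQne⟩ := addOrderOf_imagePoint_quarter h5dbl hx₅ (h0' := h0')
  have hU := five_nsmul_imagePoint h4ord hx₄
  have hO := addOrderOf_origin h0'
  have hOU : addOrderOf (imagePoint hx₅ h₅ + imagePoint hx₄ h₄) = 10 := by
    rw [(AddCommute.all _ _).addOrderOf_add_eq_mul_addOrderOf_of_coprime (by rw [hQ2, hU]; norm_num),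
      hQ2, hU]
  refine hQne.symm ?_
  rw [H _ _ _ hO hOU, nsmul_add,
    (addOrderOf_dvd_iff_nsmul_eq_zero.mp (dvd_of_eq hU) : 5 • imagePoint hx₄ h₄ = 0), add_zero,
    show 5 = 2 + 2 + 1 from rfl, add_nsmul, add_nsmul,
    (addOrderOf_dvd_iff_nsmul_eq_zero.mp (dvd_of_eq hQ2) : 2 • imagePoint hx₅ h₅ = 0), one_nsmul,
    zero_add, zero_add]

/-- **No point of order `24`** follows from the absence of `ℤ/2 × ℤ/12`. -/
theorem no_order_twentyfour_of (H : TwoTimesTwelve) (E : WeierstrassCurve ℚ) [E.IsElliptic]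
    (P : E.toAffine.Point) : addOrderOf P ≠ 24 := by
  intro hP
  have hT : addOrderOf (12 • P) = 2 := by
    rw [addOrderOf_nsmul' P (by norm_num), hP]; norm_num
  obtain ⟨a, b, hE, h0, e, he⟩ := exists_shortCurve_origin hT
  haveI := isElliptic_image hE
  set R := e.symm P with hR
  have hR24 : addOrderOf R = 24 := (AddEquiv.addOrderOf_eq e.symm P).trans hP
  have hR12 : 12 • R = Affine.Point.some 0 0 h0 := e.injective (by
    rw [map_nsmul, hR, e.apply_symm_apply, he])
  obtain ⟨x₃, y₃, h₃, e₃⟩ := exists_some_of_ne_zero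
    (nsmul_ne_zero_of_not_dvd hR24 (show ¬ 24 ∣ 3 by norm_num))
  have hx₃ : x₃ ≠ 0 := x_ne_zero_of_two (h := h₃) (by
    rw [← e₃, ← mul_nsmul]; exact nsmul_ne_zero_of_not_dvd hR24 (by norm_num))
  obtain ⟨x₆, y₆, h₆, e₆⟩ := exists_some_of_ne_zero
    (nsmul_ne_zero_of_not_dvd hR24 (show ¬ 24 ∣ 6 by norm_num))
  have hx₆ : x₆ ≠ 0 := x_ne_zero_of_two (h := h₆) (by
    rw [← e₆, ← mul_nsmul]; exact nsmul_ne_zero_of_not_dvd hR24 (by norm_num))
  obtain ⟨x₈, y₈, h₈, e₈⟩ := exists_some_of_ne_zero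
    (nsmul_ne_zero_of_not_dvd hR24 (show ¬ 24 ∣ 8 by norm_num))
  have hx₈ : x₈ ≠ 0 := x_ne_zero_of_two (h := h₈) (by
    rw [← e₈, ← mul_nsmul]; exact nsmul_ne_zero_of_not_dvd hR24 (by norm_num))
  have h8ord : addOrderOf (Affine.Point.some x₈ y₈ h₈) = 3 := by
    rw [← e₈, addOrderOf_nsmul' R (by norm_num), hR24]; norm_num
  have h6dbl : 2 • Affine.Point.some x₆ y₆ h₆ = Affine.Point.some 0 0 h0 := by
    rw [← e₆, ← mul_nsmul, ← hR12]
  have h3dbl : 2 • Affine.Point.some x₃ y₃ h₃ = Affine.Point.some x₆ y₆ h₆ := by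
    rw [← e₃, ← e₆, ← mul_nsmul]
  have h0' := origin_nonsingular (-2 * a) (a ^ 2 - 4 * b)
  obtain ⟨hQ2, hQne⟩ := addOrderOf_imagePoint_quarter h6dbl hx₆ (h0' := h0')
  have hd := two_nsmul_imagePoint hx₃ hx₆ h3dbl
  have hV : addOrderOf (imagePoint hx₃ h₃) = 4 := by
    refine addOrderOf_eq_prime_pow (p := 2) (n := 1) ?_ ?_
    · rw [pow_one, hd]; exact imagePoint_ne_zero hx₆ h₆
    · rw [show 2 ^ (1 + 1) = 2 * 2 from rfl, mul_nsmul, hd]
      exact addOrderOf_dvd_iff_nsmul_eq_zero.mp (dvd_of_eq hQ2)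
  have hU := three_nsmul_imagePoint h8ord hx₈
  have hO := addOrderOf_origin h0'
  have hVU : addOrderOf (imagePoint hx₃ h₃ + imagePoint hx₈ h₈) = 12 := by
    rw [(AddCommute.all _ _).addOrderOf_add_eq_mul_addOrderOf_of_coprime (by rw [hV, hU]; norm_num),
      hV, hU]
  refine hQne.symm ?_
  rw [H _ _ _ hO hVU, nsmul_add,
    show 6 • imagePoint hx₈ h₈ = 0 from
      addOrderOf_dvd_iff_nsmul_eq_zero.mp (by rw [hU]; norm_num), add_zero,
    show 6 = 2 + 4 from rfl, add_nsmul,
    (addOrderOf_dvd_iff_nsmul_eq_zero.mp (dvd_of_eq hV) : 4 • imagePoint hx₃ h₃ = 0), add_zero, hd]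

end FA.Torsion

end
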