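import Fermat.Agent.Torsion.TwoTen

/-!
# The rational points of `X₁(14)`: the descent

`B⁴ - 11A²B² + 32A⁴` is no square for odd `B` and `A ≠ 0`, and `8A⁴ - 11A²B² + 4B⁴` is a square
for odd coprime `A`, `B` only when both are `±1`; hence the coprime solutions of
`pq(8p² - 11pq + 4q²) = □`.
-/

set_option autoImplicit false

noncomputable section

namespace FA.Torsion.Fourteen

open FA.Torsion.TwoTen (exists_pow_four exists_sq_or_neg_sq)

/-- Fourth-power classes of coprime positive factors of `q * x⁴`. -/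
theorem exists_split {X Y q x : ℤ} (hq : Prime q) (hX : 0 < X) (hY : 0 < Y) (hco : IsCoprime X Y)
    {j : ℕ} (hj : j ≠ 0) (hq0 : 0 < q) (h : X * Y = q ^ j * x ^ 4) :
    ∃ u v : ℤ, IsCoprime u v ∧ (u * v) ^ 2 = x ^ 2 ∧ IsCoprime q u ∧
      ((X = u ^ 4 ∧ Y = q ^ j * v ^ 4) ∨ (X = q ^ j * v ^ 4 ∧ Y = u ^ 4)) := by
  have key : ∀ {U V : ℤ}, 0 < U → 0 < V → IsCoprime U V → U * V = q ^ j * x ^ 4 → q ∣ V →
      ∃ u v : ℤ, IsCoprime u v ∧ (u * v) ^ 2 = x ^ 2 ∧ IsCoprime q u ∧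
        U = u ^ 4 ∧ V = q ^ j * v ^ 4 := by
    intro U V hU hV hUV hprod hdvd
    have hqU : IsCoprime q U := hUV.symm.of_isCoprime_of_dvd_left hdvd
    obtain ⟨V', rfl⟩ : q ^ j ∣ V := hqU.pow_left.dvd_of_dvd_mul_left ⟨x ^ 4, hprod⟩
    have hp : U * V' = x ^ 4 := mul_left_cancel₀ (pow_ne_zero j hq.ne_zero) (by rw [← hprod]; ring)
    have hco' : IsCoprime U V' := hUV.of_mul_right_right
    obtain ⟨u, hu⟩ := exists_pow_four hU.le hco' hp
    obtain ⟨v, hv⟩ := exists_pow_four (pos_of_mul_pos_right hV (by positivity)).le hco'.symm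
      ((mul_comm V' U).trans hp)
    refine ⟨u, v, ?_, ?_, ?_, hu, by rw [hv]⟩
    · rw [hu, hv] at hco'
      exact (IsCoprime.pow_iff (by norm_num) (by norm_num)).1 hco'
    · refine (pow_left_inj₀ (sq_nonneg _) (sq_nonneg _) two_ne_zero).1 ?_
      rw [← pow_mul, ← pow_mul, mul_pow, ← hu, ← hv, hp]
    · rw [hu] at hqU
      exact (IsCoprime.pow_right_iff (by norm_num)).1 hqU
  rcases hq.dvd_or_dvd ((dvd_pow_self q hj).trans (Dvd.intro _ h.symm)) with hd | hd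
  · obtain ⟨u, v, h1, h2, h3, h4, h5⟩ :=
      key hY hX hco.symm ((mul_comm Y X).trans h) hd
    exact ⟨u, v, h1, h2, h3, Or.inr ⟨h5, h4⟩⟩
  · obtain ⟨u, v, h1, h2, h3, h4, h5⟩ := key hX hY hco h hd
    exact ⟨u, v, h1, h2, h3, Or.inl ⟨h4, h5⟩⟩

/-- The two factors of the completed square. -/
theorem isCoprime_factors {X Y q a b : ℤ} (hq : Prime q) {j : ℕ} (hj : j ≤ 1) (hab : IsCoprime a b)
    (hprod : X * Y = q ^ j * a ^ 4) (h0 : a ≠ 0)
    (hb : ∀ k : ℤ, Prime k → k ∣ X → k ∣ Y → k ∣ a → k ∣ b) : IsCoprime X Y := by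
  refine isCoprime_of_prime_dvd (fun h => ?_) fun k hk hkX hkY => ?_
  · rw [h.1, zero_mul] at hprod
    exact h0 (by simpa [hq.ne_zero] using hprod.symm)
  have hka : ¬ k ∣ a := fun e => hk.not_isUnit (hab.isUnit_of_dvd' e (hb k hk hkX hkY e))
  have h2 : k * k ∣ q ^ j * a ^ 4 := hprod ▸ mul_dvd_mul hkX hkY
  have hkq : k ∣ q ^ j := (hk.dvd_or_dvd ((dvd_mul_right k k).trans h2)).resolve_right
    fun e => hka (hk.dvd_of_dvd_pow e)
  interval_cases j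
  · exact hk.not_isUnit (isUnit_of_dvd_one (by simpa using hkq))
  · rw [pow_one] at hkq h2
    have hqk : q ∣ k := (hk.associated_of_dvd hq hkq).symm.dvd
    have h3 : k ∣ a ^ 4 :=
      hkq.trans ((mul_dvd_mul_iff_left hq.ne_zero).1 ((mul_dvd_mul hqk hqk).trans h2))
    exact hka (hk.dvd_of_dvd_pow h3)

/-- The even branch. -/
theorem descent_even (N : ℕ) : ∀ A B C : ℤ, A.natAbs = N → IsCoprime A B → ¬ (2 : ℤ) ∣ B → A ≠ 0 →
    B ^ 4 - 11 * A ^ 2 * B ^ 2 + 32 * A ^ 4 = C ^ 2 → False := by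
  induction N using Nat.strong_induction_on with
  | _ N ih =>
  intro A B C hN hAB hB hA h
  wlog hC : 0 ≤ C generalizing C
  · exact this (-C) (by rw [neg_sq]; exact h) (by omega)
  have hC0 : C ≠ 0 := fun e => by nlinarith [sq_nonneg (2 * B ^ 2 - 11 * A ^ 2), pow_pos (by positivity : (0:ℤ) < A ^ 2) 2]
  -- the factors
  obtain ⟨X, hX⟩ : ∃ X, X = 2 * C - (2 * B ^ 2 - 11 * A ^ 2) := ⟨_, rfl⟩
  obtain ⟨Y, hY⟩ : ∃ Y, Y = 2 * C + (2 * B ^ 2 - 11 * A ^ 2) := ⟨_, rfl⟩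
  have hXY : X * Y = 7 * A ^ 4 := by rw [hX, hY]; linear_combination -4 * h
  have hpos : 0 < X * Y := by rw [hXY]; positivity
  obtain ⟨hXp, hYp⟩ : 0 < X ∧ 0 < Y := by
    rcases pos_and_pos_or_neg_and_neg_of_mul_pos hpos with hp | ⟨h1, h2⟩
    · exact hp
    · omega
  by_cases hA2 : (2 : ℤ) ∣ A
  swap
  · -- `A` odd: impossible modulo `16`
    have hkey : ∀ x y z : ZMod 16, (¬ 2 ∣ x.val) → (¬ 2 ∣ y.val) →
        y ^ 4 - 11 * x ^ 2 * y ^ 2 + 32 * x ^ 4 = z ^ 2 → 2 ∣ z.val := by decide +kernel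
    have hv : ∀ x : ℤ, 2 ∣ (x : ZMod 16).val ↔ (2 : ℤ) ∣ x := fun x => by
      have := ZMod.val_intCast (n := 16) x
      omega
    have hc : IsCoprime X Y := by
      refine isCoprime_factors (a := A) (b := B) (q := 7) (j := 1) (by norm_num) le_rfl hAB
        (by rw [hXY]; ring) hA fun k hk hkX hkY hka => ?_
      have h1 : k ∣ 2 * (2 * B ^ 2 - 11 * A ^ 2) := by
        have := dvd_sub hkY hkX
        rwa [hX, hY, show ∀ s t : ℤ, 2 * s + t - (2 * s - t) = 2 * t from fun s t => by ring] at this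
      have h2 : k ∣ 2 * (2 * B ^ 2) := by
        rw [show 2 * (2 * B ^ 2) = 2 * (2 * B ^ 2 - 11 * A ^ 2) + A * (22 * A) by ring]
        exact dvd_add h1 (hka.mul_right _)
      have hk2 : ¬ k ∣ 2 := fun e => hA2
        ((hk.associated_of_dvd Int.prime_two e).symm.dvd.trans hka)
      exact hk.dvd_of_dvd_pow (n := 2) (((hk.dvd_or_dvd ((hk.dvd_or_dvd h2).resolve_left hk2))).resolve_left hk2)
    obtain ⟨u, v, -, huv, -, hcase⟩ := exists_split (x := A) (q := 7) (by norm_num) hXp hYp hc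
      one_ne_zero (by norm_num) (by rw [hXY]; ring)
    have hu : ¬ (2 : ℤ) ∣ u := fun e => hA2 (Int.prime_two.dvd_of_dvd_pow (n := 2)
      (huv ▸ (e.mul_right v).pow two_ne_zero))
    have hv' : ¬ (2 : ℤ) ∣ v := fun e => hA2 (Int.prime_two.dvd_of_dvd_pow (n := 2)
      (huv ▸ (e.mul_left u).pow two_ne_zero))
    have hkey2 : ∀ x y w : ZMod 16, (¬ 2 ∣ x.val) → (¬ 2 ∣ y.val) → (¬ 2 ∣ w.val) →
        x ^ 4 - 7 * y ^ 4 ≠ 2 * (2 * w ^ 2 - 11 * (x * y) ^ 2) ∧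
        7 * y ^ 4 - x ^ 4 ≠ 2 * (2 * w ^ 2 - 11 * (x * y) ^ 2) := by decide +kernel
    obtain ⟨n1, n2⟩ := hkey2 u v B ((hv u).not.2 hu) ((hv v).not.2 hv') ((hv B).not.2 hB)
    rcases hcase with ⟨e1, e2⟩ | ⟨e1, e2⟩
    · refine n2 ?_
      have := congrArg (fun x : ℤ => (x : ZMod 16))
        (show 7 * v ^ 4 - u ^ 4 = 2 * (2 * B ^ 2 - 11 * (u * v) ^ 2) by
          rw [huv, ← e1]; linear_combination hY - hX - e2)
      push_cast at this
      exact this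
    · refine n1 ?_
      have := congrArg (fun x : ℤ => (x : ZMod 16))
        (show u ^ 4 - 7 * v ^ 4 = 2 * (2 * B ^ 2 - 11 * (u * v) ^ 2) by
          rw [huv, ← e2]; linear_combination hY - hX + e1)
      push_cast at this
      exact this
  -- `A = 2γ`
  obtain ⟨γ, rfl⟩ := hA2
  have hγ : γ ≠ 0 := right_ne_zero_of_mul hA
  have hC2 : ¬ (2 : ℤ) ∣ C := fun e => hB (Int.prime_two.dvd_of_dvd_pow (n := 4) (by
    rw [show B ^ 4 = C ^ 2 + 2 * (22 * γ ^ 2 * B ^ 2 - 256 * γ ^ 4) by linear_combination h]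
    exact dvd_add (e.pow two_ne_zero) (dvd_mul_right _ _)))
  obtain ⟨B2, hB2⟩ : ∃ t, B ^ 2 = 2 * t + 1 := by
    obtain ⟨t, ht⟩ : Odd (B ^ 2) := Int.odd_pow.2 (Or.inl (Int.not_even_iff_odd.1 fun e => hB e.two_dvd))
    exact ⟨t, ht⟩
  obtain ⟨C', hC'⟩ : Odd C := Int.not_even_iff_odd.1 fun e => hC2 e.two_dvd
  obtain ⟨X', hX'⟩ : (4 : ℤ) ∣ X :=
    ⟨C' - B2 + 11 * γ ^ 2, by rw [hX]; linear_combination 2 * hC' - 2 * hB2⟩
  obtain ⟨Y', hY'⟩ : (4 : ℤ) ∣ Y :=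
    ⟨C' + B2 + 1 - 11 * γ ^ 2, by rw [hY]; linear_combination 2 * hC' + 2 * hB2⟩
  have hXY' : X' * Y' = 7 * γ ^ 4 := by
    refine mul_left_cancel₀ (by norm_num : (16 : ℤ) ≠ 0) ?_
    rw [hX', hY'] at hXY
    linear_combination hXY
  have hdiff : Y' - X' = B ^ 2 - 22 * γ ^ 2 := by
    have h4 : 4 * (Y' - X') = 4 * (B ^ 2 - 22 * γ ^ 2) := by
      rw [mul_sub, ← hX', ← hY', hX, hY]; ring
    omega
  have hc : IsCoprime X' Y' := by
    refine isCoprime_factors (a := γ) (b := B) (q := 7) (j := 1) (by norm_num) le_rfl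
      hAB.of_mul_left_right (by rw [hXY']; ring) hγ fun k hk hkX hkY hka => ?_
    refine hk.dvd_of_dvd_pow (n := 2) ?_
    rw [show B ^ 2 = (B ^ 2 - 22 * γ ^ 2) + γ * (22 * γ) by ring, ← hdiff]
    exact dvd_add (dvd_sub hkY hkX) (hka.mul_right _)
  obtain ⟨u, v, hcop, huv, -, hcase⟩ := exists_split (x := γ) (q := 7) (by norm_num)
    (by omega) (by omega : 0 < Y') hc one_ne_zero (by norm_num) (by rw [hXY']; ring)
  -- the sign
  have hplus : u ^ 4 + 22 * u ^ 2 * v ^ 2 - 7 * v ^ 4 = B ^ 2 := by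
    rcases hcase with ⟨e1, e2⟩ | ⟨e1, e2⟩
    swap
    · linear_combination hdiff + 22 * huv - e2 + e1
    · exfalso
      have hkey : ∀ x y w : ZMod 8, 7 * y ^ 4 - x ^ 4 + 22 * (x * y) ^ 2 = w ^ 2 →
          2 ∣ w.val ∨ (2 ∣ x.val ∧ 2 ∣ y.val) := by decide
      have hv : ∀ x : ℤ, 2 ∣ (x : ZMod 8).val ↔ (2 : ℤ) ∣ x := fun x => by
        have := ZMod.val_intCast (n := 8) x
        omega
      have h8 := congrArg (fun x : ℤ => (x : ZMod 8))
        (show 7 * v ^ 4 - u ^ 4 + 22 * (u * v) ^ 2 = B ^ 2 by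
          rw [huv]; linear_combination hdiff - e2 + e1)
      push_cast at h8
      rcases hkey _ _ _ h8 with e | ⟨e, e'⟩
      · exact hB ((hv B).1 e)
      · exact absurd (Int.isUnit_iff.1 (hcop.isUnit_of_dvd' ((hv u).1 e) ((hv v).1 e'))) (by omega)
  have hu0 : u ≠ 0 := fun e => hγ (by simpa [e] using huv.symm)
  have hv0 : v ≠ 0 := fun e => hγ (by simpa [e] using huv.symm)
  -- the second pair of factors
  obtain ⟨S, hS⟩ : ∃ S, S = u ^ 2 + 11 * v ^ 2 := ⟨_, rfl⟩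
  have hSB : (S - B) * (S + B) = 128 * v ^ 4 := by rw [hS]; linear_combination hplus
  obtain ⟨P, hP⟩ : (2 : ℤ) ∣ S - B := by
    rcases Int.prime_two.dvd_or_dvd (⟨64 * v ^ 4, by rw [hSB]; ring⟩ : (2 : ℤ) ∣ (S - B) * (S + B))
      with e | e <;> omega
  have hPQ : P * (P + B) = 32 * v ^ 4 := by
    refine mul_left_cancel₀ (by norm_num : (4 : ℤ) ≠ 0) ?_
    linear_combination hSB - (S + B + 2 * P) * hP
  obtain ⟨hPp, hPBp⟩ : 0 < P ∧ 0 < P + B := by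
    have hS0 : 0 < S := by rw [hS]; positivity
    have : (0 : ℤ) < P * (P + B) := by rw [hPQ]; positivity
    rcases pos_and_pos_or_neg_and_neg_of_mul_pos this with hp | hp <;> constructor <;> omega
  have hcPQ : IsCoprime P (P + B) := by
    refine isCoprime_of_prime_dvd (fun e => by omega) fun k hk h1 h2 => ?_
    have hkB : k ∣ B := (dvd_add_right h1).1 h2
    have hk2 : ¬ k ∣ 2 := fun e => hB ((hk.associated_of_dvd Int.prime_two e).symm.dvd.trans hkB)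
    have hkv : k ∣ v := by
      have h32 : k ∣ 2 ^ 5 * v ^ 4 := by
        rw [show (2 : ℤ) ^ 5 = 32 by norm_num, ← hPQ]; exact h1.mul_right _
      exact hk.dvd_of_dvd_pow ((hk.dvd_or_dvd h32).resolve_left fun e => hk2 (hk.dvd_of_dvd_pow e))
    have hku : k ∣ u := hk.dvd_of_dvd_pow (n := 2) (by
      rw [show u ^ 2 = (P + (P + B)) - v * (11 * v) by linear_combination hP - hS]
      exact dvd_sub (dvd_add h1 h2) (hkv.mul_right _))
    exact hk.not_isUnit (hcop.isUnit_of_dvd' hku hkv)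
  obtain ⟨x, y, hxy, hxyv, hx2, hcase'⟩ := exists_split (x := v) (q := 2) (j := 5) Int.prime_two
    hPp hPBp hcPQ (by norm_num) (by norm_num) (by rw [hPQ]; norm_num)
  have hnew : x ^ 4 - 11 * y ^ 2 * x ^ 2 + 32 * y ^ 4 = u ^ 2 := by
    rcases hcase' with ⟨e1, e2⟩ | ⟨e1, e2⟩ <;>
      linear_combination -e1 - e2 - hP + hS - 11 * hxyv
  have hy0 : y ≠ 0 := fun e => hv0 (by simpa [e] using hxyv.symm)
  refine ih y.natAbs ?_ y x u rfl hxy.symm (fun e => Int.prime_two.not_isUnit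
    (hx2.isUnit_of_dvd' dvd_rfl e)) hy0 hnew
  have h1 : γ.natAbs = u.natAbs * v.natAbs := by
    rw [← Int.natAbs_mul]; exact Int.natAbs_eq_iff_sq_eq.2 huv.symm
  have h2 : v.natAbs = x.natAbs * y.natAbs := by
    rw [← Int.natAbs_mul]; exact Int.natAbs_eq_iff_sq_eq.2 hxyv.symm
  have h3 : 1 ≤ u.natAbs := Int.natAbs_pos.2 hu0
  have h4 : 1 ≤ x.natAbs := Int.natAbs_pos.2 (fun e => hv0 (by simpa [e] using hxyv.symm))
  have h5 : 1 ≤ y.natAbs := Int.natAbs_pos.2 hy0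
  rw [← hN, Int.natAbs_mul, h1, h2, show (2 : ℤ).natAbs = 2 from rfl]
  nlinarith [Nat.mul_le_mul h3 (Nat.mul_le_mul h4 (le_refl y.natAbs))]

/-- The odd branch. -/
theorem descent_odd (N : ℕ) : ∀ A B C : ℤ, A.natAbs = N → IsCoprime A B → ¬ (2 : ℤ) ∣ A →
    ¬ (2 : ℤ) ∣ B → 8 * A ^ 4 - 11 * A ^ 2 * B ^ 2 + 4 * B ^ 4 = C ^ 2 →
    A ^ 2 = 1 ∧ B ^ 2 = 1 := by
  induction N using Nat.strong_induction_on with
  | _ N ih =>
  intro A B C hN hAB hA hB h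
  wlog hC : 0 ≤ C generalizing C
  · exact this (-C) (by rw [neg_sq]; exact h) (by omega)
  have hA0 : A ≠ 0 := fun e => hA (e ▸ dvd_zero _)
  obtain ⟨X, hX⟩ : ∃ X, X = 4 * C - (8 * B ^ 2 - 11 * A ^ 2) := ⟨_, rfl⟩
  obtain ⟨Y, hY⟩ : ∃ Y, Y = 4 * C + (8 * B ^ 2 - 11 * A ^ 2) := ⟨_, rfl⟩
  have hXY : X * Y = 7 * A ^ 4 := by rw [hX, hY]; linear_combination -16 * h
  have hpos : 0 < X * Y := by rw [hXY]; positivity
  obtain ⟨hXp, hYp⟩ : 0 < X ∧ 0 < Y := by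
    rcases pos_and_pos_or_neg_and_neg_of_mul_pos hpos with hp | ⟨h1, h2⟩
    · exact hp
    · omega
  have hc : IsCoprime X Y := by
    refine isCoprime_factors (a := A) (b := B) (q := 7) (j := 1) (by norm_num) le_rfl hAB
      (by rw [hXY]; ring) hA0 fun k hk hkX hkY hka => ?_
    have hk2 : ¬ k ∣ 2 := fun e => hA
      ((hk.associated_of_dvd Int.prime_two e).symm.dvd.trans hka)
    have h2 : k ∣ 2 ^ 4 * B ^ 2 := by
      rw [show 2 ^ 4 * B ^ 2 = (Y - X) + A * (22 * A) by rw [hX, hY]; ring]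
      exact dvd_add (dvd_sub hkY hkX) (hka.mul_right _)
    exact hk.dvd_of_dvd_pow ((hk.dvd_or_dvd h2).resolve_left fun e => hk2 (hk.dvd_of_dvd_pow e))
  obtain ⟨u, v, hcop, huv, -, hcase⟩ := exists_split (x := A) (q := 7) (by norm_num)
    hXp hYp hc one_ne_zero (by norm_num) (by rw [hXY]; ring)
  have hu : ¬ (2 : ℤ) ∣ u := fun e => hA (Int.prime_two.dvd_of_dvd_pow (n := 2)
    (huv ▸ (e.mul_right v).pow two_ne_zero))
  have hv2 : ¬ (2 : ℤ) ∣ v := fun e => hA (Int.prime_two.dvd_of_dvd_pow (n := 2)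
    (huv ▸ (e.mul_left u).pow two_ne_zero))
  have hplus : u ^ 4 + 22 * u ^ 2 * v ^ 2 - 7 * v ^ 4 = 16 * B ^ 2 := by
    rcases hcase with ⟨e1, e2⟩ | ⟨e1, e2⟩
    swap
    · linear_combination hY - hX - e2 + e1 + 22 * huv
    · exfalso
      have hkey : ∀ x y : ZMod 16, ¬ 2 ∣ x.val → ¬ 2 ∣ y.val →
          7 * y ^ 4 - x ^ 4 + 22 * (x * y) ^ 2 ≠ 0 := by decide +kernel
      have hv : ∀ x : ℤ, 2 ∣ (x : ZMod 16).val ↔ (2 : ℤ) ∣ x := fun x => by
        have := ZMod.val_intCast (n := 16) x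
        omega
      have h16 : (((7 * v ^ 4 - u ^ 4 + 22 * (u * v) ^ 2 : ℤ)) : ZMod 16) = 0 :=
        (ZMod.intCast_zmod_eq_zero_iff_dvd _ 16).2 ⟨B ^ 2, by
          rw [huv]; push_cast; linear_combination hY - hX - e2 + e1⟩
      push_cast at h16
      exact hkey _ _ ((hv u).not.2 hu) ((hv v).not.2 hv2) h16
  obtain ⟨U', hU'⟩ : Odd u := Int.not_even_iff_odd.1 fun e => hu e.two_dvd
  obtain ⟨V', hV'⟩ : Odd v := Int.not_even_iff_odd.1 fun e => hv2 e.two_dvd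
  obtain ⟨T, hT, hTodd⟩ : ∃ T, u ^ 2 + 11 * v ^ 2 = 4 * T ∧ ¬ (2 : ℤ) ∣ T := by
    obtain ⟨a, ha⟩ := Int.two_dvd_mul_add_one U'
    obtain ⟨b, hb⟩ := Int.two_dvd_mul_add_one V'
    exact ⟨2 * a + 22 * b + 3, by rw [hU', hV']; linear_combination 4 * ha + 44 * hb, by omega⟩
  obtain ⟨B', hB'⟩ : Odd B := Int.not_even_iff_odd.1 fun e => hB e.two_dvd
  obtain ⟨P, hP⟩ : (2 : ℤ) ∣ T - B := by omega
  have hPQ : P * (P + B) = 2 * v ^ 4 := by
    refine mul_left_cancel₀ (by norm_num : (64 : ℤ) ≠ 0) ?_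
    linear_combination hplus - (u ^ 2 + 11 * v ^ 2 + 4 * T) * hT - 16 * (T + B + 2 * P) * hP
  have hv0 : v ≠ 0 := fun e => hv2 (e ▸ dvd_zero _)
  obtain ⟨hPp, hPBp⟩ : 0 < P ∧ 0 < P + B := by
    have hT0 : 0 < T := by
      have : 0 < u ^ 2 + 11 * v ^ 2 := by positivity
      omega
    have : (0 : ℤ) < P * (P + B) := by rw [hPQ]; positivity
    rcases pos_and_pos_or_neg_and_neg_of_mul_pos this with hp | hp <;> constructor <;> omega
  have hcPQ : IsCoprime P (P + B) := by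
    refine isCoprime_factors (a := v) (b := u) (q := 2) (j := 1) Int.prime_two le_rfl hcop.symm
      (by rw [hPQ]; ring) hv0 fun k hk h1 h2 hkv => hk.dvd_of_dvd_pow (n := 2) ?_
    rw [show u ^ 2 = 4 * (P + (P + B)) - v * (11 * v) by linear_combination hT + 4 * hP]
    exact dvd_sub (dvd_mul_of_dvd_right (dvd_add h1 h2) _) (hkv.mul_right _)
  obtain ⟨x, y, hxy, hxyv, -, hcase'⟩ := exists_split (x := v) (q := 2) (j := 1) Int.prime_two
    hPp hPBp hcPQ one_ne_zero (by norm_num) (by rw [hPQ]; ring)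
  have hnew : 8 * y ^ 4 - 11 * y ^ 2 * x ^ 2 + 4 * x ^ 4 = u ^ 2 := by
    rcases hcase' with ⟨e1, e2⟩ | ⟨e1, e2⟩ <;>
      linear_combination -4 * e1 - 4 * e2 - 4 * hP - hT - 11 * hxyv
  have hx2 : ¬ (2 : ℤ) ∣ x := fun e => hv2 (Int.prime_two.dvd_of_dvd_pow (n := 2)
    (hxyv ▸ (e.mul_right y).pow two_ne_zero))
  have hy2 : ¬ (2 : ℤ) ∣ y := fun e => hv2 (Int.prime_two.dvd_of_dvd_pow (n := 2)
    (hxyv ▸ (e.mul_left x).pow two_ne_zero))
  have h1 : A.natAbs = u.natAbs * v.natAbs := by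
    rw [← Int.natAbs_mul]; exact Int.natAbs_eq_iff_sq_eq.2 huv.symm
  have h2 : v.natAbs = x.natAbs * y.natAbs := by
    rw [← Int.natAbs_mul]; exact Int.natAbs_eq_iff_sq_eq.2 hxyv.symm
  have h3 : 1 ≤ u.natAbs := Int.natAbs_pos.2 fun e => hu (e ▸ dvd_zero _)
  have h4 : 1 ≤ x.natAbs := Int.natAbs_pos.2 fun e => hx2 (e ▸ dvd_zero _)
  obtain ⟨hy1, hx1, hu1⟩ : y ^ 2 = 1 ∧ x ^ 2 = 1 ∧ u ^ 2 = 1 := by
    rcases lt_or_ge y.natAbs A.natAbs with hlt | hge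
    · obtain ⟨a, b⟩ := ih _ (hN ▸ hlt) y x u rfl hxy.symm hy2 hx2 hnew
      refine ⟨a, b, ?_⟩
      rw [← hnew, show x ^ 4 = (x ^ 2) ^ 2 by ring, show y ^ 4 = (y ^ 2) ^ 2 by ring, a, b]
      norm_num
    · rw [h1, h2] at hge
      have h5 : 1 ≤ y.natAbs := Int.natAbs_pos.2 fun e => hy2 (e ▸ dvd_zero _)
      have h6 : u.natAbs * x.natAbs ≤ 1 :=
        Nat.le_of_mul_le_mul_right (by rw [one_mul, mul_assoc]; exact hge) h5
      have h7 := Nat.le_mul_of_pos_right u.natAbs h4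
      have h8 := Nat.le_mul_of_pos_left x.natAbs h3
      obtain ⟨hu', hx'⟩ : u.natAbs = 1 ∧ x.natAbs = 1 := by omega
      have hu1 : u ^ 2 = 1 := by rw [← Int.natAbs_sq, hu']; norm_num
      have hx1 : x ^ 2 = 1 := by rw [← Int.natAbs_sq, hx']; norm_num
      refine ⟨?_, hx1, hu1⟩
      rw [show x ^ 4 = (x ^ 2) ^ 2 by ring, hx1, hu1] at hnew
      have hfac : (y ^ 2 - 1) * (8 * y ^ 2 - 3) = 0 := by linear_combination hnew
      rcases mul_eq_zero.1 hfac with e | e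
      · linarith
      · omega
  have hv1 : v ^ 2 = 1 := by rw [← hxyv, mul_pow, hx1, hy1, mul_one]
  refine ⟨by rw [← huv, mul_pow, hu1, hv1, mul_one], ?_⟩
  rw [show u ^ 4 = (u ^ 2) ^ 2 by ring, show v ^ 4 = (v ^ 2) ^ 2 by ring, hu1, hv1] at hplus
  linarith

/-- The coprime positive solutions with `q` odd. -/
theorem descent_q_odd {p q r : ℤ} (hp : 0 < p) (hq : 0 < q) (hco : IsCoprime p q)
    (hq2 : ¬ (2 : ℤ) ∣ q) (h : p * q * (8 * p ^ 2 - 11 * p * q + 4 * q ^ 2) = r ^ 2) :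
    p = 1 ∧ q = 1 := by
  have hqQ : IsCoprime q (p * (8 * p ^ 2 - 11 * p * q + 4 * q ^ 2)) := by
    refine hco.symm.mul_right ?_
    refine isCoprime_of_prime_dvd (fun e => hq.ne' e.1) fun k hk h1 h2 => ?_
    have h3 : k ∣ 2 ^ 3 * p ^ 2 := by
      rw [show 2 ^ 3 * p ^ 2 = (8 * p ^ 2 - 11 * p * q + 4 * q ^ 2) + q * (11 * p - 4 * q) by ring]
      exact dvd_add h2 (h1.mul_right _)
    rcases hk.dvd_or_dvd h3 with e | e
    · exact hq2 ((hk.associated_of_dvd Int.prime_two (hk.dvd_of_dvd_pow e)).symm.dvd.trans h1)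
    · exact hk.not_isUnit (hco.isUnit_of_dvd' (hk.dvd_of_dvd_pow e) h1)
  obtain ⟨B, hB⟩ := exists_sq_or_neg_sq (r := r) hqQ (by rw [← h]; ring)
  replace hB : q = B ^ 2 := hB.resolve_right fun e => by nlinarith [sq_nonneg B]
  have hB2 : ¬ (2 : ℤ) ∣ B := fun e => hq2 (hB ▸ e.pow two_ne_zero)
  by_cases hp2 : (2 : ℤ) ∣ p
  · exfalso
    obtain ⟨p₁, rfl⟩ := hp2
    by_cases hp1 : (2 : ℤ) ∣ p₁
    · obtain ⟨p₂, rfl⟩ := hp1
      have hco2 : IsCoprime p₂ q := hco.of_mul_left_right.of_mul_left_right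
      have hQ : IsCoprime p₂ (q * (q ^ 2 - 11 * p₂ * q + 32 * p₂ ^ 2)) := by
        refine hco2.mul_right ?_
        refine isCoprime_of_prime_dvd (fun e => by omega) fun k hk h1 h2 => ?_
        have h3 : k ∣ q ^ 2 := by
          rw [show q ^ 2 = (q ^ 2 - 11 * p₂ * q + 32 * p₂ ^ 2) + p₂ * (11 * q - 32 * p₂) by ring]
          exact dvd_add h2 (h1.mul_right _)
        exact hk.not_isUnit (hco2.isUnit_of_dvd' h1 (hk.dvd_of_dvd_pow h3))
      obtain ⟨R, hR⟩ : (4 : ℤ) ∣ r := (Int.pow_dvd_pow_iff two_ne_zero).1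
        ⟨p₂ * q * (q ^ 2 - 11 * p₂ * q + 32 * p₂ ^ 2), by rw [← h]; ring⟩
      obtain ⟨A, hA⟩ := exists_sq_or_neg_sq (r := R) hQ (mul_left_cancel₀
        (by norm_num : (16 : ℤ) ≠ 0) (by linear_combination h + (r + 4 * R) * hR))
      replace hA : p₂ = A ^ 2 := hA.resolve_right fun e => by nlinarith [sq_nonneg A]
      subst hA hB
      have hA0 : A ≠ 0 := fun e => by simp [e] at hp
      have hB0 : B ≠ 0 := fun e => hB2 (e ▸ dvd_zero _)
      obtain ⟨C, hC⟩ : 4 * (A * B) ∣ r := (Int.pow_dvd_pow_iff two_ne_zero).1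
        ⟨B ^ 4 - 11 * A ^ 2 * B ^ 2 + 32 * A ^ 4, by rw [← h]; ring⟩
      refine descent_even _ A B C rfl ((IsCoprime.pow_iff two_pos two_pos).1 hco2) hB2 hA0 ?_
      refine mul_left_cancel₀ (pow_ne_zero 2 (mul_ne_zero four_ne_zero (mul_ne_zero hA0 hB0))) ?_
      linear_combination h + (r + 4 * (A * B) * C) * hC
    · have hQ : IsCoprime p₁ (q * (16 * p₁ ^ 2 - 11 * p₁ * q + 2 * q ^ 2)) := by
        refine hco.of_mul_left_right.mul_right ?_
        refine isCoprime_of_prime_dvd (fun e => by omega) fun k hk h1 h2 => ?_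
        have h3 : k ∣ 2 * q ^ 2 := by
          rw [show 2 * q ^ 2 = (16 * p₁ ^ 2 - 11 * p₁ * q + 2 * q ^ 2) + p₁ * (11 * q - 16 * p₁) by
            ring]
          exact dvd_add h2 (h1.mul_right _)
        rcases hk.dvd_or_dvd h3 with e | e
        · exact hp1 ((hk.associated_of_dvd Int.prime_two e).symm.dvd.trans h1)
        · exact hk.not_isUnit (hco.of_mul_left_right.isUnit_of_dvd' h1 (hk.dvd_of_dvd_pow e))
      obtain ⟨R, hR⟩ : (2 : ℤ) ∣ r := (Int.pow_dvd_pow_iff two_ne_zero).1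
        ⟨p₁ * q * (16 * p₁ ^ 2 - 11 * p₁ * q + 2 * q ^ 2), by rw [← h]; ring⟩
      obtain ⟨A, hA⟩ := exists_sq_or_neg_sq (r := R) hQ (mul_left_cancel₀
        (by norm_num : (4 : ℤ) ≠ 0) (by linear_combination h + (r + 2 * R) * hR))
      replace hA : p₁ = A ^ 2 := hA.resolve_right fun e => by nlinarith [sq_nonneg A]
      subst hA hB
      have hA0 : A ≠ 0 := fun e => hp1 (by simp [e])
      have hB0 : B ≠ 0 := fun e => hB2 (e ▸ dvd_zero _)
      obtain ⟨C, hC⟩ : 2 * (A * B) ∣ r := (Int.pow_dvd_pow_iff two_ne_zero).1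
        ⟨16 * A ^ 4 - 11 * A ^ 2 * B ^ 2 + 2 * B ^ 4, by rw [← h]; ring⟩
      have hC2 : 16 * A ^ 4 - 11 * A ^ 2 * B ^ 2 + 2 * B ^ 4 = C ^ 2 := by
        refine mul_left_cancel₀ (pow_ne_zero 2 (mul_ne_zero two_ne_zero (mul_ne_zero hA0 hB0))) ?_
        linear_combination h + (r + 2 * (A * B) * C) * hC
      have hkey : ∀ x y z : ZMod 8, ¬ 2 ∣ x.val → ¬ 2 ∣ y.val →
          16 * x ^ 4 - 11 * x ^ 2 * y ^ 2 + 2 * y ^ 4 ≠ z ^ 2 := by decide
      have hv : ∀ x : ℤ, 2 ∣ (x : ZMod 8).val ↔ (2 : ℤ) ∣ x := fun x => by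
        have := ZMod.val_intCast (n := 8) x
        omega
      have h8 := congrArg (fun x : ℤ => (x : ZMod 8)) hC2
      push_cast at h8
      exact hkey _ _ _ ((hv A).not.2 fun e => hp1 (e.pow two_ne_zero)) ((hv B).not.2 hB2) h8
  · have hpQ : IsCoprime p (q * (8 * p ^ 2 - 11 * p * q + 4 * q ^ 2)) := by
      refine hco.mul_right ?_
      refine isCoprime_of_prime_dvd (fun e => hp.ne' e.1) fun k hk h1 h2 => ?_
      have h3 : k ∣ 2 ^ 2 * q ^ 2 := by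
        rw [show 2 ^ 2 * q ^ 2 = (8 * p ^ 2 - 11 * p * q + 4 * q ^ 2) + p * (11 * q - 8 * p) by ring]
        exact dvd_add h2 (h1.mul_right _)
      rcases hk.dvd_or_dvd h3 with e | e
      · exact hp2 ((hk.associated_of_dvd Int.prime_two (hk.dvd_of_dvd_pow e)).symm.dvd.trans h1)
      · exact hk.not_isUnit (hco.isUnit_of_dvd' h1 (hk.dvd_of_dvd_pow e))
    obtain ⟨A, hA⟩ := exists_sq_or_neg_sq (r := r) hpQ (by rw [← h]; ring)
    replace hA : p = A ^ 2 := hA.resolve_right fun e => by nlinarith [sq_nonneg A]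
    subst hA hB
    have hA0 : A ≠ 0 := fun e => by simp [e] at hp
    have hB0 : B ≠ 0 := fun e => hB2 (e ▸ dvd_zero _)
    obtain ⟨C, hC⟩ : A * B ∣ r := (Int.pow_dvd_pow_iff two_ne_zero).1
      ⟨8 * A ^ 4 - 11 * A ^ 2 * B ^ 2 + 4 * B ^ 4, by rw [← h]; ring⟩
    refine descent_odd _ A B C rfl ((IsCoprime.pow_iff two_pos two_pos).1 hco)
      (fun e => hp2 (e.pow two_ne_zero)) hB2 ?_
    refine mul_left_cancel₀ (pow_ne_zero 2 (mul_ne_zero hA0 hB0)) ?_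
    linear_combination h + (r + A * B * C) * hC

/-- The coprime solutions of `pq(8p² - 11pq + 4q²) = □`. -/
theorem descent {p q r : ℤ} (hco : IsCoprime p q) (hp : p ≠ 0) (hq : q ≠ 0)
    (h : p * q * (8 * p ^ 2 - 11 * p * q + 4 * q ^ 2) = r ^ 2) : q = p ∨ q = 2 * p := by
  have hQ : 0 < 8 * p ^ 2 - 11 * p * q + 4 * q ^ 2 := by
    nlinarith [sq_nonneg (16 * p - 11 * q), sq_pos_of_ne_zero hq]
  wlog hp0 : 0 < p generalizing p q
  · have := this (p := -p) (q := -q) hco.neg_neg (by omega) (by omega)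
      (by linear_combination h) (by linear_combination hQ) (by omega)
    omega
  have hq0 : 0 < q := by
    by_contra hn
    push Not at hn
    have : p * q * (8 * p ^ 2 - 11 * p * q + 4 * q ^ 2) < 0 :=
      mul_neg_of_neg_of_pos (mul_neg_of_pos_of_neg hp0 (lt_of_le_of_ne hn hq)) hQ
    nlinarith [sq_nonneg r]
  by_cases hq2 : (2 : ℤ) ∣ q
  · obtain ⟨q₁, rfl⟩ := hq2
    have hp2 : ¬ (2 : ℤ) ∣ p := fun e =>
      absurd (Int.isUnit_iff.1 (hco.isUnit_of_dvd' e (dvd_mul_right 2 q₁))) (by omega)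
    obtain ⟨R, hR⟩ : (2 : ℤ) ∣ r := (Int.pow_dvd_pow_iff two_ne_zero).1
      ⟨p * q₁ * (4 * p ^ 2 - 11 * p * q₁ + 8 * q₁ ^ 2), by rw [← h]; ring⟩
    obtain ⟨h1, h2⟩ := descent_q_odd (p := q₁) (q := p) (r := R) (by omega) hp0
      hco.of_mul_right_right.symm hp2 (mul_left_cancel₀ (by norm_num : (4 : ℤ) ≠ 0)
        (by linear_combination h + (r + 2 * R) * hR))
    right; omega
  · obtain ⟨h1, h2⟩ := descent_q_odd hp0 hq0 hco hq2 h
    left; omega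

end FA.Torsion.Fourteen

end
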