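import Fermat.Agent.Torsion.Tate
import Fermat.Agent.Torsion.EighteenDefs

/-!
# A point of order `18` gives a point of `y² = f18 x`

`2 • P` is the origin of the order `9` family with parameter `f`; the point of order `2` gives
`z` with `z (f³ - 3f² + 1) = (z³ + 2) (f² - f)`, and `a = (z + f)/(fz + f - 1)` satisfies
`9 f18 (-a) = □`.
-/

set_option autoImplicit false

noncomputable section

open WeierstrassCurve
open FA.Thirteen (tateCurve)

namespace FA.Torsion.Eighteen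

theorem sq_add_self_add_one_ne_zero (z : ℚ) : z ^ 2 + z + 1 ≠ 0 := by
  nlinarith [sq_nonneg (2 * z + 1)]

/-- The relation between the parameters gives a point of the sextic. -/
theorem exists_point_of_rel {f z : ℚ} (hf0 : f ≠ 0) (hf1 : f - 1 ≠ 0)
    (hR : z * (f ^ 3 - 3 * f ^ 2 + 1) = (z ^ 3 + 2) * (f ^ 2 - f)) :
    ∃ x y : ℚ, y ^ 2 = f18 x ∧ x ≠ 0 ∧ x ≠ -1 := by
  obtain ⟨d, hd⟩ : ∃ d, d = f * z + f - 1 := ⟨_, rfl⟩
  have hquart : (f ^ 2 - f + 1) ≠ 0 := by
    have := sq_add_self_add_one_ne_zero (-f)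
    intro h; exact this (by linear_combination h)
  have hd0 : d ≠ 0 := by
    intro h
    rw [hd] at h
    have hz' : f * z = 1 - f := by linear_combination h
    have : (f - 1) * (f ^ 2 - f + 1) ^ 2 = 0 := by
      have e : (f * z) * f ^ 2 * (f ^ 3 - 3 * f ^ 2 + 1) =
          ((f * z) ^ 3 + 2 * f ^ 3) * (f ^ 2 - f) := by linear_combination f ^ 3 * hR
      rw [hz'] at e
      refine mul_left_cancel₀ hf0 ?_
      linear_combination (-(1 : ℚ)) * e
    rcases mul_eq_zero.1 this with h' | h'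
    · exact hf1 h'
    · exact hquart (pow_eq_zero_iff (n := 2) (by norm_num) |>.1 h')
  obtain ⟨a, ha⟩ : ∃ a, a = (z + f) / d := ⟨_, rfl⟩
  have had : a * d = z + f := by rw [ha, div_mul_cancel₀ _ hd0]
  have hQ : (6 * a - 6 * a ^ 2) + (3 - 3 * a - 6 * a ^ 2 + 3 * a ^ 3) * z
      + (-3 * a + 3 * a ^ 2) * z ^ 2 = 0 := by
    refine mul_left_cancel₀ (pow_ne_zero 3 hd0) ?_
    rw [mul_zero, ha]
    field_simp
    rw [hd]
    linear_combination 3 * (z ^ 2 + z + 1) * hR
  refine ⟨-a, (2 * (-3 * a + 3 * a ^ 2) * z + (3 - 3 * a - 6 * a ^ 2 + 3 * a ^ 3)) / 3, ?_, ?_, ?_⟩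
  · simp only [f18]
    linear_combination (4 / 9 : ℚ) * (-3 * a + 3 * a ^ 2) * hQ
  · intro h
    obtain rfl : a = 0 := by linarith
    have e : z = -f := by linear_combination -had
    rw [e] at hR
    refine hquart (pow_eq_zero_iff (n := 2) (by norm_num) |>.1 ?_)
    exact mul_left_cancel₀ hf0 (by linear_combination hR)
  · intro h
    obtain rfl : a = 1 := by linarith
    have e : z * (f - 1) = 1 := by rw [hd] at had; linear_combination had
    have e3 : z * (f - 1) * (f - 1) ^ 2 * (f ^ 3 - 3 * f ^ 2 + 1) =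
        ((z * (f - 1)) ^ 3 + 2 * (f - 1) ^ 3) * (f ^ 2 - f) := by
      linear_combination (f - 1) ^ 3 * hR
    rw [e] at e3
    refine hquart (pow_eq_zero_iff (n := 2) (by norm_num) |>.1 ?_)
    exact mul_left_cancel₀ hf1 (by linear_combination -e3)

/-- **No point of order `18`**, given the rational points of `y² = f18 x`. -/
theorem no_order_18_of_onlyCusps (H : OnlyCusps18) (E : WeierstrassCurve ℚ) [E.IsElliptic]
    (P : E.toAffine.Point) : addOrderOf P ≠ 18 := by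
  intro hP
  have hne : ∀ n, 0 < n → n < 18 → n • P ≠ 0 := fun n h1 h2 h => by
    have := addOrderOf_dvd_of_nsmul_eq_zero h
    rw [hP] at this
    exact absurd (Nat.le_of_dvd h1 this) (by omega)
  have h18 : (18 : ℕ) • P = 0 := hP ▸ addOrderOf_nsmul_eq_zero P
  obtain ⟨b, c, h0, hE, e, he⟩ := exists_tate (2 • P)
    (by rw [smul_smul]; exact hne _ (by norm_num) (by norm_num))
    (by rw [smul_smul]; exact hne _ (by norm_num) (by norm_num))
  have := hE
  obtain ⟨Q, hQ⟩ : ∃ Q, Q = Affine.Point.some 0 0 h0 := ⟨_, rfl⟩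
  rw [← hQ] at he
  have hsm : ∀ n : ℕ, e (n • Q) = (2 * n) • P := fun n => by
    rw [map_nsmul, he, smul_smul, mul_comm]
  have hQ0 : ∀ n, 0 < n → n < 9 → n • Q ≠ 0 := fun n h1 h2 h =>
    hne (2 * n) (by omega) (by omega) (by rw [← hsm, h, map_zero])
  have hQ9 : 9 • Q = 0 := e.injective (by rw [hsm, map_zero]; exact h18)
  -- the family
  have hb := tate_b_ne_zero b c
  obtain ⟨_, e2⟩ := tate_two (b := b) (c := c) (h0 := h0)
  obtain ⟨_, e3⟩ := tate_three (b := b) (c := c) (h0 := h0)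
  rw [← hQ] at e2 e3
  have hc : c ≠ 0 := by
    rintro rfl
    rcases FA.Thirteen.eq_or_eq_neg_of_X_eq (W := tateCurve b 0) (h₁ := ‹_›) (h₂ := h0)
      (x := 0) (y₁ := b - 0) (y₂ := 0) with h | h <;> rw [← e3, ← hQ] at h
    · exact hQ0 2 (by norm_num) (by norm_num) (by rwa [succ_nsmul, add_eq_right] at h)
    · exact hQ0 4 (by norm_num) (by norm_num) (by rw [succ_nsmul, h, neg_add_cancel])
  obtain ⟨h4, e4⟩ := tate_four (b := b) (c := c) (h0 := h0) hc
  rw [← hQ] at e4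
  obtain ⟨r, hr⟩ : ∃ r, r = b / c := ⟨_, rfl⟩
  revert h4 e4
  rw [← hr]
  intro h4 e4
  have hbr : b = r * c := by rw [hr, div_mul_cancel₀ _ hc]
  have hr1 : r - 1 ≠ 0 := by
    intro h
    have hx : r * (r - 1) = 0 := by rw [h, mul_zero]
    rcases FA.Thirteen.eq_or_eq_neg_of_X_eq (W := tateCurve b c)
      (h₁ := h4) (h₂ := (hx.symm ▸ h0 : (tateCurve b c).toAffine.Nonsingular (r * (r - 1)) 0))
      with h' | h' <;>
      rw [← e4, show Affine.Point.some (W' := (tateCurve b c).toAffine) (r * (r - 1)) 0 _ = Q by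
        rw [hQ]; simp [hx]] at h'
    · exact hQ0 3 (by norm_num) (by norm_num) (by rwa [succ_nsmul, add_eq_right] at h')
    · exact hQ0 5 (by norm_num) (by norm_num) (by rw [succ_nsmul, h', neg_add_cancel])
  have hr0 : r ≠ 0 := fun h => hb (by rw [hbr, h, zero_mul])
  obtain ⟨x5, hx5⟩ : ∃ x5, x5 = (tateCurve b c).toAffine.addX (r * (r - 1)) 0
      (r * (c - r + 1) / (r - 1)) := ⟨_, rfl⟩
  obtain ⟨h5, e5⟩ := FA.Thirteen.add_eq_some (W := tateCurve b c) (h₁ := h4) (h₂ := h0)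
    (mul_ne_zero hr0 hr1) (ℓ := r * (c - r + 1) / (r - 1)) (by field_simp; ring) hx5.symm rfl
  rw [← e4, ← hQ] at e5
  replace e5 := (succ_nsmul Q 4).trans e5
  have h45 := (add_nsmul Q (4 + 1) 4).symm.trans hQ9
  rw [add_eq_zero_iff_eq_neg] at h45
  rw [e5, e4, Affine.Point.neg_some, Affine.Point.some.injEq] at h45
  obtain ⟨f, hf⟩ : ∃ f, f = c / (r - 1) := ⟨_, rfl⟩
  have hcf : c = f * (r - 1) := by rw [hf, div_mul_cancel₀ _ hr1]
  have hrf : r = f ^ 2 - f + 1 := by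
    have e' := h45.1
    rw [hx5] at e'
    simp only [tateCurve, Affine.addX] at e'
    rw [hbr, hcf] at e'
    field_simp at e'
    refine mul_left_cancel₀ (mul_ne_zero hr0 (pow_ne_zero 2 hr1)) ?_
    linear_combination -e'
  have hf0 : f ≠ 0 := fun h => hc (by rw [hcf, h, zero_mul])
  have hf1 : f - 1 ≠ 0 := by
    intro h
    apply hr1
    rw [hrf]; linear_combination f * h
  have hc' : c = f ^ 2 * (f - 1) := by rw [hcf, hrf]; ring
  have hb' : b = f ^ 2 * (f - 1) * (f ^ 2 - f + 1) := by rw [hbr, hc', hrf]; ring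
  -- the point of order `2`
  have hT0 : e.symm (9 • P) ≠ 0 := fun h =>
    hne 9 (by norm_num) (by norm_num) (by simpa using congrArg e h)
  have hT2 : e.symm (9 • P) + e.symm (9 • P) = 0 := by
    rw [← map_add, ← add_nsmul, h18, map_zero]
  rcases hpt : e.symm (9 • P) with _ | ⟨x, y, hxy⟩
  · exact hT0 hpt
  rw [hpt, add_eq_zero_iff_eq_neg, Affine.Point.neg_some, Affine.Point.some.injEq] at hT2
  have h2y := hT2.2
  simp only [tateCurve, Affine.negY] at h2y
  have heq := (Affine.equation_iff x y).mp hxy.1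
  simp only [tateCurve] at heq
  -- translate the point of order `3` to the origin
  obtain ⟨X, hX⟩ : ∃ X, X = x - c := ⟨_, rfl⟩
  obtain ⟨Y, hY⟩ : ∃ Y, Y = y - (b - c) - (f ^ 2 - 1) * (x - c) := ⟨_, rfl⟩
  have hcurve : Y ^ 2 + (-f ^ 3 + 3 * f ^ 2 - 1) * X * Y - (f * (f - 1)) ^ 3 * Y = X ^ 3 := by
    rw [hX, hY, hb', hc']
    rw [hb', hc'] at heq
    linear_combination heq
  have h2 : 2 * Y + (-f ^ 3 + 3 * f ^ 2 - 1) * X - (f * (f - 1)) ^ 3 = 0 := by
    rw [hX, hY, hb', hc']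
    rw [hb', hc'] at h2y
    linear_combination h2y
  have hX0 : X ≠ 0 := by
    intro h
    rw [h] at hcurve h2
    have hY0 : Y = 0 := by
      refine (pow_eq_zero_iff (n := 2) (by norm_num)).1 ?_
      linear_combination Y * h2 - hcurve
    rw [hY0] at h2
    exact pow_ne_zero 3 (mul_ne_zero hf0 hf1) (by linear_combination -h2)
  obtain ⟨k, hk⟩ : ∃ k, k = -Y / X := ⟨_, rfl⟩
  have hkX : k * X = -Y := by rw [hk, div_mul_cancel₀ _ hX0]
  have hXk : X = -k ^ 2 := by
    refine mul_left_cancel₀ (pow_ne_zero 2 hX0) ?_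
    linear_combination (k * X - Y) * hkX + Y * h2 - hcurve
  have hk0 : k ≠ 0 := fun h => hX0 (by rw [hXk, h]; ring)
  have hYk : Y = k ^ 3 := by linear_combination hkX - k * hXk
  obtain ⟨z, hz⟩ : ∃ z, z = -(f * (f - 1)) / k := ⟨_, rfl⟩
  have hzk : z * k = -(f * (f - 1)) := by rw [hz, div_mul_cancel₀ _ hk0]
  have hz0 : z ≠ 0 := by rw [hz]; exact div_ne_zero (neg_ne_zero.2 (mul_ne_zero hf0 hf1)) hk0
  have hR : z * (f ^ 3 - 3 * f ^ 2 + 1) = (z ^ 3 + 2) * (f ^ 2 - f) := by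
    refine mul_left_cancel₀ (pow_ne_zero 3 hk0) ?_
    have e' : (z * k) ^ 3 = (-(f * (f - 1))) ^ 3 := by rw [hzk]
    rw [hXk, hYk] at h2
    linear_combination k ^ 2 * (f ^ 3 - 3 * f ^ 2 + 1) * hzk - (f ^ 2 - f) * e'
      - (f ^ 2 - f) * h2
  obtain ⟨x', y', hxy', hx0, hx1⟩ := exists_point_of_rel hf0 hf1 hR
  rcases H x' y' hxy' with h | h
  · exact hx0 h
  · exact hx1 h

end FA.Torsion.Eighteen

end
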