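import Mathlib

/-!
# A primitive value of `p² - pq + q²` that is a cube

By unique factorisation in the ring of integers of the third cyclotomic field, `p + q η` is a unit
times a cube.
-/

set_option autoImplicit false
set_option linter.style.haveILetI false

noncomputable section

open NumberField Polynomial

namespace FA.Torsion.X35

/-- The third cyclotomic field. -/
abbrev K3 : Type := CyclotomicField 3 ℚ

instance instCyclotomicK3 : IsCyclotomicExtension {3} ℚ K3 :=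
  CyclotomicField.isCyclotomicExtension 3 ℚ

theorem zeta3 : IsPrimitiveRoot (IsCyclotomicExtension.zeta 3 ℚ K3) 3 :=
  IsCyclotomicExtension.zeta_spec 3 ℚ K3

/-- The primitive cube root of unity as an algebraic integer. -/
def eta3 : 𝓞 K3 := zeta3.toInteger

theorem eta3_sq : eta3 ^ 2 = -eta3 - 1 := IsCyclotomicExtension.Rat.Three.eta_sq zeta3

/-- The integer `p + q η`. -/
def eis (p q : ℤ) : 𝓞 K3 := (p : 𝓞 K3) + (q : 𝓞 K3) * eta3

theorem eis_mul_conj (p q : ℤ) :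
    eis p q * eis (p - q) (-q) = ((p ^ 2 - p * q + q ^ 2 : ℤ) : 𝓞 K3) := by
  simp only [eis]; push_cast
  linear_combination -(q : 𝓞 K3) ^ 2 * eta3_sq

theorem eis_eq_zero {p q : ℤ} (h : eis p q = 0) : p = 0 ∧ q = 0 := by
  have h1 : ((p ^ 2 - p * q + q ^ 2 : ℤ) : 𝓞 K3) = 0 := by rw [← eis_mul_conj, h, zero_mul]
  have h2 : p ^ 2 - p * q + q ^ 2 = 0 := by exact_mod_cast h1
  have h3 : q = 0 := by nlinarith [sq_nonneg (2 * p - q), mul_self_nonneg q]
  subst h3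
  exact ⟨by nlinarith [mul_self_nonneg p], rfl⟩

theorem eis_inj {p q p' q' : ℤ} (h : eis p q = eis p' q') : p = p' ∧ q = q' := by
  have e : eis (p - p') (q - q') = 0 := by
    simp only [eis] at h ⊢; push_cast
    linear_combination h
  obtain ⟨h1, h2⟩ := eis_eq_zero e
  omega

theorem exists_eis (x : 𝓞 K3) : ∃ p q : ℤ, x = eis p q := by
  obtain ⟨f, hf, rfl⟩ := zeta3.integralPowerBasis.exists_eq_aeval x
  have hdim : zeta3.integralPowerBasis.dim = 2 := by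
    rw [IsPrimitiveRoot.integralPowerBasis_dim]; rfl
  have hd : f.natDegree ≤ 1 := by omega
  refine ⟨f.coeff 0, f.coeff 1, ?_⟩
  conv_lhs => rw [eq_X_add_C_of_natDegree_le_one hd]
  rw [IsPrimitiveRoot.integralPowerBasis_gen]
  simp [eis, eta3]
  ring

theorem eis_isCoprime_conj {p q : ℤ} (hpq : IsCoprime p q) (h3 : ¬(3 : ℤ) ∣ p + q) :
    IsCoprime (eis p q) (eis (p - q) (-q)) := by
  have h1 : IsCoprime (3 * q) (p ^ 2 - p * q + q ^ 2) := by
    refine IsCoprime.mul_left ?_ ?_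
    · refine (Int.prime_three.coprime_iff_not_dvd).2 fun h => h3 (Int.prime_three.dvd_of_dvd_pow
        (n := 2) ?_)
      have : (3 : ℤ) ∣ 3 * (p * q) := dvd_mul_right _ _
      have e : (p + q) ^ 2 = (p ^ 2 - p * q + q ^ 2) + 3 * (p * q) := by ring
      rw [e]; exact dvd_add h this
    · have e : p ^ 2 - p * q + q ^ 2 = p ^ 2 + q * (q - p) := by ring
      rw [e]
      exact IsCoprime.add_mul_left_right hpq.symm.pow_right _
  obtain ⟨u, v, huv⟩ := h1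
  have huv' : (u : 𝓞 K3) * (3 * q) + v * ((p ^ 2 - p * q + q ^ 2 : ℤ) : 𝓞 K3) = 1 := by
    exact_mod_cast congrArg (fun z : ℤ => (z : 𝓞 K3)) huv
  rw [← eis_mul_conj] at huv'
  refine ⟨-(u : 𝓞 K3) * (2 * eta3 + 1) + (v : 𝓞 K3) * eis (p - q) (-q),
    (u : 𝓞 K3) * (2 * eta3 + 1), ?_⟩
  simp only [eis] at huv' ⊢
  push_cast at huv' ⊢
  linear_combination huv' - 4 * (u : 𝓞 K3) * q * eta3_sq

/-- A primitive `p + q η` whose norm is a cube is `η^k` times a cube. -/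
theorem exists_cube {p q M : ℤ} (hpq : IsCoprime p q) (h3 : ¬(3 : ℤ) ∣ p + q)
    (h : p ^ 2 - p * q + q ^ 2 = M ^ 3) :
    ∃ m n a b : ℤ, a = m ^ 3 - 3 * m * n ^ 2 + n ^ 3 ∧ b = 3 * (m * n * (m - n)) ∧
      M = m ^ 2 - m * n + n ^ 2 ∧
      ((p = a ∧ q = b) ∨ (p = -b ∧ q = a - b) ∨ (p = b - a ∧ q = -a)) := by
  haveI : IsPrincipalIdealRing (𝓞 K3) := IsCyclotomicExtension.Rat.three_pid K3
  obtain ⟨β, u, hu⟩ := exists_associated_pow_of_mul_eq_pow' (eis_isCoprime_conj hpq h3)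
    (c := ((M : ℤ) : 𝓞 K3)) (k := 3) (by rw [eis_mul_conj, h]; push_cast; rfl)
  obtain ⟨m, n, rfl⟩ := exists_eis β
  have hb : eis m n ^ 3 =
      eis (m ^ 3 - 3 * m * n ^ 2 + n ^ 3) (3 * (m * n * (m - n))) := by
    simp only [eis]; push_cast
    linear_combination ((n : 𝓞 K3) ^ 3 * (eta3 - 1) + 3 * (m : 𝓞 K3) * n ^ 2) * eta3_sq
  have hnorm : ∀ a b : ℤ, (a = m ∧ b = n) ∨ (a = -m ∧ b = -n) →
      M ^ 3 = ((m ^ 3 - 3 * m * n ^ 2 + n ^ 3) ^ 2 -
        (m ^ 3 - 3 * m * n ^ 2 + n ^ 3) * (3 * (m * n * (m - n))) +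
        (3 * (m * n * (m - n))) ^ 2) → M = a ^ 2 - a * b + b ^ 2 := by
    intro a b hab e
    have e' : M ^ 3 = (a ^ 2 - a * b + b ^ 2) ^ 3 := by
      rcases hab with ⟨rfl, rfl⟩ | ⟨rfl, rfl⟩ <;> rw [e] <;> ring
    exact (Odd.pow_injective (by decide : Odd 3)) e'
  rw [hb] at hu
  have hmem := IsCyclotomicExtension.Rat.Three.Units.mem zeta3 u
  simp only [List.mem_cons, List.not_mem_nil, or_false] at hmem
  have key : ∀ p' q' : ℤ, eis (m ^ 3 - 3 * m * n ^ 2 + n ^ 3) (3 * (m * n * (m - n))) * u =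
      eis p' q' → p = p' ∧ q = q' := fun p' q' e => eis_inj (hu.symm.trans e)
  set a := m ^ 3 - 3 * m * n ^ 2 + n ^ 3 with ha
  set b := 3 * (m * n * (m - n)) with hb'
  have hη : (((IsPrimitiveRoot.isUnit zeta3.toInteger_isPrimitiveRoot (by decide)).unit :
      (𝓞 K3)ˣ) : 𝓞 K3) = eta3 := rfl
  rcases hmem with e | e | e | e | e | e <;> subst e
  · obtain ⟨hp, hq⟩ := key a b (by simp)
    exact ⟨m, n, a, b, ha, hb', hnorm m n (Or.inl ⟨rfl, rfl⟩) (by rw [← h, hp, hq]),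
      Or.inl ⟨hp, hq⟩⟩
  · obtain ⟨hp, hq⟩ := key (-a) (-b) (by simp [eis]; ring)
    exact ⟨-m, -n, -a, -b, by rw [ha]; ring, by rw [hb']; ring,
      hnorm _ _ (Or.inr ⟨rfl, rfl⟩) (by rw [← h, hp, hq]; ring), Or.inl ⟨hp, hq⟩⟩
  · obtain ⟨hp, hq⟩ := key (-b) (a - b) (by
      rw [hη]; simp only [eis]; push_cast; linear_combination (b : 𝓞 K3) * eta3_sq)
    exact ⟨m, n, a, b, ha, hb', hnorm m n (Or.inl ⟨rfl, rfl⟩) (by rw [← h, hp, hq]; ring),
      Or.inr (Or.inl ⟨hp, hq⟩)⟩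
  · obtain ⟨hp, hq⟩ := key b (b - a) (by
      rw [Units.val_neg, hη]; simp only [eis]; push_cast
      linear_combination -(b : 𝓞 K3) * eta3_sq)
    exact ⟨-m, -n, -a, -b, by rw [ha]; ring, by rw [hb']; ring,
      hnorm _ _ (Or.inr ⟨rfl, rfl⟩) (by rw [← h, hp, hq]; ring),
      Or.inr (Or.inl ⟨by rw [hp]; ring, by rw [hq]; ring⟩)⟩
  · obtain ⟨hp, hq⟩ := key (b - a) (-a) (by
      rw [Units.val_pow_eq_pow_val, hη]; simp only [eis]; push_cast
      linear_combination ((a : 𝓞 K3) + b * (eta3 - 1)) * eta3_sq)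
    exact ⟨m, n, a, b, ha, hb', hnorm m n (Or.inl ⟨rfl, rfl⟩) (by rw [← h, hp, hq]; ring),
      Or.inr (Or.inr ⟨hp, hq⟩)⟩
  · obtain ⟨hp, hq⟩ := key (a - b) a (by
      rw [Units.val_neg, Units.val_pow_eq_pow_val, hη]; simp only [eis]; push_cast
      linear_combination -((a : 𝓞 K3) + b * (eta3 - 1)) * eta3_sq)
    exact ⟨-m, -n, -a, -b, by rw [ha]; ring, by rw [hb']; ring,
      hnorm _ _ (Or.inr ⟨rfl, rfl⟩) (by rw [← h, hp, hq]; ring),
      Or.inr (Or.inr ⟨by rw [hp]; ring, by rw [hq]; ring⟩)⟩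

end FA.Torsion.X35

end
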